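import Mathlib

/-!
# Nonarchimedean local fields as normed fields: basic dictionary

`K` is a nontrivially normed field with ultrametric distance which is a proper metric space
(e.g. `ℚ_[q]`, or any finite extension of it with the extended norm, in particular every
`E : IntermediateField ℚ_[q] (PadicAlgCl q)` that is finite over `ℚ_[q]`).

The ring of integers is Mathlib's `𝒪[K] = Valued.integer K` for the scoped instance
`NormedField.toValued` (`open scoped NormedField Valued`).  We record the instances that the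
abstract DVR bricks need (discrete valuation ring, finite residue field, adic completeness,
Henselian), the isometry property of algebra maps, and for a finite separable normed extension
`L / K`: `𝒪[L]` is the integral closure of `𝒪[K]`, finite free of rank `[L : K]`, and
`e * f = [L : K]` together with the translation of `e` and `f` into norms and cardinalities.
-/

set_option autoImplicit false

namespace Fermat.Agent.CFT.Local.NormedLocal

open scoped NNReal NormedField Valued
open IsLocalRing Polynomial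

section Basic

variable (K : Type*) [NontriviallyNormedField K] [IsUltrametricDist K]

/-- The norm valuation has rank one (Mathlib states this for `NormedField.valuation`). -/
noncomputable instance rankOne_v : (Valued.v : Valuation K ℝ≥0).RankOne :=
  inferInstanceAs (NormedField.valuation (K := K)).RankOne

lemma coe_integer_eq_closedBall : ((𝒪[K] : Subring K) : Set K) = Metric.closedBall 0 1 := by
  ext x
  simp [Valued.integer.mem_iff]

variable [ProperSpace K]

instance compactSpace_integer : CompactSpace 𝒪[K] := by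
  have h2 : IsCompact ((𝒪[K] : Subring K) : Set K) := by
    rw [coe_integer_eq_closedBall]
    exact isCompact_closedBall 0 1
  exact isCompact_iff_compactSpace.mp h2

instance isDiscreteValuationRing_integer : IsDiscreteValuationRing 𝒪[K] :=
  Valued.integer.isDiscreteValuationRing_of_compactSpace

instance finite_residueField : Finite 𝓀[K] :=
  (Valued.integer.compactSpace_iff_completeSpace_and_isDiscreteValuationRing_and_finite_residueField.mp
    inferInstance).2.2

instance completeSpace_integer : CompleteSpace 𝒪[K] :=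
  (Valued.integer.compactSpace_iff_completeSpace_and_isDiscreteValuationRing_and_finite_residueField.mp
    inferInstance).1

open scoped Pointwise in
instance isAdicComplete_integer : IsAdicComplete 𝓂[K] 𝒪[K] where
  haus' := by
    have : IsHausdorff 𝓂[K] 𝒪[K] := inferInstance
    exact this.haus'
  prec' f hf := by
    let S n : Set 𝒪[K] := f n +ᵥ ((𝓂[K] ^ n : Ideal 𝒪[K]) : Set 𝒪[K])
    have hS n : S (n + 1) ⊆ S n := by
      apply (Set.vadd_set_subset_vadd_set_iff.mpr (Ideal.pow_le_pow_right n.le_succ)).trans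
      simpa [S] using (hf n.le_succ).symm
    have h n : IsClosed (S n) := (IsNoetherianRing.isClosed_ideal (𝓂[K] ^ n)).vadd (f n)
    obtain ⟨L, hL⟩ := (h 0).isCompact.nonempty_iInter_of_sequence_nonempty_isCompact_isClosed S hS
      (by simp [S]) h
    refine ⟨L, fun n ↦ ?_⟩
    obtain ⟨y, hy, rfl⟩ := Set.mem_iInter.mp hL n
    simpa [SModEq.sub_mem] using hy

instance henselianLocalRing_integer : HenselianLocalRing 𝒪[K] where
  is_henselian f hf a₀ h₁ h₂ :=
    HenselianRing.is_henselian (I := 𝓂[K]) f hf a₀ h₁ (h₂.map _)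

variable {K} in
/-- The value group is generated by the norm of any uniformizer. -/
theorem exists_norm_eq_zpow {ϖ : 𝒪[K]} (hϖ : Irreducible ϖ) {x : K} (hx : x ≠ 0) :
    ∃ n : ℤ, ‖x‖ = ‖(ϖ : K)‖ ^ n := by
  have key : ∀ y : K, y ≠ 0 → ‖y‖ ≤ 1 → ∃ n : ℕ, ‖y‖ = ‖(ϖ : K)‖ ^ n := by
    intro y hy hy1
    have hy0 : (⟨y, Valued.integer.mem_iff.mpr hy1⟩ : 𝒪[K]) ≠ 0 := by
      intro h
      exact hy (congrArg Subtype.val h)
    obtain ⟨n, u, hu⟩ := IsDiscreteValuationRing.eq_unit_mul_pow_irreducible hy0 hϖ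
    refine ⟨n, ?_⟩
    have h2 : y = ((u : 𝒪[K]) : K) * (ϖ : K) ^ n := congrArg Subtype.val hu
    rw [h2, norm_mul, Valued.integer.norm_coe_unit, one_mul, norm_pow]
  rcases le_total ‖x‖ 1 with h | h
  · obtain ⟨n, hn⟩ := key x hx h
    exact ⟨n, by rw [hn, zpow_natCast]⟩
  · have hinv : ‖x⁻¹‖ ≤ 1 := by
      rw [norm_inv]
      exact inv_le_one_of_one_le₀ h
    obtain ⟨n, hn⟩ := key x⁻¹ (inv_ne_zero hx) hinv
    refine ⟨-n, ?_⟩
    rw [zpow_neg, zpow_natCast, ← hn, norm_inv, inv_inv]

end Basic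

section Isometry

variable {K : Type*} [NontriviallyNormedField K] [IsUltrametricDist K] [CompleteSpace K]
variable {L L' : Type*} [NormedField L] [NormedAlgebra K L] [Algebra.IsAlgebraic K L]
  [NormedField L'] [NormedAlgebra K L'] [Algebra.IsAlgebraic K L']

/-- Any `K`-algebra homomorphism between algebraic normed field extensions of a complete
ultrametric field is an isometry (uniqueness of the extension of the norm). -/
theorem norm_algHom_eq (σ : L →ₐ[K] L') (x : L) : ‖σ x‖ = ‖x‖ := by
  rw [NormedAlgebra.norm_eq_spectralNorm K, NormedAlgebra.norm_eq_spectralNorm K,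
    spectralNorm, spectralNorm, minpoly.algHom_eq σ σ.injective]

theorem norm_algEquiv_eq (σ : L ≃ₐ[K] L') (x : L) : ‖σ x‖ = ‖x‖ :=
  norm_algHom_eq (σ : L →ₐ[K] L') x

end Isometry

section Extension

variable (K : Type*) [NontriviallyNormedField K] [IsUltrametricDist K]
variable (L : Type*) [NontriviallyNormedField L] [IsUltrametricDist L] [NormedAlgebra K L]

/-- The norm valuation of a normed extension extends the norm valuation of the base; this
activates Mathlib's `Algebra 𝒪[K] 𝒪[L]`, `IsScalarTower 𝒪[K] 𝒪[L] L`, `Algebra 𝓀[K] 𝓀[L]`. -/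
instance hasExtension_v :
    (Valued.v : Valuation K ℝ≥0).HasExtension (Valued.v : Valuation L ℝ≥0) where
  val_isEquiv_comap := by
    intro r s
    simp only [Valuation.comap_apply]
    change ‖r‖₊ ≤ ‖s‖₊ ↔ ‖algebraMap K L r‖₊ ≤ ‖algebraMap K L s‖₊
    rw [nnnorm_algebraMap', nnnorm_algebraMap']

variable {K L}

lemma norm_le_one_of_isIntegral {x : L} (hx : IsIntegral 𝒪[K] x) : ‖x‖ ≤ 1 := by
  have h2 : IsIntegral 𝒪[L] x := hx.tower_top
  have := (Valuation.integer.integers (Valued.v : Valuation L ℝ≥0)).isIntegral_iff_v_le_one.mp h2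
  exact Valued.integer.mem_iff.mp this

omit [IsUltrametricDist L] in
lemma isIntegral_of_norm_le_one [CompleteSpace K] [Algebra.IsAlgebraic K L] {x : L}
    (hx : ‖x‖ ≤ 1) : IsIntegral 𝒪[K] x := by
  have hint : IsIntegral K x := Algebra.IsIntegral.isIntegral x
  have hmon : (minpoly K x).Monic := minpoly.monic hint
  rw [NormedAlgebra.norm_eq_spectralNorm K, spectralNorm, spectralValue_le_one_iff hmon] at hx
  have hsub : (↑(minpoly K x).coeffs : Set K) ⊆ (𝒪[K] : Subring K) := by
    intro c hc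
    obtain ⟨n, -, rfl⟩ := Polynomial.mem_coeffs_iff.mp hc
    exact Valued.integer.mem_iff.mpr (hx n)
  refine ⟨(minpoly K x).toSubring 𝒪[K] hsub, ?_, ?_⟩
  · exact (Polynomial.monic_toSubring _ _ _).mpr hmon
  · have h := minpoly.aeval K x
    rw [← h, Polynomial.aeval_def]
    conv_rhs => rw [← Polynomial.map_toSubring (minpoly K x) 𝒪[K] hsub]
    rw [Polynomial.eval₂_map]
    rfl

/-- Integrality over the integers of the base is the same as norm at most one. -/
theorem isIntegral_iff_norm_le_one [CompleteSpace K] [Algebra.IsAlgebraic K L] {x : L} :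
    IsIntegral 𝒪[K] x ↔ ‖x‖ ≤ 1 :=
  ⟨norm_le_one_of_isIntegral, isIntegral_of_norm_le_one⟩

instance isIntegralClosure_integer [CompleteSpace K] [Algebra.IsAlgebraic K L] :
    IsIntegralClosure 𝒪[L] 𝒪[K] L where
  algebraMap_injective := Subtype.val_injective
  isIntegral_iff := by
    intro x
    rw [isIntegral_iff_norm_le_one]
    constructor
    · intro h
      exact ⟨⟨x, Valued.integer.mem_iff.mpr h⟩, rfl⟩
    · rintro ⟨y, rfl⟩
      exact Valued.integer.mem_iff.mp y.2

variable (K L)

instance isTorsionFree_integer_field : Module.IsTorsionFree 𝒪[K] L :=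
  .trans_faithfulSMul 𝒪[K] K L

variable [ProperSpace K] [FiniteDimensional K L] [Algebra.IsSeparable K L]

theorem finite_integer : Module.Finite 𝒪[K] 𝒪[L] :=
  IsIntegralClosure.finite 𝒪[K] K L 𝒪[L]

theorem free_integer : Module.Free 𝒪[K] 𝒪[L] :=
  IsIntegralClosure.module_free 𝒪[K] K L 𝒪[L]

theorem finrank_integer : Module.finrank 𝒪[K] 𝒪[L] = Module.finrank K L :=
  IsIntegralClosure.rank 𝒪[K] K L 𝒪[L]

theorem primesOver_maximalIdeal (q : Ideal 𝒪[L]) (hq : q ∈ (𝓂[K]).primesOver 𝒪[L]) :
    q = 𝓂[L] := by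
  have : ProperSpace L := FiniteDimensional.proper K L
  obtain ⟨hqp, hqo⟩ := hq
  have hne : q ≠ ⊥ := by
    rintro rfl
    have h1 : (𝓂[K] : Ideal 𝒪[K]) = (⊥ : Ideal 𝒪[L]).under 𝒪[K] := hqo.over
    have h2 : (⊥ : Ideal 𝒪[L]).under 𝒪[K] = ⊥ := by
      rw [Ideal.under_def]
      exact Ideal.comap_bot_of_injective _ (FaithfulSMul.algebraMap_injective 𝒪[K] 𝒪[L])
    exact IsDiscreteValuationRing.not_a_field 𝒪[K] (h1.trans h2)
  exact IsLocalRing.eq_maximalIdeal (hqp.isMaximal hne)

/-- `e * f = n` for a finite separable extension of local fields, in Mathlib's terms. -/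
theorem ramificationIdx_mul_inertiaDeg :
    (𝓂[L]).ramificationIdx 𝒪[K] * (𝓂[L]).inertiaDeg 𝒪[K] = Module.finrank K L := by
  have : ProperSpace L := FiniteDimensional.proper K L
  have := finite_integer K L
  have := free_integer K L
  let _ : Unique ((𝓂[K]).primesOver 𝒪[L]) :=
    ⟨⟨⟨𝓂[L], inferInstance, inferInstance⟩⟩,
      fun q => Subtype.ext (primesOver_maximalIdeal K L q.1 q.2)⟩
  have h := Ideal.sum_ramification_inertia_eq_finrank (𝓂[K]) 𝒪[L]
  rw [Fintype.sum_unique, finrank_integer] at h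
  exact h

/-- The residue field of `L` has `(card 𝓀[K]) ^ f` elements. -/
theorem card_residueField_eq_pow :
    Nat.card 𝓀[L] = Nat.card 𝓀[K] ^ (𝓂[L]).inertiaDeg 𝒪[K] := by
  have : ProperSpace L := FiniteDimensional.proper K L
  have := finite_integer K L
  exact (Ideal.cardQuot_pow_inertiaDeg (𝓂[K]) (𝓂[L])).symm

variable {K L} in
/-- A uniformizer of `K` has the norm of the `e`-th power of a uniformizer of `L`. -/
theorem norm_irreducible_eq_pow {ϖK : 𝒪[K]} {ϖL : 𝒪[L]} (hK : Irreducible ϖK)
    (hL : Irreducible ϖL) :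
    ‖(ϖK : K)‖ = ‖(ϖL : L)‖ ^ (𝓂[L]).ramificationIdx 𝒪[K] := by
  have : ProperSpace L := FiniteDimensional.proper K L
  have hmap : (𝓂[K]).map (algebraMap 𝒪[K] 𝒪[L]) = Ideal.span {algebraMap 𝒪[K] 𝒪[L] ϖK} := by
    rw [show 𝓂[K] = Ideal.span {ϖK} from hK.maximalIdeal_eq, Ideal.map_span, Set.image_singleton]
  have hne0 : algebraMap 𝒪[K] 𝒪[L] ϖK ≠ 0 := by
    rw [Ne, map_eq_zero_iff _ (FaithfulSMul.algebraMap_injective 𝒪[K] 𝒪[L])]
    exact hK.ne_zero
  have hne : (𝓂[K]).map (algebraMap 𝒪[K] 𝒪[L]) ≠ ⊥ := by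
    rw [hmap, Ne, Ideal.span_singleton_eq_bot]
    exact hne0
  obtain ⟨n, hn⟩ := IsDiscreteValuationRing.ideal_eq_span_pow_irreducible hne hL
  have he : (𝓂[L]).ramificationIdx 𝒪[K] = n := by
    rw [Ideal.IsDedekindDomain.ramificationIdx_eq_multiplicity (𝓂[K]) (𝓂[L]) hne, hn,
      show 𝓂[L] = Ideal.span {ϖL} from hL.maximalIdeal_eq, ← Ideal.span_singleton_pow]
    refine multiplicity_pow_self ?_ ?_ n
    · rw [Ne, Ideal.zero_eq_bot, Ideal.span_singleton_eq_bot]
      exact hL.ne_zero
    · rw [Ideal.isUnit_iff, Ideal.span_singleton_eq_top]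
      exact hL.not_isUnit
  rw [he]
  rw [hmap, Ideal.span_singleton_eq_span_singleton] at hn
  obtain ⟨u, hu⟩ := hn
  have h1 : ‖(algebraMap 𝒪[K] 𝒪[L] ϖK : L)‖ = ‖(ϖK : K)‖ := by
    change ‖algebraMap K L (ϖK : K)‖ = _
    exact norm_algebraMap' L (ϖK : K)
  rw [← h1, ← norm_pow]
  have h2 : ((ϖL ^ n : 𝒪[L]) : L) = (algebraMap 𝒪[K] 𝒪[L] ϖK : L) * ((u : 𝒪[L]) : L) := by
    rw [← hu]; rfl
  rw [show (ϖL : L) ^ n = ((ϖL ^ n : 𝒪[L]) : L) from rfl, h2, norm_mul,
    Valued.integer.norm_coe_unit, mul_one]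

end Extension

end Fermat.Agent.CFT.Local.NormedLocal
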