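import Mathlib
import Fermat.Prelude.Def_GaloisRep_CompletionBridge
import Fermat.Agent.CFT.Local.NormedLocal

/-!
# Finite extensions of `ℚ_[q]` inside `PadicAlgCl q` are local fields

Instantiation of `Fermat.Agent.CFT.Local.NormedLocal` at the Prelude's local objects:
for `E : IntermediateField ℚ_[q] (PadicAlgCl q)` finite over `ℚ_[q]`, the normed field `↥E`
is a proper space, hence (by `NormedLocal`) `𝒪[E]` is a complete DVR with finite residue field,
adically complete and Henselian.  The residue characteristic is `q`, Galois automorphisms are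
isometries, and for `E ≤ L` the relative theory (`𝒪[L]` finite free over `𝒪[E]`, `e * f = n`)
is available after `letI := normedAlgebraOfLE q h`.
-/

set_option autoImplicit false

namespace Fermat.Agent.CFT.Local.PadicExt

open scoped NNReal NormedField Valued
open IsLocalRing Fermat.Agent.CFT.Local.NormedLocal

variable (q : ℕ) [Fact q.Prime]

section Single

variable (E : IntermediateField ℚ_[q] (PadicAlgCl q))

/-- `𝒪[E]` is cut out by the Prelude's `padicIntegers q`. -/
lemma mem_integer_iff (x : E) : x ∈ 𝒪[E] ↔ (x : PadicAlgCl q) ∈ padicIntegers q := by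
  rw [Valued.integer.mem_iff, mem_padicIntegers_iff, ← NNReal.coe_le_coe]
  rfl

lemma norm_natCast_self : ‖((q : ℕ) : E)‖ = (q : ℝ)⁻¹ := by
  have h : ‖((q : ℕ) : E)‖ = ‖((q : ℕ) : ℚ_[q])‖ := by
    rw [← map_natCast (algebraMap ℚ_[q] E) q, norm_algebraMap']
  rw [h]
  exact Padic.norm_p

instance properSpace_ext [FiniteDimensional ℚ_[q] E] : ProperSpace E :=
  FiniteDimensional.proper ℚ_[q] E

lemma natCast_self_mem_maximalIdeal : ((q : ℕ) : 𝒪[E]) ∈ 𝓂[E] := by
  rw [IsLocalRing.mem_maximalIdeal, mem_nonunits_iff, Valued.integer.isUnit_iff_norm_eq_one]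
  have h : ‖((q : ℕ) : 𝒪[E])‖ = (q : ℝ)⁻¹ := by
    rw [← norm_natCast_self q E]
    rfl
  rw [h]
  have hq : (1 : ℝ) < q := by exact_mod_cast (Fact.out : q.Prime).one_lt
  exact (inv_lt_one_of_one_lt₀ hq).ne

/-- The residue field of `E` has characteristic `q`. -/
instance charP_residueField : CharP 𝓀[E] q := by
  obtain ⟨c, hc⟩ := CharP.exists 𝓀[E]
  have h0 : ((q : ℕ) : 𝓀[E]) = 0 := by
    rw [← map_natCast (IsLocalRing.residue 𝒪[E]) q]
    exact (IsLocalRing.residue_eq_zero_iff _).mpr (natCast_self_mem_maximalIdeal q E)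
  have hdvd : c ∣ q := (CharP.cast_eq_zero_iff 𝓀[E] c q).mp h0
  have hc1 : c ≠ 1 := CharP.char_ne_one 𝓀[E] c
  have : c = q := ((Nat.dvd_prime (Fact.out : q.Prime)).mp hdvd).resolve_left hc1
  exact this ▸ hc

end Single

section Galois

/-- Every `ℚ_[q]`-algebra map between intermediate fields of `PadicAlgCl q` is an isometry. -/
theorem norm_algHom {E E' : IntermediateField ℚ_[q] (PadicAlgCl q)} (σ : E →ₐ[ℚ_[q]] E') (x : E) :
    ‖σ x‖ = ‖x‖ :=
  norm_algHom_eq σ x

theorem norm_algEquiv (τ : PadicAlgCl q ≃ₐ[ℚ_[q]] PadicAlgCl q) (x : PadicAlgCl q) :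
    ‖τ x‖ = ‖x‖ :=
  norm_algEquiv_eq τ x

end Galois

section Relative

variable {q}
variable {E L : IntermediateField ℚ_[q] (PadicAlgCl q)}

/-- For `E ≤ L` the inclusion makes `L` a normed `E`-algebra.  Use with `letI`. -/
@[reducible] noncomputable def normedAlgebraOfLE (h : E ≤ L) : NormedAlgebra E L :=
  letI : Algebra E L := (IntermediateField.inclusion h).toRingHom.toAlgebra
  { norm_smul_le := fun e x => by
      have : e • x = IntermediateField.inclusion h e * x := rfl
      rw [this, norm_mul]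
      exact le_of_eq rfl }

end Relative

end Fermat.Agent.CFT.Local.PadicExt
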