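import Fermat.Agent.CFT.Local.PowerIndex

/-!
# The `p`-power map on the unit filtration (wild case)

`O` a discrete valuation ring with uniformiser `ϖ`, `p` a prime with `p = ϖ^e * υ` (`υ` a unit;
for `e ≥ 1` this is the mixed characteristic / wild case).  For `n ≥ 1` with `e < n (p - 1)`:

* `pow_prime_mem_principalUnits` : `u ∈ U_n → u^p ∈ U_(n+e)`, and on graded pieces the `p`-power
  map is multiplication by the residue of `υ` (`residue_coord_pow_prime`);
* `eq_one_of_pow_prime_eq_one` : `U_n` has no `p`-torsion;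
* `exists_pow_prime_eq` (`O` complete) : every element of `U_(n+e)` is a `p`-th power of an element
  of `U_n`;  hence `map_pow_prime_principalUnits : (U_n)^p = U_(n+e)`.
* `index_range_pow_prime_units` (`O` complete, finite residue field `k`) :
  `[Oˣ : (Oˣ)^p] = |μ_p(O)| * |k|^e`, and `index_range_pow_prime_fractionField` :
  `[Kˣ : (Kˣ)^p] = p * |μ_p(O)| * |k|^e`.
-/

set_option autoImplicit false

namespace Fermat.Agent.CFT.Local

open IsLocalRing

section Binomial

/-- `(1 + y)^p = 1 + p y + p y² r + y^p` for a prime `p`. -/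
theorem one_add_pow_prime_eq {R : Type*} [CommRing R] {p : ℕ} (hp : p.Prime) (y : R) :
    ∃ r : R, (1 + y) ^ p = 1 + p * y + p * y ^ 2 * r + y ^ p := by
  have h := add_pow_prime_eq hp y (1 : R)
  have h1 : 1 ∈ Finset.Ioo 0 p := by simp [hp.one_lt]
  rw [← Finset.add_sum_erase _ _ h1] at h
  refine ⟨∑ k ∈ (Finset.Ioo 0 p).erase 1, y ^ (k - 2) * ((p.choose k / p : ℕ) : R), ?_⟩
  have h2 : ∑ k ∈ (Finset.Ioo 0 p).erase 1,
      y ^ (k - 1) * 1 ^ (p - k - 1) * ((p.choose k / p : ℕ) : R) =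
      y * ∑ k ∈ (Finset.Ioo 0 p).erase 1, y ^ (k - 2) * ((p.choose k / p : ℕ) : R) := by
    rw [Finset.mul_sum]
    apply Finset.sum_congr rfl
    intro k hk
    have hk2 : 2 ≤ k := by
      have h3 := Finset.mem_erase.mp hk
      have h4 := Finset.mem_Ioo.mp h3.2
      omega
    obtain ⟨j, rfl⟩ : ∃ j, k = j + 2 := ⟨k - 2, by omega⟩
    have e1 : j + 2 - 1 = j + 1 := by omega
    have e2 : j + 2 - 2 = j := by omega
    rw [e1, e2, one_pow, pow_succ]
    ring
  have h3 : p.choose 1 / p = 1 := by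
    rw [Nat.choose_one_right]
    exact Nat.div_self hp.pos
  rw [h2, h3] at h
  rw [add_comm 1 y, h]
  simp only [one_pow, pow_zero, Nat.cast_one, Nat.sub_self]
  ring

end Binomial

section Wild

variable {O : Type*} [CommRing O] [IsDomain O] [IsDiscreteValuationRing O]
  {ϖ : O} (hϖ : Irreducible ϖ) {p : ℕ} (hp : p.Prime) {e : ℕ} {υ : Oˣ}
  (hpe : (p : O) = ϖ ^ e * (υ : O))

include hϖ hp hpe

/-- The `p`-th power of `1 + ϖ^n a` is `1 + ϖ^(n+e) c` with `c ≡ υ a mod 𝔪`. -/
theorem exists_pow_prime_coord (n : ℕ) (hn : 1 ≤ n) (hne : e < n * (p - 1))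
    (u : principalUnits O n) :
    ∃ c : O, ((u : Oˣ) : O) ^ p = 1 + ϖ ^ (n + e) * c ∧
      residue O c = residue O (υ : O) * residue O (coord hϖ n u) := by
  obtain ⟨q, rfl⟩ : ∃ q, p = q + 1 := ⟨p - 1, by have := hp.pos; omega⟩
  rw [Nat.add_sub_cancel] at hne
  obtain ⟨d, hd⟩ : ∃ d, n * (q + 1) = n + e + 1 + d := ⟨n * q - e - 1, by
    have : n * (q + 1) = n * q + n := by ring
    omega⟩
  set a := coord hϖ n u with ha
  obtain ⟨r, hr⟩ := one_add_pow_prime_eq hp (ϖ ^ n * a)
  refine ⟨(υ : O) * a + ϖ ^ n * ((υ : O) * a ^ 2 * r) + ϖ ^ (1 + d) * a ^ (q + 1), ?_, ?_⟩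
  · have h1 : (ϖ ^ n * a) ^ (q + 1) = ϖ ^ (n + e + 1 + d) * a ^ (q + 1) := by
      rw [mul_pow, ← pow_mul, hd]
    rw [coord_spec hϖ n u, hr, h1, hpe]
    ring
  · have h0 : residue O (ϖ ^ n) = 0 := by
      rw [residue_eq_zero_iff]
      exact uniformizer_pow_mem_maximalIdeal hϖ hn
    have h0' : residue O (ϖ ^ (1 + d)) = 0 := by
      rw [residue_eq_zero_iff]
      exact uniformizer_pow_mem_maximalIdeal hϖ (by omega)
    rw [map_add, map_add, map_mul, map_mul (residue O) (ϖ ^ n), map_mul (residue O) (ϖ ^ (1 + d)),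
      h0, h0', zero_mul, zero_mul, add_zero, add_zero]

/-- `u ∈ U_n → u^p ∈ U_(n+e)` when `e < n (p-1)`. -/
theorem pow_prime_mem_principalUnits (n : ℕ) (hn : 1 ≤ n) (hne : e < n * (p - 1)) {u : Oˣ}
    (hu : u ∈ principalUnits O n) : u ^ p ∈ principalUnits O (n + e) := by
  obtain ⟨c, hc, -⟩ := exists_pow_prime_coord hϖ hp hpe n hn hne ⟨u, hu⟩
  rw [mem_principalUnits, mem_maximalIdeal_pow_iff hϖ]
  refine ⟨c, ?_⟩
  rw [Units.val_pow_eq_pow_val]
  change (u : O) ^ p = _ at hc
  rw [hc]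
  ring

/-- On graded pieces the `p`-power map `U_n/U_(n+1) → U_(n+e)/U_(n+e+1)` is multiplication by
the residue of `υ = p / ϖ^e`. -/
theorem residue_coord_pow_prime (n : ℕ) (hn : 1 ≤ n) (hne : e < n * (p - 1))
    (u : principalUnits O n) :
    residue O (coord hϖ (n + e)
        ⟨(u : Oˣ) ^ p, pow_prime_mem_principalUnits hϖ hp hpe n hn hne u.2⟩) =
      residue O (υ : O) * residue O (coord hϖ n u) := by
  obtain ⟨c, hc, hres⟩ := exists_pow_prime_coord hϖ hp hpe n hn hne u
  have h : coord hϖ (n + e)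
      ⟨(u : Oˣ) ^ p, pow_prime_mem_principalUnits hϖ hp hpe n hn hne u.2⟩ = c := by
    apply coord_unique
    change (((u : Oˣ) ^ p : Oˣ) : O) = _
    rw [Units.val_pow_eq_pow_val, hc]
  rw [h, hres]

omit hp hpe in
/-- Membership in the next step of the filtration, in terms of the coordinate. -/
theorem mem_principalUnits_succ_iff (n : ℕ) (hn : 1 ≤ n) (u : principalUnits O n) :
    (u : Oˣ) ∈ principalUnits O (n + 1) ↔ residue O (coord hϖ n u) = 0 := by
  have h := Subgroup.ext_iff.mp (ker_gradedHom hϖ n hn) u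
  rw [MonoidHom.mem_ker, gradedHom_apply, Subgroup.mem_subgroupOf] at h
  rw [← h]
  exact ofAdd_eq_one

/-- If `u ∈ U_n` and `u^p ∈ U_(n+e+1)` then `u ∈ U_(n+1)`. -/
theorem mem_succ_of_pow_prime_mem (n : ℕ) (hn : 1 ≤ n) (hne : e < n * (p - 1)) {u : Oˣ}
    (hu : u ∈ principalUnits O n) (h : u ^ p ∈ principalUnits O (n + e + 1)) :
    u ∈ principalUnits O (n + 1) := by
  have h1 := (mem_principalUnits_succ_iff hϖ (n + e) (by omega)
    ⟨u ^ p, pow_prime_mem_principalUnits hϖ hp hpe n hn hne hu⟩).mp h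
  rw [residue_coord_pow_prime hϖ hp hpe n hn hne ⟨u, hu⟩] at h1
  have hυ : residue O (υ : O) ≠ 0 := by
    rw [residue_ne_zero_iff_isUnit]
    exact υ.isUnit
  have h2 : residue O (coord hϖ n ⟨u, hu⟩) = 0 := by
    rcases mul_eq_zero.mp h1 with h3 | h3
    · exact absurd h3 hυ
    · exact h3
  exact (mem_principalUnits_succ_iff hϖ n hn ⟨u, hu⟩).mpr h2

/-- `U_n` has no `p`-torsion when `e < n (p-1)`. -/
theorem eq_one_of_pow_prime_eq_one (n : ℕ) (hn : 1 ≤ n) (hne : e < n * (p - 1)) {u : Oˣ}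
    (hu : u ∈ principalUnits O n) (h : u ^ p = 1) : u = 1 := by
  by_contra hu1
  have hx : (u : O) - 1 ≠ 0 := by
    intro h0
    exact hu1 (Units.ext (by simpa [sub_eq_zero] using h0))
  obtain ⟨m, v, hv⟩ := IsDiscreteValuationRing.eq_unit_mul_pow_irreducible hx hϖ
  have hnm : n ≤ m := by
    obtain ⟨a, ha⟩ := (mem_maximalIdeal_pow_iff hϖ n _).mp hu
    have hdvd : ϖ ^ n ∣ ϖ ^ m := by
      have h1 : ϖ ^ n ∣ (v : O) * ϖ ^ m := ⟨a, by rw [← hv, ha]⟩
      exact (Units.dvd_mul_left).mp h1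
    exact (pow_dvd_pow_iff hϖ.ne_zero hϖ.not_isUnit).mp hdvd
  have hum : u ∈ principalUnits O m := by
    rw [mem_principalUnits, mem_maximalIdeal_pow_iff hϖ]
    exact ⟨v, by rw [hv, mul_comm]⟩
  have hcoord : coord hϖ m ⟨u, hum⟩ = (v : O) := by
    apply coord_unique
    change (u : O) = _
    have : (u : O) = 1 + ((u : O) - 1) := by ring
    rw [this, hv]
    ring
  have hm1 : 1 ≤ m := le_trans hn hnm
  have hme : e < m * (p - 1) := lt_of_lt_of_le hne (Nat.mul_le_mul_right _ hnm)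
  have h1 : u ^ p ∈ principalUnits O (m + e + 1) := by
    rw [h]
    exact one_mem _
  have h2 := mem_succ_of_pow_prime_mem hϖ hp hpe m hm1 hme hum h1
  have h3 := (mem_principalUnits_succ_iff hϖ m hm1 ⟨u, hum⟩).mp h2
  rw [hcoord, residue_eq_zero_iff] at h3
  exact ((mem_maximalIdeal _).mp h3) v.isUnit

/-- One step of successive approximation: every `w ∈ U_(m+e)` is a `p`-th power of an element of
`U_m` modulo `U_(m+e+1)`. -/
theorem exists_approx_pow_prime (m : ℕ) (hm : 1 ≤ m) (hme : e < m * (p - 1)) {w : Oˣ}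
    (hw : w ∈ principalUnits O (m + e)) :
    ∃ y ∈ principalUnits O m, w * (y ^ p)⁻¹ ∈ principalUnits O (m + e + 1) := by
  set a : O := ((υ⁻¹ : Oˣ) : O) * coord hϖ (m + e) ⟨w, hw⟩ with ha
  have hmem : ϖ ^ m * a ∈ maximalIdeal O :=
    Ideal.mul_mem_right _ _ (uniformizer_pow_mem_maximalIdeal hϖ hm)
  have hy : IsUnit (1 + ϖ ^ m * a) := isUnit_one_add_of_mem O hmem
  have hymem : hy.unit ∈ principalUnits O m := by
    rw [mem_principalUnits, mem_maximalIdeal_pow_iff hϖ]
    exact ⟨a, by simp⟩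
  have hycoord : coord hϖ m ⟨hy.unit, hymem⟩ = a := coord_unique hϖ m _ a (by simp)
  have hyp := pow_prime_mem_principalUnits hϖ hp hpe m hm hme hymem
  refine ⟨hy.unit, hymem, ?_⟩
  have hme1 : 1 ≤ m + e := by omega
  -- compare the images in the graded piece of level `m + e`
  have hg : gradedHom hϖ (m + e) hme1 ⟨w, hw⟩ = gradedHom hϖ (m + e) hme1 ⟨hy.unit ^ p, hyp⟩ := by
    rw [gradedHom_apply, gradedHom_apply]
    congr 1
    have h1 := residue_coord_pow_prime hϖ hp hpe m hm hme ⟨hy.unit, hymem⟩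
    rw [hycoord] at h1
    change residue O (coord hϖ (m + e) ⟨hy.unit ^ p, hyp⟩) = _ at h1
    rw [h1, ha, map_mul, ← mul_assoc, ← map_mul, ← Units.val_mul, mul_inv_cancel, Units.val_one,
      map_one, one_mul]
  have hker : (⟨w, hw⟩ : principalUnits O (m + e)) * (⟨hy.unit ^ p, hyp⟩)⁻¹ ∈
      (gradedHom hϖ (m + e) hme1).ker := by
    rw [MonoidHom.mem_ker, map_mul, map_inv, hg, mul_inv_cancel]
  rw [ker_gradedHom, Subgroup.mem_subgroupOf] at hker
  exact hker

omit [IsDomain O] [IsDiscreteValuationRing O] hϖ hp hpe in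
/-- Congruence modulo `I^k • ⊤` in the ring itself. -/
theorem smodEq_pow_iff {I : Ideal O} {k : ℕ} {x y : O} :
    x ≡ y [SMOD (I ^ k • ⊤ : Submodule O O)] ↔ x - y ∈ I ^ k := by
  rw [SModEq.sub_mem, smul_eq_mul, Ideal.mul_top]

/-- **Surjectivity of the `p`-power map `U_n → U_(n+e)`** for a complete DVR
(successive approximation). -/
theorem exists_pow_prime_eq [IsAdicComplete (maximalIdeal O) O] (n : ℕ) (hn : 1 ≤ n)
    (hne : e < n * (p - 1)) {w : Oˣ} (hw : w ∈ principalUnits O (n + e)) :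
    ∃ x ∈ principalUnits O n, x ^ p = w := by
  -- the invariant at stage `k`
  let P : ℕ → Oˣ → Prop := fun k x =>
    x ∈ principalUnits O n ∧ w * (x ^ p)⁻¹ ∈ principalUnits O (n + k + e)
  have hstep : ∀ k x, P k x → ∃ x', P (k + 1) x' ∧ x' * x⁻¹ ∈ principalUnits O (n + k) := by
    rintro k x ⟨hx, hwx⟩
    obtain ⟨y, hy, hy'⟩ := exists_approx_pow_prime hϖ hp hpe (n + k) (by omega)
      (lt_of_lt_of_le hne (Nat.mul_le_mul_right _ (by omega))) hwx
    refine ⟨x * y, ⟨mul_mem hx (principalUnits_le O (by omega) hy), ?_⟩, ?_⟩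
    · have h1 : w * ((x * y) ^ p)⁻¹ = w * (x ^ p)⁻¹ * (y ^ p)⁻¹ := by
        rw [mul_pow, mul_inv, mul_assoc]
      have e1 : n + (k + 1) + e = n + k + e + 1 := by omega
      rw [h1, e1]
      exact hy'
    · have h1 : x * y * x⁻¹ = y := by rw [mul_comm x y, mul_inv_cancel_right]
      rw [h1]
      exact hy
  have h0 : P 0 1 := ⟨one_mem _, by simpa [P] using hw⟩
  choose! next hnext using hstep
  let x : ℕ → Oˣ := fun k => Nat.rec 1 (fun k xk => next k xk) k
  have hxs : ∀ k, x (k + 1) = next k (x k) := fun k => rfl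
  have hP : ∀ k, P k (x k) := by
    intro k
    induction k with
    | zero => exact h0
    | succ k ih => rw [hxs]; exact (hnext k (x k) ih).1
  have hdiff : ∀ k, x (k + 1) * (x k)⁻¹ ∈ principalUnits O (n + k) := fun k => by
    rw [hxs]
    exact (hnext k (x k) (hP k)).2
  -- the sequence in `O`
  let f : ℕ → O := fun k => Units.val (x k)
  have hf : ∀ k, f (k + 1) - f k ∈ maximalIdeal O ^ (n + k) := by
    intro k
    have h1 : f (k + 1) - f k = (Units.val (x (k + 1) * (x k)⁻¹) - 1) * f k := by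
      have h2 : Units.val (x (k + 1) * (x k)⁻¹) * f k = f (k + 1) := by
        change Units.val (x (k + 1) * (x k)⁻¹) * Units.val (x k) = Units.val (x (k + 1))
        rw [← Units.val_mul, inv_mul_cancel_right]
      rw [sub_mul, h2, one_mul]
    rw [h1]
    exact Ideal.mul_mem_right _ _ (hdiff k)
  have hcauchy : ∀ i j, i ≤ j → f j - f i ∈ maximalIdeal O ^ (n + i) := by
    intro i j hij
    induction j, hij using Nat.le_induction with
    | base => simp
    | succ j hij ih =>
      have h1 : f (j + 1) - f i = (f (j + 1) - f j) + (f j - f i) := by ring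
      rw [h1]
      exact Ideal.add_mem _ (Ideal.pow_le_pow_right (by omega) (hf j)) ih
  obtain ⟨L, hL⟩ := IsPrecomplete.prec (I := maximalIdeal O) (M := O) inferInstance (f := f)
    (by
      intro i j hij
      rw [smodEq_pow_iff]
      have h1 := Ideal.pow_le_pow_right (show i ≤ n + i by omega) (hcauchy i j hij)
      have h2 : f i - f j = -(f j - f i) := by ring
      rw [h2]
      exact neg_mem h1)
  have hL' : ∀ k, L - f k ∈ maximalIdeal O ^ (n + k) := by
    intro k
    have h1 := (smodEq_pow_iff.mp (hL (n + k)))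
    have h2 := hcauchy k (n + k) (by omega)
    have h3 : L - f k = -(f (n + k) - L) + (f (n + k) - f k) := by ring
    rw [h3]
    exact Ideal.add_mem _ (neg_mem h1) h2
  -- `L^p = w`
  have hLp : L ^ p = (w : O) := by
    have hzero : ∀ k, L ^ p - (w : O) ∈ maximalIdeal O ^ k := by
      intro k
      have h1 : L ^ p - f k ^ p ∈ maximalIdeal O ^ (n + k) := by
        obtain ⟨c, hc⟩ := sub_dvd_pow_sub_pow L (f k) p
        rw [hc]
        exact Ideal.mul_mem_right _ _ (hL' k)
      have h2 : f k ^ p - (w : O) ∈ maximalIdeal O ^ (n + k + e) := by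
        have h3 := (hP k).2
        rw [mem_principalUnits] at h3
        have h4 : f k ^ p - (w : O) = -(Units.val (w * (x k ^ p)⁻¹) - 1) * f k ^ p := by
          have h5 : Units.val (w * (x k ^ p)⁻¹) * f k ^ p = (w : O) := by
            change Units.val (w * (x k ^ p)⁻¹) * Units.val (x k) ^ p = (w : O)
            rw [← Units.val_pow_eq_pow_val, ← Units.val_mul, inv_mul_cancel_right]
          rw [neg_mul, sub_mul, h5, one_mul]
          ring
        rw [h4]
        exact Ideal.mul_mem_right _ _ (neg_mem h3)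
      have h3 : L ^ p - (w : O) = (L ^ p - f k ^ p) + (f k ^ p - (w : O)) := by ring
      rw [h3]
      exact Ideal.add_mem _ (Ideal.pow_le_pow_right (by omega) h1)
        (Ideal.pow_le_pow_right (by omega) h2)
    have h1 : L ^ p - (w : O) = 0 := by
      apply IsHausdorff.haus (I := maximalIdeal O) (M := O) inferInstance
      intro k
      rw [smodEq_pow_iff, sub_zero]
      exact hzero k
    exact sub_eq_zero.mp h1
  have hL1 : L - 1 ∈ maximalIdeal O ^ n := by
    have h1 := hL' 0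
    have h2 : f 0 = 1 := by
      change Units.val (x 0) = 1
      rfl
    rwa [h2, add_zero] at h1
  have hLu : IsUnit L := by
    have h1 : L = 1 + (L - 1) := by ring
    rw [h1]
    exact isUnit_one_add_of_mem O (Ideal.pow_le_pow_right hn hL1 |> fun h => by simpa using h)
  refine ⟨hLu.unit, ?_, ?_⟩
  · rw [mem_principalUnits]
    exact hL1
  · apply Units.ext
    rw [Units.val_pow_eq_pow_val]
    exact hLp

/-- `(U_n)^p = U_(n+e)` for a complete DVR, `n ≥ 1`, `e < n (p-1)`. -/
theorem map_pow_prime_principalUnits [IsAdicComplete (maximalIdeal O) O] (n : ℕ) (hn : 1 ≤ n)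
    (hne : e < n * (p - 1)) :
    (principalUnits O n).map (powMonoidHom p : Oˣ →* Oˣ) = principalUnits O (n + e) := by
  ext w
  constructor
  · rintro ⟨u, hu, rfl⟩
    exact pow_prime_mem_principalUnits hϖ hp hpe n hn hne hu
  · intro hw
    obtain ⟨x, hx, hxw⟩ := exists_pow_prime_eq hϖ hp hpe n hn hne hw
    exact ⟨x, hx, hxw⟩

end Wild

section Index

/-- Index of the image of an endomorphism `φ` of a commutative group, computed on a finite-index
subgroup `V` on which `φ` is injective: `[U : φ U] = |ker φ| * [V : φ V]`. -/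
theorem index_range_eq_card_ker_mul_relIndex {U : Type*} [CommGroup U] (φ : U →* U)
    (V : Subgroup U) (hV : V.index ≠ 0) (hinj : V ⊓ φ.ker = ⊥) (hle : V.map φ ≤ V) :
    φ.range.index = Nat.card φ.ker * (V.map φ).relIndex V := by
  have h1 := Subgroup.index_map V φ
  have h2 := Subgroup.relIndex_mul_index hle
  have h3 := Subgroup.relIndex_mul_index (le_sup_left : V ≤ V ⊔ φ.ker)
  have h4 : V.relIndex (V ⊔ φ.ker) = Nat.card φ.ker := by
    rw [Subgroup.relIndex_sup_left, ← Subgroup.inf_relIndex_right, hinj,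
      Subgroup.relIndex_bot_left]
  rw [h4] at h3
  have h5 : (V ⊔ φ.ker).index ≠ 0 := by
    intro h0
    rw [h0, mul_zero] at h3
    exact hV h3.symm
  apply Nat.eq_of_mul_eq_mul_left (Nat.pos_of_ne_zero h5)
  rw [← h1, ← h2, ← h3]
  ring

variable {O : Type*} [CommRing O] [IsDomain O] [IsDiscreteValuationRing O]

/-- `|O/pO| = |k|^e` when `p = ϖ^e * unit`. -/
theorem card_quotient_span_natCast {ϖ : O} (hϖ : Irreducible ϖ) {p : ℕ} {e : ℕ} {υ : Oˣ}
    (hpe : (p : O) = ϖ ^ e * (υ : O)) :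
    Nat.card (O ⧸ Ideal.span {(p : O)}) = Nat.card (ResidueField O) ^ e := by
  have h1 : Ideal.span {(p : O)} = maximalIdeal O ^ e := by
    rw [hpe, Ideal.span_singleton_mul_right_unit υ.isUnit, maximalIdeal_pow_eq_span hϖ]
  have h2 := cardQuot_pow_of_prime (P := maximalIdeal O)
    (IsDiscreteValuationRing.not_a_field O) (i := e)
  rw [Submodule.cardQuot_apply, Submodule.cardQuot_apply] at h2
  rw [h1, h2]
  rfl

variable [IsAdicComplete (maximalIdeal O) O] [Finite (ResidueField O)]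

/-- **Wild power index of units.** `O` a complete DVR with finite residue field `k`, `p` a prime
with `p = ϖ^e * υ` in `O` (`υ` a unit): `[Oˣ : (Oˣ)^p] = |μ_p(O)| * |k|^e`. -/
theorem index_range_pow_prime_units {ϖ : O} (hϖ : Irreducible ϖ) {p : ℕ} (hp : p.Prime) {e : ℕ}
    {υ : Oˣ} (hpe : (p : O) = ϖ ^ e * (υ : O)) :
    (powMonoidHom p : Oˣ →* Oˣ).range.index =
      Nat.card (rootsOfUnity p O) * Nat.card (ResidueField O) ^ e := by
  have hn : 1 ≤ e + 1 := by omega
  have hne : e < (e + 1) * (p - 1) := by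
    have h1 : 1 ≤ p - 1 := by
      have := hp.two_le
      omega
    calc e < e + 1 := Nat.lt_succ_self e
      _ = (e + 1) * 1 := (mul_one _).symm
      _ ≤ (e + 1) * (p - 1) := Nat.mul_le_mul_left _ h1
  have hmap := map_pow_prime_principalUnits hϖ hp hpe (e + 1) hn hne
  have hinj : principalUnits O (e + 1) ⊓ (powMonoidHom p : Oˣ →* Oˣ).ker = ⊥ := by
    rw [eq_bot_iff]
    rintro u ⟨hu, hk⟩
    exact eq_one_of_pow_prime_eq_one hϖ hp hpe (e + 1) hn hne hu hk
  have hle : (principalUnits O (e + 1)).map (powMonoidHom p : Oˣ →* Oˣ) ≤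
      principalUnits O (e + 1) := by
    rw [hmap]
    exact principalUnits_le O (by omega)
  rw [index_range_eq_card_ker_mul_relIndex _ (principalUnits O (e + 1))
    (index_principalUnits_ne_zero O (e + 1)) hinj hle, hmap,
    relIndex_principalUnits_add O (e + 1) e hn, rootsOfUnity_eq_ker]

/-- Intrinsic form: `[Oˣ : (Oˣ)^p] = |μ_p(O)| * |O/pO|` (`p ≠ 0` in `O`). -/
theorem index_range_pow_prime_units' {p : ℕ} (hp : p.Prime) (hp0 : (p : O) ≠ 0) :
    (powMonoidHom p : Oˣ →* Oˣ).range.index =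
      Nat.card (rootsOfUnity p O) * Nat.card (O ⧸ Ideal.span {(p : O)}) := by
  obtain ⟨ϖ, hϖ⟩ := IsDiscreteValuationRing.exists_irreducible O
  obtain ⟨e, υ, hυ⟩ := IsDiscreteValuationRing.eq_unit_mul_pow_irreducible hp0 hϖ
  have hpe : (p : O) = ϖ ^ e * (υ : O) := by rw [hυ, mul_comm]
  rw [index_range_pow_prime_units hϖ hp hpe, card_quotient_span_natCast hϖ hpe]

/-- **Wild power index of the fraction field.** `[Kˣ : (Kˣ)^p] = p * |μ_p(O)| * |k|^e`. -/
theorem index_range_pow_prime_fractionField (K : Type*) [Field K] [Algebra O K]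
    [IsFractionRing O K] {ϖ : O} (hϖ : Irreducible ϖ) {p : ℕ} (hp : p.Prime) {e : ℕ} {υ : Oˣ}
    (hpe : (p : O) = ϖ ^ e * (υ : O)) :
    (powMonoidHom p : Kˣ →* Kˣ).range.index =
      p * (Nat.card (rootsOfUnity p O) * Nat.card (ResidueField O) ^ e) := by
  rw [index_range_pow_fractionField O K p, index_range_pow_prime_units hϖ hp hpe]

/-- Intrinsic form: `[Kˣ : (Kˣ)^p] = p * |μ_p(O)| * |O/pO|` (`p ≠ 0` in `O`). -/
theorem index_range_pow_prime_fractionField' (K : Type*) [Field K] [Algebra O K]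
    [IsFractionRing O K] {p : ℕ} (hp : p.Prime) (hp0 : (p : O) ≠ 0) :
    (powMonoidHom p : Kˣ →* Kˣ).range.index =
      p * (Nat.card (rootsOfUnity p O) * Nat.card (O ⧸ Ideal.span {(p : O)})) := by
  rw [index_range_pow_fractionField O K p, index_range_pow_prime_units' hp hp0]

/-- **`μ_p ⊂ O`, wild case.** `[Kˣ : (Kˣ)^p] = p^2 * |O/pO|` (so `= p^(2 + [K : ℚ_p])` for a
finite extension `K` of `ℚ_p` containing the `p`-th roots of unity). -/
theorem index_range_pow_prime_fractionField_of_primitiveRoot (K : Type*) [Field K] [Algebra O K]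
    [IsFractionRing O K] {p : ℕ} (hp : p.Prime) (hp0 : (p : O) ≠ 0) {ζ : O}
    (hζ : IsPrimitiveRoot ζ p) :
    (powMonoidHom p : Kˣ →* Kˣ).range.index = p ^ 2 * Nat.card (O ⧸ Ideal.span {(p : O)}) := by
  have : NeZero p := ⟨hp.ne_zero⟩
  rw [index_range_pow_prime_fractionField' K hp hp0, hζ.card_rootsOfUnity]
  ring

/-- **`μ_p ⊂ O`, tame case.** If `p` is invertible in the complete DVR `O` (finite residue field)
and `O` contains a primitive `p`-th root of unity, then `[Kˣ : (Kˣ)^p] = p^2`. -/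
theorem index_range_pow_prime_fractionField_tame_of_primitiveRoot (K : Type*) [Field K]
    [Algebra O K] [IsFractionRing O K] {p : ℕ} (hp : p.Prime) (hpu : IsUnit (p : O)) {ζ : O}
    (hζ : IsPrimitiveRoot ζ p) :
    (powMonoidHom p : Kˣ →* Kˣ).range.index = p ^ 2 := by
  rw [index_range_pow_fractionField_tame O K hpu]
  -- `p ∣ |k| - 1` because the image of `ζ` in `kˣ` has order `p`
  obtain ⟨z, hz⟩ := hζ.isUnit hp.ne_zero
  have hzp : z ^ p = 1 := Units.ext (by rw [Units.val_pow_eq_pow_val, hz, hζ.pow_eq_one]; rfl)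
  have hz1 : z ≠ 1 := by
    rintro rfl
    have h1 : ζ = 1 := by rw [← hz]; rfl
    have h2 := hζ.unique (h1 ▸ IsPrimitiveRoot.one)
    exact hp.one_lt.ne' h2
  have : Fact p.Prime := ⟨hp⟩
  have hord : orderOf (unitsResidue O z) = p := by
    apply orderOf_eq_prime
    · rw [← map_pow, hzp, map_one]
    · intro h1
      have h2 : z ∈ principalUnits O 1 := by
        rw [← ker_unitsResidue]
        exact h1
      exact hz1 (eq_one_of_pow_eq_one_of_mem_principalUnits_one O hpu z h2 hzp)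
  have hdvd : p ∣ Nat.card (ResidueField O) - 1 := by
    have h1 := orderOf_dvd_natCard (unitsResidue O z)
    rwa [hord, Nat.card_units] at h1
  rw [Nat.gcd_eq_right hdvd]
  ring

end Index

end Fermat.Agent.CFT.Local
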