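import Mathlib
import Fermat.Agent.Lib.Herbrand

/-!
# A finite-level Herbrand count

Pure group theory: for an abelian group `Λ` with two endomorphisms `f`, `g` killing each other,
a surjection `ord : Λ → ℤ` with `ord ∘ f = 0`, `ord ∘ g = n • ord` (`n ≥ 2`) and a subgroup `V`
of finite index in `ker ord`, stable under `f` and `g`, there is `z` with `f z ∈ V` which is not
in `g Λ + V`.  (Finite-level form of `h(Lˣ) = n · h(Oˣ)`.)
-/

namespace Fermat.Agent.CFT.Local.ApproxNormGroup

open Fermat.Agent.Lib.Herbrand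

variable {Λ : Type*} [AddCommGroup Λ]

theorem exists_ker_not_range (f g : Λ →+ Λ) (hfg : f.comp g = 0) (hgf : g.comp f = 0)
    (ord : Λ →+ ℤ) (hord : Function.Surjective ord) (n : ℕ) (hn : 2 ≤ n)
    (hf : ∀ x, ord (f x) = 0) (hg : ∀ x, ord (g x) = n * ord x)
    (V : AddSubgroup Λ) (hVU : V ≤ ord.ker) (hfin : V.relIndex ord.ker ≠ 0)
    (hfV : ∀ x ∈ V, f x ∈ V) (hgV : ∀ x ∈ V, g x ∈ V) :
    ∃ z, f z ∈ V ∧ ∀ y, ∀ t ∈ V, z ≠ g y + t := by
  classical
  -- the quotient and the induced maps
  let fB : Λ ⧸ V →+ Λ ⧸ V := quotHom f V hfV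
  let gB : Λ ⧸ V →+ Λ ⧸ V := quotHom g V hgV
  let π : Λ ⧸ V →+ ℤ := QuotientAddGroup.lift V ord (fun x hx => hVU hx)
  have hπmk : ∀ x : Λ, π (QuotientAddGroup.mk x) = ord x := fun x => rfl
  have hπ : Function.Surjective π := by
    intro k
    obtain ⟨x, rfl⟩ := hord k
    exact ⟨QuotientAddGroup.mk x, rfl⟩
  have hfgB : fB.comp gB = 0 := by
    ext x
    change (QuotientAddGroup.mk (f (g x)) : Λ ⧸ V) = 0
    have : f (g x) = 0 := DFunLike.congr_fun hfg x
    rw [this]; rfl
  have hgfB : gB.comp fB = 0 := by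
    ext x
    change (QuotientAddGroup.mk (g (f x)) : Λ ⧸ V) = 0
    have : g (f x) = 0 := DFunLike.congr_fun hgf x
    rw [this]; rfl
  have hfπ : ∀ b, π (fB b) = (0 : ℤ →+ ℤ) (π b) := by
    intro b
    induction b using QuotientAddGroup.induction_on with
    | H x =>
      change ord (f x) = 0
      exact hf x
  let gC : ℤ →+ ℤ := (n : ℤ) • AddMonoidHom.id ℤ
  have hgπ : ∀ b, π (gB b) = gC (π b) := by
    intro b
    induction b using QuotientAddGroup.induction_on with
    | H x =>
      change ord (g x) = (n : ℤ) • ord x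
      rw [hg x, smul_eq_mul]
  -- the kernel of `π` and the restricted maps
  have hfA : ∀ a ∈ π.ker, fB a ∈ π.ker := by
    intro a ha
    rw [AddMonoidHom.mem_ker] at ha ⊢
    rw [hfπ a]; simp
  have hgA : ∀ a ∈ π.ker, gB a ∈ π.ker := by
    intro a ha
    rw [AddMonoidHom.mem_ker] at ha ⊢
    rw [hgπ a, ha]; simp [gC]
  let fA : π.ker →+ π.ker := resHom fB π.ker hfA
  let gA : π.ker →+ π.ker := resHom gB π.ker hgA
  have hker_eq : π.ker = ord.ker.map (QuotientAddGroup.mk' V) := by
    ext b
    induction b using QuotientAddGroup.induction_on with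
    | H x =>
      constructor
      · intro hx
        exact ⟨x, hx, rfl⟩
      · rintro ⟨y, hy, hyx⟩
        rw [AddMonoidHom.mem_ker, ← hyx]
        exact hy
  have hcard : Nat.card π.ker = V.relIndex ord.ker := by
    have h1 : V = (⊥ : AddSubgroup (Λ ⧸ V)).comap (QuotientAddGroup.mk' V) :=
      (QuotientAddGroup.ker_mk' V).symm
    conv_rhs => rw [h1]
    rw [AddSubgroup.relIndex_comap, AddSubgroup.relIndex_bot_left, hker_eq]
  have : Finite π.ker := Nat.finite_of_card_ne_zero (hcard ▸ hfin)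
  obtain ⟨a, b, c, a', b', c', h1, h2, h3, h4, h5, h6⟩ :=
    hq_exact (A := π.ker) (B := Λ ⧸ V) (C := ℤ) π.ker.subtype π
      (AddSubgroup.subtype_injective _) hπ (AddSubgroup.range_subtype _)
      (fA := fA) (gA := gA) (fB := fB) (gB := gB) (fC := 0) (gC := gC) hfgB hgfB
      (fun _ => rfl) (fun _ => rfl) hfπ hgπ
  have hn0 : (n : ℤ) ≠ 0 := by exact_mod_cast (by omega : n ≠ 0)
  have hC1 : hq (0 : ℤ →+ ℤ) gC = n := by
    unfold hq
    have hrange : gC.range = AddSubgroup.zmultiples (n : ℤ) := by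
      ext x
      simp only [gC, AddMonoidHom.mem_range, AddMonoidHom.smul_apply, AddMonoidHom.id_apply,
        smul_eq_mul, Int.mem_zmultiples_iff]
      constructor
      · rintro ⟨y, rfl⟩; exact ⟨y, by ring⟩
      · rintro ⟨y, rfl⟩; exact ⟨y, by ring⟩
    rw [AddMonoidHom.ker_zero, AddSubgroup.relIndex_top_right, hrange,
      Int.index_zmultiples, Int.natAbs_natCast]
  have hC2 : hq gC (0 : ℤ →+ ℤ) = 1 := by
    unfold hq
    have hker : gC.ker = ⊥ := by
      rw [eq_bot_iff]
      intro x hx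
      have : (n : ℤ) • x = 0 := by simpa [gC] using hx
      rcases smul_eq_zero.1 this with h | h
      · exact absurd h hn0
      · simpa using h
    rw [hker, AddSubgroup.relIndex_bot_right]
  have hfgA : fA.comp gA = 0 := by
    ext x
    have : fB (gB (x : Λ ⧸ V)) = 0 := DFunLike.congr_fun hfgB (x : Λ ⧸ V)
    simpa [fA, gA] using this
  have hgfA : gA.comp fA = 0 := by
    ext x
    have : gB (fB (x : Λ ⧸ V)) = 0 := DFunLike.congr_fun hgfB (x : Λ ⧸ V)
    simpa [fA, gA] using this
  have hAeq : hq fA gA = hq gA fA := hq_eq_of_finite hfgA hgfA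
  have hAdef : hq gA fA ≠ 0 := (defined_of_finite fA gA).2
  rw [hC1] at h3
  rw [hC2] at h6
  have hc' : c' = 1 := Nat.eq_one_of_mul_eq_one_right h6.symm
  have hb : b = 1 := Nat.eq_one_of_mul_eq_one_left h6.symm
  have ha' : a' ≠ 0 := by
    intro h0
    apply hAdef
    rw [h4, h0, mul_zero]
  have hBn : n ≤ hq fB gB := by
    have hab : a = b' * a' := by
      have := hAeq
      rw [h1, h4, hb, one_mul] at this
      exact this
    rw [h2, hab]
    calc n = c * b' := h3
      _ ≤ b' * a' * c := by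
        have : 1 ≤ a' := Nat.one_le_iff_ne_zero.2 ha'
        nlinarith [Nat.zero_le (c * b')]
  have hnot : ¬ fB.ker ≤ gB.range := by
    intro hle
    have : hq fB gB = 1 := AddSubgroup.relIndex_eq_one.2 hle
    omega
  obtain ⟨zb, hz1, hz2⟩ := Set.not_subset.1 hnot
  induction zb using QuotientAddGroup.induction_on with
  | H z =>
    refine ⟨z, ?_, ?_⟩
    · have : (QuotientAddGroup.mk (f z) : Λ ⧸ V) = 0 := hz1
      exact (QuotientAddGroup.eq_zero_iff _).1 this
    · intro y t ht hzy
      apply hz2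
      refine ⟨QuotientAddGroup.mk y, ?_⟩
      change (QuotientAddGroup.mk (g y) : Λ ⧸ V) = QuotientAddGroup.mk z
      rw [hzy, QuotientAddGroup.mk_add, (QuotientAddGroup.eq_zero_iff t).2 ht, add_zero]

/-- A subgroup `H` has finite relative index in `K` as soon as cosets are separated by a map
to a finite type. -/
theorem relIndex_ne_zero_of_map (H K : AddSubgroup Λ) {α : Type*} [Finite α] (φ : Λ → α)
    (hφ : ∀ x y, x ∈ K → y ∈ K → φ x = φ y → x - y ∈ H) : H.relIndex K ≠ 0 := by
  classical
  have hinj : Function.Injective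
      (fun q : K ⧸ H.addSubgroupOf K => φ ((Quotient.out q : K) : Λ)) := by
    intro q q' h
    have h1 := hφ _ _ (Quotient.out q).2 (Quotient.out q').2 h
    have h2 : (QuotientAddGroup.mk (Quotient.out q) : K ⧸ H.addSubgroupOf K)
        = QuotientAddGroup.mk (Quotient.out q') := by
      rw [QuotientAddGroup.eq, AddSubgroup.mem_addSubgroupOf]
      have : ((-(Quotient.out q) + Quotient.out q' : K) : Λ)
          = -(((Quotient.out q : K) : Λ) - ((Quotient.out q' : K) : Λ)) := by
        push_cast; abel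
      rw [this]
      exact neg_mem h1
    simpa using h2
  have : Finite (K ⧸ H.addSubgroupOf K) := Finite.of_injective _ hinj
  exact AddSubgroup.index_ne_zero_of_finite

/-- Multiplicative form of `exists_ker_not_range`. -/
theorem exists_ker_not_range_mul {G : Type*} [CommGroup G] (f g : G →* G)
    (hfg : ∀ x, f (g x) = 1) (hgf : ∀ x, g (f x) = 1)
    (ord : G →* Multiplicative ℤ) (hord : Function.Surjective ord) (n : ℕ) (hn : 2 ≤ n)
    (hf : ∀ x, ord (f x) = 1) (hg : ∀ x, ord (g x) = ord x ^ n)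
    (V : Subgroup G) (hVU : ∀ x ∈ V, ord x = 1)
    {α : Type*} [Finite α] (φ : G → α)
    (hφ : ∀ x y, ord x = 1 → ord y = 1 → φ x = φ y → x / y ∈ V)
    (hfV : ∀ x ∈ V, f x ∈ V) (hgV : ∀ x ∈ V, g x ∈ V) :
    ∃ z, f z ∈ V ∧ ∀ y, ∀ t ∈ V, z ≠ g y * t := by
  let ord' : Additive G →+ ℤ := MonoidHom.toAdditiveLeft ord
  have hord' : ∀ x : Additive G, ord' x = Multiplicative.toAdd (ord (Additive.toMul x)) :=
    fun _ => rfl
  obtain ⟨z, hz1, hz2⟩ := exists_ker_not_range (Λ := Additive G)
    (MonoidHom.toAdditive f) (MonoidHom.toAdditive g)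
    (by ext x; exact congrArg Additive.ofMul (hfg (Additive.toMul x)))
    (by ext x; exact congrArg Additive.ofMul (hgf (Additive.toMul x)))
    ord'
    (by
      intro k
      obtain ⟨x, hx⟩ := hord (Multiplicative.ofAdd k)
      exact ⟨Additive.ofMul x, by rw [hord']; simp [hx]⟩)
    n hn
    (by
      intro x
      rw [hord']
      change Multiplicative.toAdd (ord (f (Additive.toMul x))) = 0
      rw [hf]; rfl)
    (by
      intro x
      rw [hord', hord']
      change Multiplicative.toAdd (ord (g (Additive.toMul x))) = _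
      rw [hg]
      simp)
    (Subgroup.toAddSubgroup V)
    (by
      intro x hx
      rw [AddMonoidHom.mem_ker, hord']
      have : ord (Additive.toMul x) = 1 := hVU _ hx
      rw [this]; rfl)
    (relIndex_ne_zero_of_map _ _ (fun x => φ (Additive.toMul x)) (by
      intro x y hx hy hxy
      rw [AddMonoidHom.mem_ker, hord'] at hx hy
      exact hφ _ _ (by simpa using hx) (by simpa using hy) hxy))
    (fun x hx => hfV _ hx) (fun x hx => hgV _ hx)
  exact ⟨Additive.toMul z, hz1, fun y t ht h => hz2 (Additive.ofMul y) (Additive.ofMul t) ht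
    (congrArg Additive.ofMul h)⟩

end Fermat.Agent.CFT.Local.ApproxNormGroup
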