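import Mathlib
import Fermat.Agent.CFT.Local.ApproxNormGroup

/-!
# Local first inequality, completion-free core

`L/K` finite cyclic Galois, `w` a discrete valuation on `L` invariant under the Galois group
(no completeness assumed).  We show that some `b : K`, `b ≠ 0`, is not approximable by norms:
`w (b / N y - 1)` stays above a fixed bound for all `y`.
-/

namespace Fermat.Agent.CFT.Local.ApproxNormCore

open scoped WithZero
open Module

set_option linter.unusedSectionVars false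

variable {K L : Type*} [Field K] [Field L] [Algebra K L]

section Lattice

variable [FiniteDimensional K L]
variable (w : Valuation L ℤᵐ⁰) (π : K) (B : Basis Gal(L/K) K L)

/-- The lattice `π^r • (integral span of the basis)`. -/
def lat (r : ℕ) : AddSubgroup L where
  carrier := {x | ∀ g, w (algebraMap K L (B.repr x g)) ≤ w (algebraMap K L π) ^ r}
  zero_mem' := by intro g; simp
  add_mem' := by
    intro x y hx hy g
    simp only [map_add, Finsupp.coe_add, Pi.add_apply]
    exact w.map_add_le (hx g) (hy g)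
  neg_mem' := by
    intro x hx g
    simpa using hx g

lemma mem_lat {r : ℕ} {x : L} :
    x ∈ lat w π B r ↔ ∀ g, w (algebraMap K L (B.repr x g)) ≤ w (algebraMap K L π) ^ r :=
  Iff.rfl

/-- The basis is adapted to the valuation. -/
structure Good (c0 : ℕ) : Prop where
  apply : ∀ g h : Gal(L/K), g (B h) = B (g * h)
  small : ∀ g, w (B g) ≤ w (algebraMap K L π)
  mul : ∀ g h k, w (algebraMap K L (B.repr (B g * B h) k)) ≤ w (algebraMap K L π)
  gen : ∀ x, w x ≤ 1 → ∀ g, w (algebraMap K L (B.repr x g)) * w (algebraMap K L π) ^ c0 ≤ 1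

variable {w π B}

lemma lat_anti {r s : ℕ} (hπ : w (algebraMap K L π) < 1) (h : r ≤ s) :
    lat w π B s ≤ lat w π B r := by
  intro x hx g
  exact (hx g).trans (pow_le_pow_right_of_le_one' hπ.le h)

lemma smul_mem_lat {r : ℕ} {a : K} (ha : w (algebraMap K L a) ≤ 1) {x : L}
    (hx : x ∈ lat w π B r) : a • x ∈ lat w π B r := by
  intro g
  rw [map_smul, Finsupp.smul_apply, smul_eq_mul, map_mul, map_mul]
  calc w (algebraMap K L a) * w (algebraMap K L (B.repr x g))
      ≤ 1 * w (algebraMap K L π) ^ r := mul_le_mul' ha (hx g)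
    _ = _ := one_mul _

lemma pow_smul_mem_lat {r j : ℕ} {x : L} (hx : x ∈ lat w π B r) :
    π ^ j • x ∈ lat w π B (r + j) := by
  intro g
  rw [map_smul, Finsupp.smul_apply, smul_eq_mul, map_mul, map_mul, map_pow, map_pow, pow_add,
    mul_comm]
  exact mul_le_mul' (hx g) le_rfl

lemma mem_lat_of_pow_smul {r j : ℕ} (hπ0 : w (algebraMap K L π) ≠ 0) {x : L}
    (hx : π ^ j • x ∈ lat w π B (r + j)) : x ∈ lat w π B r := by
  intro g
  have h := hx g
  rw [map_smul, Finsupp.smul_apply, smul_eq_mul, map_mul, map_mul, map_pow, map_pow, pow_add,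
    mul_comm] at h
  exact le_of_mul_le_mul_right h (pow_pos (zero_lt_iff.2 hπ0) _)

lemma repr_eq_sum (x : L) : x = ∑ g, B.repr x g • B g := (B.sum_repr x).symm

lemma val_le_of_mem_lat {c0 : ℕ} (hB : Good w π B c0) {r : ℕ} {x : L} (hx : x ∈ lat w π B r) :
    w x ≤ w (algebraMap K L π) ^ (r + 1) := by
  rw [repr_eq_sum (B := B) x]
  refine w.map_sum_le fun g _ => ?_
  rw [Algebra.smul_def, map_mul, pow_succ]
  exact mul_le_mul' (hx g) (hB.small g)

lemma mem_lat_of_val_le {c0 : ℕ} (hB : Good w π B c0) (hπ0 : w (algebraMap K L π) ≠ 0)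
    {r : ℕ} {x : L} (hx : w x ≤ w (algebraMap K L π) ^ (r + c0)) : x ∈ lat w π B r := by
  have hπK : π ≠ 0 := by
    rintro rfl
    simp at hπ0
  have hpos : (0 : ℤᵐ⁰) < w (algebraMap K L π) := zero_lt_iff.2 hπ0
  set x' : L := (π ^ (r + c0))⁻¹ • x with hx'
  have hxx' : x = π ^ (r + c0) • x' := by
    rw [hx', smul_smul, mul_inv_cancel₀ (pow_ne_zero _ hπK), one_smul]
  have hx'1 : w x' ≤ 1 := by
    rw [hx', Algebra.smul_def, map_mul, map_inv₀, map_inv₀, map_pow, map_pow]
    rw [inv_mul_le_iff₀ (pow_pos hpos _), mul_one]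
    exact hx
  intro g
  have h := hB.gen x' hx'1 g
  rw [hxx', map_smul, Finsupp.smul_apply, smul_eq_mul, map_mul, map_mul, map_pow, map_pow,
    pow_add]
  calc w (algebraMap K L π) ^ r * w (algebraMap K L π) ^ c0 * w (algebraMap K L (B.repr x' g))
      = w (algebraMap K L π) ^ r *
        (w (algebraMap K L (B.repr x' g)) * w (algebraMap K L π) ^ c0) := by
          rw [mul_assoc, mul_comm (w (algebraMap K L π) ^ c0)]
    _ ≤ w (algebraMap K L π) ^ r * 1 := mul_le_mul' le_rfl h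
    _ = _ := mul_one _

lemma repr_mul (x y : L) (k : Gal(L/K)) :
    B.repr (x * y) k = ∑ g, ∑ h, B.repr x g * B.repr y h * B.repr (B g * B h) k := by
  conv_lhs => rw [repr_eq_sum (B := B) x, repr_eq_sum (B := B) y, Finset.sum_mul_sum]
  simp only [map_sum, Finsupp.coe_finsetSum, Finset.sum_apply, smul_mul_smul_comm, map_smul,
    Finsupp.smul_apply, smul_eq_mul]

lemma mul_mem_lat {c0 : ℕ} (hB : Good w π B c0) {r s : ℕ} {x y : L} (hx : x ∈ lat w π B r)
    (hy : y ∈ lat w π B s) : x * y ∈ lat w π B (r + s + 1) := by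
  intro k
  rw [repr_mul, map_sum]
  refine w.map_sum_le fun g _ => ?_
  rw [map_sum]
  refine w.map_sum_le fun h _ => ?_
  rw [map_mul, map_mul, map_mul, map_mul, pow_succ, pow_add]
  exact mul_le_mul' (mul_le_mul' (hx g) (hy h)) (hB.mul g h k)

lemma repr_galois {c0 : ℕ} (hB : Good w π B c0) (g : Gal(L/K)) (x : L) (k : Gal(L/K)) :
    B.repr (g x) k = B.repr x (g⁻¹ * k) := by
  have h1 : g x = ∑ h, B.repr x (g⁻¹ * h) • B h := by
    conv_lhs => rw [repr_eq_sum (B := B) x]
    rw [map_sum]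
    simp only [map_smul, hB.apply]
    exact Fintype.sum_equiv (Equiv.mulLeft g) _ _ (fun h => by simp)
  conv_lhs => rw [h1]
  rw [B.repr_sum_self]

lemma galois_mem_lat {c0 : ℕ} (hB : Good w π B c0) (g : Gal(L/K)) {r : ℕ} {x : L}
    (hx : x ∈ lat w π B r) : g x ∈ lat w π B r := by
  intro k
  rw [repr_galois hB]
  exact hx _

end Lattice

section UnitGroups

variable [FiniteDimensional K L]
variable {w : Valuation L ℤᵐ⁰} {π : K} {B : Basis Gal(L/K) K L} {c0 : ℕ}

lemma mul_mem_lat_self (hB : Good w π B c0) (hπ : w (algebraMap K L π) < 1) {r s : ℕ} {x y : L}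
    (hx : x ∈ lat w π B r) (hy : y ∈ lat w π B s) : x * y ∈ lat w π B r :=
  lat_anti hπ (by omega) (mul_mem_lat hB hx hy)

lemma mul_mem_lat_self' (hB : Good w π B c0) (hπ : w (algebraMap K L π) < 1) {r s : ℕ} {x y : L}
    (hx : x ∈ lat w π B r) (hy : y ∈ lat w π B s) : x * y ∈ lat w π B s :=
  lat_anti hπ (by omega) (mul_mem_lat hB hx hy)

lemma val_lt_one_of_mem_lat (hB : Good w π B c0) (hπ : w (algebraMap K L π) < 1) {r : ℕ} {x : L}
    (hx : x ∈ lat w π B r) : w x < 1 :=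
  (val_le_of_mem_lat hB hx).trans_lt (pow_lt_one₀ zero_le hπ (by omega))

lemma val_one_add_of_mem_lat (hB : Good w π B c0) (hπ : w (algebraMap K L π) < 1) {r : ℕ} {x : L}
    (hx : x ∈ lat w π B r) : w (1 + x) = 1 :=
  w.map_one_add_of_lt (val_lt_one_of_mem_lat hB hπ hx)

lemma inv_approx (hB : Good w π B c0) (hπ : w (algebraMap K L π) < 1) {r : ℕ} {m : L}
    (hm : m ∈ lat w π B r) (u : L) (hu : (1 + m) * u = 1) (j : ℕ) :
    ∃ m1 ∈ lat w π B r, w (u - 1 - m1) ≤ w (algebraMap K L π) ^ j := by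
  have hwu : w u = 1 := by
    have h := congrArg w hu
    rw [map_mul, val_one_add_of_mem_lat hB hπ hm, one_mul, map_one] at h
    exact h
  induction j with
  | zero =>
    refine ⟨0, zero_mem _, ?_⟩
    rw [sub_zero, pow_zero]
    exact w.map_sub_le hwu.le (by simp)
  | succ j ih =>
    obtain ⟨m1, hm1, h1⟩ := ih
    refine ⟨-m - m * m1, sub_mem (neg_mem hm) (mul_mem_lat_self hB hπ hm hm1), ?_⟩
    have e : u - 1 - (-m - m * m1) = -(m * (u - 1 - m1)) := by
      have : u = 1 - m * u := by linear_combination hu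
      linear_combination this
    rw [e, Valuation.map_neg, map_mul, pow_succ, mul_comm]
    refine mul_le_mul' h1 ?_
    exact (val_le_of_mem_lat hB hm).trans (pow_le_of_le_one zero_le hπ.le (by omega))

lemma inv_sub_one_mem_lat (hB : Good w π B c0) (hπ : w (algebraMap K L π) < 1)
    (hπ0 : w (algebraMap K L π) ≠ 0) {r : ℕ} {m : L}
    (hm : m ∈ lat w π B r) (u : L) (hu : (1 + m) * u = 1) : u - 1 ∈ lat w π B r := by
  obtain ⟨m1, hm1, h1⟩ := inv_approx hB hπ hm u hu (r + c0)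
  have := add_mem hm1 (mem_lat_of_val_le hB hπ0 h1)
  simpa using this

/-- The subgroup `1 + π^r M` of `Lˣ`. -/
def V (hB : Good w π B c0) (hπ : w (algebraMap K L π) < 1) (hπ0 : w (algebraMap K L π) ≠ 0)
    (r : ℕ) : Subgroup Lˣ where
  carrier := {u | (u : L) - 1 ∈ lat w π B r}
  mul_mem' := by
    intro u u' hu hu'
    have e : ((u * u' : Lˣ) : L) - 1 = ((u : L) - 1) * ((u' : L) - 1) + ((u : L) - 1)
        + ((u' : L) - 1) := by
      push_cast; ring
    change ((u * u' : Lˣ) : L) - 1 ∈ lat w π B r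
    rw [e]
    exact add_mem (add_mem (mul_mem_lat_self hB hπ hu hu') hu) hu'
  one_mem' := by
    change ((1 : Lˣ) : L) - 1 ∈ lat w π B r
    simp
  inv_mem' := by
    intro u hu
    change ((u⁻¹ : Lˣ) : L) - 1 ∈ lat w π B r
    refine inv_sub_one_mem_lat hB hπ hπ0 hu _ ?_
    rw [add_sub_cancel]
    exact u.mul_inv

lemma mem_V (hB : Good w π B c0) (hπ : w (algebraMap K L π) < 1) (hπ0 : w (algebraMap K L π) ≠ 0)
    {r : ℕ} {u : Lˣ} : u ∈ V hB hπ hπ0 r ↔ (u : L) - 1 ∈ lat w π B r := Iff.rfl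

lemma V_anti (hB : Good w π B c0) (hπ : w (algebraMap K L π) < 1) (hπ0 : w (algebraMap K L π) ≠ 0)
    {r s : ℕ} (h : r ≤ s) : V hB hπ hπ0 s ≤ V hB hπ hπ0 r :=
  fun _ hu => lat_anti hπ h hu

lemma val_eq_one_of_mem_V (hB : Good w π B c0) (hπ : w (algebraMap K L π) < 1)
    (hπ0 : w (algebraMap K L π) ≠ 0) {r : ℕ} {u : Lˣ} (hu : u ∈ V hB hπ hπ0 r) :
    w (u : L) = 1 := by
  have := val_one_add_of_mem_lat hB hπ hu
  rwa [add_sub_cancel] at this

lemma galois_mem_V (hB : Good w π B c0) (hπ : w (algebraMap K L π) < 1)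
    (hπ0 : w (algebraMap K L π) ≠ 0) (g : Gal(L/K)) {r : ℕ} {u : Lˣ}
    (hu : u ∈ V hB hπ hπ0 r) : Units.map (g : L →* L) u ∈ V hB hπ hπ0 r := by
  have := galois_mem_lat hB g hu
  rw [map_sub, map_one] at this
  exact this

/-- An element `1 + m`, `m` in the lattice, as a unit. -/
noncomputable def oneAdd (hB : Good w π B c0) (hπ : w (algebraMap K L π) < 1) {r : ℕ} (m : L)
    (hm : m ∈ lat w π B r) : Lˣ :=
  Units.mk0 (1 + m) (by
    intro h
    have := val_one_add_of_mem_lat hB hπ hm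
    rw [h, map_zero] at this
    exact zero_ne_one this)

lemma oneAdd_mem_V (hB : Good w π B c0) (hπ : w (algebraMap K L π) < 1)
    (hπ0 : w (algebraMap K L π) ≠ 0) {r : ℕ} (m : L) (hm : m ∈ lat w π B r) :
    oneAdd hB hπ m hm ∈ V hB hπ hπ0 r := by
  change (1 + m) - 1 ∈ lat w π B r
  simpa using hm

end UnitGroups

section Norm

variable [FiniteDimensional K L]

variable (K L) in
/-- The norm on units, as a product over the Galois group. -/
noncomputable def normU : Lˣ →* Lˣ := ∏ g : Gal(L/K), Units.map (g : L →* L)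

lemma coe_normU (u : Lˣ) : ((normU K L u : Lˣ) : L) = ∏ g : Gal(L/K), g (u : L) := by
  simp [normU, Units.coe_prod]

lemma coe_normU_eq_norm [IsGalois K L] (u : Lˣ) :
    ((normU K L u : Lˣ) : L) = algebraMap K L (Algebra.norm K (u : L)) := by
  rw [coe_normU, Algebra.norm_eq_prod_automorphisms]

lemma map_normU (g : Gal(L/K)) (u : Lˣ) : Units.map (g : L →* L) (normU K L u) = normU K L u := by
  ext
  rw [Units.coe_map, coe_normU, MonoidHom.coe_coe, map_prod]
  exact Fintype.prod_equiv (Equiv.mulLeft g) _ _ (fun h => rfl)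

lemma normU_map (g : Gal(L/K)) (u : Lˣ) : normU K L (Units.map (g : L →* L) u) = normU K L u := by
  ext
  rw [coe_normU, coe_normU]
  exact Fintype.prod_equiv (Equiv.mulRight g) _ _ (fun h => rfl)

end Norm

section Graded

variable [FiniteDimensional K L]
variable {w : Valuation L ℤᵐ⁰} {π : K} {B : Basis Gal(L/K) K L} {c0 : ℕ}

lemma prod_one_add_mem (hB : Good w π B c0) (hπ : w (algebraMap K L π) < 1) {r : ℕ}
    {ι : Type*} (S : Finset ι) (m : ι → L) (hm : ∀ i ∈ S, m i ∈ lat w π B r) :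
    (∏ i ∈ S, (1 + m i)) - 1 ∈ lat w π B r ∧
      (∏ i ∈ S, (1 + m i)) - 1 - ∑ i ∈ S, m i ∈ lat w π B (r + r + 1) := by
  classical
  induction S using Finset.induction_on with
  | empty => simp
  | insert a S ha ih =>
    obtain ⟨h1, h2⟩ := ih (fun i hi => hm i (Finset.mem_insert_of_mem hi))
    have hma := hm a (Finset.mem_insert_self a S)
    rw [Finset.prod_insert ha, Finset.sum_insert ha]
    constructor
    · have e : (1 + m a) * ∏ i ∈ S, (1 + m i) - 1
          = m a * (∏ i ∈ S, (1 + m i) - 1) + m a + (∏ i ∈ S, (1 + m i) - 1) := by ring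
      rw [e]
      exact add_mem (add_mem (mul_mem_lat_self hB hπ hma h1) hma) h1
    · have e : (1 + m a) * ∏ i ∈ S, (1 + m i) - 1 - (m a + ∑ i ∈ S, m i)
          = m a * (∏ i ∈ S, (1 + m i) - 1) + (∏ i ∈ S, (1 + m i) - 1 - ∑ i ∈ S, m i) := by ring
      rw [e]
      exact add_mem (mul_mem_lat hB hma h1) h2

lemma smul_basis_mem_lat {r : ℕ} {a : K} (ha : w (algebraMap K L a) ≤ w (algebraMap K L π) ^ r)
    (g : Gal(L/K)) : a • B g ∈ lat w π B r := by
  classical
  intro h
  rw [map_smul, B.repr_self, Finsupp.smul_apply, smul_eq_mul, Finsupp.single_apply]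
  split_ifs
  · simpa using ha
  · simp

lemma normU_mem_V (hB : Good w π B c0) (hπ : w (algebraMap K L π) < 1)
    (hπ0 : w (algebraMap K L π) ≠ 0) {r : ℕ} {u : Lˣ} (hu : u ∈ V hB hπ hπ0 r) :
    normU K L u ∈ V hB hπ hπ0 r := by
  unfold normU
  rw [MonoidHom.finsetProd_apply]
  exact Subgroup.prod_mem _ (fun g _ => galois_mem_V hB hπ hπ0 g hu)

lemma graded_step (hB : Good w π B c0) (hπ : w (algebraMap K L π) < 1)
    (hπ0 : w (algebraMap K L π) ≠ 0) (σ : Gal(L/K))
    (hσ : ∀ g : Gal(L/K), g ∈ Submonoid.powers σ) {k : ℕ} (t : Lˣ) (ht : t ∈ V hB hπ hπ0 k)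
    (hσt : Units.map (σ : L →* L) t / t ∈ V hB hπ hπ0 (k + 1)) :
    ∃ s ∈ V hB hπ hπ0 k, t / normU K L s ∈ V hB hπ hπ0 (k + 1) := by
  classical
  set m : L := (t : L) - 1 with hm_def
  have hm : m ∈ lat w π B k := ht
  have ht1 : (t : L) = 1 + m := by rw [hm_def]; ring
  -- `σ m - m` is in the next lattice
  have h1 : σ m - m ∈ lat w π B (k + 1) := by
    have hx : (σ (t : L)) / (t : L) - 1 ∈ lat w π B (k + 1) := by
      have := hσt
      rw [mem_V, Units.val_div_eq_div_val, Units.coe_map] at this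
      exact this
    have e : σ m - m = (σ (t : L) / (t : L) - 1) + (σ (t : L) / (t : L) - 1) * m := by
      have ht0 : (t : L) ≠ 0 := t.ne_zero
      rw [hm_def, map_sub, map_one]
      field_simp
      ring
    rw [e]
    exact add_mem hx (mul_mem_lat_self hB hπ hx hm)
  set a : Gal(L/K) → K := fun g => B.repr m g with ha_def
  have h2 : ∀ g, w (algebraMap K L (a (σ⁻¹ * g) - a g)) ≤ w (algebraMap K L π) ^ (k + 1) := by
    intro g
    have := h1 g
    rwa [map_sub, Finsupp.sub_apply, repr_galois hB] at this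
  have h3 : ∀ g, w (algebraMap K L (a g - a 1)) ≤ w (algebraMap K L π) ^ (k + 1) := by
    intro g
    obtain ⟨j, rfl⟩ := hσ g
    induction j with
    | zero => simp
    | succ j ih =>
      have e : a (σ ^ (j + 1)) - a 1 = (a (σ ^ j) - a 1) - (a (σ⁻¹ * σ ^ (j + 1)) - a (σ ^ (j + 1))) := by
        rw [pow_succ', inv_mul_cancel_left]; ring
      rw [e, map_sub]
      exact w.map_sub_le ih (h2 _)
  have ha1 : w (algebraMap K L (a 1)) ≤ w (algebraMap K L π) ^ k := hm 1
  have hs_mem : a 1 • B 1 ∈ lat w π B k := smul_basis_mem_lat ha1 1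
  refine ⟨oneAdd hB hπ (a 1 • B 1) hs_mem, oneAdd_mem_V hB hπ hπ0 _ hs_mem, ?_⟩
  set s := oneAdd hB hπ (a 1 • B 1) hs_mem with hs_def
  have hNs : ((normU K L s : Lˣ) : L) = ∏ g : Gal(L/K), (1 + a 1 • B g) := by
    rw [coe_normU]
    refine Finset.prod_congr rfl fun g _ => ?_
    change g (1 + a 1 • B 1) = _
    rw [map_add, map_one, map_smul, hB.apply, mul_one]
  obtain ⟨-, hP⟩ := prod_one_add_mem hB hπ (Finset.univ : Finset Gal(L/K))
    (fun g => a 1 • B g) (fun g _ => smul_basis_mem_lat ha1 g)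
  have hP' : ((normU K L s : Lˣ) : L) - 1 - ∑ g : Gal(L/K), a 1 • B g ∈ lat w π B (k + 1) := by
    rw [hNs]
    exact lat_anti hπ (by omega) hP
  have hdiff : m - ∑ g : Gal(L/K), a 1 • B g ∈ lat w π B (k + 1) := by
    have e : m - ∑ g : Gal(L/K), a 1 • B g = ∑ g : Gal(L/K), (a g - a 1) • B g := by
      conv_lhs => rw [repr_eq_sum (B := B) m]
      rw [← Finset.sum_sub_distrib]
      refine Finset.sum_congr rfl fun g _ => ?_
      rw [sub_smul]
    rw [e]
    exact sum_mem fun g _ => smul_basis_mem_lat (h3 g) g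
  have hd : (t : L) - ((normU K L s : Lˣ) : L) ∈ lat w π B (k + 1) := by
    have e : (t : L) - ((normU K L s : Lˣ) : L)
        = (m - ∑ g : Gal(L/K), a 1 • B g)
          - (((normU K L s : Lˣ) : L) - 1 - ∑ g : Gal(L/K), a 1 • B g) := by
      rw [ht1]; ring
    rw [e]
    exact sub_mem hdiff hP'
  have hNinv : (normU K L s)⁻¹ ∈ V hB hπ hπ0 k :=
    inv_mem (normU_mem_V hB hπ hπ0 (oneAdd_mem_V hB hπ hπ0 _ hs_mem))
  rw [mem_V] at hNinv ⊢
  have e : ((t / normU K L s : Lˣ) : L) - 1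
      = ((t : L) - ((normU K L s : Lˣ) : L))
        + ((t : L) - ((normU K L s : Lˣ) : L)) * ((((normU K L s)⁻¹ : Lˣ) : L) - 1) := by
    have hN0 : ((normU K L s : Lˣ) : L) ≠ 0 := (normU K L s).ne_zero
    rw [Units.val_div_eq_div_val, Units.val_inv_eq_inv_val]
    field_simp
    ring
  rw [e]
  exact add_mem hd (mul_mem_lat_self hB hπ hd hNinv)

lemma graded_iter (hB : Good w π B c0) (hπ : w (algebraMap K L π) < 1)
    (hπ0 : w (algebraMap K L π) ≠ 0) (σ : Gal(L/K))
    (hσ : ∀ g : Gal(L/K), g ∈ Submonoid.powers σ) (j : ℕ) :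
    ∀ (k : ℕ) (t : Lˣ), t ∈ V hB hπ hπ0 k →
      Units.map (σ : L →* L) t / t ∈ V hB hπ hπ0 (k + j) →
      ∃ s ∈ V hB hπ hπ0 k, t / normU K L s ∈ V hB hπ hπ0 (k + j) := by
  induction j with
  | zero =>
    intro k t ht _
    exact ⟨1, one_mem _, by simpa using ht⟩
  | succ j ih =>
    intro k t ht hσt
    obtain ⟨s0, hs0, h0⟩ := graded_step hB hπ hπ0 σ hσ t ht (V_anti hB hπ hπ0 (by omega) hσt)
    have hσ1 : Units.map (σ : L →* L) (t / normU K L s0) / (t / normU K L s0)
        ∈ V hB hπ hπ0 (k + 1 + j) := by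
      have e : Units.map (σ : L →* L) (t / normU K L s0) / (t / normU K L s0)
          = Units.map (σ : L →* L) t / t := by
        rw [map_div, map_normU]
        exact div_div_div_cancel_right _ _ _
      rw [e]
      have : k + 1 + j = k + (j + 1) := by omega
      rw [this]
      exact hσt
    obtain ⟨s1, hs1, h1⟩ := ih (k + 1) (t / normU K L s0) h0 hσ1
    refine ⟨s0 * s1, mul_mem hs0 (V_anti hB hπ hπ0 (by omega) hs1), ?_⟩
    have e : t / normU K L (s0 * s1) = t / normU K L s0 / normU K L s1 := by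
      rw [map_mul, div_div]
    rw [e]
    have : k + (j + 1) = k + 1 + j := by omega
    rw [this]
    exact h1

end Graded

section Main

variable [FiniteDimensional K L] [IsGalois K L]
variable {w : Valuation L ℤᵐ⁰} {π : K} {B : Basis Gal(L/K) K L} {c0 : ℕ}

omit [FiniteDimensional K L] [IsGalois K L] in
lemma arch (γ : ℤᵐ⁰) (hγ : γ < 1) (δ : ℤᵐ⁰) : ∃ k : ℕ, γ ^ k * δ ≤ 1 := by
  by_cases hδ0 : δ = 0
  · exact ⟨0, by simp [hδ0]⟩
  by_cases hγ0 : γ = 0
  · exact ⟨1, by simp [hγ0]⟩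
  obtain ⟨d, rfl⟩ : ∃ d, δ = WithZero.exp d := ⟨_, (WithZero.exp_log hδ0).symm⟩
  obtain ⟨g, rfl⟩ : ∃ g, γ = WithZero.exp g := ⟨_, (WithZero.exp_log hγ0).symm⟩
  have hlog : g < 0 := by
    rw [← WithZero.exp_zero, WithZero.exp_lt_exp] at hγ
    exact hγ
  refine ⟨d.toNat, ?_⟩
  rw [← WithZero.exp_nsmul, ← WithZero.exp_add, ← WithZero.exp_zero, WithZero.exp_le_exp]
  have h1 : d ≤ (d.toNat : ℤ) := Int.self_le_toNat _
  have h2 : d.toNat • g ≤ -(d.toNat : ℤ) := by
    rw [nsmul_eq_mul]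
    nlinarith [Int.natCast_nonneg d.toNat]
  linarith

theorem exists_not_approx_norm_of_good (hB : Good w π B c0) (hπ : w (algebraMap K L π) < 1)
    (hπ0 : w (algebraMap K L π) ≠ 0)
    (hw : ∀ (g : Gal(L/K)) (x : L), w (g x) = w x)
    (hunif : ∃ ϖL : L, w ϖL = WithZero.exp (-1 : ℤ))
    (σ : Gal(L/K)) (hσ : ∀ g : Gal(L/K), g ∈ Submonoid.powers σ)
    (hKL : 2 ≤ Fintype.card Gal(L/K))
    (hfin : ∀ j : ℕ, ∃ F : Finset L, ∀ x, w x ≤ 1 →
      ∃ y ∈ F, w (x - y) ≤ w (algebraMap K L π) ^ j)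
    (hchar : (Fintype.card Gal(L/K) : K) ≠ 0) :
    ∃ b : K, b ≠ 0 ∧ ∀ y : L, y ≠ 0 →
      ¬ w (algebraMap K L (b / Algebra.norm K y) - 1) ≤ w (algebraMap K L π) ^ c0 := by
  classical
  set n := Fintype.card Gal(L/K) with hn_def
  have hπK : π ≠ 0 := by
    rintro rfl
    simp at hπ0
  -- the exponent `e`
  obtain ⟨e, he⟩ := arch (w (algebraMap K L π)) hπ (w (algebraMap K L (n : K)))⁻¹
  have he' : w (algebraMap K L (π ^ e / (n : K))) ≤ 1 := by
    rw [map_div₀, map_div₀, map_pow, map_pow, div_eq_mul_inv]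
    exact he
  have hwu : ∀ u : Lˣ, w (u : L) ≠ 0 := fun u => (w.ne_zero_iff).2 u.ne_zero
  -- the valuation as a homomorphism to `ℤ`
  let ord : Lˣ →* Multiplicative ℤ :=
    { toFun := fun u => Multiplicative.ofAdd (WithZero.log (w (u : L)))
      map_one' := by simp
      map_mul' := by
        intro u u'
        rw [Units.val_mul, map_mul, WithZero.log_mul (hwu u) (hwu u'), ofAdd_add] }
  have hord_apply : ∀ u : Lˣ, ord u = Multiplicative.ofAdd (WithZero.log (w (u : L))) :=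
    fun _ => rfl
  have hord_one : ∀ u : Lˣ, ord u = 1 ↔ w (u : L) = 1 := by
    intro u
    rw [hord_apply, ofAdd_eq_one]
    constructor
    · intro h
      have := WithZero.exp_log (hwu u)
      rw [h, WithZero.exp_zero] at this
      exact this.symm
    · intro h
      rw [h]
      simp
  have hord_surj : Function.Surjective ord := by
    obtain ⟨ϖL, hϖL⟩ := hunif
    have hϖ0 : ϖL ≠ 0 := by
      rintro rfl
      rw [map_zero] at hϖL
      exact WithZero.exp_ne_zero hϖL.symm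
    intro k
    refine ⟨(Units.mk0 ϖL hϖ0) ^ (-(Multiplicative.toAdd k)), ?_⟩
    rw [map_zpow, hord_apply, Units.val_mk0, hϖL, WithZero.log_exp, ← ofAdd_zsmul]
    simp
  let sigU : Lˣ →* Lˣ := Units.map (σ : L →* L) / MonoidHom.id Lˣ
  have hsig : ∀ u, sigU u = Units.map (σ : L →* L) u / u := fun u => rfl
  obtain ⟨F, hF⟩ := hfin (e + c0)
  obtain ⟨y0, hy0, -⟩ := hF 0 (by simp)
  let φ : Lˣ → F := fun u =>
    if h : w (u : L) ≤ 1 then ⟨(hF u h).choose, (hF u h).choose_spec.1⟩ else ⟨y0, hy0⟩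
  obtain ⟨z, hz1, hz2⟩ := ApproxNormGroup.exists_ker_not_range_mul sigU (normU K L)
    (by intro x; rw [hsig, map_normU, div_self'])
    (by intro x; rw [hsig, map_div, normU_map, div_self'])
    ord hord_surj n hKL
    (by
      intro x
      rw [hord_one, hsig, Units.val_div_eq_div_val, Units.coe_map, map_div₀, MonoidHom.coe_coe, hw,
        div_self (hwu x)])
    (by
      intro x
      rw [hord_apply, hord_apply, coe_normU, map_prod]
      simp only [hw]
      rw [Finset.prod_const, Finset.card_univ, WithZero.log_pow, ofAdd_nsmul])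
    (V hB hπ hπ0 e)
    (fun x hx => (hord_one x).2 (val_eq_one_of_mem_V hB hπ hπ0 hx))
    φ
    (by
      intro x y hx hy hxy
      have hx1 := (hord_one x).1 hx
      have hy1 := (hord_one y).1 hy
      simp only [φ, dif_pos hx1.le, dif_pos hy1.le, Subtype.mk.injEq] at hxy
      have h1 := (hF x hx1.le).choose_spec.2
      have h2 := (hF y hy1.le).choose_spec.2
      rw [hxy] at h1
      have h3 : w ((x : L) - (y : L)) ≤ w (algebraMap K L π) ^ (e + c0) := by
        have e1 : (x : L) - (y : L) = ((x : L) - (hF y hy1.le).choose)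
            - ((y : L) - (hF y hy1.le).choose) := by ring
        rw [e1]
        exact w.map_sub_le h1 h2
      rw [mem_V]
      refine mem_lat_of_val_le hB hπ0 ?_
      have e2 : ((x / y : Lˣ) : L) - 1 = ((x : L) - (y : L)) / (y : L) := by
        have hy0 : (y : L) ≠ 0 := y.ne_zero
        rw [Units.val_div_eq_div_val]
        field_simp
      rw [e2, map_div₀, hy1, div_one]
      exact h3)
    (fun x hx => div_mem (galois_mem_V hB hπ hπ0 σ hx) hx)
    (fun x hx => normU_mem_V hB hπ hπ0 hx)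
  have hz1' : Units.map (σ : L →* L) z / z ∈ V hB hπ hπ0 e := hz1
  -- all Galois conjugates of `z` are congruent to `z`
  have hgz : ∀ g : Gal(L/K), Units.map (g : L →* L) z / z ∈ V hB hπ hπ0 e := by
    intro g
    obtain ⟨j, rfl⟩ := hσ g
    induction j with
    | zero =>
      have e1 : Units.map (((fun x : ℕ => σ ^ x) 0 : Gal(L/K)) : L →* L) z / z = 1 := by
        ext
        simp
      rw [e1]
      exact one_mem _
    | succ j ih =>
      have e1 : Units.map (((fun x : ℕ => σ ^ x) (j + 1) : Gal(L/K)) : L →* L) z / z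
          = Units.map (σ : L →* L) (Units.map (((fun x : ℕ => σ ^ x) j : Gal(L/K)) : L →* L) z / z)
            * (Units.map (σ : L →* L) z / z) := by
        ext
        have hz0 : (z : L) ≠ 0 := z.ne_zero
        have hσz0 : σ (z : L) ≠ 0 := by simp
        simp only [pow_succ', Units.val_div_eq_div_val, Units.coe_map, MonoidHom.coe_coe,
          AlgEquiv.mul_apply, Units.val_mul, map_div₀]
        field_simp
      rw [e1]
      exact mul_mem (galois_mem_V hB hπ hπ0 σ ih) hz1'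
  -- the trace of `z`
  set M' : L := ∑ g : Gal(L/K), ((g (z : L)) / (z : L) - 1) with hM'
  have hM'mem : M' ∈ lat w π B e := by
    refine sum_mem fun g _ => ?_
    have := hgz g
    rwa [mem_V, Units.val_div_eq_div_val, Units.coe_map] at this
  have hz0 : (z : L) ≠ 0 := z.ne_zero
  have htr : ∑ g : Gal(L/K), g (z : L) = (z : L) * ((n : L) + M') := by
    rw [hM', Finset.sum_sub_distrib, Finset.sum_const, Finset.card_univ, nsmul_eq_mul, mul_one,
      ← Finset.sum_div, ← hn_def]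
    field_simp
    ring
  set x0 : L := (π ^ e)⁻¹ • M' with hx0
  have hx0mem : x0 ∈ lat w π B 0 := by
    refine mem_lat_of_pow_smul (j := e) hπ0 ?_
    rw [hx0, smul_smul, mul_inv_cancel₀ (pow_ne_zero _ hπK), one_smul, zero_add]
    exact hM'mem
  set m4 : L := (π ^ e / (n : K)) • x0 with hm4
  have hm4mem : m4 ∈ lat w π B 0 := smul_mem_lat he' hx0mem
  have hm4' : m4 = M' / (n : L) := by
    rw [hm4, hx0, smul_smul, Algebra.smul_def, map_mul, map_div₀, map_pow, map_inv₀, map_pow,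
      map_natCast]
    have : algebraMap K L π ≠ 0 := by simpa using hπK
    have hnL : (n : L) ≠ 0 := by
      have := (algebraMap K L).injective.ne hchar
      simpa using this
    field_simp
  have hnL : (n : L) ≠ 0 := by
    have := (algebraMap K L).injective.ne hchar
    simpa using this
  set t : Lˣ := oneAdd hB hπ m4 hm4mem with ht
  have htmem : t ∈ V hB hπ hπ0 0 := oneAdd_mem_V hB hπ hπ0 _ hm4mem
  have htval : (t : L) = 1 + m4 := rfl
  set b : K := Algebra.trace K L (z : L) / (n : K) with hb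
  have hbz : algebraMap K L b = (z : L) * (t : L) := by
    rw [hb, map_div₀, trace_eq_sum_automorphisms, htr, htval, hm4', map_natCast]
    field_simp
  have hb0 : b ≠ 0 := by
    intro h0
    rw [h0, map_zero] at hbz
    exact (mul_ne_zero hz0 t.ne_zero) hbz.symm
  refine ⟨b, hb0, ?_⟩
  intro y hy happ
  set yu : Lˣ := Units.mk0 y hy with hyu
  have hNy : ((normU K L yu : Lˣ) : L) = algebraMap K L (Algebra.norm K y) :=
    coe_normU_eq_norm yu
  have ht1 : z * t / normU K L yu ∈ V hB hπ hπ0 0 := by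
    rw [mem_V]
    refine mem_lat_of_val_le hB hπ0 ?_
    rw [zero_add, Units.val_div_eq_div_val, Units.val_mul, ← hbz, hNy, ← map_div₀]
    exact happ
  have ht2 : z / normU K L yu ∈ V hB hπ hπ0 0 := by
    have : z / normU K L yu = z * t / normU K L yu * t⁻¹ := by
      rw [div_mul_eq_mul_div, mul_inv_cancel_right]
    rw [this]
    exact mul_mem ht1 (inv_mem htmem)
  have hσt2 : Units.map (σ : L →* L) (z / normU K L yu) / (z / normU K L yu)
      ∈ V hB hπ hπ0 (0 + e) := by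
    have e1 : Units.map (σ : L →* L) (z / normU K L yu) / (z / normU K L yu)
        = Units.map (σ : L →* L) z / z := by
      rw [map_div, map_normU]
      exact div_div_div_cancel_right _ _ _
    rw [e1, zero_add]
    exact hz1'
  obtain ⟨s, hs, h⟩ := graded_iter hB hπ hπ0 σ hσ e 0 (z / normU K L yu) ht2 hσt2
  rw [zero_add] at h
  refine hz2 (yu * s) (z / normU K L yu / normU K L s) h ?_
  rw [map_mul, div_div, mul_div_cancel]

omit [FiniteDimensional K L] [IsGalois K L] in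
lemma arch_finset (γ : ℤᵐ⁰) (hγ : γ < 1) {ι : Type*} (S : Finset ι) (δ : ι → ℤᵐ⁰) :
    ∃ k : ℕ, ∀ i ∈ S, γ ^ k * δ i ≤ 1 := by
  classical
  induction S using Finset.induction_on with
  | empty => exact ⟨0, by simp⟩
  | insert a S _ ih =>
    obtain ⟨k1, h1⟩ := ih
    obtain ⟨k2, h2⟩ := arch γ hγ (δ a)
    refine ⟨k1 + k2, ?_⟩
    intro i hi
    rcases Finset.mem_insert.1 hi with rfl | hi
    · rw [pow_add, mul_assoc]
      calc γ ^ k1 * (γ ^ k2 * δ i) ≤ 1 * 1 := mul_le_mul' (pow_le_one₀ zero_le hγ.le) h2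
        _ = 1 := one_mul 1
    · rw [pow_add, mul_comm (γ ^ k1), mul_assoc]
      calc γ ^ k2 * (γ ^ k1 * δ i) ≤ 1 * 1 := mul_le_mul' (pow_le_one₀ zero_le hγ.le) (h1 i hi)
        _ = 1 := one_mul 1

/-- Existence of a basis adapted to the valuation: a scaled normal basis. -/
theorem exists_good (w : Valuation L ℤᵐ⁰) (π : K) (hπ : w (algebraMap K L π) < 1)
    (hπ0 : w (algebraMap K L π) ≠ 0)
    {ι : Type*} [Fintype ι] (β : ι → L)
    (hgen : ∀ x, w x ≤ 1 →
      ∃ a : ι → K, (∀ i, w (algebraMap K L (a i)) ≤ 1) ∧ x = ∑ i, a i • β i) :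
    ∃ (B : Basis Gal(L/K) K L) (c0 : ℕ), Good w π B c0 := by
  classical
  have hπK : π ≠ 0 := by
    rintro rfl
    simp at hπ0
  set γ := w (algebraMap K L π) with hγ
  have hγpos : (0 : ℤᵐ⁰) < γ := zero_lt_iff.2 hπ0
  let b0 : Basis Gal(L/K) K L := IsGalois.normalBasis K L
  have hb0 : ∀ g h : Gal(L/K), g (b0 h) = b0 (g * h) := by
    intro g h
    rw [IsGalois.normalBasis_apply h, IsGalois.normalBasis_apply (g * h), AlgEquiv.mul_apply]
  obtain ⟨N1, hN1⟩ := arch_finset γ hπ (Finset.univ : Finset Gal(L/K)) (fun g => w (b0 g))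
  obtain ⟨N2, hN2⟩ := arch_finset γ hπ
    (Finset.univ : Finset (Gal(L/K) × Gal(L/K) × Gal(L/K)))
    (fun x => w (algebraMap K L (b0.repr (b0 x.1 * b0 x.2.1) x.2.2)))
  obtain ⟨c', hc'⟩ := arch_finset γ hπ (Finset.univ : Finset (ι × Gal(L/K)))
    (fun x => w (algebraMap K L (b0.repr (β x.1) x.2)))
  obtain ⟨N, hN⟩ : ∃ N, N = N1 + N2 + 1 := ⟨_, rfl⟩
  let B : Basis Gal(L/K) K L := b0.unitsSMul (fun _ => Units.mk0 (π ^ N) (pow_ne_zero _ hπK))
  have hBapp : ∀ g, B g = π ^ N • b0 g := fun g => Basis.unitsSMul_apply g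
  have hBrepr : ∀ (x : L) (g : Gal(L/K)), B.repr x g = (π ^ N)⁻¹ * b0.repr x g := by
    intro x g
    rw [Basis.repr_unitsSMul]
    rfl
  have hγN : ∀ {δ : ℤᵐ⁰} {k : ℕ}, k + 1 ≤ N → γ ^ k * δ ≤ 1 → γ ^ N * δ ≤ γ := by
    intro δ k hk h
    obtain ⟨j, hj⟩ : ∃ j, N = j + 1 + k := ⟨N - k - 1, by omega⟩
    rw [hj, pow_add, mul_assoc]
    calc γ ^ (j + 1) * (γ ^ k * δ) ≤ γ ^ (j + 1) * 1 := mul_le_mul' le_rfl h
      _ = γ ^ (j + 1) := mul_one _
      _ ≤ γ := pow_le_of_le_one zero_le hπ.le (by omega)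
  refine ⟨B, N + c', ?_, ?_, ?_, ?_⟩
  · intro g h
    rw [hBapp, hBapp, map_smul, hb0]
  · intro g
    rw [hBapp, Algebra.smul_def, map_mul, map_pow, map_pow]
    exact hγN (by omega) (hN1 g (Finset.mem_univ g))
  · intro g h k
    have e : B.repr (B g * B h) k = π ^ N * b0.repr (b0 g * b0 h) k := by
      rw [hBrepr, hBapp, hBapp, smul_mul_smul_comm, map_smul, Finsupp.smul_apply, smul_eq_mul]
      field_simp
    rw [e, map_mul, map_mul, map_pow, map_pow]
    exact hγN (by omega) (hN2 (g, h, k) (Finset.mem_univ _))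
  · intro x hx g
    obtain ⟨a, ha, hxa⟩ := hgen x hx
    have e : B.repr x g = (π ^ N)⁻¹ * ∑ y, a y * b0.repr (β y) g := by
      rw [hBrepr]
      congr 1
      conv_lhs => rw [hxa]
      simp [map_sum, Finsupp.coe_finsetSum, Finset.sum_apply]
    have hsum : w (algebraMap K L (∑ y, a y * b0.repr (β y) g)) ≤ (γ ^ c')⁻¹ := by
      rw [map_sum]
      refine w.map_sum_le fun y _ => ?_
      rw [map_mul, map_mul]
      have h1 := hc' (y, g) (Finset.mem_univ _)
      have h2 : w (algebraMap K L (b0.repr (β y) g)) ≤ (γ ^ c')⁻¹ := by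
        rw [← one_mul (γ ^ c')⁻¹, le_mul_inv_iff₀ (pow_pos hγpos _), mul_comm]
        exact h1
      calc w (algebraMap K L (a y)) * w (algebraMap K L (b0.repr (β y) g))
          ≤ 1 * (γ ^ c')⁻¹ := mul_le_mul' (ha y) h2
        _ = _ := one_mul _
    rw [e, map_mul, map_mul, map_inv₀, map_inv₀, map_pow, map_pow, pow_add]
    have hγN0 : γ ^ N ≠ 0 := pow_ne_zero _ hπ0
    calc (γ ^ N)⁻¹ * w (algebraMap K L (∑ y, a y * b0.repr (β y) g)) * (γ ^ N * γ ^ c')
        = w (algebraMap K L (∑ y, a y * b0.repr (β y) g)) * γ ^ c' := by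
          rw [mul_comm (γ ^ N)⁻¹, mul_assoc, ← mul_assoc (γ ^ N)⁻¹, inv_mul_cancel₀ hγN0, one_mul]
      _ ≤ (γ ^ c')⁻¹ * γ ^ c' := mul_le_mul' hsum le_rfl
      _ = 1 := inv_mul_cancel₀ (pow_ne_zero _ hπ0)

/-- **Local first inequality, approximate form.**  For a finite cyclic Galois extension `L/K`
of degree `≥ 2` and a discrete valuation `w` of `L` invariant under the Galois group, with
finite residue rings and with valuation ring finitely generated over its trace on `K`, some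
nonzero `b : K` is not a norm up to `1 + π^j O`. -/
theorem exists_not_approx_norm [IsCyclic Gal(L/K)] (hKL : 2 ≤ Module.finrank K L)
    (w : Valuation L ℤᵐ⁰) (hw : ∀ (g : Gal(L/K)) (x : L), w (g x) = w x)
    (hunif : ∃ ϖL : L, w ϖL = WithZero.exp (-1 : ℤ))
    (π : K) (hπ0 : π ≠ 0) (hπ : w (algebraMap K L π) < 1)
    (hfin : ∀ j : ℕ, ∃ F : Finset L, ∀ x, w x ≤ 1 →
      ∃ y ∈ F, w (x - y) ≤ w (algebraMap K L π) ^ j)
    {ι : Type*} [Fintype ι] (β : ι → L)
    (hgen : ∀ x, w x ≤ 1 →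
      ∃ a : ι → K, (∀ i, w (algebraMap K L (a i)) ≤ 1) ∧ x = ∑ i, a i • β i)
    (hchar : (Module.finrank K L : K) ≠ 0) :
    ∃ b : K, b ≠ 0 ∧ ∃ j : ℕ, ∀ y : L, y ≠ 0 →
      ¬ w (algebraMap K L (b / Algebra.norm K y) - 1) ≤ w (algebraMap K L π) ^ j := by
  have hπ0' : w (algebraMap K L π) ≠ 0 := by
    rw [w.ne_zero_iff]
    simpa using hπ0
  obtain ⟨B, c0, hB⟩ := exists_good w π hπ hπ0' β hgen
  obtain ⟨σ, hσ⟩ := IsCyclic.exists_generator (α := Gal(L/K))
  have hcard : Fintype.card Gal(L/K) = Module.finrank K L := by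
    rw [Fintype.card_eq_nat_card, IsGalois.card_aut_eq_finrank]
  obtain ⟨b, hb0, hb⟩ := exists_not_approx_norm_of_good hB hπ hπ0' hw hunif σ
    (fun g => mem_powers_iff_mem_zpowers.2 (hσ g)) (by rw [hcard]; exact hKL) hfin
    (by rw [hcard]; exact hchar)
  exact ⟨b, hb0, c0, hb⟩

end Main

end Fermat.Agent.CFT.Local.ApproxNormCore
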