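import Fermat.Agent.S55.GrpCoh.InfRes

/-!
# Local Brauer groups: the abstract comparison lemma

Let `N₁, N₂` be normal subgroups of a group `G` and `A` a `G`-module with
`H¹(N₁, A) = H¹(N₂, A) = 0`.  Suppose `H²(G ⧸ N₁, A^N₁)` is finite of order at most `n`, and
`u ∈ H²(G ⧸ N₂, A^N₂)` is a class of order at least `n` whose inflation to `G` restricts to `0`
on `N₁`.  Then `H²(G ⧸ N₁, A^N₁)` has order exactly `n`, and the inflation of every one of its
classes is a multiple of the inflation of `u`.

Application (local class field theory): `G = Gal(M/E)`, `M = L·Eₙ`, `N₁ = Gal(M/L)`,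
`N₂ = Gal(M/Eₙ)`, `Eₙ/E` unramified of degree `n = [L : E]`, `A = Mˣ`, `u` the class of the
cyclic cocycle `(Frob, π_E)`: every class of `H²(Gal(L/E), Lˣ)` becomes unramified in `M`.
-/

set_option autoImplicit false

universe u

open CategoryTheory

namespace Fermat.Agent.CFT.Local.BrauerAbs

open Fermat.Agent.S55.GrpCoh

variable {k G : Type u} [CommRing k] [Group G]

/-- A finite set containing `n` distinct multiples `0 • v, …, (n-1) • v` of an element and having
at most `n` elements consists of these multiples. -/
theorem exists_nsmul_eq_of_card_le {X : Type*} [AddCommGroup X] [Finite X] (n : ℕ)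
    (hcard : Nat.card X ≤ n) (v : X) (hv : ∀ m : ℕ, 0 < m → m < n → m • v ≠ 0) (x : X) :
    ∃ m : ℕ, m < n ∧ x = m • v := by
  classical
  have hinj : Function.Injective (fun i : Fin n => (i : ℕ) • v) := by
    intro i j hij
    by_contra hne
    have key : ∀ a b : ℕ, a < b → b < n → a • v = b • v → False := by
      intro a b hab hb h
      have h2 : (b - a) • v = 0 := by
        have : b • v = (b - a) • v + a • v := by
          rw [← add_nsmul, Nat.sub_add_cancel hab.le]
        rw [← h] at this
        simpa using this.symm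
      exact hv (b - a) (by omega) (by omega) h2
    rcases lt_trichotomy (i : ℕ) (j : ℕ) with h | h | h
    · exact key _ _ h j.2 hij
    · exact hne (Fin.ext h)
    · exact key _ _ h i.2 hij.symm
  have hbij : Function.Bijective (fun i : Fin n => (i : ℕ) • v) :=
    hinj.bijective_of_nat_card_le (by simpa using hcard)
  obtain ⟨i, hi⟩ := hbij.2 x
  exact ⟨i, i.2, hi.symm⟩

/-- In the situation of `exists_nsmul_eq_of_card_le` the cardinality is exactly `n`. -/
theorem card_eq_of_card_le {X : Type*} [AddCommGroup X] [Finite X] (n : ℕ)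
    (hcard : Nat.card X ≤ n) (v : X) (hv : ∀ m : ℕ, 0 < m → m < n → m • v ≠ 0) :
    Nat.card X = n := by
  classical
  refine le_antisymm hcard ?_
  have hinj : Function.Injective (fun i : Fin n => (i : ℕ) • v) := by
    intro i j hij
    by_contra hne
    have key : ∀ a b : ℕ, a < b → b < n → a • v = b • v → False := by
      intro a b hab hb h
      have h2 : (b - a) • v = 0 := by
        have : b • v = (b - a) • v + a • v := by
          rw [← add_nsmul, Nat.sub_add_cancel hab.le]
        rw [← h] at this
        simpa using this.symm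
      exact hv (b - a) (by omega) (by omega) h2
    rcases lt_trichotomy (i : ℕ) (j : ℕ) with h | h | h
    · exact key _ _ h j.2 hij
    · exact hne (Fin.ext h)
    · exact key _ _ h i.2 hij.symm
  have := Nat.card_le_card_of_injective _ hinj
  simpa using this

/-- **Abstract comparison lemma.**  See the module docstring. -/
theorem exists_nsmul_infl_eq (A : Rep.{u} k G) (N₁ N₂ : Subgroup G) [N₁.Normal] [N₂.Normal]
    (n : ℕ) (h1 : VanishOn A N₁ 1) (h2 : VanishOn A N₂ 1)
    (hcard : Finite (groupCohomology (A.quotientToInvariants N₁) 2) ∧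
      Nat.card (groupCohomology (A.quotientToInvariants N₁) 2) ≤ n)
    (u : groupCohomology (A.quotientToInvariants N₂) 2)
    (hu : ∀ m : ℕ, 0 < m → m < n → m • u ≠ 0)
    (hres : rest A N₁ 2 (infl A N₂ 2 u) = 0) :
    Nat.card (groupCohomology (A.quotientToInvariants N₁) 2) = n ∧
    ∀ b : groupCohomology (A.quotientToInvariants N₁) 2,
      ∃ m : ℕ, m < n ∧ infl A N₁ 2 b = m • infl A N₂ 2 u := by
  have := hcard.1
  have hvan1 : ∀ i, 1 ≤ i → i < 2 → VanishOn A N₁ i := by
    intro i hi hi2
    obtain rfl : i = 1 := by omega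
    exact h1
  have hvan2 : ∀ i, 1 ≤ i → i < 2 → VanishOn A N₂ i := by
    intro i hi hi2
    obtain rfl : i = 1 := by omega
    exact h2
  have hinj1 := infl_injective A N₁ 2 (by norm_num) hvan1
  have hinj2 := infl_injective A N₂ 2 (by norm_num) hvan2
  -- the preimage of `infl u` under `infl A N₁ 2`
  have hres' : rest A N₁ 2 (infl A N₂ 2 u) = 0 := hres
  obtain ⟨v, hv⟩ := infl_rest_exact A N₁ 2 (by norm_num) hvan1 _ hres'
  have hvord : ∀ m : ℕ, 0 < m → m < n → m • v ≠ 0 := by
    intro m hm hmn h0
    apply hu m hm hmn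
    apply hinj2
    have : infl A N₁ 2 (m • v) = m • infl A N₂ 2 u := by
      rw [map_nsmul, hv]
    rw [map_nsmul, ← this, h0, map_zero, map_zero]
  refine ⟨card_eq_of_card_le n hcard.2 v hvord, fun b => ?_⟩
  obtain ⟨m, hm, rfl⟩ := exists_nsmul_eq_of_card_le n hcard.2 v hvord b
  exact ⟨m, hm, by rw [map_nsmul, hv]⟩

end Fermat.Agent.CFT.Local.BrauerAbs
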