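import Mathlib

/-!
# Two small auxiliary lemmas for the local Brauer group computation (LOC-C3)

* `exists_unitsIso_of_algEquiv` : a `K`-algebra isomorphism `φ : L ≃ₐ[K] L'` identifies the
  Galois modules `Lˣ` and `L'ˣ` (along `AlgEquiv.autCongr φ`).
* `isGalois_cyclotomicField` : for `L/K` finite Galois in characteristic zero, the cyclotomic
  extension `CyclotomicField N L` is Galois over `K`.
-/

set_option autoImplicit false

open CategoryTheory Polynomial

namespace Fermat.Agent.CFT.Local.BrauerAux

/-- Transport of the Galois module of units along an isomorphism of extensions. -/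
theorem exists_unitsIso_of_algEquiv {K L L' : Type} [Field K] [Field L] [Field L'] [Algebra K L]
    [Algebra K L'] (φ : L ≃ₐ[K] L') :
    Nonempty (Rep.ofAlgebraAutOnUnits K L ≅
      Rep.res (AlgEquiv.autCongr φ).toMonoidHom (Rep.ofAlgebraAutOnUnits K L')) :=
  ⟨Rep.mkIso (Representation.Equiv.mk
    ((MulEquiv.toAdditive (Units.mapEquiv φ.toMulEquiv)).toIntLinearEquiv) (fun σ => by
      ext x
      change Additive.ofMul (Units.map (φ : L →* L') (Units.map (σ : L →* L)
          (Additive.toMul (α := Lˣ) x))) =
        Additive.ofMul (Units.map ((AlgEquiv.autCongr φ σ : L' ≃ₐ[K] L') : L' →* L')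
          (Units.map (φ : L →* L') (Additive.toMul (α := Lˣ) x)))
      congr 1
      ext
      change φ (σ _) = φ (σ (φ.symm (φ _)))
      rw [AlgEquiv.symm_apply_apply]))⟩

/-- If `L` is a splitting field of the zero polynomial then it is a splitting field of `1`. -/
theorem isSplittingField_one_of_zero {K L : Type} [Field K] [Field L] [Algebra K L]
    (h : IsSplittingField K L (0 : K[X])) : IsSplittingField K L (1 : K[X]) where
  splits' := by
    rw [Polynomial.map_one]
    exact Polynomial.Splits.one
  adjoin_rootSet' := by
    have := h.adjoin_rootSet'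
    rwa [Polynomial.rootSet_zero, ← Polynomial.rootSet_one (S := L) (T := K)] at this

/-- A cyclotomic extension of a finite Galois extension is Galois over the base
(characteristic zero). -/
theorem isGalois_cyclotomicField {K L : Type} [Field K] [Field L] [Algebra K L]
    [FiniteDimensional K L] [IsGalois K L] [CharZero K] (N : ℕ) [NeZero N] :
    IsGalois K (CyclotomicField N L) := by
  have : CharZero L := charZero_of_injective_algebraMap (algebraMap K L).injective
  -- `L` is the splitting field over `K` of a nonzero polynomial `f`
  obtain ⟨f, hf0, hf⟩ : ∃ f : K[X], f ≠ 0 ∧ IsSplittingField K L f := by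
    obtain ⟨f, hf⟩ := Normal.exists_isSplittingField K L
    by_cases h0 : f = 0
    · subst h0
      exact ⟨1, one_ne_zero, isSplittingField_one_of_zero hf⟩
    · exact ⟨f, h0, hf⟩
  have hg0 : (X ^ N - 1 : K[X]) ≠ 0 := by
    have := (monic_X_pow_sub_C (1 : K) (NeZero.ne N)).ne_zero
    simpa using this
  have : IsSplittingField L (CyclotomicField N L)
      ((X ^ N - 1 : K[X]).map (algebraMap K L)) := by
    have h := IsCyclotomicExtension.isSplittingField_X_pow_sub_one N L (CyclotomicField N L)
    have e : (X ^ N - 1 : K[X]).map (algebraMap K L) = X ^ N - 1 := by simp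
    rw [e]
    exact h
  have := hf
  have : IsSplittingField K (CyclotomicField N L) (f * (X ^ N - 1)) :=
    IsSplittingField.mul (F := K) (K := L) (CyclotomicField N L) f (X ^ N - 1) hf0 hg0
  have hnorm : Normal K (CyclotomicField N L) :=
    Normal.of_isSplittingField (f * (X ^ N - 1))
  have : Algebra.IsAlgebraic K (CyclotomicField N L) := hnorm.toIsAlgebraic
  exact IsGalois.mk

end Fermat.Agent.CFT.Local.BrauerAux
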