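import Fermat.Agent.CFT.Local.BrauerAbs
import Fermat.Agent.S55.CycH2.H2Maps

/-!
# Local Brauer groups: the comparison lemma with an explicit cyclic class

Finite-level, purely group-cohomological form of "every class of `H²(L/E, Lˣ)` becomes an
unramified cyclic class".  `G` is a finite group (think `Gal(M/E)`), `N₁, N₂` normal subgroups
(`Gal(M/L)`, `Gal(M/Eₙ)`) such that

* `G ⧸ N₂` is cyclic, generated by the image of `s` (Frobenius of `Eₙ/E`), of order `n`;
* `N₁` is cyclic, generated by `t` (Frobenius of `M/L`), and `t ≡ s ^ d` modulo `N₂` with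
  `d * |N₁| = n`;
* `H¹(N₁, A) = H¹(N₂, A) = 0` (Hilbert 90);
* `|H²(G ⧸ N₁, A^N₁)| ≤ n`;
* `a ∈ A^G` has order `n` modulo norms from `A^N₂` (`a = π_E`, norms have valuation in `nℤ`);
* `a` is a norm from `A` for the group `N₁` (`π_E` is a norm from `M` to `L`).

Then `H²(G ⧸ N₁, A^N₁)` has order exactly `n`, and the inflation of each of its classes to `G` is
a multiple of the inflation of the cyclic class `[cyc s̄ a] ∈ H²(G ⧸ N₂, A^N₂)`.
-/

set_option autoImplicit false

universe u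

open CategoryTheory groupCohomology Finset

namespace Fermat.Agent.CFT.Local.BrauerCyc

open Fermat.Agent.S55.GrpCoh Fermat.Agent.S55.CycH2

variable {k G : Type u} [CommRing k] [Group G] [Fintype G]

/-- The restriction to a cyclic normal subgroup `N₁ = ⟨t⟩` of the inflation of the cyclic class
`[cyc s̄ a]` of `G ⧸ N₂` vanishes as soon as `a` is a norm for `N₁`. -/
theorem rest_infl_cyc_eq_zero (A : Rep.{u} k G) (N₁ N₂ : Subgroup G) [N₂.Normal]
    [Fintype N₁] [Fintype (G ⧸ N₂)]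
    (s : G) (hsQ : ∀ x : G ⧸ N₂, x ∈ Subgroup.zpowers (QuotientGroup.mk s : G ⧸ N₂))
    (t : N₁) (ht : ∀ x : N₁, x ∈ Subgroup.zpowers t) (d : ℕ)
    (hd : (QuotientGroup.mk (t : G) : G ⧸ N₂) = (QuotientGroup.mk s : G ⧸ N₂) ^ d)
    (hdn : d * orderOf t = orderOf (QuotientGroup.mk s : G ⧸ N₂))
    (a : A.quotientToInvariants N₂) (ha : ∀ q, (A.quotientToInvariants N₂).ρ q a = a)
    (hnorm : ∃ c : A, a.1 = ∑ h : N₁, A.ρ (h : G) c) :
    rest A N₁ 2 (infl A N₂ 2 (H2π (A.quotientToInvariants N₂)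
      ⟨cyc (A.quotientToInvariants N₂) (QuotientGroup.mk s : G ⧸ N₂) a,
        cyc_mem_cocycles₂ (A.quotientToInvariants N₂) _ hsQ a ha⟩)) = 0 := by
  set sb : G ⧸ N₂ := QuotientGroup.mk s with hsb
  have hnpos : 0 < orderOf sb := orderOf_pos sb
  have ha' : ∀ g, A.ρ g a.1 = a.1 := invariant_of_quotient A N₂ a ha
  have e1 := H2π_comp_map_apply (A := A.quotientToInvariants N₂) (B := A) (QuotientGroup.mk' N₂)
    (Rep.ofHom <| A.ρ.quotientToInvariants_lift N₂)
    ⟨cyc (A.quotientToInvariants N₂) sb a, cyc_mem_cocycles₂ (A.quotientToInvariants N₂) _ hsQ a ha⟩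
  rw [e1]
  have e2 := H2π_comp_map_apply (A := A) (B := Rep.res N₁.subtype A) N₁.subtype
    (𝟙 (Rep.res N₁.subtype A))
    (mapCocycles₂ (QuotientGroup.mk' N₂) (Rep.ofHom <| A.ρ.quotientToInvariants_lift N₂)
      ⟨cyc (A.quotientToInvariants N₂) sb a,
        cyc_mem_cocycles₂ (A.quotientToInvariants N₂) _ hsQ a ha⟩)
  rw [e2]
  set f := mapCocycles₂ N₁.subtype (𝟙 (Rep.res N₁.subtype A))
    (mapCocycles₂ (QuotientGroup.mk' N₂) (Rep.ofHom <| A.ρ.quotientToInvariants_lift N₂)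
      ⟨cyc (A.quotientToInvariants N₂) sb a,
        cyc_mem_cocycles₂ (A.quotientToInvariants N₂) _ hsQ a ha⟩) with hf
  -- the explicit formula for `f`
  have hfval : ∀ h h' : N₁, (f : N₁ × N₁ → Rep.res N₁.subtype A) (h, h') =
      ((idx sb (QuotientGroup.mk (h : G)) + idx sb (QuotientGroup.mk (h' : G))) / orderOf sb) • a.1 := by
    intro h h'
    rfl
  obtain ⟨a', ha'inv, ha'eq, hcob⟩ :=
    exists_sub_cyc_mem_coboundaries₂ (Rep.res N₁.subtype A) t ht f f.2
  have hcls : H2π (Rep.res N₁.subtype A) f = H2π (Rep.res N₁.subtype A)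
      ⟨cyc (Rep.res N₁.subtype A) t a', cyc_mem_cocycles₂ _ t ht a' ha'inv⟩ :=
    (H2π_eq_iff _ _).2 hcob
  rw [hcls, H2π_cyc_eq_zero_iff (Rep.res N₁.subtype A) t ht a' ha'inv]
  -- compute `a'`
  have hdpos : 0 < d := by
    rcases Nat.eq_zero_or_pos d with h0 | h0
    · rw [h0, zero_mul] at hdn
      exact absurd hdn.symm hnpos.ne'
    · exact h0
  have htpow : ∀ i : ℕ, (QuotientGroup.mk ((t ^ i : N₁) : G) : G ⧸ N₂) = sb ^ (d * i) := by
    intro i
    rw [Subgroup.coe_pow, QuotientGroup.mk_pow, hd, ← pow_mul]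
  have hterm : ∀ i ∈ range (orderOf t),
      (f : N₁ × N₁ → Rep.res N₁.subtype A) (t ^ i, t) =
        (if i + 1 = orderOf t ∧ 2 ≤ orderOf t then a.1 else 0) := by
    intro i hi
    rw [mem_range] at hi
    have h1 : idx sb (QuotientGroup.mk ((t ^ i : N₁) : G)) = d * i := by
      rw [htpow, idx_pow sb hsQ]
      exact Nat.mod_eq_of_lt (by rw [← hdn]; exact Nat.mul_lt_mul_of_pos_left hi hdpos)
    have h2 : idx sb (QuotientGroup.mk ((t : N₁) : G)) = d % orderOf sb := by
      rw [hd, idx_pow sb hsQ]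
    rw [hfval, h1, h2]
    by_cases h2t : 2 ≤ orderOf t
    · have hdlt : d < orderOf sb := by
        rw [← hdn]
        calc d = d * 1 := (mul_one d).symm
          _ < d * orderOf t := Nat.mul_lt_mul_of_pos_left (by omega) hdpos
      rw [Nat.mod_eq_of_lt hdlt]
      by_cases hlast : i + 1 = orderOf t
      · rw [if_pos ⟨hlast, h2t⟩]
        have : d * i + d = orderOf sb := by rw [← hdn, ← hlast]; ring
        rw [this, Nat.div_self hnpos, one_smul]
      · rw [if_neg (fun h => hlast h.1)]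
        have : d * i + d < orderOf sb := by
          rw [← hdn]
          calc d * i + d = d * (i + 1) := by ring
            _ < d * orderOf t := Nat.mul_lt_mul_of_pos_left (by omega) hdpos
        rw [Nat.div_eq_of_lt this, zero_smul]
    · rw [if_neg (fun h => h2t h.2)]
      have ht1 : orderOf t = 1 := by have := orderOf_pos t; omega
      have hi0 : i = 0 := by omega
      have hdn' : d = orderOf sb := by rw [← hdn, ht1, mul_one]
      rw [hi0, hdn', Nat.mod_self, mul_zero, add_zero, Nat.zero_div, zero_smul]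
  rw [sum_congr rfl hterm] at ha'eq
  by_cases h2t : 2 ≤ orderOf t
  · have hsum : (∑ i ∈ range (orderOf t),
        (if i + 1 = orderOf t ∧ 2 ≤ orderOf t then (a.1 : A) else 0)) = a.1 := by
      rw [sum_eq_single (orderOf t - 1)]
      · rw [if_pos ⟨by omega, h2t⟩]
      · intro b _ hb
        rw [if_neg (fun h => hb (by omega))]
      · intro h
        exact absurd (mem_range.2 (by omega)) h
    obtain ⟨c, hc⟩ := hnorm
    refine ⟨c, ?_⟩
    rw [ha'eq]
    exact hsum.trans hc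
  · refine ⟨0, ?_⟩
    rw [ha'eq]
    simp only [map_zero, sum_const_zero]
    exact sum_eq_zero fun i _ => if_neg (fun h => h2t h.2)

/-- **Comparison lemma with an explicit cyclic class.**  See the module docstring. -/
theorem exists_nsmul_infl_cyc_eq (A : Rep.{u} k G) (N₁ N₂ : Subgroup G) [N₁.Normal] [N₂.Normal]
    [Fintype N₁] [Fintype (G ⧸ N₂)]
    (s : G) (hsQ : ∀ x : G ⧸ N₂, x ∈ Subgroup.zpowers (QuotientGroup.mk s : G ⧸ N₂))
    (t : N₁) (ht : ∀ x : N₁, x ∈ Subgroup.zpowers t) (d : ℕ)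
    (hd : (QuotientGroup.mk (t : G) : G ⧸ N₂) = (QuotientGroup.mk s : G ⧸ N₂) ^ d)
    (hdn : d * orderOf t = orderOf (QuotientGroup.mk s : G ⧸ N₂))
    (a : A.quotientToInvariants N₂) (ha : ∀ q, (A.quotientToInvariants N₂).ρ q a = a)
    (h1 : VanishOn A N₁ 1) (h2 : VanishOn A N₂ 1)
    (hcard : Finite (groupCohomology (A.quotientToInvariants N₁) 2) ∧
      Nat.card (groupCohomology (A.quotientToInvariants N₁) 2) ≤
        orderOf (QuotientGroup.mk s : G ⧸ N₂))
    (hord : ∀ m : ℕ, 0 < m → m < orderOf (QuotientGroup.mk s : G ⧸ N₂) →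
      ¬ ∃ c : A.quotientToInvariants N₂,
        m • a = ∑ q : G ⧸ N₂, (A.quotientToInvariants N₂).ρ q c)
    (hnorm : ∃ c : A, a.1 = ∑ h : N₁, A.ρ (h : G) c) :
    Nat.card (groupCohomology (A.quotientToInvariants N₁) 2) =
        orderOf (QuotientGroup.mk s : G ⧸ N₂) ∧
    ∀ b : groupCohomology (A.quotientToInvariants N₁) 2,
      ∃ m : ℕ, m < orderOf (QuotientGroup.mk s : G ⧸ N₂) ∧
        infl A N₁ 2 b = m • infl A N₂ 2 (H2π (A.quotientToInvariants N₂)
          ⟨cyc (A.quotientToInvariants N₂) (QuotientGroup.mk s : G ⧸ N₂) a,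
            cyc_mem_cocycles₂ (A.quotientToInvariants N₂) _ hsQ a ha⟩) := by
  refine BrauerAbs.exists_nsmul_infl_eq A N₁ N₂ _ h1 h2 hcard _ ?_
    (rest_infl_cyc_eq_zero A N₁ N₂ s hsQ t ht d hd hdn a ha hnorm)
  intro m hm hmn h0
  apply hord m hm hmn
  have hinv : ∀ q, (A.quotientToInvariants N₂).ρ q (m • a) = m • a := fun q => by
    rw [map_nsmul, ha q]
  have hcl : m • H2π (A.quotientToInvariants N₂)
      ⟨cyc (A.quotientToInvariants N₂) (QuotientGroup.mk s : G ⧸ N₂) a,
        cyc_mem_cocycles₂ (A.quotientToInvariants N₂) _ hsQ a ha⟩ =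
      H2π (A.quotientToInvariants N₂)
      ⟨cyc (A.quotientToInvariants N₂) (QuotientGroup.mk s : G ⧸ N₂) (m • a),
        cyc_mem_cocycles₂ (A.quotientToInvariants N₂) _ hsQ (m • a) hinv⟩ := by
    rw [← map_nsmul]
    congr 1
    apply Subtype.ext
    exact (cyc_nsmul (A.quotientToInvariants N₂) _ m a).symm
  rw [hcl] at h0
  exact (H2π_cyc_eq_zero_iff (A.quotientToInvariants N₂) _ hsQ (m • a) hinv).1 h0

end Fermat.Agent.CFT.Local.BrauerCyc
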