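import Fermat.Agent.CFT.Local.BrauerCyc

/-!
# Local Brauer groups: cyclicity from the comparison lemma

`BrauerCyc.exists_nsmul_infl_cyc_eq` shows that the inflation of every class of
`H²(G ⧸ N₁, A^N₁)` is a multiple of one fixed class of `H²(G, A)`.  Since inflation is injective
(Hilbert 90 for `N₁`), the group `H²(G ⧸ N₁, A^N₁)` embeds into a cyclic group and is therefore
cyclic.  Together with the cardinality statement this is the finite-level form of
"`Br(L/E)` is cyclic of order `[L : E]`".
-/

set_option autoImplicit false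

universe u

namespace Fermat.Agent.CFT.Local.BrauerCyc

open CategoryTheory groupCohomology Fermat.Agent.S55.GrpCoh Fermat.Agent.S55.CycH2

variable {k G : Type u} [CommRing k] [Group G]

/-- An additive group all of whose elements are mapped, by an injective additive map, to
natural multiples of one fixed element is cyclic. -/
theorem isAddCyclic_of_injective_of_forall_nsmul {X Y : Type*} [AddCommGroup X] [AddCommGroup Y]
    (f : X →+ Y) (hf : Function.Injective f) (y : Y) (h : ∀ x : X, ∃ m : ℕ, f x = m • y) :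
    IsAddCyclic X := by
  have hmem : ∀ x : X, f x ∈ AddSubgroup.zmultiples y := by
    intro x
    obtain ⟨m, hm⟩ := h x
    rw [hm]
    exact AddSubgroup.nsmul_mem _ (AddSubgroup.mem_zmultiples y) m
  let g : X →+ AddSubgroup.zmultiples y := f.codRestrict (AddSubgroup.zmultiples y) hmem
  have hg : Function.Injective g := by
    intro a b hab
    apply hf
    exact congrArg Subtype.val hab
  exact isAddCyclic_of_injective g hg

/-- If inflation from `G ⧸ N` is injective in degree `2` (e.g. `H¹(N, A) = 0`) and the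
inflation of every class is a multiple of one class `y`, then `H²(G ⧸ N, A^N)` is cyclic. -/
theorem isAddCyclic_H2_of_infl_nsmul (A : Rep.{u} k G) (N : Subgroup G) [N.Normal]
    (h1 : VanishOn A N 1) (y : groupCohomology A 2)
    (h : ∀ b : groupCohomology (A.quotientToInvariants N) 2, ∃ m : ℕ, infl A N 2 b = m • y) :
    IsAddCyclic (groupCohomology (A.quotientToInvariants N) 2) := by
  have hvan1 : ∀ i, 1 ≤ i → i < 2 → VanishOn A N i := by
    intro i hi hi2
    obtain rfl : i = 1 := by omega
    exact h1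
  have hinj := infl_injective A N 2 (by norm_num) hvan1
  exact isAddCyclic_of_injective_of_forall_nsmul
    (infl A N 2).hom.toAddMonoidHom hinj y h

variable [Fintype G]

/-- **Finite-level local Brauer group: cyclic of the expected order.**  Under the hypotheses of
`exists_nsmul_infl_cyc_eq`, the group `H²(G ⧸ N₁, A^N₁)` is cyclic of order
`n = orderOf (s mod N₂)`. -/
theorem isAddCyclic_and_card_eq (A : Rep.{u} k G) (N₁ N₂ : Subgroup G) [N₁.Normal] [N₂.Normal]
    [Fintype N₁] [Fintype (G ⧸ N₂)]
    (s : G) (hsQ : ∀ x : G ⧸ N₂, x ∈ Subgroup.zpowers (QuotientGroup.mk s : G ⧸ N₂))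
    (t : N₁) (ht : ∀ x : N₁, x ∈ Subgroup.zpowers t) (d : ℕ)
    (hd : (QuotientGroup.mk (t : G) : G ⧸ N₂) = (QuotientGroup.mk s : G ⧸ N₂) ^ d)
    (hdn : d * orderOf t = orderOf (QuotientGroup.mk s : G ⧸ N₂))
    (a : A.quotientToInvariants N₂) (ha : ∀ q, (A.quotientToInvariants N₂).ρ q a = a)
    (h1 : VanishOn A N₁ 1) (h2 : VanishOn A N₂ 1)
    (hcard : Finite (groupCohomology (A.quotientToInvariants N₁) 2) ∧
      Nat.card (groupCohomology (A.quotientToInvariants N₁) 2) ≤
        orderOf (QuotientGroup.mk s : G ⧸ N₂))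
    (hord : ∀ m : ℕ, 0 < m → m < orderOf (QuotientGroup.mk s : G ⧸ N₂) →
      ¬ ∃ c : A.quotientToInvariants N₂,
        m • a = ∑ q : G ⧸ N₂, (A.quotientToInvariants N₂).ρ q c)
    (hnorm : ∃ c : A, a.1 = ∑ h : N₁, A.ρ (h : G) c) :
    IsAddCyclic (groupCohomology (A.quotientToInvariants N₁) 2) ∧
      Nat.card (groupCohomology (A.quotientToInvariants N₁) 2) =
        orderOf (QuotientGroup.mk s : G ⧸ N₂) := by
  obtain ⟨hc, hb⟩ := exists_nsmul_infl_cyc_eq A N₁ N₂ s hsQ t ht d hd hdn a ha h1 h2 hcard
    hord hnorm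
  have hb' : ∀ b : groupCohomology (A.quotientToInvariants N₁) 2, ∃ m : ℕ,
      infl A N₁ 2 b = m • infl A N₂ 2 (H2π (A.quotientToInvariants N₂)
        ⟨cyc (A.quotientToInvariants N₂) (QuotientGroup.mk s : G ⧸ N₂) a,
          cyc_mem_cocycles₂ (A.quotientToInvariants N₂) _ hsQ a ha⟩) := by
    intro b
    obtain ⟨m, _, hm⟩ := hb b
    exact ⟨m, hm⟩
  exact ⟨isAddCyclic_H2_of_infl_nsmul A N₁ h1 _ hb', hc⟩

end Fermat.Agent.CFT.Local.BrauerCyc
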