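import Fermat.Agent.CFT.Local.UnitsUnram
import Fermat.Agent.CFT.Local.NormedLocal

/-!
# CFT / Local — units are norms in unramified extensions of local fields

Instantiation of `UnitsUnram` (abstract complete DVR form) in the normed-field vocabulary of
`NormedLocal`: `K` a local field (`NontriviallyNormedField`, ultrametric, proper), `L / K` a finite
Galois normed extension with cyclic group `⟨σ⟩` and ramification index `1`. Then

* `exists_norm_eq_of_unramified`: every `u : K` with `‖u‖ = 1` is `Algebra.norm K y`, `‖y‖ = 1`;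
* `exists_smul_eq_mul_of_norm_eq_one_of_unramified`: every `y : L` with `‖y‖ = 1` and norm `1` is
  `σ z / z` with `‖z‖ = 1`;
* `inertia_eq_bot`: the inertia group of an unramified extension is trivial (Mathlib's
  `Ideal.card_inertia_eq_ramificationIdxIn`);
* `unramData_of_ramificationIdx_eq_one`: the `UnramData` consumed by `UnitsUnram`.
-/

set_option autoImplicit false
set_option linter.unusedSectionVars false

namespace Fermat.Agent.CFT.Local.UnitCoh

open scoped NormedField Valued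
open IsLocalRing Fermat.Agent.CFT.Local.NormedLocal

section Normed

variable (K : Type*) [NontriviallyNormedField K] [IsUltrametricDist K] [ProperSpace K]
variable (L : Type*) [NontriviallyNormedField L] [IsUltrametricDist L] [NormedAlgebra K L]
  [FiniteDimensional K L] [IsGalois K L]

/-- The Galois action on the integers of `L`. -/
noncomputable abbrev galActInteger : MulSemiringAction Gal(L/K) 𝒪[L] :=
  IsIntegralClosure.MulSemiringAction 𝒪[K] K L 𝒪[L]

attribute [local instance] galActInteger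

lemma coe_galAct (τ : Gal(L/K)) (x : 𝒪[L]) : ((τ • x : 𝒪[L]) : L) = τ (x : L) :=
  algebraMap_galRestrict_apply 𝒪[K] τ x

lemma isGaloisGroup_integer : IsGaloisGroup Gal(L/K) 𝒪[K] 𝒪[L] :=
  have : Algebra.IsIntegral 𝒪[K] 𝒪[L] := IsIntegralClosure.isIntegral_algebra 𝒪[K] L
  IsGaloisGroup.of_isFractionRing Gal(L/K) 𝒪[K] 𝒪[L] K L

/-- In an unramified extension the inertia group is trivial. -/
lemma inertia_eq_bot (he : (𝓂[L]).ramificationIdx 𝒪[K] = 1) :
    (𝓂[L] : Ideal 𝒪[L]).toAddSubgroup.inertia Gal(L/K) = ⊥ := by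
  have := isGaloisGroup_integer K L
  have := finite_integer K L
  have := free_integer K L
  have h := Ideal.card_inertia_eq_ramificationIdxIn (G := Gal(L/K)) (𝓂[K]) (𝓂[L])
  rw [Ideal.ramificationIdxIn_eq_ramificationIdx (𝓂[K]) (𝓂[L]) Gal(L/K), he] at h
  exact Subgroup.eq_bot_of_card_eq _ h

variable {L} in
/-- An element of norm one, as a unit of the ring of integers. -/
noncomputable def unitOfNormOne (x : L) (hx : ‖x‖ = 1) : 𝒪[L]ˣ where
  val := ⟨x, Valued.integer.mem_iff.mpr hx.le⟩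
  inv := ⟨x⁻¹, Valued.integer.mem_iff.mpr (by rw [norm_inv, hx, inv_one])⟩
  val_inv := by
    have hx0 : x ≠ 0 := fun h => by simp [h] at hx
    exact Subtype.ext (mul_inv_cancel₀ hx0)
  inv_val := by
    have hx0 : x ≠ 0 := fun h => by simp [h] at hx
    exact Subtype.ext (inv_mul_cancel₀ hx0)

variable {L} in
@[simp] lemma coe_unitOfNormOne (x : L) (hx : ‖x‖ = 1) :
    (((unitOfNormOne x hx : 𝒪[L]ˣ) : 𝒪[L]) : L) = x := rfl

/-- The `UnramData` of an unramified cyclic extension of local fields. -/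
lemma unramData_of_ramificationIdx_eq_one (σ : Gal(L/K)) (hσ : ∀ τ, τ ∈ Subgroup.zpowers σ)
    (he : (𝓂[L]).ramificationIdx 𝒪[K] = 1) {ϖK : 𝒪[K]} (hK : Irreducible ϖK) :
    UnramData σ (algebraMap 𝒪[K] 𝒪[L] ϖK) := by
  have : ProperSpace L := FiniteDimensional.proper K L
  obtain ⟨ϖL, hL⟩ := IsDiscreteValuationRing.exists_irreducible 𝒪[L]
  have hnorm : ‖((algebraMap 𝒪[K] 𝒪[L] ϖK : 𝒪[L]) : L)‖ = ‖(ϖL : L)‖ := by
    have h1 : ‖((algebraMap 𝒪[K] 𝒪[L] ϖK : 𝒪[L]) : L)‖ = ‖(ϖK : K)‖ := by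
      change ‖algebraMap K L (ϖK : K)‖ = _
      exact norm_algebraMap' L (ϖK : K)
    rw [h1, norm_irreducible_eq_pow hK hL, he, pow_one]
  have hL0 : (ϖL : L) ≠ 0 := fun h => hL.ne_zero (Subtype.ext h)
  have hϖ0 : ((algebraMap 𝒪[K] 𝒪[L] ϖK : 𝒪[L]) : L) ≠ 0 := by
    intro h
    rw [h, norm_zero] at hnorm
    exact hL0 (norm_eq_zero.mp hnorm.symm)
  refine ⟨hσ, ?_, fun h => hϖ0 (congrArg Subtype.val h), ?_, ?_⟩
  · -- the maximal ideal is generated by the uniformiser of `K`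
    rw [hL.maximalIdeal_eq]
    apply le_antisymm
    · rw [Ideal.span_singleton_le_iff_mem, Ideal.mem_span_singleton]
      refine ⟨⟨(ϖL : L) / ((algebraMap 𝒪[K] 𝒪[L] ϖK : 𝒪[L]) : L), Valued.integer.mem_iff.mpr ?_⟩,
        Subtype.ext ?_⟩
      · rw [norm_div, hnorm, div_self (norm_ne_zero_iff.mpr hL0)]
      · change (ϖL : L) = ((algebraMap 𝒪[K] 𝒪[L] ϖK : 𝒪[L]) : L) *
          ((ϖL : L) / ((algebraMap 𝒪[K] 𝒪[L] ϖK : 𝒪[L]) : L))
        field_simp
    · rw [Ideal.span_singleton_le_iff_mem, Ideal.mem_span_singleton]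
      refine ⟨⟨((algebraMap 𝒪[K] 𝒪[L] ϖK : 𝒪[L]) : L) / (ϖL : L), Valued.integer.mem_iff.mpr ?_⟩,
        Subtype.ext ?_⟩
      · rw [norm_div, hnorm, div_self (norm_ne_zero_iff.mpr hL0)]
      · change ((algebraMap 𝒪[K] 𝒪[L] ϖK : 𝒪[L]) : L) = (ϖL : L) *
          (((algebraMap 𝒪[K] 𝒪[L] ϖK : 𝒪[L]) : L) / (ϖL : L))
        field_simp
  · intro τ
    apply Subtype.ext
    rw [coe_galAct]
    change τ (algebraMap K L (ϖK : K)) = algebraMap K L (ϖK : K)
    exact τ.commutes _
  · intro τ hτ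
    have hmem : τ ∈ (𝓂[L] : Ideal 𝒪[L]).toAddSubgroup.inertia Gal(L/K) := by
      intro x
      change τ • x - x ∈ 𝓂[L]
      rw [← residue_eq_zero_iff, map_sub, ResidueField.residue_smul, hτ, sub_self]
    rw [inertia_eq_bot K L he] at hmem
    exact Subgroup.mem_bot.mp hmem

/-- **Units are norms in unramified extensions of local fields.** -/
theorem exists_norm_eq_of_unramified (σ : Gal(L/K)) (hσ : ∀ τ, τ ∈ Subgroup.zpowers σ)
    (he : (𝓂[L]).ramificationIdx 𝒪[K] = 1) (u : K) (hu : ‖u‖ = 1) :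
    ∃ y : L, ‖y‖ = 1 ∧ Algebra.norm K y = u := by
  have : ProperSpace L := FiniteDimensional.proper K L
  obtain ⟨ϖK, hK⟩ := IsDiscreteValuationRing.exists_irreducible 𝒪[K]
  have D := unramData_of_ramificationIdx_eq_one K L σ hσ he hK
  have hu' : ‖algebraMap K L u‖ = 1 := by rw [norm_algebraMap', hu]
  obtain ⟨y, hy⟩ := D.exists_prod_smul_eq_of_fixed (unitOfNormOne (algebraMap K L u) hu')
    (fun τ => Subtype.ext (by rw [coe_galAct, coe_unitOfNormOne]; exact τ.commutes u))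
  refine ⟨((y : 𝒪[L]) : L), Valued.integer.norm_coe_unit y, ?_⟩
  apply (algebraMap K L).injective
  rw [Algebra.norm_eq_prod_automorphisms]
  have h := congrArg (fun z : 𝒪[L] => (z : L)) hy
  simp only [coe_unitOfNormOne] at h
  rw [← h]
  change _ = (𝒪[L] : Subring L).subtype (∏ τ : Gal(L/K), τ • (y : 𝒪[L]))
  rw [map_prod]
  exact Finset.prod_congr rfl (fun τ _ => (coe_galAct K L τ y).symm)

/-- **Hilbert 90 for units in unramified extensions of local fields.** -/
theorem exists_smul_eq_mul_of_norm_eq_one_of_unramified (σ : Gal(L/K))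
    (hσ : ∀ τ, τ ∈ Subgroup.zpowers σ) (he : (𝓂[L]).ramificationIdx 𝒪[K] = 1) (y : L)
    (hy : ‖y‖ = 1) (hN : Algebra.norm K y = 1) : ∃ z : L, ‖z‖ = 1 ∧ σ z = y * z := by
  have : ProperSpace L := FiniteDimensional.proper K L
  obtain ⟨ϖK, hK⟩ := IsDiscreteValuationRing.exists_irreducible 𝒪[K]
  have D := unramData_of_ramificationIdx_eq_one K L σ hσ he hK
  have hprod : ∏ τ : Gal(L/K), τ • ((unitOfNormOne y hy : 𝒪[L]ˣ) : 𝒪[L]) = 1 := by
    apply Subtype.ext
    change (𝒪[L] : Subring L).subtype (∏ τ : Gal(L/K), τ • ((unitOfNormOne y hy : 𝒪[L]ˣ) : 𝒪[L]))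
      = 1
    rw [map_prod]
    have h1 : ∀ τ : Gal(L/K), (𝒪[L] : Subring L).subtype (τ • ((unitOfNormOne y hy : 𝒪[L]ˣ) : 𝒪[L]))
        = τ y := fun τ => coe_galAct K L τ _
    simp only [h1]
    rw [← Algebra.norm_eq_prod_automorphisms, hN, map_one]
  obtain ⟨z, hz⟩ := D.exists_smul_eq_mul_of_prod_eq_one' (unitOfNormOne y hy) hprod
  refine ⟨((z : 𝒪[L]) : L), Valued.integer.norm_coe_unit z, ?_⟩
  have h := congrArg (fun w : 𝒪[L] => (w : L)) hz
  simpa [coe_galAct] using h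

end Normed

end Fermat.Agent.CFT.Local.UnitCoh
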