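import Mathlib
import Fermat.Agent.CFT.Local.NormedLocal

/-!
# Unramified extensions of local fields (normed-field form)

`K` is a local field in the sense of `NormedLocal` (proper ultrametric nontrivially normed field),
`Q = Nat.card 𝓀[K]`, and `L` is a finite normed extension of `K`.

* `integerRingHom`, `residueAlgHom`: a `K`-algebra endomorphism of `L` acts on `𝒪[L]` and on the
  residue field `𝓀[L]` (as a `𝓀[K]`-algebra map); `exists_frobenius_pow`: it acts on the residue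
  field as a power of the Frobenius `x ↦ x ^ Q`.
* If `L = K(ζ)` with `ζ` a primitive root of unity of order `Q ^ n - 1` (`0 < n`):
  `unramified_main` / `finrank_eq` (`[L : K] = n`), `ramificationIdx_eq_one`, `inertiaDeg_eq`,
  `isGalois_of_root`, `exists_frobenius` (a generator `φ` of the Galois group with
  `φ ζ = ζ ^ Q` and `φ x ≡ x ^ Q` modulo the maximal ideal), `isCyclic_of_root`,
  `eq_one_of_norm_sub_lt_one` (the Galois group acts faithfully on the residue field).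
* `irreducible_algebraMap_of_ramificationIdx_eq_one`: uniformizers stay uniformizers.
-/

set_option autoImplicit false

namespace Fermat.Agent.CFT.Local.Unramified

open scoped NNReal NormedField Valued
open IsLocalRing Fermat.Agent.CFT.Local.NormedLocal

section ResidueAction

variable {K : Type*} [NontriviallyNormedField K] [IsUltrametricDist K] [CompleteSpace K]
variable {L : Type*} [NontriviallyNormedField L] [IsUltrametricDist L] [NormedAlgebra K L]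
  [Algebra.IsAlgebraic K L]

/-- A `K`-algebra endomorphism of `L` restricted to the ring of integers. -/
noncomputable def integerRingHom (σ : L →ₐ[K] L) : 𝒪[L] →+* 𝒪[L] :=
  (σ : L →+* L).restrict 𝒪[L] 𝒪[L] (fun x hx => by
    rw [Valued.integer.mem_iff] at hx ⊢
    exact (norm_algHom_eq σ x).le.trans hx)

@[simp] lemma coe_integerRingHom (σ : L →ₐ[K] L) (x : 𝒪[L]) :
    ((integerRingHom σ x : 𝒪[L]) : L) = σ (x : L) := rfl

instance isLocalHom_integerRingHom (σ : L →ₐ[K] L) : IsLocalHom (integerRingHom σ) where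
  map_nonunit x hx := by
    rw [Valued.integer.isUnit_iff_norm_eq_one] at hx ⊢
    rw [← hx]
    exact (norm_algHom_eq σ (x : L)).symm

lemma integerRingHom_algebraMap (σ : L →ₐ[K] L) (x : 𝒪[K]) :
    integerRingHom σ (algebraMap 𝒪[K] 𝒪[L] x) = algebraMap 𝒪[K] 𝒪[L] x := by
  apply Subtype.ext
  change σ (algebraMap K L (x : K)) = algebraMap K L (x : K)
  exact σ.commutes _

/-- The induced endomorphism of the residue field, as an algebra map over the residue field of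
the base. -/
noncomputable def residueAlgHom (σ : L →ₐ[K] L) : 𝓀[L] →ₐ[𝓀[K]] 𝓀[L] :=
  { IsLocalRing.ResidueField.map (integerRingHom σ) with
    commutes' := by
      intro r
      obtain ⟨x, rfl⟩ := IsLocalRing.residue_surjective r
      change IsLocalRing.ResidueField.map (integerRingHom σ)
        (IsLocalRing.residue 𝒪[L] (algebraMap 𝒪[K] 𝒪[L] x)) =
          IsLocalRing.residue 𝒪[L] (algebraMap 𝒪[K] 𝒪[L] x)
      rw [IsLocalRing.ResidueField.map_residue, integerRingHom_algebraMap] }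

lemma residueAlgHom_residue (σ : L →ₐ[K] L) (x : 𝒪[L]) :
    residueAlgHom σ (IsLocalRing.residue 𝒪[L] x) = IsLocalRing.residue 𝒪[L] (integerRingHom σ x) :=
  IsLocalRing.ResidueField.map_residue _ _

omit [NormedAlgebra K L] [Algebra.IsAlgebraic K L] in
lemma residue_eq_iff_norm_sub_lt_one (x y : 𝒪[L]) :
    IsLocalRing.residue 𝒪[L] x = IsLocalRing.residue 𝒪[L] y ↔ ‖(x : L) - (y : L)‖ < 1 := by
  rw [← sub_eq_zero, ← map_sub, IsLocalRing.residue_eq_zero_iff, IsLocalRing.mem_maximalIdeal,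
    mem_nonunits_iff, Valued.integer.isUnit_iff_norm_eq_one]
  have h1 : ‖x - y‖ ≤ 1 := Valued.integer.norm_le_one (x - y)
  have h2 : ‖x - y‖ = ‖(x : L) - (y : L)‖ := rfl
  rw [← h2]
  exact ⟨fun h => lt_of_le_of_ne h1 h, fun h => h.ne⟩

end ResidueAction

section Frob

variable {K : Type*} [NontriviallyNormedField K] [IsUltrametricDist K] [ProperSpace K]
variable {L : Type*} [NontriviallyNormedField L] [IsUltrametricDist L] [NormedAlgebra K L]
  [FiniteDimensional K L]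

/-- Every `K`-algebra endomorphism of `L` induces a power of the Frobenius on the residue field. -/
theorem exists_frobenius_pow (σ : L →ₐ[K] L) :
    ∃ j : ℕ, ∀ x : 𝒪[L], ‖σ (x : L) - (x : L) ^ (Nat.card 𝓀[K] ^ j)‖ < 1 := by
  have : ProperSpace L := FiniteDimensional.proper K L
  let _ := Fintype.ofFinite 𝓀[K]
  obtain ⟨j, hj⟩ := (FiniteField.bijective_frobeniusAlgHom_pow 𝓀[K] 𝓀[L]).2 (residueAlgHom σ)
  refine ⟨j.1, fun x => ?_⟩
  have h1 := DFunLike.congr_fun hj (IsLocalRing.residue 𝒪[L] x)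
  simp only at h1
  rw [AlgHom.coe_pow, FiniteField.coe_frobeniusAlgHom, pow_iterate, residueAlgHom_residue] at h1
  have h1' : IsLocalRing.residue 𝒪[L] (x ^ (Fintype.card 𝓀[K] ^ j.1)) =
      IsLocalRing.residue 𝒪[L] (integerRingHom σ x) := by
    rw [map_pow]; exact h1
  have h2 := (residue_eq_iff_norm_sub_lt_one _ _).mp h1'.symm
  simpa [Nat.card_eq_fintype_card] using h2

end Frob

section Cyclotomic

variable {K : Type*} [NontriviallyNormedField K] [IsUltrametricDist K] [ProperSpace K]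
variable {L : Type*} [NontriviallyNormedField L] [IsUltrametricDist L] [NormedAlgebra K L]

variable (K) in
lemma one_lt_card_residueField : 1 < Nat.card 𝓀[K] := Finite.one_lt_card

variable (K) in
lemma norm_natCast_card_lt_one : ‖((Nat.card 𝓀[K] : ℕ) : K)‖ < 1 := by
  let _ := Fintype.ofFinite 𝓀[K]
  have h0 : ((Nat.card 𝓀[K] : ℕ) : 𝓀[K]) = 0 := by
    rw [Nat.card_eq_fintype_card]; exact Nat.cast_card_eq_zero _
  have h1 : ((Nat.card 𝓀[K] : ℕ) : 𝒪[K]) ∈ 𝓂[K] := by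
    rw [← IsLocalRing.residue_eq_zero_iff, map_natCast]; exact h0
  rw [IsLocalRing.mem_maximalIdeal, mem_nonunits_iff, Valued.integer.isUnit_iff_norm_eq_one] at h1
  have h2 : ‖((Nat.card 𝓀[K] : ℕ) : 𝒪[K])‖ ≤ 1 := Valued.integer.norm_le_one _
  have h3 : ‖((Nat.card 𝓀[K] : ℕ) : 𝒪[K])‖ = ‖((Nat.card 𝓀[K] : ℕ) : K)‖ := rfl
  rw [← h3]
  exact lt_of_le_of_ne h2 h1

variable (K L) in
lemma norm_natCast_pow_card_sub_one {n : ℕ} (hn : 0 < n) :
    ‖(((Nat.card 𝓀[K]) ^ n - 1 : ℕ) : L)‖ = 1 := by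
  have hQ : ‖((Nat.card 𝓀[K] : ℕ) : L)‖ < 1 := by
    rw [← map_natCast (algebraMap K L), norm_algebraMap']
    exact norm_natCast_card_lt_one K
  have h1 : 1 ≤ Nat.card 𝓀[K] ^ n := Nat.one_le_pow _ _ (by have := one_lt_card_residueField K; omega)
  rw [Nat.cast_sub h1, Nat.cast_pow, Nat.cast_one, sub_eq_add_neg]
  have h2 : ‖((Nat.card 𝓀[K] : ℕ) : L) ^ n‖ < 1 := by
    rw [norm_pow]
    exact pow_lt_one₀ (norm_nonneg _) hQ hn.ne'
  have h3 : ‖((Nat.card 𝓀[K] : ℕ) : L) ^ n‖ ≠ ‖(-1 : L)‖ := by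
    rw [norm_neg, norm_one]; exact h2.ne
  rw [IsUltrametricDist.norm_add_eq_max_of_norm_ne_norm h3, norm_neg, norm_one]
  exact max_eq_right h2.le

variable {n : ℕ} {ζ : L}

omit [NormedAlgebra K L] [IsUltrametricDist L] in
lemma norm_root_eq_one {m : ℕ} (hm : m ≠ 0) (hζ : ζ ^ m = 1) : ‖ζ‖ = 1 := by
  have h := congrArg norm hζ
  rw [norm_pow, norm_one] at h
  exact (pow_eq_one_iff_of_nonneg (norm_nonneg _) hm).mp h

lemma norm_one_sub_pow_eq_one (hn : 0 < n) (hζ : IsPrimitiveRoot ζ (Nat.card 𝓀[K] ^ n - 1))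
    {j : ℕ} (hj0 : 0 < j) (hj : j < Nat.card 𝓀[K] ^ n - 1) : ‖1 - ζ ^ j‖ = 1 := by
  obtain ⟨m', hm'⟩ : ∃ m', Nat.card 𝓀[K] ^ n - 1 = m' + 1 := ⟨Nat.card 𝓀[K] ^ n - 1 - 1, by omega⟩
  have hnorm := norm_natCast_pow_card_sub_one K L hn
  rw [hm'] at hζ hnorm hj
  have hprod := hζ.prod_one_sub_pow_eq_order
  have hζ1 : ‖ζ‖ = 1 := norm_root_eq_one (Nat.succ_ne_zero m') hζ.pow_eq_one
  have hle : ∀ k : ℕ, ‖1 - ζ ^ k‖ ≤ 1 := by
    intro k
    have := IsUltrametricDist.norm_add_le_max (1 : L) (-(ζ ^ k))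
    rw [norm_neg, norm_pow, hζ1, one_pow, norm_one, max_self, ← sub_eq_add_neg] at this
    exact this
  have hnp : ‖∏ k ∈ Finset.range m', (1 - ζ ^ (k + 1))‖ = 1 := by
    rw [hprod]
    have : ((m' : L) + 1) = ((m' + 1 : ℕ) : L) := by push_cast; rfl
    rw [this]; exact hnorm
  rw [norm_prod] at hnp
  by_contra hne
  have hlt : ‖1 - ζ ^ j‖ < 1 := lt_of_le_of_ne (hle j) hne
  obtain ⟨i, rfl⟩ : ∃ i, j = i + 1 := ⟨j - 1, by omega⟩
  have hi : i ∈ Finset.range m' := Finset.mem_range.mpr (by omega)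
  have h1 : ∏ k ∈ Finset.range m', ‖1 - ζ ^ (k + 1)‖ ≤ ‖1 - ζ ^ (i + 1)‖ := by
    rw [← Finset.mul_prod_erase _ _ hi]
    apply mul_le_of_le_one_right (norm_nonneg _)
    exact Finset.prod_le_one (fun k _ => norm_nonneg _) (fun k _ => hle _)
  linarith

lemma pow_eq_one_of_norm_lt (hn : 0 < n) (hζ : IsPrimitiveRoot ζ (Nat.card 𝓀[K] ^ n - 1))
    {j : ℕ} (h : ‖ζ ^ j - 1‖ < 1) : ζ ^ j = 1 := by
  have hm : 0 < Nat.card 𝓀[K] ^ n - 1 := by
    have h1 := one_lt_card_residueField K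
    have h2 : Nat.card 𝓀[K] ^ 1 ≤ Nat.card 𝓀[K] ^ n := Nat.pow_le_pow_right (by omega) hn
    rw [pow_one] at h2
    omega
  have h1 : ζ ^ j = ζ ^ (j % (Nat.card 𝓀[K] ^ n - 1)) := by
    conv_lhs => rw [← Nat.mod_add_div j (Nat.card 𝓀[K] ^ n - 1), pow_add, pow_mul, hζ.pow_eq_one,
      one_pow, mul_one]
  by_cases h0 : j % (Nat.card 𝓀[K] ^ n - 1) = 0
  · rw [h1, h0, pow_zero]
  · exfalso
    have h2 := norm_one_sub_pow_eq_one hn hζ (Nat.pos_of_ne_zero h0) (Nat.mod_lt _ hm)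
    rw [h1, ← norm_neg, neg_sub] at h
    linarith

lemma pow_eq_pow_of_norm_lt (hn : 0 < n) (hζ : IsPrimitiveRoot ζ (Nat.card 𝓀[K] ^ n - 1))
    {a b : ℕ} (h : ‖ζ ^ a - ζ ^ b‖ < 1) : ζ ^ a = ζ ^ b := by
  wlog hab : b ≤ a generalizing a b
  · exact (this (by rwa [norm_sub_rev]) (le_of_not_ge hab)).symm
  have hm : Nat.card 𝓀[K] ^ n - 1 ≠ 0 := by
    have h1 := one_lt_card_residueField K
    have h2 : Nat.card 𝓀[K] ^ 1 ≤ Nat.card 𝓀[K] ^ n := Nat.pow_le_pow_right (by omega) hn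
    rw [pow_one] at h2
    omega
  have hζ1 : ‖ζ‖ = 1 := norm_root_eq_one hm hζ.pow_eq_one
  have h1 : ζ ^ a - ζ ^ b = ζ ^ b * (ζ ^ (a - b) - 1) := by
    rw [mul_sub, ← pow_add, mul_one, Nat.add_sub_cancel' hab]
  rw [h1, norm_mul, norm_pow, hζ1, one_pow, one_mul] at h
  have h2 := pow_eq_one_of_norm_lt hn hζ h
  calc ζ ^ a = ζ ^ (b + (a - b)) := by rw [Nat.add_sub_cancel' hab]
    _ = ζ ^ b := by rw [pow_add, h2, mul_one]

variable [FiniteDimensional K L]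

/-- Every `K`-algebra endomorphism maps `ζ` to `ζ ^ (Q ^ j)` for some `j`. -/
theorem exists_map_root_eq_pow (hn : 0 < n) (hζ : IsPrimitiveRoot ζ (Nat.card 𝓀[K] ^ n - 1))
    (σ : L →ₐ[K] L) : ∃ j : ℕ, σ ζ = ζ ^ (Nat.card 𝓀[K] ^ j) := by
  have hm : Nat.card 𝓀[K] ^ n - 1 ≠ 0 := by
    have h1 := one_lt_card_residueField K
    have h2 : Nat.card 𝓀[K] ^ 1 ≤ Nat.card 𝓀[K] ^ n := Nat.pow_le_pow_right (by omega) hn
    rw [pow_one] at h2
    omega
  have : NeZero (Nat.card 𝓀[K] ^ n - 1) := ⟨hm⟩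
  obtain ⟨a, -, ha⟩ := hζ.eq_pow_of_pow_eq_one (ξ := σ ζ)
    (by rw [← map_pow, hζ.pow_eq_one, map_one])
  obtain ⟨j, hj⟩ := exists_frobenius_pow σ
  have hζO : ζ ∈ 𝒪[L] := Valued.integer.mem_iff.mpr (norm_root_eq_one hm hζ.pow_eq_one).le
  have h1 : ‖σ ζ - ζ ^ (Nat.card 𝓀[K] ^ j)‖ < 1 := hj ⟨ζ, hζO⟩
  rw [← ha] at h1 ⊢
  exact ⟨j, pow_eq_pow_of_norm_lt hn hζ h1⟩

omit [IsUltrametricDist K] [ProperSpace K] [IsUltrametricDist L] in
theorem isGalois_of_root {m : ℕ} (hm : m ≠ 0) (hζ : IsPrimitiveRoot ζ m)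
    (htop : IntermediateField.adjoin K {ζ} = ⊤) : IsGalois K L := by
  have : NeZero m := ⟨hm⟩
  have : IsCyclotomicExtension {m} K L := by
    rw [IsCyclotomicExtension.iff_singleton]
    refine ⟨⟨ζ, hζ⟩, fun x => ?_⟩
    have h1 : Algebra.adjoin K {ζ} = ⊤ := by
      rw [← IntermediateField.adjoin_simple_toSubalgebra_of_isAlgebraic
        (Algebra.IsAlgebraic.isAlgebraic ζ), htop]
      rfl
    have h2 : Algebra.adjoin K {ζ} ≤ Algebra.adjoin K {b : L | b ^ m = 1} :=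
      Algebra.adjoin_mono (by simpa using hζ.pow_eq_one)
    exact h2 (h1 ▸ Algebra.mem_top)
  exact IsCyclotomicExtension.isGalois {m} K L

omit [NormedAlgebra K L] [IsUltrametricDist L] [FiniteDimensional K L] in
lemma pow_card_pow_mod (hζ : IsPrimitiveRoot ζ (Nat.card 𝓀[K] ^ n - 1)) (j : ℕ) :
    ζ ^ (Nat.card 𝓀[K] ^ j) = ζ ^ (Nat.card 𝓀[K] ^ (j % n)) := by
  have h1 : 1 ≤ Nat.card 𝓀[K] ^ n := Nat.one_le_pow _ _ (by have := one_lt_card_residueField K; omega)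
  have hQn : ζ ^ (Nat.card 𝓀[K] ^ n) = ζ := by
    have : Nat.card 𝓀[K] ^ n = (Nat.card 𝓀[K] ^ n - 1) + 1 := by omega
    rw [this, pow_succ, hζ.pow_eq_one, one_mul]
  have hQnt : ∀ t : ℕ, ζ ^ ((Nat.card 𝓀[K] ^ n) ^ t) = ζ := by
    intro t
    induction t with
    | zero => simp
    | succ t ih => rw [pow_succ, pow_mul, ih, hQn]
  have e1 : Nat.card 𝓀[K] ^ j = (Nat.card 𝓀[K] ^ n) ^ (j / n) * Nat.card 𝓀[K] ^ (j % n) := by
    rw [← pow_mul, ← pow_add, Nat.div_add_mod]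
  rw [e1, pow_mul, hQnt]

/-- Main structure theorem for the unramified extension `L = K(ζ)`, `ζ` a primitive root of
unity of order `Q ^ n - 1`, `Q` the cardinality of the residue field of `K`. -/
theorem unramified_main (hn : 0 < n) (hζ : IsPrimitiveRoot ζ (Nat.card 𝓀[K] ^ n - 1))
    (htop : IntermediateField.adjoin K {ζ} = ⊤) :
    Module.finrank K L = n ∧ (𝓂[L]).ramificationIdx 𝒪[K] = 1 ∧ (𝓂[L]).inertiaDeg 𝒪[K] = n ∧
    ∃ φ : L ≃ₐ[K] L, φ ζ = ζ ^ Nat.card 𝓀[K] ∧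
      (∀ x : 𝒪[L], ‖φ (x : L) - (x : L) ^ Nat.card 𝓀[K]‖ < 1) ∧
      ∀ σ : L ≃ₐ[K] L, ∃ j : ℕ, j < n ∧ σ = φ ^ j := by
  have hQ := one_lt_card_residueField K
  have hm : Nat.card 𝓀[K] ^ n - 1 ≠ 0 := by
    have h2 : Nat.card 𝓀[K] ^ 1 ≤ Nat.card 𝓀[K] ^ n := Nat.pow_le_pow_right (by omega) hn
    rw [pow_one] at h2
    omega
  have hgal : IsGalois K L := isGalois_of_root hm hζ htop
  have hsep : Algebra.IsSeparable K L := hgal.to_isSeparable
  have hprop : ProperSpace L := FiniteDimensional.proper K L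
  have hcard : Nat.card (L ≃ₐ[K] L) = Module.finrank K L := IsGalois.card_aut_eq_finrank K L
  have hζ1 : ‖ζ‖ = 1 := norm_root_eq_one hm hζ.pow_eq_one
  have hζO : ζ ∈ 𝒪[L] := Valued.integer.mem_iff.mpr hζ1.le
  -- an automorphism is determined by its value on `ζ`
  have hext : ∀ σ τ : L ≃ₐ[K] L, σ ζ = τ ζ → σ = τ := by
    intro σ τ h
    have h1 : Algebra.adjoin K {ζ} = ⊤ := by
      rw [← IntermediateField.adjoin_simple_toSubalgebra_of_isAlgebraic
        (Algebra.IsAlgebraic.isAlgebraic ζ), htop]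
      rfl
    have h2 : (σ : L →ₐ[K] L) = (τ : L →ₐ[K] L) :=
      AlgHom.ext_of_adjoin_eq_top h1 (fun x hx => by
        rw [Set.mem_singleton_iff] at hx; subst hx; exact h)
    exact AlgEquiv.ext (fun x => DFunLike.congr_fun h2 x)
  -- every automorphism sends `ζ` to `ζ ^ (Q ^ j)` with `j < n`
  have hj : ∀ σ : L ≃ₐ[K] L, ∃ j : ℕ, j < n ∧ σ ζ = ζ ^ (Nat.card 𝓀[K] ^ j) := by
    intro σ
    obtain ⟨j, hj⟩ := exists_map_root_eq_pow hn hζ (σ : L →ₐ[K] L)
    exact ⟨j % n, Nat.mod_lt _ hn, by rw [← pow_card_pow_mod hζ]; exact hj⟩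
  -- hence at most `n` automorphisms
  have hle : Module.finrank K L ≤ n := by
    rw [← hcard]
    let F : (L ≃ₐ[K] L) → Fin n := fun σ => ⟨(hj σ).choose, (hj σ).choose_spec.1⟩
    have hF : Function.Injective F := by
      intro σ τ h
      apply hext
      have h1 : (hj σ).choose = (hj τ).choose := congrArg Fin.val h
      rw [(hj σ).choose_spec.2, (hj τ).choose_spec.2, h1]
    have := Nat.card_le_card_of_injective F hF
    simpa using this
  -- the residue degree is at least `n`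
  have hef := ramificationIdx_mul_inertiaDeg K L
  have hfpos : 0 < (𝓂[L]).inertiaDeg 𝒪[K] := by
    rcases Nat.eq_zero_or_pos ((𝓂[L]).inertiaDeg 𝒪[K]) with h | h
    · rw [h, mul_zero] at hef
      exact absurd hef.symm (Module.finrank_pos).ne'
    · exact h
  have hcardL := card_residueField_eq_pow K L
  have hnf : n ≤ (𝓂[L]).inertiaDeg 𝒪[K] := by
    let _ := Fintype.ofFinite 𝓀[L]
    have hne : IsLocalRing.residue 𝒪[L] ⟨ζ, hζO⟩ ≠ 0 := by
      rw [Ne, IsLocalRing.residue_eq_zero_iff, IsLocalRing.mem_maximalIdeal, mem_nonunits_iff,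
        not_not, Valued.integer.isUnit_iff_norm_eq_one]
      exact hζ1
    have h1 := FiniteField.pow_card_sub_one_eq_one _ hne
    rw [← Nat.card_eq_fintype_card, hcardL, ← map_pow, ← map_one (IsLocalRing.residue 𝒪[L]),
      residue_eq_iff_norm_sub_lt_one] at h1
    have h2 := pow_eq_one_of_norm_lt hn hζ h1
    have h3 := (hζ.pow_eq_one_iff_dvd _).mp h2
    have h4 : 1 < Nat.card 𝓀[K] ^ (𝓂[L]).inertiaDeg 𝒪[K] := Nat.one_lt_pow hfpos.ne' hQ
    have h5 := Nat.le_of_dvd (by omega) h3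
    have h6 : Nat.card 𝓀[K] ^ n ≤ Nat.card 𝓀[K] ^ (𝓂[L]).inertiaDeg 𝒪[K] := by omega
    exact (Nat.pow_le_pow_iff_right hQ).mp h6
  have hepos : 0 < (𝓂[L]).ramificationIdx 𝒪[K] := by
    rcases Nat.eq_zero_or_pos ((𝓂[L]).ramificationIdx 𝒪[K]) with h | h
    · rw [h, zero_mul] at hef
      exact absurd hef.symm (Module.finrank_pos).ne'
    · exact h
  have hfN : (𝓂[L]).inertiaDeg 𝒪[K] ≤ Module.finrank K L := by
    rw [← hef]; exact Nat.le_mul_of_pos_left _ hepos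
  have hN : Module.finrank K L = n := le_antisymm hle (hnf.trans hfN)
  have hf : (𝓂[L]).inertiaDeg 𝒪[K] = n := le_antisymm (hN ▸ hfN) hnf
  have he : (𝓂[L]).ramificationIdx 𝒪[K] = 1 := by
    rw [hf, hN] at hef
    exact Nat.eq_of_mul_eq_mul_right hn (by rw [hef, one_mul])
  refine ⟨hN, he, hf, ?_⟩
  -- the Frobenius
  let _ := Fintype.ofFinite 𝓀[K]
  let _ := Fintype.ofFinite 𝓀[L]
  have hcardHom : Nat.card (𝓀[L] →ₐ[𝓀[K]] 𝓀[L]) = n := by
    have h1 := Nat.card_eq_of_bijective _ (FiniteField.bijective_frobeniusAlgHom_pow 𝓀[K] 𝓀[L])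
    rw [Nat.card_fin] at h1
    rw [← h1]
    have h2 : Fintype.card 𝓀[L] = Fintype.card 𝓀[K] ^ Module.finrank 𝓀[K] 𝓀[L] :=
      Module.card_eq_pow_finrank
    rw [← Nat.card_eq_fintype_card, ← Nat.card_eq_fintype_card, hcardL, hf] at h2
    exact ((Nat.pow_right_injective hQ) h2).symm
  let ρ : (L ≃ₐ[K] L) → (𝓀[L] →ₐ[𝓀[K]] 𝓀[L]) := fun σ => residueAlgHom (σ : L →ₐ[K] L)
  have hρ : Function.Injective ρ := by
    intro σ τ h
    apply hext
    have h1 := DFunLike.congr_fun h (IsLocalRing.residue 𝒪[L] ⟨ζ, hζO⟩)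
    simp only [ρ] at h1
    rw [residueAlgHom_residue, residueAlgHom_residue, residue_eq_iff_norm_sub_lt_one] at h1
    simp only [coe_integerRingHom, AlgEquiv.coe_toAlgHom] at h1
    obtain ⟨a, -, ha⟩ := hj σ
    obtain ⟨b, -, hb⟩ := hj τ
    rw [ha, hb] at h1 ⊢
    exact pow_eq_pow_of_norm_lt hn hζ h1
  have hρb : Function.Bijective ρ :=
    hρ.bijective_of_nat_card_le (by rw [hcardHom, hcard, hN])
  obtain ⟨φ, hφ⟩ := hρb.2 (FiniteField.frobeniusAlgHom 𝓀[K] 𝓀[L])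
  have hφx : ∀ x : 𝒪[L], ‖φ (x : L) - (x : L) ^ Nat.card 𝓀[K]‖ < 1 := by
    intro x
    have h1 := DFunLike.congr_fun hφ (IsLocalRing.residue 𝒪[L] x)
    simp only [ρ] at h1
    rw [residueAlgHom_residue, FiniteField.coe_frobeniusAlgHom] at h1
    have h1' : IsLocalRing.residue 𝒪[L] (integerRingHom (φ : L →ₐ[K] L) x) =
        IsLocalRing.residue 𝒪[L] (x ^ Fintype.card 𝓀[K]) := by
      rw [map_pow]; exact h1
    rw [residue_eq_iff_norm_sub_lt_one] at h1'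
    simpa [Nat.card_eq_fintype_card] using h1'
  have hφζ : φ ζ = ζ ^ Nat.card 𝓀[K] := by
    obtain ⟨a, -, ha⟩ := hj φ
    have h1 := hφx ⟨ζ, hζO⟩
    simp only at h1
    rw [ha] at h1 ⊢
    have := pow_eq_pow_of_norm_lt hn hζ h1
    exact this
  have hφpow : ∀ j : ℕ, (φ ^ j) ζ = ζ ^ (Nat.card 𝓀[K] ^ j) := by
    intro j
    induction j with
    | zero => simp
    | succ j ih =>
      rw [pow_succ', AlgEquiv.mul_apply, ih, map_pow, hφζ, ← pow_mul, pow_succ']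
  refine ⟨φ, hφζ, hφx, fun σ => ?_⟩
  obtain ⟨j, hjn, hjσ⟩ := hj σ
  exact ⟨j, hjn, hext _ _ (by rw [hjσ, hφpow])⟩

/-- `L = K(ζ)` has degree `n` over `K`. -/
theorem finrank_eq (hn : 0 < n) (hζ : IsPrimitiveRoot ζ (Nat.card 𝓀[K] ^ n - 1))
    (htop : IntermediateField.adjoin K {ζ} = ⊤) : Module.finrank K L = n :=
  (unramified_main hn hζ htop).1

/-- `L = K(ζ)` is unramified over `K`. -/
theorem ramificationIdx_eq_one (hn : 0 < n) (hζ : IsPrimitiveRoot ζ (Nat.card 𝓀[K] ^ n - 1))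
    (htop : IntermediateField.adjoin K {ζ} = ⊤) : (𝓂[L]).ramificationIdx 𝒪[K] = 1 :=
  (unramified_main hn hζ htop).2.1

theorem inertiaDeg_eq (hn : 0 < n) (hζ : IsPrimitiveRoot ζ (Nat.card 𝓀[K] ^ n - 1))
    (htop : IntermediateField.adjoin K {ζ} = ⊤) : (𝓂[L]).inertiaDeg 𝒪[K] = n :=
  (unramified_main hn hζ htop).2.2.1

/-- The Frobenius automorphism of `L = K(ζ)` over `K`: it raises `ζ` to the `Q`-th power, is
congruent to `x ↦ x ^ Q` modulo the maximal ideal, and generates the Galois group. -/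
theorem exists_frobenius (hn : 0 < n) (hζ : IsPrimitiveRoot ζ (Nat.card 𝓀[K] ^ n - 1))
    (htop : IntermediateField.adjoin K {ζ} = ⊤) :
    ∃ φ : L ≃ₐ[K] L, φ ζ = ζ ^ Nat.card 𝓀[K] ∧
      (∀ x : 𝒪[L], ‖φ (x : L) - (x : L) ^ Nat.card 𝓀[K]‖ < 1) ∧
      ∀ σ : L ≃ₐ[K] L, ∃ j : ℕ, j < n ∧ σ = φ ^ j :=
  (unramified_main hn hζ htop).2.2.2

theorem isCyclic_of_root (hn : 0 < n) (hζ : IsPrimitiveRoot ζ (Nat.card 𝓀[K] ^ n - 1))
    (htop : IntermediateField.adjoin K {ζ} = ⊤) : IsCyclic (L ≃ₐ[K] L) := by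
  obtain ⟨φ, -, -, h⟩ := exists_frobenius hn hζ htop
  refine ⟨⟨φ, fun σ => ?_⟩⟩
  obtain ⟨j, -, rfl⟩ := h σ
  exact ⟨j, by simp⟩

/-- The Galois group acts faithfully on the residue field: an automorphism congruent to the
identity on `ζ` modulo the maximal ideal is trivial. -/
theorem eq_one_of_norm_sub_lt_one (hn : 0 < n) (hζ : IsPrimitiveRoot ζ (Nat.card 𝓀[K] ^ n - 1))
    (htop : IntermediateField.adjoin K {ζ} = ⊤) (σ : L ≃ₐ[K] L) (h : ‖σ ζ - ζ‖ < 1) : σ = 1 := by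
  obtain ⟨φ, hφζ, -, hall⟩ := exists_frobenius hn hζ htop
  have hφpow : ∀ j : ℕ, (φ ^ j) ζ = ζ ^ (Nat.card 𝓀[K] ^ j) := by
    intro j
    induction j with
    | zero => simp
    | succ j ih =>
      rw [pow_succ', AlgEquiv.mul_apply, ih, map_pow, hφζ, ← pow_mul, pow_succ']
  obtain ⟨j, -, rfl⟩ := hall σ
  have h1 : (φ ^ j) ζ = ζ := by
    rw [hφpow] at h ⊢
    have := pow_eq_pow_of_norm_lt hn hζ (a := Nat.card 𝓀[K] ^ j) (b := 1) (by simpa using h)
    simpa using this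
  have h2 : Algebra.adjoin K {ζ} = ⊤ := by
    rw [← IntermediateField.adjoin_simple_toSubalgebra_of_isAlgebraic
      (Algebra.IsAlgebraic.isAlgebraic ζ), htop]
    rfl
  have h3 : ((φ ^ j : L ≃ₐ[K] L) : L →ₐ[K] L) = ((1 : L ≃ₐ[K] L) : L →ₐ[K] L) :=
    AlgHom.ext_of_adjoin_eq_top h2 (fun x hx => by
      rw [Set.mem_singleton_iff] at hx; subst hx; exact h1)
  exact AlgEquiv.ext (fun x => DFunLike.congr_fun h3 x)

end Cyclotomic

section Uniformizer

variable {K : Type*} [NontriviallyNormedField K] [IsUltrametricDist K] [ProperSpace K]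
variable {L : Type*} [NontriviallyNormedField L] [IsUltrametricDist L] [NormedAlgebra K L]
  [FiniteDimensional K L] [Algebra.IsSeparable K L]

/-- In an unramified extension a uniformizer of the base stays a uniformizer. -/
theorem irreducible_algebraMap_of_ramificationIdx_eq_one
    (he : (𝓂[L]).ramificationIdx 𝒪[K] = 1) {ϖ : 𝒪[K]} (hϖ : Irreducible ϖ) :
    Irreducible (algebraMap 𝒪[K] 𝒪[L] ϖ) := by
  have : ProperSpace L := FiniteDimensional.proper K L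
  obtain ⟨ϖL, hL⟩ := IsDiscreteValuationRing.exists_irreducible 𝒪[L]
  have hnorm := norm_irreducible_eq_pow hϖ hL
  rw [he, pow_one] at hnorm
  have hne0 : algebraMap 𝒪[K] 𝒪[L] ϖ ≠ 0 := by
    rw [Ne, map_eq_zero_iff _ (FaithfulSMul.algebraMap_injective 𝒪[K] 𝒪[L])]
    exact hϖ.ne_zero
  obtain ⟨k, u, hu⟩ := IsDiscreteValuationRing.eq_unit_mul_pow_irreducible hne0 hL
  have h1 : ‖(algebraMap 𝒪[K] 𝒪[L] ϖ : L)‖ = ‖(ϖ : K)‖ := by
    change ‖algebraMap K L (ϖ : K)‖ = _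
    exact norm_algebraMap' L (ϖ : K)
  have h2 : ‖(algebraMap 𝒪[K] 𝒪[L] ϖ : L)‖ = ‖(ϖL : L)‖ ^ k := by
    have : (algebraMap 𝒪[K] 𝒪[L] ϖ : L) = ((u : 𝒪[L]) : L) * (ϖL : L) ^ k := by
      rw [hu]; rfl
    rw [this, norm_mul, Valued.integer.norm_coe_unit, one_mul, norm_pow]
  have h3 : ‖(ϖL : L)‖ ^ k = ‖(ϖL : L)‖ ^ 1 := by rw [← h2, h1, hnorm, pow_one]
  have hk : k = 1 := by
    have hpos : 0 < ‖(ϖL : L)‖ := Valued.integer.norm_irreducible_pos hL
    have hlt : ‖(ϖL : L)‖ < 1 := Valued.integer.norm_irreducible_lt_one hL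
    exact pow_right_injective₀ hpos hlt.ne h3
  rw [hu, hk, pow_one]
  exact (associated_unit_mul_left ϖL (u : 𝒪[L]) u.isUnit).symm.irreducible hL

end Uniformizer

end Fermat.Agent.CFT.Local.Unramified
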