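import Mathlib
import Fermat.Agent.CFT.Local.Unramified
import Fermat.Agent.CFT.Local.UnramNormed
import Fermat.Agent.CFT.Local.BrauerCyc
import Fermat.Agent.S55.GrpCoh.GalUnits

/-!
# Local Brauer groups at finite level: `H²(Gal(L/K), Lˣ)` is cyclic of order `[L : K]`

Normed-field core.  `K` is a local field in the sense of `NormedLocal`, `M / K` a finite Galois
normed extension, `L` an intermediate field, Galois over `K`, of degree `n`, and `M = L(ζ)` with
`ζ` a primitive root of unity of order `Q ^ n - 1` (`Q` the cardinality of the residue field of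
`K`).  Then `H²(Gal(M/K) ⧸ Gal(M/L), (Mˣ)^Gal(M/L))` is cyclic of order `n` as soon as its order
is at most `n` (`card_H2_quotient_eq`).
-/

set_option autoImplicit false

namespace Fermat.Agent.CFT.Local.BrauerLocal

open scoped NNReal NormedField Valued IntermediateField
open IsLocalRing Fermat.Agent.CFT.Local.NormedLocal Fermat.Agent.CFT.Local.Unramified
  Fermat.Agent.CFT.Local.UnitCoh
open CategoryTheory Fermat.Agent.S55.GrpCoh

section Abs

/-- A finite abelian group of order `n` which embeds into the set of multiples `m • w`, `m < n`,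
of a single element is cyclic. -/
theorem exists_generator_of_injective {X Y : Type*} [AddCommGroup X] [AddCommGroup Y] [Finite X]
    (ι : X →+ Y) (hι : Function.Injective ι) (n : ℕ) (hn : Nat.card X = n) (w : Y)
    (h : ∀ b : X, ∃ m : ℕ, m < n ∧ ι b = m • w) :
    ∃ u : X, ∀ b : X, ∃ m : ℕ, b = m • u := by
  classical
  choose m hm hιm using h
  have hinj : Function.Injective (fun b : X => (⟨m b, hm b⟩ : Fin n)) := by
    intro b b' hbb
    apply hι
    have : m b = m b' := congrArg Fin.val hbb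
    rw [hιm b, hιm b', this]
  have hbij : Function.Bijective (fun b : X => (⟨m b, hm b⟩ : Fin n)) :=
    hinj.bijective_of_nat_card_le (by simp [hn])
  by_cases h1 : 1 < n
  · obtain ⟨u, hu⟩ := hbij.2 ⟨1, h1⟩
    have hu1 : m u = 1 := congrArg Fin.val hu
    refine ⟨u, fun b => ⟨m b, ?_⟩⟩
    apply hι
    rw [map_nsmul, hιm b, hιm u, hu1, one_nsmul]
  · have hpos : 0 < Nat.card X := Nat.card_pos
    have h1' : Nat.card X = 1 := by omega
    have : Subsingleton X := (Nat.card_eq_one_iff_unique.mp h1').1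
    exact ⟨0, fun b => ⟨0, Subsingleton.elim _ _⟩⟩

end Abs

section Normed

variable {K : Type} [NontriviallyNormedField K] [IsUltrametricDist K] [ProperSpace K]
variable {M : Type} [NontriviallyNormedField M] [IsUltrametricDist M] [NormedAlgebra K M]
  [FiniteDimensional K M] [IsGalois K M]

/-- The top field of a tower `K ≤ L ≤ M` of normed fields is a normed algebra over the
intermediate field. -/
@[reducible] noncomputable def normedAlgebraMid (L : IntermediateField K M) : NormedAlgebra L M :=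
  { (inferInstance : Algebra L M) with
    norm_smul_le := fun a x => by
      rw [Algebra.smul_def, norm_mul]
      exact le_of_eq rfl }

omit [IsUltrametricDist K] [IsUltrametricDist M] [IsGalois K M] in
theorem properSpaceMid (L : IntermediateField K M) : ProperSpace L := FiniteDimensional.proper K L

attribute [local instance] normedAlgebraMid properSpaceMid

omit [IsUltrametricDist K] [ProperSpace K] [IsUltrametricDist M] [IsGalois K M] in
theorem adjoin_gen_eq_top (ζ : M) :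
    IntermediateField.adjoin K {IntermediateField.AdjoinSimple.gen K ζ} = ⊤ := by
  apply IntermediateField.adjoin_eq_top_of_algebra
  exact (IntermediateField.adjoin.powerBasis (Algebra.IsIntegral.isIntegral ζ)).adjoin_gen_eq_top

omit [IsUltrametricDist K] [ProperSpace K] [IsUltrametricDist M] [IsGalois K M] in
/-- Automorphisms of `K(ζ)` are determined by their value at `ζ`. -/
theorem algEquiv_ext_gen {ζ : M} (σ τ : K⟮ζ⟯ ≃ₐ[K] K⟮ζ⟯)
    (h : σ (IntermediateField.AdjoinSimple.gen K ζ) = τ (IntermediateField.AdjoinSimple.gen K ζ)) :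
    σ = τ := by
  have h2 : Algebra.adjoin K {IntermediateField.AdjoinSimple.gen K ζ} = ⊤ :=
    (IntermediateField.adjoin.powerBasis (Algebra.IsIntegral.isIntegral ζ)).adjoin_gen_eq_top
  have h3 : (σ : K⟮ζ⟯ →ₐ[K] K⟮ζ⟯) = (τ : K⟮ζ⟯ →ₐ[K] K⟮ζ⟯) :=
    AlgHom.ext_of_adjoin_eq_top h2 (fun x hx => by
      rw [Set.mem_singleton_iff] at hx; subst hx; exact h)
  exact AlgEquiv.ext (fun x => DFunLike.congr_fun h3 x)

section Mid

variable (L : IntermediateField K M) {ζ : M}

/-- `Q_L ^ e = Q_K ^ [L : K]`. -/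
theorem card_residueField_pow_ramificationIdx :
    Nat.card 𝓀[L] ^ (𝓂[L]).ramificationIdx 𝒪[K] = Nat.card 𝓀[K] ^ Module.finrank K L := by
  rw [card_residueField_eq_pow K L, ← pow_mul, mul_comm, ramificationIdx_mul_inertiaDeg K L]

theorem ramificationIdx_pos : 0 < (𝓂[L]).ramificationIdx 𝒪[K] := by
  have h := ramificationIdx_mul_inertiaDeg K L
  have h2 : 0 < Module.finrank K L := Module.finrank_pos
  rcases Nat.eq_zero_or_pos ((𝓂[L]).ramificationIdx 𝒪[K]) with h0 | h0
  · rw [h0, zero_mul] at h; omega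
  · exact h0

variable (hζ : IsPrimitiveRoot ζ (Nat.card 𝓀[K] ^ Module.finrank K L - 1))
  (htop : IntermediateField.adjoin L {ζ} = ⊤)

include hζ htop

/-- The data of the unramified extension `M = L(ζ)` over `L`. -/
theorem exists_frobenius_top :
    Module.finrank L M = (𝓂[L]).ramificationIdx 𝒪[K] ∧
    (𝓂[M]).ramificationIdx 𝒪[L] = 1 ∧
    ∃ φ : M ≃ₐ[L] M, φ ζ = ζ ^ (Nat.card 𝓀[K] ^ (𝓂[L]).inertiaDeg 𝒪[K]) ∧
      ∀ σ : M ≃ₐ[L] M, σ ∈ Subgroup.zpowers φ := by
  have hζ' : IsPrimitiveRoot ζ (Nat.card 𝓀[L] ^ (𝓂[L]).ramificationIdx 𝒪[K] - 1) := by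
    rw [card_residueField_pow_ramificationIdx]; exact hζ
  have hpos := ramificationIdx_pos L
  refine ⟨finrank_eq hpos hζ' htop, ramificationIdx_eq_one hpos hζ' htop, ?_⟩
  obtain ⟨φ, h1, -, h3⟩ := exists_frobenius hpos hζ' htop
  refine ⟨φ, ?_, fun σ => ?_⟩
  · rw [h1, card_residueField_eq_pow K L]
  · obtain ⟨j, -, rfl⟩ := h3 σ
    exact ⟨j, by simp⟩

/-- A uniformizer of `K` is a norm from `M = L(ζ)` to `L`. -/
theorem exists_prod_eq_uniformizer {ϖ : 𝒪[K]} (hϖ : Irreducible ϖ) :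
    ∃ c : M, c ≠ 0 ∧ ∏ τ : M ≃ₐ[L] M, τ c = algebraMap K M (ϖ : K) := by
  obtain ⟨hfin, he, φ, -, hφ⟩ := exists_frobenius_top L hζ htop
  obtain ⟨ϖL, hL⟩ := IsDiscreteValuationRing.exists_irreducible 𝒪[L]
  have hnorm := norm_irreducible_eq_pow hϖ hL
  have hL0 : (ϖL : L) ≠ 0 := fun h => hL.ne_zero (Subtype.ext h)
  set e := (𝓂[L]).ramificationIdx 𝒪[K] with he_def
  set u : L := algebraMap K L (ϖ : K) / (ϖL : L) ^ e with hu_def
  have hu : ‖u‖ = 1 := by
    rw [hu_def, norm_div, norm_pow, norm_algebraMap', hnorm]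
    exact div_self (pow_ne_zero _ (norm_ne_zero_iff.mpr hL0))
  obtain ⟨y, hy1, hy⟩ := exists_norm_eq_of_unramified L M φ hφ he u hu
  have hy0 : y ≠ 0 := fun h => by simp [h] at hy1
  refine ⟨algebraMap L M (ϖL : L) * y, mul_ne_zero ?_ hy0, ?_⟩
  · rw [Ne, map_eq_zero_iff _ (algebraMap L M).injective]; exact hL0
  · rw [← Algebra.norm_eq_prod_automorphisms, map_mul, Algebra.norm_algebraMap, hfin, hy, hu_def,
      mul_div_cancel₀ _ (pow_ne_zero _ hL0)]
    rfl

end Mid

section Adjoin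

variable {n : ℕ} {ζ : M}

omit [IsGalois K M] in
/-- The data of the unramified extension `K(ζ)` of `K` inside `M`. -/
theorem exists_frobenius_adjoin (hn : 0 < n)
    (hζ : IsPrimitiveRoot ζ (Nat.card 𝓀[K] ^ n - 1)) :
    Module.finrank K K⟮ζ⟯ = n ∧
    ∃ φ : K⟮ζ⟯ ≃ₐ[K] K⟮ζ⟯,
      ((φ (IntermediateField.AdjoinSimple.gen K ζ) : K⟮ζ⟯) : M) = ζ ^ Nat.card 𝓀[K] ∧
      ∀ σ : K⟮ζ⟯ ≃ₐ[K] K⟮ζ⟯, σ ∈ Subgroup.zpowers φ := by
  have hζ' : IsPrimitiveRoot (IntermediateField.AdjoinSimple.gen K ζ) (Nat.card 𝓀[K] ^ n - 1) :=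
    IsPrimitiveRoot.of_map_of_injective (f := algebraMap K⟮ζ⟯ M) hζ (algebraMap K⟮ζ⟯ M).injective
  have htop := adjoin_gen_eq_top (K := K) ζ
  refine ⟨finrank_eq hn hζ' htop, ?_⟩
  obtain ⟨φ, h1, -, h3⟩ := exists_frobenius hn hζ' htop
  refine ⟨φ, ?_, fun σ => ?_⟩
  · rw [h1]; rfl
  · obtain ⟨j, -, rfl⟩ := h3 σ
    exact ⟨j, by simp⟩

omit [IsGalois K M] in
/-- The value group of the unramified extension `K(ζ)` is that of `K`. -/
theorem exists_norm_eq_zpow_adjoin (hn : 0 < n)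
    (hζ : IsPrimitiveRoot ζ (Nat.card 𝓀[K] ^ n - 1)) [Algebra.IsSeparable K M]
    {ϖ : 𝒪[K]} (hϖ : Irreducible ϖ) {x : M} (hx : x ∈ K⟮ζ⟯) (hx0 : x ≠ 0) :
    ∃ k : ℤ, ‖x‖ = ‖(ϖ : K)‖ ^ k := by
  have hζ' : IsPrimitiveRoot (IntermediateField.AdjoinSimple.gen K ζ) (Nat.card 𝓀[K] ^ n - 1) :=
    IsPrimitiveRoot.of_map_of_injective (f := algebraMap K⟮ζ⟯ M) hζ (algebraMap K⟮ζ⟯ M).injective
  have htop := adjoin_gen_eq_top (K := K) ζ
  have he := ramificationIdx_eq_one hn hζ' htop
  have hirr := irreducible_algebraMap_of_ramificationIdx_eq_one he hϖ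
  have hx0' : (⟨x, hx⟩ : K⟮ζ⟯) ≠ 0 := fun h => hx0 (congrArg Subtype.val h)
  obtain ⟨k, hk⟩ := exists_norm_eq_zpow hirr hx0'
  refine ⟨k, ?_⟩
  have h1 : ‖(⟨x, hx⟩ : K⟮ζ⟯)‖ = ‖x‖ := rfl
  rw [← h1, hk]
  congr 1
  change ‖algebraMap K K⟮ζ⟯ (ϖ : K)‖ = _
  exact norm_algebraMap' _ _

omit [IsUltrametricDist K] [ProperSpace K] [IsUltrametricDist M] [IsGalois K M] in
theorem isGalois_adjoin {m : ℕ} (hm : m ≠ 0) (hζ : IsPrimitiveRoot ζ m) : IsGalois K K⟮ζ⟯ :=
  isGalois_of_root hm
    (IsPrimitiveRoot.of_map_of_injective (f := algebraMap K⟮ζ⟯ M) hζ (algebraMap K⟮ζ⟯ M).injective)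
    (adjoin_gen_eq_top (K := K) ζ)

end Adjoin


section Core

/-- `log ‖·‖` as an additive map on `Additive Mˣ`. -/
noncomputable def logNorm (M : Type) [NormedField M] : Additive Mˣ →+ ℝ where
  toFun x := Real.log ‖((Additive.toMul x : Mˣ) : M)‖
  map_zero' := by simp
  map_add' x y := by
    change Real.log ‖(((Additive.toMul x * Additive.toMul y : Mˣ)) : M)‖ = _
    rw [Units.val_mul, norm_mul, Real.log_mul (norm_ne_zero_iff.mpr (Units.ne_zero _))
      (norm_ne_zero_iff.mpr (Units.ne_zero _))]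

variable (L : IntermediateField K M) [IsGalois K L] {ζ : M}

/-- **Normed core.**  See the module docstring. -/
theorem card_H2_quotient_eq
    (hζ : IsPrimitiveRoot ζ (Nat.card 𝓀[K] ^ Module.finrank K L - 1))
    (hM : L ⊔ K⟮ζ⟯ = ⊤)
    (hcard : Finite (groupCohomology
        ((Rep.ofAlgebraAutOnUnits K M).quotientToInvariants L.fixingSubgroup) 2) ∧
      Nat.card (groupCohomology
        ((Rep.ofAlgebraAutOnUnits K M).quotientToInvariants L.fixingSubgroup) 2) ≤
          Module.finrank K L) :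
    Nat.card (groupCohomology
        ((Rep.ofAlgebraAutOnUnits K M).quotientToInvariants L.fixingSubgroup) 2) =
          Module.finrank K L ∧
    ∃ u : groupCohomology
        ((Rep.ofAlgebraAutOnUnits K M).quotientToInvariants L.fixingSubgroup) 2,
      ∀ b, ∃ m : ℕ, b = m • u := by
  classical
  have hn : 0 < Module.finrank K L := Module.finrank_pos
  have hQ : 1 < Nat.card 𝓀[K] := one_lt_card_residueField K
  have hm0 : Nat.card 𝓀[K] ^ Module.finrank K L - 1 ≠ 0 := by
    have : Nat.card 𝓀[K] ^ 1 ≤ Nat.card 𝓀[K] ^ Module.finrank K L :=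
      Nat.pow_le_pow_right (by omega) hn
    rw [pow_one] at this
    omega
  have : IsGalois K K⟮ζ⟯ := isGalois_adjoin hm0 hζ
  -- the `E`-side
  obtain ⟨hfinE, φ, hφζ, hφgen⟩ := exists_frobenius_adjoin hn hζ
  -- the `L`-side
  have htop : IntermediateField.adjoin L {ζ} = ⊤ := by
    apply IntermediateField.restrictScalars_injective K
    rw [IntermediateField.restrictScalars_adjoin_eq_sup, IntermediateField.restrictScalars_top]
    exact hM
  obtain ⟨hfinL, he1, ψ, hψζ, hψgen⟩ := exists_frobenius_top L hζ htop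
  obtain ⟨ϖ, hϖ⟩ := IsDiscreteValuationRing.exists_irreducible 𝒪[K]
  obtain ⟨c₀, hc₀, hprod⟩ := exists_prod_eq_uniformizer L hζ htop hϖ
  have hϖ0 : algebraMap K M (ϖ : K) ≠ 0 := by
    rw [Ne, map_eq_zero_iff _ (algebraMap K M).injective]
    exact fun h => hϖ.ne_zero (Subtype.ext h)
  set G := M ≃ₐ[K] M with hG
  set A : Rep ℤ G := Rep.ofAlgebraAutOnUnits K M with hA
  set N₁ : Subgroup G := L.fixingSubgroup with hN₁
  set N₂ : Subgroup G := K⟮ζ⟯.fixingSubgroup with hN₂
  let _ : Fintype N₁ := Fintype.ofFinite _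
  let _ : Fintype (G ⧸ N₂) := Fintype.ofFinite _
  -- the Frobenius lift
  obtain ⟨s, hs⟩ := AlgEquiv.restrictNormalHom_surjective M φ
  have hker : ∀ g : G, g ∈ N₂ ↔ AlgEquiv.restrictNormalHom K⟮ζ⟯ g = 1 := by
    intro g
    rw [← MonoidHom.mem_ker, IntermediateField.restrictNormalHom_ker]
  have hsQ : ∀ x : G ⧸ N₂, x ∈ Subgroup.zpowers (QuotientGroup.mk s : G ⧸ N₂) := by
    intro x
    induction x using QuotientGroup.induction_on with
    | _ g =>
      obtain ⟨k, hk⟩ := hφgen (AlgEquiv.restrictNormalHom K⟮ζ⟯ g)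
      refine ⟨k, ?_⟩
      change (QuotientGroup.mk s : G ⧸ N₂) ^ k = QuotientGroup.mk g
      rw [← QuotientGroup.mk_zpow, QuotientGroup.eq, hker, map_mul, map_inv, map_zpow, hs]
      have hk' : φ ^ k = AlgEquiv.restrictNormalHom K⟮ζ⟯ g := hk
      rw [← hk', inv_mul_cancel]
  -- the Frobenius of `M / L`
  set eL := IntermediateField.fixingSubgroupEquiv L with heL
  set t : N₁ := eL.symm ψ with ht_def
  have ht : ∀ x : N₁, x ∈ Subgroup.zpowers t := by
    intro x
    obtain ⟨k, hk⟩ := hψgen (eL x)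
    refine ⟨k, ?_⟩
    change t ^ k = x
    apply eL.injective
    rw [map_zpow, ht_def, MulEquiv.apply_symm_apply]
    exact hk
  set f := (𝓂[L]).inertiaDeg 𝒪[K] with hf_def
  have hφpow : ∀ j : ℕ, (((φ ^ j) (IntermediateField.AdjoinSimple.gen K ζ) : K⟮ζ⟯) : M) =
      ζ ^ (Nat.card 𝓀[K] ^ j) := by
    intro j
    induction j with
    | zero => simp
    | succ j ih =>
      have h1 : (φ ^ j) (IntermediateField.AdjoinSimple.gen K ζ) =
          (IntermediateField.AdjoinSimple.gen K ζ) ^ (Nat.card 𝓀[K] ^ j) :=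
        Subtype.ext (by rw [ih]; rfl)
      rw [pow_succ', AlgEquiv.mul_apply, h1, map_pow]
      change ((φ (IntermediateField.AdjoinSimple.gen K ζ) : K⟮ζ⟯) : M) ^ (Nat.card 𝓀[K] ^ j) = _
      rw [hφζ, ← pow_mul, pow_succ']
  have hd : (QuotientGroup.mk (t : G) : G ⧸ N₂) = (QuotientGroup.mk s : G ⧸ N₂) ^ f := by
    rw [← QuotientGroup.mk_pow, QuotientGroup.eq, hker, map_mul, map_inv, map_pow, hs]
    have key : AlgEquiv.restrictNormalHom K⟮ζ⟯ (t : G) = φ ^ f := by
      apply algEquiv_ext_gen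
      apply Subtype.ext
      rw [AlgEquiv.restrictNormalHom_apply, hφpow]
      exact hψζ
    rw [key, inv_mul_cancel]
  have ho1 : orderOf t = Nat.card N₁ := orderOf_eq_card_of_forall_mem_zpowers ht
  have hc1 : Nat.card N₁ = (𝓂[L]).ramificationIdx 𝒪[K] := by
    rw [hN₁, IsGalois.card_fixingSubgroup_eq_finrank L, hfinL]
  have ho2 : orderOf (QuotientGroup.mk s : G ⧸ N₂) = Nat.card (G ⧸ N₂) :=
    orderOf_eq_card_of_forall_mem_zpowers hsQ
  have hc2 : Nat.card (G ⧸ N₂) = Module.finrank K L := by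
    rw [← Subgroup.index_eq_card, hN₂, ← IntermediateField.finrank_eq_fixingSubgroup_index, hfinE]
  have hdn : f * orderOf t = orderOf (QuotientGroup.mk s : G ⧸ N₂) := by
    rw [ho1, hc1, ho2, hc2, mul_comm]
    exact ramificationIdx_mul_inertiaDeg K L
  -- the class of the uniformizer
  set πu : Mˣ := Units.mk0 (algebraMap K M (ϖ : K)) hϖ0 with hπu
  have hπfix : ∀ g : G, A.ρ g (Additive.ofMul πu) = Additive.ofMul πu := by
    intro g
    change Additive.ofMul (g • πu) = _
    congr 1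
    ext
    exact g.commutes _
  set a : A.quotientToInvariants N₂ := ⟨Additive.ofMul πu, fun σ => hπfix (σ : G)⟩ with ha_def
  have ha : ∀ q, (A.quotientToInvariants N₂).ρ q a = a := by
    intro q
    induction q using QuotientGroup.induction_on with
    | _ g => exact Subtype.ext (hπfix g)
  -- Hilbert 90
  have hGL := isGaloisLike_isGalUnits (fun _ _ => True) (fun _ _ _ _ _ _ _ => trivial)
  have hself : IsGalUnits (fun _ _ => True) G A := isGalUnits_self (fun _ _ => True) K M trivial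
  have h1 : VanishOn A N₁ 1 := isZero_H1_of_isGalUnits (hGL.res G A N₁ hself)
  have h2 : VanishOn A N₂ 1 := isZero_H1_of_isGalUnits (hGL.res G A N₂ hself)
  -- the uniformizer is a norm from `M` to `L`
  have hnorm : ∃ c : A, a.1 = ∑ h : N₁, A.ρ (h : G) c := by
    refine ⟨Additive.ofMul (Units.mk0 c₀ hc₀), ?_⟩
    have hsum : (∑ h : N₁, A.ρ (h : G) (Additive.ofMul (Units.mk0 c₀ hc₀)) : A) =
        Additive.ofMul (∏ h : N₁, (h : G) • Units.mk0 c₀ hc₀) :=
      (ofMul_prod Finset.univ (fun h : N₁ => (h : G) • Units.mk0 c₀ hc₀)).symm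
    rw [hsum]
    apply Additive.toMul.injective
    apply Units.ext
    change algebraMap K M (ϖ : K) = ((∏ h : N₁, (h : G) • Units.mk0 c₀ hc₀ : Mˣ) : M)
    rw [Units.coe_prod]
    change algebraMap K M (ϖ : K) = ∏ h : N₁, (h : G) c₀
    rw [← hprod]
    exact (Fintype.prod_equiv eL.toEquiv (fun h : N₁ => (h : G) c₀) (fun τ => τ c₀)
      (fun h => rfl)).symm
  -- powers of the uniformizer are not norms from `K(ζ)`
  have hord : ∀ m : ℕ, 0 < m → m < orderOf (QuotientGroup.mk s : G ⧸ N₂) →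
      ¬ ∃ c : A.quotientToInvariants N₂,
        m • a = ∑ q : G ⧸ N₂, (A.quotientToInvariants N₂).ρ q c := by
    rintro m hm hmn ⟨c, hc⟩
    rw [ho2, hc2] at hmn
    set v : (A.quotientToInvariants N₂) →+ ℝ :=
      (logNorm M).comp (Submodule.subtype _).toAddMonoidHom with hv_def
    have hv := congrArg v hc
    have hvq : ∀ q : G ⧸ N₂, v ((A.quotientToInvariants N₂).ρ q c) = v c := by
      intro q
      induction q using QuotientGroup.induction_on with
      | _ g =>
        change Real.log ‖g ((Additive.toMul c.1 : Mˣ) : M)‖ =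
          Real.log ‖((Additive.toMul c.1 : Mˣ) : M)‖
        rw [norm_algEquiv_eq]
    rw [map_nsmul, map_sum, Finset.sum_congr rfl (fun q _ => hvq q), Finset.sum_const,
      Finset.card_univ, ← Nat.card_eq_fintype_card, hc2] at hv
    -- `c` lies in `K(ζ)`
    have hcmem : ((Additive.toMul c.1 : Mˣ) : M) ∈ K⟮ζ⟯ := by
      rw [← IsGalois.fixedField_fixingSubgroup K⟮ζ⟯, IntermediateField.mem_fixedField_iff]
      intro σ hσ
      have := congrArg (fun y => ((Additive.toMul y : Mˣ) : M)) (c.2 ⟨σ, hσ⟩)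
      exact this
    obtain ⟨k, hk⟩ := exists_norm_eq_zpow_adjoin hn hζ hϖ hcmem (Units.ne_zero _)
    have hva : v a = Real.log ‖(ϖ : K)‖ := by
      change Real.log ‖algebraMap K M (ϖ : K)‖ = _
      rw [norm_algebraMap']
    have hvc : v c = k * Real.log ‖(ϖ : K)‖ := by
      change Real.log ‖((Additive.toMul c.1 : Mˣ) : M)‖ = _
      rw [hk, Real.log_zpow]
    rw [hva, hvc, nsmul_eq_mul, nsmul_eq_mul] at hv
    have hlog : Real.log ‖(ϖ : K)‖ ≠ 0 := by
      have hpos : 0 < ‖(ϖ : K)‖ := Valued.integer.norm_irreducible_pos hϖ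
      have hlt : ‖(ϖ : K)‖ < 1 := Valued.integer.norm_irreducible_lt_one hϖ
      exact (Real.log_neg hpos hlt).ne
    have h3 : (m : ℝ) = (Module.finrank K L : ℝ) * k := by
      have h4 : (m : ℝ) * Real.log ‖(ϖ : K)‖ =
          ((Module.finrank K L : ℝ) * k) * Real.log ‖(ϖ : K)‖ := by
        rw [hv]; ring
      exact mul_right_cancel₀ hlog h4
    have h5 : (m : ℤ) = (Module.finrank K L : ℤ) * k := by exact_mod_cast h3
    have h6 : (Module.finrank K L : ℤ) ∣ (m : ℤ) := ⟨k, h5⟩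
    have h7 : Module.finrank K L ∣ m := Int.natCast_dvd_natCast.mp h6
    exact absurd (Nat.le_of_dvd hm h7) (not_le.mpr hmn)
  obtain ⟨hcardeq, hmult⟩ := BrauerCyc.exists_nsmul_infl_cyc_eq A N₁ N₂ s hsQ t ht f hd hdn a ha
    h1 h2 (by rw [ho2, hc2]; exact hcard) hord hnorm
  rw [ho2, hc2] at hcardeq hmult
  refine ⟨hcardeq, ?_⟩
  have hinj := infl_injective A N₁ 2 (by norm_num) (fun i hi hi2 => by
    obtain rfl : i = 1 := by omega
    exact h1)
  have := hcard.1
  exact exists_generator_of_injective (infl A N₁ 2).hom.toAddMonoidHom hinj _ hcardeq _ hmult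

end Core

end Normed

end Fermat.Agent.CFT.Local.BrauerLocal
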