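import Fermat.Agent.CFT.Local.CyclicH2Card
import Fermat.Agent.S55.GrpCoh.GalUnits

/-!
# `|H²(Gal(L/K), Lˣ)| ≤ [L:K]` for all finite Galois extensions of finite extensions of `ℚ_[q]`

The class `IsPadicField q` of fields which are finite extensions of `ℚ_[q]` (intrinsically:
fields admitting a finite-dimensional `ℚ_[q]`-algebra structure) is stable under finite
extensions, and the cyclic prime-degree bound of `CyclicH2Card` holds in it (norm on `L` =
the spectral norm, which is proper and Galois-invariant).  Feeding both into the solvable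
devissage `Fermat.Agent.S55.GrpCoh.card_H2_units_le` gives the bound for every finite Galois
extension.
-/

set_option autoImplicit false

namespace Fermat.Agent.CFT.Local.CycNorm

open CategoryTheory

variable (q : ℕ) [Fact q.Prime]

/-- `K` is (abstractly) a finite extension of `ℚ_[q]`. -/
def IsPadicField (K : Type) [Field K] : Prop :=
  ∃ _ : Algebra ℚ_[q] K, FiniteDimensional ℚ_[q] K

theorem isPadicField_self : IsPadicField q ℚ_[q] := ⟨inferInstance, inferInstance⟩

theorem isPadicField_of_algebra (K : Type) [Field K] [Algebra ℚ_[q] K]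
    [FiniteDimensional ℚ_[q] K] : IsPadicField q K := ⟨inferInstance, inferInstance⟩

theorem isPadicField_intermediate (E : IntermediateField ℚ_[q] (PadicAlgCl q))
    [FiniteDimensional ℚ_[q] E] : IsPadicField q E := ⟨inferInstance, inferInstance⟩

/-- The class is stable under finite extensions. -/
theorem isPadicField_of_finite (K L : Type) [Field K] [Field L] [Algebra K L]
    [FiniteDimensional K L] (hK : IsPadicField q K) : IsPadicField q L := by
  obtain ⟨_, _⟩ := hK
  let : Algebra ℚ_[q] L := ((algebraMap K L).comp (algebraMap ℚ_[q] K)).toAlgebra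
  have : IsScalarTower ℚ_[q] K L := IsScalarTower.of_algebraMap_eq (fun _ => rfl)
  exact ⟨inferInstance, Module.Finite.trans K L⟩

theorem isPadicField_of_ringEquiv (K L : Type) [Field K] [Field L] (e : K ≃+* L)
    (hK : IsPadicField q K) : IsPadicField q L := by
  let _ : Algebra K L := e.toRingHom.toAlgebra
  have : FiniteDimensional K L := by
    refine Module.Finite.of_surjective (Algebra.linearMap K L) ?_
    exact e.surjective
  exact isPadicField_of_finite q K L hK

/-- **Prime degree (indeed any cyclic) case** in the class: `|H²(Gal(L/K), Lˣ)| = [L:K]` for a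
cyclic extension `L/K` of finite extensions of `ℚ_[q]`. -/
theorem card_H2_units_eq_padic (K L : Type) [Field K] [Field L] [Algebra K L]
    [FiniteDimensional K L] [IsGalois K L] [IsCyclic (L ≃ₐ[K] L)] (hK : IsPadicField q K) :
    Finite (groupCohomology (Rep.ofAlgebraAutOnUnits K L) 2) ∧
      Nat.card (groupCohomology (Rep.ofAlgebraAutOnUnits K L) 2) = Module.finrank K L := by
  obtain ⟨_, _⟩ := hK
  let : Algebra ℚ_[q] L := ((algebraMap K L).comp (algebraMap ℚ_[q] K)).toAlgebra
  have : IsScalarTower ℚ_[q] K L := IsScalarTower.of_algebraMap_eq (fun _ => rfl)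
  have : FiniteDimensional ℚ_[q] L := Module.Finite.trans K L
  let N : NontriviallyNormedField L := spectralNorm.nontriviallyNormedField ℚ_[q] L
  let : NormedAlgebra ℚ_[q] L := spectralNorm.normedAlgebra ℚ_[q] L
  have : IsUltrametricDist L :=
    IsUltrametricDist.isUltrametricDist_of_forall_norm_add_le_max_norm
      (isNonarchimedean_spectralNorm (K := ℚ_[q]) (L := L))
  have : ProperSpace L := FiniteDimensional.proper ℚ_[q] L
  exact card_H2_units_eq_finrank_of_proper (K := K) (L := L)
    (fun τ x => (spectralNorm_eq_of_equiv (τ.restrictScalars ℚ_[q]) x).symm)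

/-- The prime-degree bound in the class (the hypothesis `hprime` of
`Fermat.Agent.S55.GrpCoh.card_H2_units_le`). -/
theorem card_H2_units_le_of_prime_padic (K L : Type) [Field K] [Field L] [Algebra K L]
    [FiniteDimensional K L] [IsGalois K L] (hK : IsPadicField q K)
    (hp : (Module.finrank K L).Prime) :
    Finite (groupCohomology (Rep.ofAlgebraAutOnUnits K L) 2) ∧
      Nat.card (groupCohomology (Rep.ofAlgebraAutOnUnits K L) 2) ≤ Module.finrank K L := by
  have : IsCyclic (L ≃ₐ[K] L) := by
    have : Fact (Nat.card (L ≃ₐ[K] L)).Prime := ⟨by rwa [IsGalois.card_aut_eq_finrank]⟩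
    exact isCyclic_of_prime_card (p := Nat.card (L ≃ₐ[K] L)) rfl
  obtain ⟨h1, h2⟩ := card_H2_units_eq_padic q K L hK
  exact ⟨h1, h2.le⟩

/-- **Local second inequality**: `|H²(Gal(L/K), Lˣ)| ≤ [L:K]` for EVERY finite Galois extension
`L/K` of a finite extension `K` of `ℚ_[q]`. -/
theorem card_H2_units_le_padic (K L : Type) [Field K] [Field L] [Algebra K L]
    [FiniteDimensional K L] [IsGalois K L] (hK : IsPadicField q K) :
    Finite (groupCohomology (Rep.ofAlgebraAutOnUnits K L) 2) ∧
      Nat.card (groupCohomology (Rep.ofAlgebraAutOnUnits K L) 2) ≤ Module.finrank K L :=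
  Fermat.Agent.S55.GrpCoh.card_H2_units_le (fun K _ => IsPadicField q K)
    (fun K L _ _ _ _ hK => isPadicField_of_finite q K L hK)
    (fun K L _ _ _ _ _ hK hp => card_H2_units_le_of_prime_padic q K L hK hp) K L hK

end Fermat.Agent.CFT.Local.CycNorm
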