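import Fermat.Agent.CFT.Local.BrauerLocal
import Fermat.Agent.CFT.Local.PadicH2Le

/-!
# Local Brauer groups at finite level: final statements

For a finite Galois extension `L / K` of finite extensions of `ℚ_q` (class
`CycNorm.IsPadicField q`), the group `H²(Gal(L/K), Lˣ)` is cyclic of order `[L : K]`.

* `brauer_units`      : field form, `K`, `L` abstract types;
* `brauer_isGalUnits` : the same for every Galois-units pair `(G, A)` (helper16's `IsGalUnits`),
  e.g. the finite layers `layer q U V` of `LocalBr` (via `LayerDict.isGalUnits_layer`);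
* `brauer_local`      : `K` an intermediate field of `ℚ̄_q / ℚ_q`;
* `brauer_isGalUnits_torsion`, `brauer_isGalUnits_exists_torsion` : `p`-torsion consequences.

Proof: `M := L(ζ)`, `ζ` a primitive root of unity of order `Q ^ [L : K] - 1`, with the spectral
norm; the normed core `card_H2_quotient_eq` of `BrauerLocal.lean` for `Gal(M/K)`; the second
inequality `CycNorm.card_H2_units_le_padic`; transport along
`(Gal(M/K) ⧸ Gal(M/L), (Mˣ)^Gal(M/L)) ≅ (Gal(L/K), Lˣ)` (`GalUnits.quotIso`).
-/

set_option autoImplicit false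

namespace Fermat.Agent.CFT.Local.BrauerLocal

open CategoryTheory Fermat.Agent.S55.GrpCoh Fermat.Agent.CFT.Local.CycNorm Polynomial

section Transport

/-- The units of isomorphic `K`-algebras are isomorphic Galois modules. -/
noncomputable def unitsIsoOfAlgEquiv {K L L' : Type} [Field K] [Field L] [Field L'] [Algebra K L]
    [Algebra K L'] (φ : L ≃ₐ[K] L') :
    Rep.ofAlgebraAutOnUnits K L ≅
      Rep.res (AlgEquiv.autCongr φ).toMonoidHom (Rep.ofAlgebraAutOnUnits K L') :=
  Rep.mkIso (Representation.Equiv.mk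
    ((MulEquiv.toAdditive (Units.mapEquiv (φ : L ≃* L'))).toIntLinearEquiv) (fun σ => by
      ext x
      change Additive.ofMul (Units.map (φ : L →* L') (Units.map (σ : L →* L) (Additive.toMul x))) =
        Additive.ofMul (Units.map ((AlgEquiv.autCongr φ σ : L' ≃ₐ[K] L') : L' →* L')
          (Units.map (φ : L →* L') (Additive.toMul x)))
      congr 1
      ext
      simp))

/-- An isomorphism of pairs (group, module) induces an isomorphism on `H²`. -/
noncomputable def h2Equiv {G G' : Type} [Group G] [Group G'] (e : G ≃* G') {A : Rep.{0} ℤ G}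
    {A' : Rep.{0} ℤ G'} (φ : A ≅ Rep.res e.toMonoidHom A') :
    groupCohomology A 2 ≃+ groupCohomology A' 2 :=
  ((groupCohomology.functor ℤ G 2).mapIso φ ≪≫ resMulEquivIso e A' 2).toLinearEquiv.toAddEquiv

end Transport

section Cyclotomic

variable {K L : Type} [Field K] [Field L] [Algebra K L] [FiniteDimensional K L] [IsGalois K L]
  [CharZero K]

/-- Adjoining roots of unity to a finite Galois extension gives a Galois extension of the base. -/
theorem isGalois_cyclotomicField (N : ℕ) [NeZero N] : IsGalois K (CyclotomicField N L) := by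
  have : CharZero L := charZero_of_injective_algebraMap (algebraMap K L).injective
  obtain ⟨p, hp, hsplit⟩ := IsGalois.is_separable_splitting_field K L
  have h2 : IsSplittingField L (CyclotomicField N L)
      ((X ^ N - 1 : K[X]).map (algebraMap K L)) := by
    have h3 : (X ^ N - 1 : K[X]).map (algebraMap K L) = X ^ N - 1 := by simp
    rw [h3]
    exact IsCyclotomicExtension.isSplittingField_X_pow_sub_one N L (CyclotomicField N L)
  have hp0 : p ≠ 0 := hp.ne_zero
  have hX : (X ^ N - 1 : K[X]) ≠ 0 := X_pow_sub_C_ne_zero (NeZero.pos N) (1 : K)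
  have h4 : IsSplittingField K (CyclotomicField N L) (p * (X ^ N - 1)) :=
    IsSplittingField.mul (K := L) (CyclotomicField N L) p (X ^ N - 1) hp0 hX
  have : Normal K (CyclotomicField N L) := Normal.of_isSplittingField (p * (X ^ N - 1))
  have : FiniteDimensional K (CyclotomicField N L) := IsSplittingField.finiteDimensional _ (p * (X ^ N - 1))
  exact ⟨⟩

end Cyclotomic

section Main

open scoped NNReal NormedField Valued IntermediateField
open IsLocalRing Fermat.Agent.CFT.Local.Unramified

attribute [local instance] GalUnits.normal_map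

/-- Transport of "cyclic of order `n`" along an additive equivalence. -/
theorem cyc_of_addEquiv {X Y : Type*} [AddCommGroup X] [AddCommGroup Y] (e : X ≃+ Y) {n : ℕ}
    (h : Nat.card X = n ∧ ∃ u : X, ∀ b : X, ∃ m : ℕ, b = m • u) :
    Nat.card Y = n ∧ ∃ u : Y, ∀ b : Y, ∃ m : ℕ, b = m • u := by
  obtain ⟨h1, u, hu⟩ := h
  refine ⟨by rw [← h1, Nat.card_congr e.toEquiv], e u, fun b => ?_⟩
  obtain ⟨m, hm⟩ := hu (e.symm b)
  exact ⟨m, by rw [← map_nsmul, ← hm, AddEquiv.apply_symm_apply]⟩

variable (q : ℕ) [Fact q.Prime]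

/-- The local second inequality for Galois-units pairs. -/
theorem card_H2_le_of_isGalUnits {G : Type} [Group G] {A : Rep.{0} ℤ G}
    (hA : IsGalUnits (fun K _ => IsPadicField q K) G A) :
    Finite (groupCohomology A 2) ∧ Nat.card (groupCohomology A 2) ≤ Nat.card G := by
  obtain ⟨K, L, _, _, _, _, _, hK, e, ⟨φ⟩⟩ := hA
  obtain ⟨hf, hle⟩ := card_H2_units_le_padic q K L hK
  have E := h2Equiv e φ
  have hc : Nat.card G = Module.finrank K L :=
    (Nat.card_congr e.toEquiv).trans (IsGalois.card_aut_eq_finrank K L)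
  exact ⟨Finite.of_equiv _ E.symm.toEquiv, by rw [Nat.card_congr E.toEquiv, hc]; exact hle⟩

/-- **Local Brauer group at finite level, normed base.**  `K` a local field (normed), `L / K`
finite Galois; `hcard` is the second inequality for the quotient pairs of Galois extensions of
`K`. -/
theorem brauer_units_normed {K : Type} [NontriviallyNormedField K] [IsUltrametricDist K]
    [ProperSpace K] [CharZero K] (L : Type) [Field L] [Algebra K L] [FiniteDimensional K L]
    [IsGalois K L]
    (hcard : ∀ (M : Type) [Field M] [Algebra K M] [FiniteDimensional K M] [IsGalois K M]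
      (N₁ : Subgroup (M ≃ₐ[K] M)) [N₁.Normal],
      Finite (groupCohomology ((Rep.ofAlgebraAutOnUnits K M).quotientToInvariants N₁) 2) ∧
        Nat.card (groupCohomology ((Rep.ofAlgebraAutOnUnits K M).quotientToInvariants N₁) 2) ≤
          Nat.card ((M ≃ₐ[K] M) ⧸ N₁)) :
    Nat.card (groupCohomology (Rep.ofAlgebraAutOnUnits K L) 2) = Module.finrank K L ∧
      ∃ u : groupCohomology (Rep.ofAlgebraAutOnUnits K L) 2, ∀ b, ∃ m : ℕ, b = m • u := by
  have : CharZero L := charZero_of_injective_algebraMap (algebraMap K L).injective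
  have hn : 0 < Module.finrank K L := Module.finrank_pos
  have hQ : 1 < Nat.card 𝓀[K] := one_lt_card_residueField K
  have hN0 : Nat.card 𝓀[K] ^ Module.finrank K L - 1 ≠ 0 := by
    have : Nat.card 𝓀[K] ^ 1 ≤ Nat.card 𝓀[K] ^ Module.finrank K L :=
      Nat.pow_le_pow_right (by omega) hn
    rw [pow_one] at this
    omega
  have : NeZero (Nat.card 𝓀[K] ^ Module.finrank K L - 1) := ⟨hN0⟩
  -- the big field
  set N := Nat.card 𝓀[K] ^ Module.finrank K L - 1 with hN
  have hGalM : IsGalois K (CyclotomicField N L) := isGalois_cyclotomicField N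
  have hfdLM : FiniteDimensional L (CyclotomicField N L) :=
    IsCyclotomicExtension.finiteDimensional {N} L (CyclotomicField N L)
  have hfdM : FiniteDimensional K (CyclotomicField N L) := Module.Finite.trans L _
  obtain ⟨ζ, hζ⟩ := IsCyclotomicExtension.exists_isPrimitiveRoot L (CyclotomicField N L)
    (Set.mem_singleton N) hN0
  -- the image of `L` in the big field
  set f : L →ₐ[K] CyclotomicField N L := IsScalarTower.toAlgHom K L (CyclotomicField N L) with hf
  set L' : IntermediateField K (CyclotomicField N L) := f.fieldRange with hL'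
  have eL : L ≃ₐ[K] L' := AlgEquiv.ofInjectiveField f
  have hGalL' : IsGalois K L' := IsGalois.of_algEquiv eL
  have hfin : Module.finrank K L' = Module.finrank K L := eL.toLinearEquiv.finrank_eq.symm
  have hM : L' ⊔ K⟮ζ⟯ = ⊤ := by
    suffices key : ∀ x : CyclotomicField N L, x ∈ L' ⊔ K⟮ζ⟯ from
      eq_top_iff.mpr (fun x _ => key x)
    intro x
    have hx : x ∈ Algebra.adjoin L {ζ} := by
      rw [IsCyclotomicExtension.adjoin_primitive_root_eq_top hζ]
      exact Algebra.mem_top
    induction hx using Algebra.adjoin_induction with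
    | mem y hy =>
      rw [Set.mem_singleton_iff] at hy
      subst hy
      exact (le_sup_right : K⟮y⟯ ≤ L' ⊔ K⟮y⟯) (IntermediateField.mem_adjoin_simple_self K y)
    | algebraMap r => exact (le_sup_left : L' ≤ L' ⊔ K⟮ζ⟯) ⟨r, rfl⟩
    | add y z _ _ hy hz => exact add_mem hy hz
    | mul y z _ _ hy hz => exact mul_mem hy hz
  -- the second inequality for the quotient pair
  have hcq : Nat.card ((CyclotomicField N L ≃ₐ[K] CyclotomicField N L) ⧸ L'.fixingSubgroup) =
      Module.finrank K L := by
    rw [← Subgroup.index_eq_card, ← IntermediateField.finrank_eq_fixingSubgroup_index, hfin]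
  have hc := hcard (CyclotomicField N L) L'.fixingSubgroup
  rw [hcq] at hc
  -- the normed core
  have core : Nat.card (groupCohomology ((Rep.ofAlgebraAutOnUnits K
        (CyclotomicField N L)).quotientToInvariants L'.fixingSubgroup) 2) = Module.finrank K L ∧
      ∃ u : groupCohomology ((Rep.ofAlgebraAutOnUnits K
        (CyclotomicField N L)).quotientToInvariants L'.fixingSubgroup) 2,
        ∀ b, ∃ m : ℕ, b = m • u := by
    letI nM : NontriviallyNormedField (CyclotomicField N L) :=
      spectralNorm.nontriviallyNormedField K (CyclotomicField N L)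
    letI : NormedAlgebra K (CyclotomicField N L) :=
      spectralNorm.normedAlgebra K (CyclotomicField N L)
    have : IsUltrametricDist (CyclotomicField N L) :=
      IsUltrametricDist.isUltrametricDist_of_forall_norm_add_le_max_norm
        (isNonarchimedean_spectralNorm (K := K) (L := CyclotomicField N L))
    have h := card_H2_quotient_eq (K := K) (M := CyclotomicField N L) L' (ζ := ζ)
      (by rw [hfin]; exact hζ) hM (by rw [hfin]; exact hc)
    rw [hfin] at h
    exact h
  -- transport to `L`
  have hLq : L' = GalUnits.quotField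
      (MulEquiv.refl (CyclotomicField N L ≃ₐ[K] CyclotomicField N L)) L'.fixingSubgroup := by
    change L' = IntermediateField.fixedField (L'.fixingSubgroup.map
      (MulEquiv.refl (CyclotomicField N L ≃ₐ[K] CyclotomicField N L)).toMonoidHom)
    have h1 : L'.fixingSubgroup.map
        (MulEquiv.refl (CyclotomicField N L ≃ₐ[K] CyclotomicField N L)).toMonoidHom =
          L'.fixingSubgroup := by
      ext x
      simp
    rw [h1, IsGalois.fixedField_fixingSubgroup]
  have E1 : groupCohomology ((Rep.ofAlgebraAutOnUnits K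
        (CyclotomicField N L)).quotientToInvariants L'.fixingSubgroup) 2 ≃+
      groupCohomology (Rep.ofAlgebraAutOnUnits K (GalUnits.quotField
        (MulEquiv.refl (CyclotomicField N L ≃ₐ[K] CyclotomicField N L)) L'.fixingSubgroup)) 2 :=
    h2Equiv (GalUnits.quotEquiv (MulEquiv.refl _) L'.fixingSubgroup)
      (GalUnits.quotIso (MulEquiv.refl _) L'.fixingSubgroup).symm
  have φ : L ≃ₐ[K] GalUnits.quotField
      (MulEquiv.refl (CyclotomicField N L ≃ₐ[K] CyclotomicField N L)) L'.fixingSubgroup :=
    eL.trans (IntermediateField.equivOfEq hLq)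
  have E2 := h2Equiv (AlgEquiv.autCongr φ) (unitsIsoOfAlgEquiv φ)
  exact cyc_of_addEquiv E2.symm (cyc_of_addEquiv E1 core)

end Main

section Padic

variable (q : ℕ) [Fact q.Prime]

/-- **Local Brauer group at finite level (field form).**  For a finite Galois extension `L / K`
of finite extensions of `ℚ_q`, the group `H²(Gal(L/K), Lˣ)` is cyclic of order `[L : K]`. -/
theorem brauer_units (K L : Type) [Field K] [Field L] [Algebra K L] [FiniteDimensional K L]
    [IsGalois K L] (hK : IsPadicField q K) :
    Nat.card (groupCohomology (Rep.ofAlgebraAutOnUnits K L) 2) = Module.finrank K L ∧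
      ∃ u : groupCohomology (Rep.ofAlgebraAutOnUnits K L) 2, ∀ b, ∃ m : ℕ, b = m • u := by
  have hK' := hK
  obtain ⟨_, _⟩ := hK
  have hcz : CharZero K := charZero_of_injective_algebraMap (algebraMap ℚ_[q] K).injective
  have hGL := isGaloisLike_isGalUnits (fun K _ => IsPadicField q K)
    (fun K L _ _ _ _ hK => isPadicField_of_finite q K L hK)
  have hcard : ∀ (M : Type) [Field M] [Algebra K M] [FiniteDimensional K M] [IsGalois K M]
      (N₁ : Subgroup (M ≃ₐ[K] M)) [N₁.Normal],
      Finite (groupCohomology ((Rep.ofAlgebraAutOnUnits K M).quotientToInvariants N₁) 2) ∧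
        Nat.card (groupCohomology ((Rep.ofAlgebraAutOnUnits K M).quotientToInvariants N₁) 2) ≤
          Nat.card ((M ≃ₐ[K] M) ⧸ N₁) := by
    intro M _ _ _ _ N₁ _
    exact card_H2_le_of_isGalUnits q (hGL.quot _ _ N₁ (isGalUnits_self _ K M hK'))
  letI nK : NontriviallyNormedField K := spectralNorm.nontriviallyNormedField ℚ_[q] K
  letI : NormedAlgebra ℚ_[q] K := spectralNorm.normedAlgebra ℚ_[q] K
  have : IsUltrametricDist K :=
    IsUltrametricDist.isUltrametricDist_of_forall_norm_add_le_max_norm
      (isNonarchimedean_spectralNorm (K := ℚ_[q]) (L := K))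
  have : ProperSpace K := FiniteDimensional.proper ℚ_[q] K
  exact brauer_units_normed (K := K) L hcard

/-- **Local Brauer group at finite level, for Galois-units pairs** `(G, A) ≅ (Gal(L/K), Lˣ)`,
`K` a finite extension of `ℚ_q`: `H²(G, A)` is finite cyclic of order `|G|`. -/
theorem brauer_isGalUnits {G : Type} [Group G] {A : Rep.{0} ℤ G}
    (hA : IsGalUnits (fun K _ => IsPadicField q K) G A) :
    Finite (groupCohomology A 2) ∧ Nat.card (groupCohomology A 2) = Nat.card G ∧
      IsAddCyclic (groupCohomology A 2) ∧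
      ∃ u : groupCohomology A 2, ∀ b, ∃ m : ℕ, b = m • u := by
  obtain ⟨hfin, -⟩ := card_H2_le_of_isGalUnits q hA
  obtain ⟨K, L, _, _, _, _, _, hK, e, ⟨φ⟩⟩ := hA
  have hc : Nat.card G = Module.finrank K L :=
    (Nat.card_congr e.toEquiv).trans (IsGalois.card_aut_eq_finrank K L)
  obtain ⟨h1, u, hu⟩ := cyc_of_addEquiv (h2Equiv e φ).symm (brauer_units q K L hK)
  refine ⟨hfin, by rw [h1, hc], ⟨u, fun b => ?_⟩, u, hu⟩
  obtain ⟨m, hm⟩ := hu b
  exact ⟨(m : ℤ), by change (m : ℤ) • u = b; rw [hm, natCast_zsmul]⟩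

/-- The field form for intermediate fields of `ℚ̄_q / ℚ_q`. -/
theorem brauer_local (E : IntermediateField ℚ_[q] (PadicAlgCl q)) [FiniteDimensional ℚ_[q] E]
    (L : Type) [Field L] [Algebra E L] [FiniteDimensional E L] [IsGalois E L] :
    IsAddCyclic (groupCohomology (Rep.ofAlgebraAutOnUnits E L) 2) ∧
      Nat.card (groupCohomology (Rep.ofAlgebraAutOnUnits E L) 2) = Module.finrank E L := by
  obtain ⟨h1, u, hu⟩ := brauer_units q E L (isPadicField_intermediate q E)
  refine ⟨⟨u, fun b => ?_⟩, h1⟩
  obtain ⟨m, hm⟩ := hu b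
  exact ⟨(m : ℤ), by change (m : ℤ) • u = b; rw [hm, natCast_zsmul]⟩

end Padic

section Torsion

variable {X : Type*} [AddCommGroup X] {n : ℕ}

theorem addOrderOf_eq_of_generator (h : Nat.card X = n ∧ ∃ u : X, ∀ b : X, ∃ m : ℕ, b = m • u) :
    ∃ u : X, addOrderOf u = n ∧ ∀ b : X, ∃ m : ℕ, b = m • u := by
  obtain ⟨h1, u, hu⟩ := h
  refine ⟨u, ?_, hu⟩
  rw [← h1]
  apply addOrderOf_eq_card_of_forall_mem_zmultiples
  intro b
  obtain ⟨m, hm⟩ := hu b
  exact ⟨(m : ℤ), by change (m : ℤ) • u = b; rw [hm, natCast_zsmul]⟩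

/-- In a cyclic group of order `n`, the `p`-torsion consists of the `(n / p)`-multiples. -/
theorem exists_eq_nsmul_of_torsion
    (h : Nat.card X = n ∧ ∃ u : X, ∀ b : X, ∃ m : ℕ, b = m • u) {p : ℕ} (hp : p.Prime)
    (x : X) (hx : p • x = 0) : ∃ y : X, x = (n / p) • y := by
  obtain ⟨u, hord, hu⟩ := addOrderOf_eq_of_generator h
  obtain ⟨m, rfl⟩ := hu x
  rw [← mul_nsmul', ← addOrderOf_dvd_iff_nsmul_eq_zero, hord] at hx
  by_cases hpn : p ∣ n
  · obtain ⟨n', rfl⟩ := hpn
    rw [Nat.mul_div_cancel_left _ hp.pos]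
    have h2 : n' ∣ m := Nat.dvd_of_mul_dvd_mul_left hp.pos hx
    obtain ⟨k, rfl⟩ := h2
    exact ⟨k • u, by rw [mul_nsmul']⟩
  · have hcop : Nat.Coprime n p := ((Nat.Prime.coprime_iff_not_dvd hp).mpr hpn).symm
    have h2 : n ∣ m := hcop.dvd_of_dvd_mul_left hx
    refine ⟨0, ?_⟩
    rw [nsmul_zero, ← addOrderOf_dvd_iff_nsmul_eq_zero, hord]
    exact h2

/-- In a cyclic group of order `n` divisible by `p` there is an element of order `p`. -/
theorem exists_ne_zero_torsion
    (h : Nat.card X = n ∧ ∃ u : X, ∀ b : X, ∃ m : ℕ, b = m • u) {p : ℕ} (hp : p.Prime)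
    (hpn : p ∣ n) (hn : 0 < n) : ∃ x : X, x ≠ 0 ∧ p • x = 0 := by
  obtain ⟨u, hord, -⟩ := addOrderOf_eq_of_generator h
  obtain ⟨n', rfl⟩ := hpn
  have hn' : 0 < n' := Nat.pos_of_mul_pos_left hn
  refine ⟨n' • u, ?_, ?_⟩
  · rw [Ne, ← addOrderOf_dvd_iff_nsmul_eq_zero, hord]
    intro hdvd
    have := Nat.le_of_dvd hn' hdvd
    have h2 : 2 ≤ p := hp.two_le
    nlinarith
  · rw [← mul_nsmul', ← addOrderOf_dvd_iff_nsmul_eq_zero, hord]

end Torsion

section PadicTorsion

variable (q : ℕ) [Fact q.Prime]

/-- For a Galois-units pair over a finite extension of `ℚ_q`, every `p`-torsion class of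
`H²(G, A)` is a `(|G| / p)`-multiple. -/
theorem brauer_isGalUnits_torsion {G : Type} [Group G] {A : Rep.{0} ℤ G}
    (hA : IsGalUnits (fun K _ => IsPadicField q K) G A) {p : ℕ} (hp : p.Prime)
    (x : groupCohomology A 2) (hx : p • x = 0) :
    ∃ y : groupCohomology A 2, x = (Nat.card G / p) • y := by
  obtain ⟨-, h1, -, h2⟩ := brauer_isGalUnits q hA
  exact exists_eq_nsmul_of_torsion ⟨h1, h2⟩ hp x hx

/-- For a Galois-units pair over a finite extension of `ℚ_q` with `p ∣ |G|`, the group
`H²(G, A)` contains a class of order `p`. -/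
theorem brauer_isGalUnits_exists_torsion {G : Type} [Group G] [Finite G] {A : Rep.{0} ℤ G}
    (hA : IsGalUnits (fun K _ => IsPadicField q K) G A) {p : ℕ} (hp : p.Prime)
    (hpG : p ∣ Nat.card G) :
    ∃ x : groupCohomology A 2, x ≠ 0 ∧ p • x = 0 := by
  obtain ⟨-, h1, -, h2⟩ := brauer_isGalUnits q hA
  exact exists_ne_zero_torsion ⟨h1, h2⟩ hp hpG Nat.card_pos

end PadicTorsion

end Fermat.Agent.CFT.Local.BrauerLocal
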