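import Mathlib

/-!
# CFT / Local — fields with a faithful action of a finite cyclic group

Elementary forms of Hilbert 90 (additive and multiplicative) and of the surjectivity of the
trace, for a field `k` with a faithful `MulSemiringAction` of a finite cyclic group
`G = ⟨σ⟩`; for finite `k` also the surjectivity of the norm onto the fixed units.
Everything is stated element-wise (no `Algebra.norm`, no fixed field), universe polymorphic.
-/

set_option autoImplicit false

namespace Fermat.Agent.CFT.Local.UnitCoh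

section SumRange

variable {G : Type*} [Group G] [Fintype G]

lemma image_pow_range_orderOf (σ : G) (hσ : ∀ τ : G, τ ∈ Subgroup.zpowers σ) [DecidableEq G] :
    (Finset.range (orderOf σ)).image (fun i : ℕ => σ ^ i) = Finset.univ := by
  have hinj : Set.InjOn (fun i : ℕ => σ ^ i) (Finset.range (orderOf σ) : Set ℕ) := by
    intro a ha b hb hab
    exact pow_injOn_Iio_orderOf (by simpa using ha) (by simpa using hb) hab
  apply Finset.eq_univ_of_card
  rw [Finset.card_image_of_injOn hinj, Finset.card_range,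
    orderOf_eq_card_of_forall_mem_zpowers hσ, Nat.card_eq_fintype_card]

lemma sum_univ_eq_sum_range_pow {M : Type*} [AddCommMonoid M] (σ : G)
    (hσ : ∀ τ : G, τ ∈ Subgroup.zpowers σ) (F : G → M) :
    ∑ τ, F τ = ∑ i ∈ Finset.range (orderOf σ), F (σ ^ i) := by
  classical
  have hinj : Set.InjOn (fun i : ℕ => σ ^ i) (Finset.range (orderOf σ) : Set ℕ) := by
    intro a ha b hb hab
    exact pow_injOn_Iio_orderOf (by simpa using ha) (by simpa using hb) hab
  rw [← image_pow_range_orderOf σ hσ, Finset.sum_image hinj]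

lemma prod_univ_eq_prod_range_pow {M : Type*} [CommMonoid M] (σ : G)
    (hσ : ∀ τ : G, τ ∈ Subgroup.zpowers σ) (F : G → M) :
    ∏ τ, F τ = ∏ i ∈ Finset.range (orderOf σ), F (σ ^ i) := by
  classical
  have hinj : Set.InjOn (fun i : ℕ => σ ^ i) (Finset.range (orderOf σ) : Set ℕ) := by
    intro a ha b hb hab
    exact pow_injOn_Iio_orderOf (by simpa using ha) (by simpa using hb) hab
  rw [← image_pow_range_orderOf σ hσ, Finset.prod_image hinj]

end SumRange

section Field

variable {G : Type*} [Group G] [Fintype G] {k : Type*} [Field k] [MulSemiringAction G k]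

omit [Fintype G] in
/-- The action, as a family of monoid homomorphisms, is injective when faithful. -/
lemma smulMonoidHom_injective (hfaith : ∀ τ : G, (∀ x : k, τ • x = x) → τ = 1) :
    Function.Injective
      (fun τ : G => ((MulSemiringAction.toRingHom G k τ : k →+* k) : k →* k)) := by
  intro τ τ' hττ'
  have h1 : ∀ x : k, τ • x = τ' • x := fun x => DFunLike.congr_fun hττ' x
  have h2 : τ'⁻¹ * τ = 1 := hfaith _ (fun x => by rw [mul_smul, h1, inv_smul_smul])
  exact (inv_mul_eq_one.mp h2).symm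

/-- Dedekind: the trace `x ↦ ∑ τ, τ • x` is not identically zero. -/
lemma exists_sum_smul_ne_zero (hfaith : ∀ τ : G, (∀ x : k, τ • x = x) → τ = 1) :
    ∃ x : k, ∑ τ : G, τ • x ≠ 0 := by
  classical
  by_contra h0
  have h : ∀ x : k, ∑ τ : G, τ • x = 0 := fun x => by_contra (fun hx => h0 ⟨x, hx⟩)
  have hli := (linearIndependent_monoidHom k k).comp _ (smulMonoidHom_injective hfaith)
  have h0 := Fintype.linearIndependent_iff.mp hli (fun _ => (1 : k)) (by
    funext x
    simpa using h x) 1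
  exact one_ne_zero h0

/-- The trace is surjective onto the fixed elements. -/
lemma exists_sum_smul_eq (hfaith : ∀ τ : G, (∀ x : k, τ • x = x) → τ = 1) (c : k)
    (hc : ∀ τ : G, τ • c = c) : ∃ b : k, ∑ τ : G, τ • b = c := by
  obtain ⟨x0, hx0⟩ := exists_sum_smul_ne_zero hfaith
  have htfix : ∀ ρ : G, ρ • (∑ τ : G, τ • x0) = ∑ τ : G, τ • x0 := by
    intro ρ
    rw [Finset.smul_sum]
    simp only [smul_smul]
    exact Fintype.sum_equiv (Equiv.mulLeft ρ) _ _ (fun _ => rfl)
  refine ⟨c * (∑ τ : G, τ • x0)⁻¹ * x0, ?_⟩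
  have h1 : ∀ τ : G, τ • (c * (∑ τ : G, τ • x0)⁻¹ * x0) = c * (∑ τ : G, τ • x0)⁻¹ * τ • x0 := by
    intro τ
    rw [smul_mul', smul_mul', hc, smul_inv'', htfix]
  simp_rw [h1, ← Finset.mul_sum]
  rw [mul_assoc, inv_mul_cancel₀ hx0, mul_one]

/-- Additive Hilbert 90 for a faithful action of a finite cyclic group. -/
lemma exists_smul_sub_eq_of_sum_eq_zero (σ : G) (hσ : ∀ τ : G, τ ∈ Subgroup.zpowers σ)
    (hfaith : ∀ τ : G, (∀ x : k, τ • x = x) → τ = 1) (x : k) (hx : ∑ τ : G, τ • x = 0) :
    ∃ b : k, σ • b - b = x := by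
  obtain ⟨θ, hθ⟩ := exists_sum_smul_eq hfaith (1 : k) (fun τ => smul_one τ)
  rw [sum_univ_eq_sum_range_pow σ hσ] at hx hθ
  set n := orderOf σ with hn
  -- partial sums
  let d : ℕ → k := fun i => ∑ j ∈ Finset.range i, σ ^ j • x
  have hd0 : d 0 = 0 := by simp [d]
  have hdn : d n = 0 := hx
  have hds : ∀ i, σ • d i = d (i + 1) - x := by
    intro i
    simp only [d]
    rw [Finset.sum_range_succ', Finset.smul_sum]
    simp [smul_smul, pow_succ']
  let y : k := ∑ i ∈ Finset.range n, d i * σ ^ i • θ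
  have hσn : σ ^ n = 1 := pow_orderOf_eq_one σ
  have hσθ : ∑ i ∈ Finset.range n, σ ^ (i + 1) • θ = 1 := by
    have h1 : ∑ i ∈ Finset.range (n + 1), σ ^ i • θ
        = ∑ i ∈ Finset.range n, σ ^ (i + 1) • θ + σ ^ 0 • θ := Finset.sum_range_succ' _ _
    have h2 : ∑ i ∈ Finset.range (n + 1), σ ^ i • θ
        = ∑ i ∈ Finset.range n, σ ^ i • θ + σ ^ n • θ := Finset.sum_range_succ _ _
    rw [hσn] at h2
    rw [h2, hθ] at h1
    simpa using h1.symm
  have hy : σ • y = y - x := by
    have h1 : σ • y = ∑ i ∈ Finset.range n, (d (i + 1) - x) * σ ^ (i + 1) • θ := by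
      simp only [y]
      rw [Finset.smul_sum]
      refine Finset.sum_congr rfl (fun i _ => ?_)
      rw [smul_mul', hds, smul_smul, pow_succ']
    have h2 : ∑ i ∈ Finset.range n, d (i + 1) * σ ^ (i + 1) • θ = y := by
      have h3 : ∑ i ∈ Finset.range (n + 1), d i * σ ^ i • θ
          = ∑ i ∈ Finset.range n, d (i + 1) * σ ^ (i + 1) • θ + d 0 * σ ^ 0 • θ :=
        Finset.sum_range_succ' _ _
      have h4 : ∑ i ∈ Finset.range (n + 1), d i * σ ^ i • θ
          = ∑ i ∈ Finset.range n, d i * σ ^ i • θ + d n * σ ^ n • θ := Finset.sum_range_succ _ _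
      rw [hd0, zero_mul, add_zero] at h3
      rw [hdn, zero_mul, add_zero] at h4
      rw [← h3, h4]
    rw [h1]
    simp_rw [sub_mul]
    rw [Finset.sum_sub_distrib, h2, ← Finset.mul_sum, hσθ, mul_one]
  refine ⟨-y, ?_⟩
  rw [smul_neg, hy]; ring

/-- Multiplicative Hilbert 90 for a faithful action of a finite cyclic group. -/
lemma exists_smul_eq_mul_of_prod_eq_one (σ : G) (hσ : ∀ τ : G, τ ∈ Subgroup.zpowers σ)
    (hfaith : ∀ τ : G, (∀ x : k, τ • x = x) → τ = 1) (x : k) (hx : ∏ τ : G, τ • x = 1) :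
    ∃ y : k, y ≠ 0 ∧ σ • y = x * y := by
  classical
  rw [prod_univ_eq_prod_range_pow σ hσ] at hx
  set n := orderOf σ with hn
  have hnpos : 0 < n := orderOf_pos σ
  let c : ℕ → k := fun i => ∏ j ∈ Finset.range i, σ ^ j • x
  have hc0 : c 0 = 1 := by simp [c]
  have hcn : c n = 1 := hx
  have hx0 : x ≠ 0 := by
    rintro rfl
    have : c n = 0 := by
      simp only [c]
      exact Finset.prod_eq_zero (Finset.mem_range.mpr hnpos) (by simp)
    rw [hcn] at this
    exact one_ne_zero this
  have hcs : ∀ i, x * σ • c i = c (i + 1) := by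
    intro i
    simp only [c]
    rw [Finset.prod_range_succ', Finset.smul_prod']
    simp [smul_smul, pow_succ', mul_comm]
  have hσn : σ ^ n = 1 := pow_orderOf_eq_one σ
  -- independence of the characters `σ ^ i`, `i < n`
  have hinj : Function.Injective
      (fun i : Fin n => ((MulSemiringAction.toRingHom G k (σ ^ (i : ℕ)) : k →+* k) : k →* k)) := by
    intro i j hij
    have := smulMonoidHom_injective hfaith hij
    exact Fin.ext (pow_injOn_Iio_orderOf (Set.mem_Iio.mpr i.2) (Set.mem_Iio.mpr j.2) this)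
  have hli := (linearIndependent_monoidHom k k).comp _ hinj
  have hex : ∃ θ : k, ∑ i ∈ Finset.range n, c i * σ ^ i • θ ≠ 0 := by
    by_contra h1
    have h : ∀ θ : k, ∑ i ∈ Finset.range n, c i * σ ^ i • θ = 0 :=
      fun θ => by_contra (fun hθ => h1 ⟨θ, hθ⟩)
    have h0 := Fintype.linearIndependent_iff.mp hli (fun i => c (i : ℕ)) (by
      funext θ
      have := h θ
      rw [Finset.sum_range] at this
      simpa using this) ⟨0, hnpos⟩
    simp only [hc0] at h0
    exact one_ne_zero h0
  obtain ⟨θ, hθ⟩ := hex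
  set y : k := ∑ i ∈ Finset.range n, c i * σ ^ i • θ with hy
  have hxy : x * σ • y = y := by
    have h1 : x * σ • y = ∑ i ∈ Finset.range n, c (i + 1) * σ ^ (i + 1) • θ := by
      rw [hy, Finset.smul_sum, Finset.mul_sum]
      refine Finset.sum_congr rfl (fun i _ => ?_)
      rw [smul_mul', ← mul_assoc, hcs, smul_smul, pow_succ']
    have h3 : ∑ i ∈ Finset.range (n + 1), c i * σ ^ i • θ
        = ∑ i ∈ Finset.range n, c (i + 1) * σ ^ (i + 1) • θ + c 0 * σ ^ 0 • θ :=
      Finset.sum_range_succ' _ _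
    have h4 : ∑ i ∈ Finset.range (n + 1), c i * σ ^ i • θ
        = ∑ i ∈ Finset.range n, c i * σ ^ i • θ + c n * σ ^ n • θ := Finset.sum_range_succ _ _
    rw [hc0, pow_zero, one_smul, one_mul] at h3
    rw [hcn, hσn, one_smul, one_mul] at h4
    rw [h1]
    have : ∑ i ∈ Finset.range n, c (i + 1) * σ ^ (i + 1) • θ + θ = y + θ := by
      rw [← h3, h4]
    exact add_right_cancel this
  have hσy : σ • y = x⁻¹ * y := by
    rw [eq_inv_mul_iff_mul_eq₀ hx0]; exact hxy
  refine ⟨y⁻¹, inv_ne_zero hθ, ?_⟩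
  rw [smul_inv'', hσy, mul_inv, inv_inv]

end Field

end Fermat.Agent.CFT.Local.UnitCoh
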