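import Fermat.Agent.CFT.Local.CyclicNormIndexNormed

/-!
# `|H²(Gal(L/K), Lˣ)| = [L : K]` for a cyclic extension of local fields

Bridge from the index form of the local norm index theorem (`hq_units_eq_card`) to Mathlib's
group cohomology of `Rep.ofAlgebraAutOnUnits K L`, via the periodicity isomorphism for finite
cyclic groups.
-/

set_option autoImplicit false

namespace Fermat.Agent.CFT.Local.CycNorm

open Fermat.Agent.Lib.Herbrand CategoryTheory IsLocalRing

section CyclicH2

variable {K L : Type} [Field K] [Field L] [Algebra K L] [FiniteDimensional K L]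
  [IsCyclic (L ≃ₐ[K] L)]

attribute [local instance] IsCyclic.commGroup

variable (K L) in
/-- The underlying additive group of `Rep.ofAlgebraAutOnUnits K L` is `Additive Lˣ`. -/
def unitsRepEquiv : (Rep.ofAlgebraAutOnUnits K L) ≃+ Additive Lˣ := AddEquiv.refl _

omit [FiniteDimensional K L] [IsCyclic (L ≃ₐ[K] L)] in
lemma smul_units_eq (σ : L ≃ₐ[K] L) (u : Lˣ) : σ • u = Units.map (σ : L →* L) u := by
  ext
  simp

omit [FiniteDimensional K L] in
lemma unitsRepEquiv_applyAsHom_sub (σ : L ≃ₐ[K] L) (x : Rep.ofAlgebraAutOnUnits K L) :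
    unitsRepEquiv K L ((Rep.applyAsHom (Rep.ofAlgebraAutOnUnits K L) σ
        - 𝟙 (Rep.ofAlgebraAutOnUnits K L)).hom x)
      = addSubOne σ (unitsRepEquiv K L x) := by
  rw [addSubOne_apply, unitsSubOne_apply, ← smul_units_eq]
  rfl

omit [IsCyclic (L ≃ₐ[K] L)] in
lemma unitsRepEquiv_norm (x : Rep.ofAlgebraAutOnUnits K L) :
    unitsRepEquiv K L ((Rep.norm (Rep.ofAlgebraAutOnUnits K L)).hom x)
      = addNorm K L (unitsRepEquiv K L x) := by
  rw [addNorm_apply, unitsNorm_apply]
  apply Additive.toMul.injective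
  rw [toMul_ofMul]
  simp only [← smul_units_eq]
  exact Representation.norm_ofMulDistribMulAction_eq (G := L ≃ₐ[K] L) (M := Lˣ) x

omit [FiniteDimensional K L] in
lemma mem_ker_iff (σ : L ≃ₐ[K] L) (x : Rep.ofAlgebraAutOnUnits K L) :
    x ∈ LinearMap.ker (Rep.applyAsHom (Rep.ofAlgebraAutOnUnits K L) σ
        - 𝟙 (Rep.ofAlgebraAutOnUnits K L)).hom.toLinearMap
      ↔ unitsRepEquiv K L x ∈ (addSubOne σ).ker := by
  rw [AddMonoidHom.mem_ker, ← unitsRepEquiv_applyAsHom_sub, AddEquiv.map_eq_zero_iff]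
  exact LinearMap.mem_ker

omit [IsCyclic (L ≃ₐ[K] L)] in
lemma mem_range_norm_iff (x : Rep.ofAlgebraAutOnUnits K L) :
    x ∈ LinearMap.range (Rep.norm (Rep.ofAlgebraAutOnUnits K L)).hom.toLinearMap
      ↔ unitsRepEquiv K L x ∈ (addNorm K L).range := by
  rw [AddMonoidHom.mem_range]
  constructor
  · rintro ⟨y, rfl⟩
    exact ⟨unitsRepEquiv K L y, (unitsRepEquiv_norm y).symm⟩
  · rintro ⟨y, hy⟩
    refine ⟨(unitsRepEquiv K L).symm y, ?_⟩
    apply (unitsRepEquiv K L).injective
    have h2 := unitsRepEquiv_norm (K := K) ((unitsRepEquiv K L).symm y)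
    rw [AddEquiv.apply_symm_apply] at h2
    exact h2.trans hy

/-- **Cyclic dictionary.** For a finite cyclic Galois extension `L/K` with generator `σ`,
`H²(Gal(L/K), Lˣ)` is in bijection with `ker (σ - 1) / N Lˣ`; in particular its cardinality is
the index `hq (σ - 1) N` of `Lib.Herbrand` (`0` meaning infinite). -/
theorem card_H2_eq_hq (σ : L ≃ₐ[K] L) (hσ : ∀ τ : L ≃ₐ[K] L, τ ∈ Subgroup.zpowers σ) :
    Nat.card (groupCohomology (Rep.ofAlgebraAutOnUnits K L) 2)
      = hq (addSubOne σ) (addNorm K L) := by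
  classical
  have hepi : Epi (Rep.FiniteCyclicGroup.groupCohomologyπEven (Rep.ofAlgebraAutOnUnits K L)
      σ hσ 2 even_two) := by
    dsimp only [Rep.FiniteCyclicGroup.groupCohomologyπEven]
    have h1 : Epi ((Rep.FiniteCyclicGroup.normHomCompSub
        (Rep.ofAlgebraAutOnUnits K L) σ).homologyπ) := inferInstance
    have h2 : Epi ((Rep.FiniteCyclicGroup.groupCohomologyIsoEven
        (Rep.ofAlgebraAutOnUnits K L) σ hσ 2 even_two).inv) := inferInstance
    have h3 : Epi ((Rep.FiniteCyclicGroup.normHomCompSub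
        (Rep.ofAlgebraAutOnUnits K L) σ).moduleCatCyclesIso.inv) :=
      @IsIso.epi_of_iso _ _ _ _ _ (Iso.isIso_inv _)
    have h4 := epi_comp (Rep.FiniteCyclicGroup.normHomCompSub
        (Rep.ofAlgebraAutOnUnits K L) σ).homologyπ (Rep.FiniteCyclicGroup.groupCohomologyIsoEven
        (Rep.ofAlgebraAutOnUnits K L) σ hσ 2 even_two).inv
    exact @epi_comp _ _ _ _ _ _ h3 _ h4
  have hπsurj : Function.Surjective
      (Rep.FiniteCyclicGroup.groupCohomologyπEven (Rep.ofAlgebraAutOnUnits K L) σ hσ 2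
        even_two).hom :=
    (ModuleCat.epi_iff_surjective _).1 hepi
  let ε : ↥(LinearMap.ker (Rep.applyAsHom (Rep.ofAlgebraAutOnUnits K L) σ
        - 𝟙 (Rep.ofAlgebraAutOnUnits K L)).hom.toLinearMap) ≃+ ↥(addSubOne σ).ker :=
    { toFun := fun x => ⟨unitsRepEquiv K L x.1, (mem_ker_iff σ x.1).1 x.2⟩
      invFun := fun y => ⟨(unitsRepEquiv K L).symm y.1, (mem_ker_iff σ _).2 (by
        rw [AddEquiv.apply_symm_apply]
        exact y.2)⟩
      left_inv := fun x => Subtype.ext (AddEquiv.symm_apply_apply _ _)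
      right_inv := fun y => Subtype.ext (AddEquiv.apply_symm_apply _ _)
      map_add' := fun x y => Subtype.ext (map_add _ _ _) }
  let ψ : ↥(addSubOne σ).ker →+ groupCohomology (Rep.ofAlgebraAutOnUnits K L) 2 :=
    ((Rep.FiniteCyclicGroup.groupCohomologyπEven (Rep.ofAlgebraAutOnUnits K L) σ hσ 2
        even_two).hom.toAddMonoidHom).comp ε.symm.toAddMonoidHom
  have hψsurj : Function.Surjective ψ := hπsurj.comp ε.symm.surjective
  have hψker : ψ.ker = (addNorm K L).range.addSubgroupOf (addSubOne σ).ker := by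
    ext x
    rw [AddMonoidHom.mem_ker, AddSubgroup.mem_addSubgroupOf]
    have h1 := Rep.FiniteCyclicGroup.groupCohomologyπEven_eq_zero_iff
      (Rep.ofAlgebraAutOnUnits K L) σ hσ 2 even_two (ε.symm x)
    have h2 : ψ x = (Rep.FiniteCyclicGroup.groupCohomologyπEven (Rep.ofAlgebraAutOnUnits K L)
        σ hσ 2 even_two).hom (ε.symm x) := rfl
    rw [h2, h1, mem_range_norm_iff]
    have h3 : unitsRepEquiv K L ((ε.symm x : _) : Rep.ofAlgebraAutOnUnits K L)
        = (x : Additive Lˣ) := AddEquiv.apply_symm_apply _ _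
    rw [h3]
  have e := QuotientAddGroup.quotientKerEquivOfSurjective ψ hψsurj
  rw [← Nat.card_congr e.toEquiv, hψker]
  rfl

variable [IsGalois K L]

/-- **`|H²(Gal(L/K), Lˣ)| = [L : K]`** for a finite cyclic Galois extension `L/K` and a
Galois-stable valuation subring of `L` which is a complete discrete valuation ring with finite
residue field. -/
theorem card_H2_units_eq_finrank (O : ValuationSubring L) [IsDiscreteValuationRing O]
    [IsAdicComplete (maximalIdeal O) O] [Finite (ResidueField O)]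
    (hO : ∀ τ : L ≃ₐ[K] L, ∀ x ∈ O, τ x ∈ O) :
    Finite (groupCohomology (Rep.ofAlgebraAutOnUnits K L) 2) ∧
      Nat.card (groupCohomology (Rep.ofAlgebraAutOnUnits K L) 2) = Module.finrank K L := by
  obtain ⟨σ, hσ⟩ := IsCyclic.exists_generator (α := L ≃ₐ[K] L)
  obtain ⟨h1, -⟩ := hq_units_eq_card O hO σ hσ
  have hcard : Fintype.card (L ≃ₐ[K] L) = Module.finrank K L := by
    rw [← Nat.card_eq_fintype_card]
    exact IsGalois.card_aut_eq_finrank K L
  have h2 : Nat.card (groupCohomology (Rep.ofAlgebraAutOnUnits K L) 2) = Module.finrank K L := by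
    rw [card_H2_eq_hq σ hσ, h1, hcard]
  refine ⟨?_, h2⟩
  apply Nat.finite_of_card_ne_zero
  rw [h2]
  exact Module.finrank_pos.ne'

end CyclicH2

section Prime

variable {K L : Type} [Field K] [Field L] [Algebra K L] [FiniteDimensional K L] [IsGalois K L]

/-- Prime-degree form (no cyclicity hypothesis), in the shape consumed by the solvable
induction `Fermat.Agent.S55.GrpCoh.card_H2_units_le`. -/
theorem card_H2_units_le_of_prime (hp : (Module.finrank K L).Prime) (O : ValuationSubring L)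
    [IsDiscreteValuationRing O] [IsAdicComplete (maximalIdeal O) O] [Finite (ResidueField O)]
    (hO : ∀ τ : L ≃ₐ[K] L, ∀ x ∈ O, τ x ∈ O) :
    Finite (groupCohomology (Rep.ofAlgebraAutOnUnits K L) 2) ∧
      Nat.card (groupCohomology (Rep.ofAlgebraAutOnUnits K L) 2) ≤ Module.finrank K L := by
  have : Fact (Module.finrank K L).Prime := ⟨hp⟩
  have : IsCyclic (L ≃ₐ[K] L) :=
    isCyclic_of_prime_card (p := Module.finrank K L) (IsGalois.card_aut_eq_finrank K L)
  obtain ⟨h1, h2⟩ := card_H2_units_eq_finrank (K := K) O hO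
  exact ⟨h1, h2.le⟩

end Prime

section Normed

variable {K L : Type} [Field K] [NontriviallyNormedField L] [IsUltrametricDist L] [ProperSpace L]
  [Algebra K L] [FiniteDimensional K L] [IsGalois K L]

/-- Normed-field form: `L` locally compact ultrametric, `L/K` finite cyclic Galois, the Galois
group acting by isometries. -/
theorem card_H2_units_eq_finrank_of_proper [IsCyclic (L ≃ₐ[K] L)]
    (hiso : ∀ (τ : L ≃ₐ[K] L) (x : L), ‖τ x‖ = ‖x‖) :
    Finite (groupCohomology (Rep.ofAlgebraAutOnUnits K L) 2) ∧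
      Nat.card (groupCohomology (Rep.ofAlgebraAutOnUnits K L) 2) = Module.finrank K L :=
  card_H2_units_eq_finrank (unitBall L) (fun τ x hx => by
    rw [mem_unitBall] at hx ⊢
    rwa [hiso])

/-- Normed-field form, prime degree. -/
theorem card_H2_units_le_of_prime_of_proper (hp : (Module.finrank K L).Prime)
    (hiso : ∀ (τ : L ≃ₐ[K] L) (x : L), ‖τ x‖ = ‖x‖) :
    Finite (groupCohomology (Rep.ofAlgebraAutOnUnits K L) 2) ∧
      Nat.card (groupCohomology (Rep.ofAlgebraAutOnUnits K L) 2) ≤ Module.finrank K L :=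
  card_H2_units_le_of_prime hp (unitBall L) (fun τ x hx => by
    rw [mem_unitBall] at hx ⊢
    rwa [hiso])

end Normed

end Fermat.Agent.CFT.Local.CycNorm
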