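import Mathlib

/-!
# Normal-basis lattices in a Galois extension

Let `L/K` be a finite Galois extension and `β` a `K`-basis of `L` indexed by the Galois group
which is permuted by it (`τ (β g) = β (τ * g)`), e.g. a normal basis.  For an additive subgroup
`R` of `K` the "lattice" `normalLattice β R = ⊕_g R • β g` is an induced module, so it is
cohomologically trivial.  We prove the two statements needed for cyclic groups in elementary
form (`normalLattice_h0`, `normalLattice_h1`), and we show that such a lattice can be squeezed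
between `d • O` and `O` for every Galois-stable valuation subring `O` of `L`
(`exists_normalLattice`).
-/

set_option autoImplicit false

namespace Fermat.Agent.CFT.Local.CycNorm

open Module

section Lattice

variable {K L : Type*} [Field K] [Field L] [Algebra K L]

/-- The additive subgroup of `L` of all elements whose coordinates in the basis `β`
lie in `R`. -/
def normalLattice (β : Basis (L ≃ₐ[K] L) K L) (R : AddSubgroup K) : AddSubgroup L where
  carrier := {x | ∀ g, β.repr x g ∈ R}
  zero_mem' := by intro g; simp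
  add_mem' := by
    intro a b ha hb g
    simpa using R.add_mem (ha g) (hb g)
  neg_mem' := by
    intro a ha g
    simpa using R.neg_mem (ha g)

lemma mem_normalLattice {β : Basis (L ≃ₐ[K] L) K L} {R : AddSubgroup K} {x : L} :
    x ∈ normalLattice β R ↔ ∀ g, β.repr x g ∈ R := Iff.rfl

/-- Coordinates of a Galois conjugate. -/
lemma repr_algEquiv_apply (β : Basis (L ≃ₐ[K] L) K L)
    (hβ : ∀ τ g : L ≃ₐ[K] L, τ (β g) = β (τ * g)) (τ : L ≃ₐ[K] L) (x : L) (g : L ≃ₐ[K] L) :
    β.repr (τ x) g = β.repr x (τ⁻¹ * g) := by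
  classical
  have key : (β.coord g).comp τ.toLinearMap = β.coord (τ⁻¹ * g) := by
    apply β.ext
    intro h
    simp only [LinearMap.coe_comp, Function.comp_apply, AlgEquiv.toLinearMap_apply, hβ,
      Basis.coord_apply, Basis.repr_self, Finsupp.single_apply]
    by_cases hh : τ * h = g
    · have : h = τ⁻¹ * g := by rw [← hh]; group
      simp [this]
    · have : ¬ h = τ⁻¹ * g := by
        intro h'
        apply hh
        rw [h']; group
      simp [hh, this]
  exact LinearMap.congr_fun key x

lemma algEquiv_mem_normalLattice (β : Basis (L ≃ₐ[K] L) K L)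
    (hβ : ∀ τ g : L ≃ₐ[K] L, τ (β g) = β (τ * g)) (R : AddSubgroup K) (τ : L ≃ₐ[K] L) {x : L}
    (hx : x ∈ normalLattice β R) : τ x ∈ normalLattice β R := by
  intro g
  rw [repr_algEquiv_apply β hβ]
  exact hx _

/-- `Ĥ⁰` of the lattice vanishes: a Galois-fixed element of the lattice is a trace from the
lattice. -/
theorem normalLattice_h0 [Fintype (L ≃ₐ[K] L)] (β : Basis (L ≃ₐ[K] L) K L)
    (hβ : ∀ τ g : L ≃ₐ[K] L, τ (β g) = β (τ * g)) (R : AddSubgroup K) {x : L}
    (hx : x ∈ normalLattice β R) (hfix : ∀ τ : L ≃ₐ[K] L, τ x = x) :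
    ∃ y ∈ normalLattice β R, ∑ τ : L ≃ₐ[K] L, τ y = x := by
  classical
  have hc : ∀ g, β.repr x g = β.repr x 1 := by
    intro g
    have h1 := repr_algEquiv_apply β hβ g x g
    rw [hfix g] at h1
    rw [h1]
    congr 1
    group
  refine ⟨β.repr x 1 • β 1, ?_, ?_⟩
  · intro g
    simp only [map_smul, Basis.repr_self, Finsupp.smul_apply, Finsupp.single_apply, smul_eq_mul]
    split_ifs
    · simpa using hx 1
    · simp
  · have h2 : ∀ τ : L ≃ₐ[K] L, τ (β.repr x 1 • β 1) = β.repr x τ • β τ := by
      intro τ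
      rw [map_smul, hβ, mul_one, hc τ]
    rw [Finset.sum_congr rfl (fun τ _ => h2 τ)]
    exact β.sum_repr x

end Lattice

section Cyclic

/-- Summation over a finite cyclic group along the powers of a generator. -/
lemma sum_range_pow_eq_sum {G M : Type*} [Group G] [Fintype G] [AddCommMonoid M] (σ : G)
    (hσ : ∀ τ, τ ∈ Subgroup.zpowers σ) (F : G → M) :
    ∑ i ∈ Finset.range (Fintype.card G), F (σ ^ i) = ∑ g, F g := by
  classical
  have hinj : Set.InjOn (fun i : ℕ => σ ^ i) (Finset.range (Fintype.card G) : Set ℕ) := by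
    have h := pow_injOn_Iio_orderOf (x := σ)
    rw [orderOf_eq_card_of_forall_mem_zpowers hσ, Nat.card_eq_fintype_card] at h
    intro a ha b hb hab
    exact h (by simpa using ha) (by simpa using hb) hab
  rw [← Finset.sum_image (f := F) (g := fun i : ℕ => σ ^ i) hinj]
  have himg := IsCyclic.image_range_card hσ
  rw [Nat.card_eq_fintype_card] at himg
  rw [himg]

lemma sum_range_pow_succ_eq_sum {G M : Type*} [Group G] [Fintype G] [AddCommMonoid M] (σ : G)
    (hσ : ∀ τ, τ ∈ Subgroup.zpowers σ) (F : G → M) :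
    ∑ i ∈ Finset.range (Fintype.card G), F (σ ^ (i + 1)) = ∑ g, F g := by
  have h1 := sum_range_pow_eq_sum σ hσ (fun g => F (σ * g))
  simp only [← pow_succ'] at h1
  rw [h1]
  exact Fintype.sum_equiv (Equiv.mulLeft σ) _ _ (fun _ => rfl)

variable {K L : Type*} [Field K] [Field L] [Algebra K L]

/-- `H¹` of the lattice vanishes for a cyclic Galois group: an element of the lattice of trace
zero is of the form `σ y - y` with `y` in the lattice. -/
theorem normalLattice_h1 [Fintype (L ≃ₐ[K] L)] (β : Basis (L ≃ₐ[K] L) K L)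
    (hβ : ∀ τ g : L ≃ₐ[K] L, τ (β g) = β (τ * g)) (R : AddSubgroup K) (σ : L ≃ₐ[K] L)
    (hσ : ∀ τ : L ≃ₐ[K] L, τ ∈ Subgroup.zpowers σ) {x : L}
    (hx : x ∈ normalLattice β R) (hN : ∑ τ : L ≃ₐ[K] L, τ x = 0) :
    ∃ y ∈ normalLattice β R, σ y - y = x := by
  classical
  set n := Fintype.card (L ≃ₐ[K] L) with hn
  -- partial sums
  set s : ℕ → L := fun i => ∑ j ∈ Finset.range i, (σ ^ j) x with hs
  have hs_mem : ∀ i, s i ∈ normalLattice β R := by
    intro i
    exact AddSubgroup.sum_mem _ (fun j _ => algEquiv_mem_normalLattice β hβ R _ hx)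
  have hs0 : s 0 = 0 := by simp [hs]
  have hsn : s n = 0 := by
    have := sum_range_pow_eq_sum σ hσ (fun τ : L ≃ₐ[K] L => τ x)
    simp only [hs, hn]
    rw [this, hN]
  have hs_succ : ∀ i, σ (s i) = s (i + 1) - x := by
    intro i
    simp only [hs]
    rw [Finset.sum_range_succ', map_sum]
    simp only [pow_zero, AlgEquiv.one_apply, add_sub_cancel_right]
    refine Finset.sum_congr rfl (fun j _ => ?_)
    rw [pow_succ']
    rfl
  set T : ℕ → L := fun i => β.repr (s i) (σ ^ i) • β (σ ^ i) with hT
  have hT0 : T 0 = 0 := by simp [hT, hs0]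
  have hTn : T n = 0 := by simp [hT, hsn]
  refine ⟨-∑ i ∈ Finset.range n, T i, ?_, ?_⟩
  · apply AddSubgroup.neg_mem
    apply AddSubgroup.sum_mem
    intro i _ g
    simp only [hT, map_smul, Basis.repr_self, Finsupp.smul_apply, Finsupp.single_apply,
      smul_eq_mul]
    split_ifs
    · simpa using hs_mem i (σ ^ i)
    · simp
  · have h1 : ∀ i, σ (T i) = T (i + 1) - β.repr x (σ ^ (i + 1)) • β (σ ^ (i + 1)) := by
      intro i
      simp only [hT]
      rw [map_smul, hβ, ← pow_succ', ← sub_smul]
      congr 1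
      have h2 := repr_algEquiv_apply β hβ σ (s i) (σ ^ (i + 1))
      rw [hs_succ] at h2
      have h3 : σ⁻¹ * σ ^ (i + 1) = σ ^ i := by
        rw [pow_succ']; group
      rw [h3] at h2
      rw [← h2]
      simp
    rw [map_neg, map_sum, Finset.sum_congr rfl (fun i _ => h1 i), Finset.sum_sub_distrib]
    have h4 : ∑ i ∈ Finset.range n, T (i + 1) = ∑ i ∈ Finset.range n, T i := by
      have e1 := Finset.sum_range_succ' T n
      have e2 := Finset.sum_range_succ T n
      rw [hT0, add_zero] at e1
      rw [hTn, add_zero] at e2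
      rw [← e1, e2]
    have h5 : ∑ i ∈ Finset.range n, β.repr x (σ ^ (i + 1)) • β (σ ^ (i + 1)) = x := by
      rw [hn, sum_range_pow_succ_eq_sum σ hσ (fun g => β.repr x g • β g)]
      exact β.sum_repr x
    rw [h4, h5]
    abel

end Cyclic

section Exists

variable {K L : Type*} [Field K] [Field L] [Algebra K L] [FiniteDimensional K L] [IsGalois K L]

/-- Every element of `L` can be scaled into a Galois-stable valuation subring by a nonzero
element of the base field lying in that subring. -/
lemma exists_scale_mem (O : ValuationSubring L) (hO : ∀ τ : L ≃ₐ[K] L, ∀ x ∈ O, τ x ∈ O)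
    (x : L) : ∃ s : K, s ≠ 0 ∧ algebraMap K L s ∈ O ∧ algebraMap K L s * x ∈ O := by
  classical
  by_cases hx : x ∈ O
  · exact ⟨1, one_ne_zero, by simp [one_mem], by simpa using hx⟩
  · have hx0 : x ≠ 0 := by
      rintro rfl
      exact hx O.zero_mem
    have hxi : x⁻¹ ∈ O := (O.mem_or_inv_mem x).resolve_left hx
    refine ⟨Algebra.norm K x⁻¹, ?_, ?_, ?_⟩
    · rw [Algebra.norm_ne_zero_iff]
      exact inv_ne_zero hx0
    · rw [Algebra.norm_eq_prod_automorphisms]
      exact prod_mem (fun τ _ => hO τ _ hxi)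
    · rw [Algebra.norm_eq_prod_automorphisms,
        ← Finset.mul_prod_erase Finset.univ _ (Finset.mem_univ (1 : L ≃ₐ[K] L))]
      simp only [AlgEquiv.one_apply]
      have h1 : ∀ P : L, x⁻¹ * P * x = P := by
        intro P
        field_simp
      rw [h1]
      exact prod_mem (fun τ _ => hO τ _ hxi)

/-- **Existence of an induced lattice.** For a Galois-stable valuation subring `O` of `L` there
are a basis `β` of `L/K` permuted by the Galois group and contained in `O`, and a nonzero
`d ∈ K ∩ O`, such that `d • O` is contained in the lattice of `β` with coefficients in `K ∩ O`. -/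
theorem exists_normalLattice (O : ValuationSubring L)
    (hO : ∀ τ : L ≃ₐ[K] L, ∀ x ∈ O, τ x ∈ O) :
    ∃ (β : Basis (L ≃ₐ[K] L) K L) (d : K),
      (∀ τ g : L ≃ₐ[K] L, τ (β g) = β (τ * g)) ∧ (∀ g, β g ∈ O) ∧ d ≠ 0 ∧
      algebraMap K L d ∈ O ∧
      ∀ x ∈ O, ∀ g, algebraMap K L (β.repr (algebraMap K L d * x) g) ∈ O := by
  classical
  -- step 1: a normal basis scaled into `O`
  obtain ⟨s, hs0, -, hsθ⟩ := exists_scale_mem O hO (IsGalois.normalBasis K L 1)
  let b : Basis (L ≃ₐ[K] L) K L :=
    (IsGalois.normalBasis K L).unitsSMul (fun _ => Units.mk0 s hs0)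
  have hb : ∀ g, b g = g (algebraMap K L s * IsGalois.normalBasis K L 1) := by
    intro g
    simp only [b, Basis.unitsSMul_apply]
    rw [IsGalois.normalBasis_apply, map_mul, AlgEquiv.commutes, Units.smul_def, Algebra.smul_def]
    rfl
  have hbO : ∀ g, b g ∈ O := fun g => by
    rw [hb]
    exact hO g _ hsθ
  have hbτ : ∀ τ g : L ≃ₐ[K] L, τ (b g) = b (τ * g) := by
    intro τ g
    rw [hb, hb]
    rfl
  -- step 2: the dual basis for the trace form
  let β0 : Basis (L ≃ₐ[K] L) K L :=
    (Algebra.traceForm K L).dualBasis (traceForm_nondegenerate K L) b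
  have hβ0 : ∀ τ g : L ≃ₐ[K] L, τ (β0 g) = β0 (τ * g) := by
    intro τ g
    apply β0.repr.injective
    ext h
    rw [LinearMap.BilinForm.dualBasis_repr_apply, Basis.repr_self, Finsupp.single_apply]
    have e1 : τ (β0 g) * b h = τ (β0 g * b (τ⁻¹ * h)) := by
      rw [map_mul, hbτ]
      congr 2
      group
    rw [Algebra.traceForm_apply, e1, Algebra.trace_eq_of_algEquiv, ← Algebra.traceForm_apply,
      LinearMap.BilinForm.apply_dualBasis_left]
    by_cases hh : τ * g = h
    · have : τ⁻¹ * h = g := by rw [← hh]; group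
      simp [hh, this]
    · have : ¬ τ⁻¹ * h = g := by
        intro h'
        apply hh
        rw [← h']; group
      simp [hh, this]
  -- step 3: scale the dual basis into `O`
  obtain ⟨d, hd0, hdO, hdθ⟩ := exists_scale_mem O hO (β0 1)
  let β : Basis (L ≃ₐ[K] L) K L := β0.unitsSMul (fun _ => Units.mk0 d hd0)
  have hβ : ∀ g, β g = algebraMap K L d * β0 g := by
    intro g
    simp only [β, Basis.unitsSMul_apply]
    rw [Units.smul_def, Algebra.smul_def]
    rfl
  refine ⟨β, d, ?_, ?_, hd0, hdO, ?_⟩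
  · intro τ g
    rw [hβ, hβ, map_mul, AlgEquiv.commutes, hβ0]
  · intro g
    have : β g = g (algebraMap K L d * β0 1) := by
      rw [hβ, map_mul, AlgEquiv.commutes, hβ0, mul_one]
    rw [this]
    exact hO g _ hdθ
  · intro x hx g
    have e1 : β.repr (algebraMap K L d * x) g = Algebra.trace K L (x * b g) := by
      simp only [β]
      rw [Basis.repr_unitsSMul, ← Algebra.smul_def, map_smul, Finsupp.smul_apply,
        LinearMap.BilinForm.dualBasis_repr_apply, Algebra.traceForm_apply]
      simp only [Units.mk0, smul_eq_mul]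
      rw [Units.smul_def]
      simp only [Units.val_inv_eq_inv_val, smul_eq_mul]
      field_simp
    rw [e1, trace_eq_sum_automorphisms]
    exact sum_mem (fun τ _ => hO τ _ (mul_mem hx (hbO g)))

/-- **Packaged form.** For a Galois-stable valuation subring `O` of a finite Galois extension
`L/K` there is a Galois-stable additive subgroup `A` with `d • O ≤ A ≤ O` (for some nonzero
`d ∈ K ∩ O`) which is cohomologically trivial in the elementary sense: fixed elements are traces
and, for every generator `σ` of the Galois group, trace-zero elements are of the form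
`σ b - b`. -/
theorem exists_induced_lattice (O : ValuationSubring L)
    (hO : ∀ τ : L ≃ₐ[K] L, ∀ x ∈ O, τ x ∈ O) :
    ∃ (A : AddSubgroup L) (d : K), d ≠ 0 ∧ algebraMap K L d ∈ O ∧
      (∀ a ∈ A, a ∈ O) ∧ (∀ x ∈ O, algebraMap K L d * x ∈ A) ∧
      (∀ τ : L ≃ₐ[K] L, ∀ a ∈ A, τ a ∈ A) ∧
      (∀ a ∈ A, (∀ τ : L ≃ₐ[K] L, τ a = a) → ∃ b ∈ A, ∑ τ : L ≃ₐ[K] L, τ b = a) ∧
      (∀ σ : L ≃ₐ[K] L, (∀ τ : L ≃ₐ[K] L, τ ∈ Subgroup.zpowers σ) →
        ∀ a ∈ A, ∑ τ : L ≃ₐ[K] L, τ a = 0 → ∃ b ∈ A, σ b - b = a) := by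
  classical
  obtain ⟨β, d, hβ, hβO, hd0, hdO, hdA⟩ := exists_normalLattice (K := K) O hO
  let R : AddSubgroup K := (O.toSubring.comap (algebraMap K L)).toAddSubgroup
  have hR : ∀ c : K, c ∈ R ↔ algebraMap K L c ∈ O := fun c => Iff.rfl
  refine ⟨normalLattice β R, d, hd0, hdO, ?_, ?_, ?_, ?_, ?_⟩
  · intro a ha
    rw [← β.sum_repr a]
    refine sum_mem (fun g _ => ?_)
    rw [Algebra.smul_def]
    exact mul_mem ((hR _).1 (ha g)) (hβO g)
  · intro x hx g
    exact (hR _).2 (hdA x hx g)
  · intro τ a ha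
    exact algEquiv_mem_normalLattice β hβ R τ ha
  · intro a ha hfix
    exact normalLattice_h0 β hβ R ha hfix
  · intro σ hσ a ha hN
    exact normalLattice_h1 β hβ R σ hσ ha hN

end Exists

end Fermat.Agent.CFT.Local.CycNorm
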