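import Mathlib

/-!
# Cohomologically trivial subgroups of the unit group (successive approximation)

Let `L/K` be a finite Galois extension, `O` a Galois-stable valuation subring of `L`, `t ∈ K ∩ O`
a nonzero non-unit for which `O` is `t`-adically separated and complete, and `A` a Galois-stable
additive subgroup with `t • O ≤ A ≤ O` in which every Galois-fixed element is a trace
(`CohTrivSetup`).  Then the subgroups `V j = 1 + t ^ (j + 1) • A` of `Lˣ` satisfy: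

* `CohTrivSetup.h0_units`: every Galois-fixed element of `V 2` is the norm of an element of `V 2`;
* `CohTrivSetup.h1_units`: if moreover trace-zero elements of `A` are of the form `σ b - b`, then
  every element of `V 2` of norm one is of the form `σ y / y` with `y ∈ V 2`.

This is Serre's proof that a local field has a cohomologically trivial open subgroup of units;
no logarithm is used, so it works in every characteristic.
-/

set_option autoImplicit false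

namespace Fermat.Agent.CFT.Local.CycNorm

/-- **Abstract successive approximation.** -/
theorem succ_approx {U : Type*} [CommGroup U] (W : ℕ → Subgroup U) (P : Subgroup U) (φ : U →* U)
    (hφW : ∀ i, ∀ y ∈ W i, φ y ∈ W i) (hφP : ∀ y, φ y ∈ P)
    (hstep : ∀ i, ∀ x ∈ W i, x ∈ P → ∃ y ∈ W i, x / φ y ∈ W (i + 1))
    (hlim : ∀ y : ℕ → U, (∀ i, y i ∈ W i) →
      ∃ z ∈ W 0, ∀ k, z / ∏ i ∈ Finset.range k, y i ∈ W k)
    (hsep : ∀ x, (∀ k, x ∈ W k) → x = 1) :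
    ∀ x ∈ W 0, x ∈ P → ∃ z ∈ W 0, φ z = x := by
  classical
  intro x hx0 hxP
  have hch : ∀ (i : ℕ) (x : U), ∃ y, y ∈ W i ∧ (x ∈ W i → x ∈ P → x / φ y ∈ W (i + 1)) := by
    intro i x
    by_cases h : x ∈ W i ∧ x ∈ P
    · obtain ⟨y, hy, hxy⟩ := hstep i x h.1 h.2
      exact ⟨y, hy, fun _ _ => hxy⟩
    · exact ⟨1, one_mem _, fun h1 h2 => absurd ⟨h1, h2⟩ h⟩
  choose ych hych using hch
  let xs : ℕ → U := fun k => Nat.rec x (fun i xi => xi / φ (ych i xi)) k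
  have hxs0 : xs 0 = x := rfl
  have hxs_succ : ∀ k, xs (k + 1) = xs k / φ (ych k (xs k)) := fun k => rfl
  have hmem : ∀ k, xs k ∈ W k ∧ xs k ∈ P := by
    intro k
    induction k with
    | zero => exact ⟨hx0, hxP⟩
    | succ k ih =>
      refine ⟨?_, ?_⟩
      · rw [hxs_succ]
        exact (hych k (xs k)).2 ih.1 ih.2
      · rw [hxs_succ]
        exact P.div_mem ih.2 (hφP _)
  let ys : ℕ → U := fun k => ych k (xs k)
  have hys : ∀ k, ys k ∈ W k := fun k => (hych k (xs k)).1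
  have hprod : ∀ k, xs k = x / φ (∏ i ∈ Finset.range k, ys i) := by
    intro k
    induction k with
    | zero => simp [hxs0]
    | succ k ih =>
      have e : xs (k + 1) = xs k / φ (ys k) := rfl
      rw [e, ih, Finset.prod_range_succ, map_mul, div_div]
  obtain ⟨z, hz0, hz⟩ := hlim ys hys
  refine ⟨z, hz0, ?_⟩
  have h1 : x / φ z = 1 := by
    apply hsep
    intro k
    have e : x / φ z = xs k / φ (z / ∏ i ∈ Finset.range k, ys i) := by
      rw [hprod k, map_div, div_div_div_cancel_right]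
    rw [e]
    exact (W k).div_mem (hmem k).1 (hφW k _ (hz k))
  exact (div_eq_one.1 h1).symm

section Maps

variable (K L : Type*) [Field K] [Field L] [Algebra K L] [FiniteDimensional K L]

/-- The norm map `x ↦ ∏ τ, τ x` on units of `L` (product over all `K`-automorphisms). -/
noncomputable def unitsNorm : Lˣ →* Lˣ := ∏ τ : L ≃ₐ[K] L, Units.map (τ : L →* L)

variable {K L}

/-- The map `x ↦ σ x / x` on units of `L`. -/
def unitsSubOne (σ : L ≃ₐ[K] L) : Lˣ →* Lˣ := Units.map (σ : L →* L) / MonoidHom.id Lˣ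

omit [FiniteDimensional K L] in
@[simp] lemma unitsSubOne_apply (σ : L ≃ₐ[K] L) (x : Lˣ) :
    unitsSubOne σ x = Units.map (σ : L →* L) x / x := rfl

omit [FiniteDimensional K L] in
lemma val_unitsSubOne (σ : L ≃ₐ[K] L) (x : Lˣ) :
    ((unitsSubOne σ x : Lˣ) : L) = σ (x : L) / x := by
  rw [unitsSubOne_apply, Units.val_div_eq_div_val]
  rfl

lemma unitsNorm_apply (x : Lˣ) :
    unitsNorm K L x = ∏ τ : L ≃ₐ[K] L, Units.map (τ : L →* L) x := by
  simp [unitsNorm]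

lemma val_unitsNorm (x : Lˣ) :
    ((unitsNorm K L x : Lˣ) : L) = ∏ τ : L ≃ₐ[K] L, τ (x : L) := by
  rw [unitsNorm_apply, Units.coe_prod]
  rfl

lemma map_unitsNorm (τ : L ≃ₐ[K] L) (x : Lˣ) :
    Units.map (τ : L →* L) (unitsNorm K L x) = unitsNorm K L x := by
  apply Units.ext
  rw [Units.coe_map, val_unitsNorm, MonoidHom.coe_coe, map_prod]
  exact Fintype.prod_equiv (Equiv.mulLeft τ) _ _ (fun _ => rfl)

lemma unitsNorm_map (τ : L ≃ₐ[K] L) (x : Lˣ) :
    unitsNorm K L (Units.map (τ : L →* L) x) = unitsNorm K L x := by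
  apply Units.ext
  rw [val_unitsNorm, val_unitsNorm]
  exact Fintype.prod_equiv (Equiv.mulRight τ) _ _ (fun _ => rfl)

lemma unitsNorm_unitsSubOne (σ : L ≃ₐ[K] L) (x : Lˣ) :
    unitsNorm K L (unitsSubOne σ x) = 1 := by
  rw [unitsSubOne_apply, map_div, unitsNorm_map, div_self']

lemma unitsSubOne_unitsNorm (σ : L ≃ₐ[K] L) (x : Lˣ) :
    unitsSubOne σ (unitsNorm K L x) = 1 := by
  rw [unitsSubOne_apply, map_unitsNorm, div_self']

end Maps

section Setup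

variable (K : Type*) {L : Type*} [Field K] [Field L] [Algebra K L] [FiniteDimensional K L]

/-- The hypotheses of the successive-approximation argument. -/
structure CohTrivSetup (O : ValuationSubring L) (t : L) (A : AddSubgroup L) : Prop where
  t_ne : t ≠ 0
  t_mem : t ∈ O
  t_fix : ∀ τ : L ≃ₐ[K] L, τ t = t
  stable : ∀ τ : L ≃ₐ[K] L, ∀ x ∈ O, τ x ∈ O
  inv_mem : ∀ c ∈ O, (1 + t * c)⁻¹ ∈ O
  sep : ∀ x : L, (∀ k : ℕ, ∃ c ∈ O, x = t ^ k * c) → x = 0
  complete : ∀ (c : ℕ) (f : ℕ → L), (∀ k, f k ∈ O) →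
    (∀ k, ∃ u ∈ O, f (k + 1) - f k = t ^ (k + c) * u) →
    ∃ y ∈ O, ∀ k, ∃ u ∈ O, y - f k = t ^ (k + c) * u
  A_le : ∀ a ∈ A, a ∈ O
  tO_le : ∀ x ∈ O, t * x ∈ A
  A_stable : ∀ τ : L ≃ₐ[K] L, ∀ a ∈ A, τ a ∈ A
  h0 : ∀ a ∈ A, (∀ τ : L ≃ₐ[K] L, τ a = a) → ∃ b ∈ A, ∑ τ : L ≃ₐ[K] L, τ b = a

end Setup

section ProdLemma

variable {L : Type*} [Field L]

/-- First-order expansion of a finite product of `1 + s * u i`. -/
lemma prod_one_add_mul {ι : Type*} (O : ValuationSubring L) (S : Finset ι) (s : L) (hs : s ∈ O)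
    (u : ι → L) (hu : ∀ i, u i ∈ O) :
    ∃ c ∈ O, ∏ i ∈ S, (1 + s * u i) = 1 + s * ∑ i ∈ S, u i + s ^ 2 * c := by
  classical
  induction S using Finset.induction_on with
  | empty => exact ⟨0, zero_mem _, by simp⟩
  | insert a S ha ih =>
    obtain ⟨c, hc, hprod⟩ := ih
    refine ⟨c + u a * ∑ i ∈ S, u i + s * (u a * c), ?_, ?_⟩
    · exact add_mem (add_mem hc (mul_mem (hu a) (sum_mem fun i _ => hu i)))
        (mul_mem hs (mul_mem (hu a) hc))
    · rw [Finset.prod_insert ha, Finset.sum_insert ha, hprod]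
      ring

end ProdLemma

namespace CohTrivSetup

variable {K L : Type*} [Field K] [Field L] [Algebra K L] [FiniteDimensional K L]
variable {O : ValuationSubring L} {t : L} {A : AddSubgroup L} (h : CohTrivSetup K O t A)

include h

lemma tpow_mul_mem (j : ℕ) {c : L} (hc : c ∈ O) : t ^ (j + 1) * c ∈ A := by
  have e : t ^ (j + 1) * c = t * (t ^ j * c) := by ring
  rw [e]
  exact h.tO_le _ (mul_mem (pow_mem h.t_mem j) hc)

lemma one_add_ne_zero {c : L} (hc : c ∈ O) : 1 + t * c ≠ 0 := by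
  intro h0
  have h1 : t * (-c) = 1 := by linear_combination -h0
  have : (1 : L) = 0 := by
    apply h.sep
    intro k
    refine ⟨(-c) ^ k, pow_mem (neg_mem hc) k, ?_⟩
    rw [← mul_pow, h1, one_pow]
  exact one_ne_zero this

/-- The subgroup `1 + t ^ (j + 1) • A` of `Lˣ`. -/
def V (j : ℕ) : Subgroup Lˣ where
  carrier := {x | ∃ a ∈ A, (x : L) = 1 + t ^ (j + 1) * a}
  one_mem' := ⟨0, A.zero_mem, by simp⟩
  mul_mem' := by
    rintro x y ⟨a, ha, hx⟩ ⟨b, hb, hy⟩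
    refine ⟨a + b + t ^ (j + 1) * (a * b), A.add_mem (A.add_mem ha hb)
      (h.tpow_mul_mem j (mul_mem (h.A_le a ha) (h.A_le b hb))), ?_⟩
    rw [Units.val_mul, hx, hy]
    ring
  inv_mem' := by
    rintro x ⟨a, ha, hx⟩
    have hxinv : (x : L)⁻¹ ∈ O := by
      have h1 := h.inv_mem (t ^ j * a) (mul_mem (pow_mem h.t_mem j) (h.A_le a ha))
      have e : (x : L) = 1 + t * (t ^ j * a) := by rw [hx]; ring
      rwa [e]
    refine ⟨-a + t ^ (j + 1) * (a * a * (x : L)⁻¹), A.add_mem (A.neg_mem ha)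
      (h.tpow_mul_mem j (mul_mem (mul_mem (h.A_le a ha) (h.A_le a ha)) hxinv)), ?_⟩
    have h1 : (1 + t ^ (j + 1) * a) * (x : L)⁻¹ = 1 := by
      rw [← hx]
      exact mul_inv_cancel₀ x.ne_zero
    rw [Units.val_inv_eq_inv_val]
    linear_combination (1 - t ^ (j + 1) * a) * h1

lemma mem_V {j : ℕ} {x : Lˣ} : x ∈ h.V j ↔ ∃ a ∈ A, (x : L) = 1 + t ^ (j + 1) * a := Iff.rfl

lemma val_mem_of_mem_V {j : ℕ} {x : Lˣ} (hx : x ∈ h.V j) : (x : L) ∈ O := by
  obtain ⟨a, ha, hx⟩ := hx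
  rw [hx]
  exact add_mem (one_mem _) (mul_mem (pow_mem h.t_mem _) (h.A_le a ha))

lemma inv_val_mem_of_mem_V {j : ℕ} {x : Lˣ} (hx : x ∈ h.V j) : (x : L)⁻¹ ∈ O := by
  have h1 := h.val_mem_of_mem_V ((h.V j).inv_mem hx)
  rwa [Units.val_inv_eq_inv_val] at h1

lemma V_anti {i j : ℕ} (hij : i ≤ j) : h.V j ≤ h.V i := by
  rintro x ⟨a, ha, hx⟩
  rcases hij.eq_or_lt with rfl | hlt
  · exact ⟨a, ha, hx⟩
  · obtain ⟨d, rfl⟩ := Nat.exists_eq_add_of_lt hlt
    refine ⟨t ^ (d + 1) * a, h.tpow_mul_mem d (h.A_le a ha), ?_⟩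
    rw [hx]
    ring

lemma map_mem_V (τ : L ≃ₐ[K] L) {j : ℕ} {x : Lˣ} (hx : x ∈ h.V j) :
    Units.map (τ : L →* L) x ∈ h.V j := by
  obtain ⟨a, ha, hx⟩ := hx
  refine ⟨τ a, h.A_stable τ a ha, ?_⟩
  rw [Units.coe_map, MonoidHom.coe_coe, hx, map_add, map_one, map_mul, map_pow, h.t_fix]

lemma unitsNorm_mem_V {j : ℕ} {x : Lˣ} (hx : x ∈ h.V j) : unitsNorm K L x ∈ h.V j := by
  rw [unitsNorm_apply]
  exact prod_mem (fun τ _ => h.map_mem_V τ hx)

lemma unitsSubOne_mem_V (σ : L ≃ₐ[K] L) {j : ℕ} {x : Lˣ} (hx : x ∈ h.V j) :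
    unitsSubOne σ x ∈ h.V j := by
  rw [unitsSubOne_apply]
  exact (h.V j).div_mem (h.map_mem_V σ hx) hx

/-- Every `1 + t ^ (j + 1) * a` with `a ∈ A` is a unit lying in `V j`. -/
lemma exists_unit (j : ℕ) {a : L} (ha : a ∈ A) :
    ∃ y : Lˣ, y ∈ h.V j ∧ (y : L) = 1 + t ^ (j + 1) * a := by
  have hne : 1 + t ^ (j + 1) * a ≠ 0 := by
    have e : 1 + t ^ (j + 1) * a = 1 + t * (t ^ j * a) := by ring
    rw [e]
    exact h.one_add_ne_zero (mul_mem (pow_mem h.t_mem j) (h.A_le a ha))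
  exact ⟨Units.mk0 _ hne, ⟨a, ha, rfl⟩, rfl⟩

/-- `V j` contains all units congruent to `1` modulo `t ^ (j + 2)`. -/
lemma mem_V_of_eq {j : ℕ} {x : Lˣ} {c : L} (hc : c ∈ O) (hx : (x : L) = 1 + t ^ (j + 2) * c) :
    x ∈ h.V j := by
  refine ⟨t * c, h.tO_le c hc, ?_⟩
  rw [hx]
  ring

/-- One step of the approximation for `Ĥ⁰`. -/
lemma step0 (j : ℕ) {x : Lˣ} (hx : x ∈ h.V (j + 1))
    (hfix : ∀ τ : L ≃ₐ[K] L, Units.map (τ : L →* L) x = x) :
    ∃ y ∈ h.V (j + 1), x / unitsNorm K L y ∈ h.V (j + 2) := by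
  obtain ⟨a, ha, hxa⟩ := hx
  have hT : t ^ (j + 1 + 1) ≠ 0 := pow_ne_zero _ h.t_ne
  have hafix : ∀ τ : L ≃ₐ[K] L, τ a = a := by
    intro τ
    have h1 : τ (x : L) = x := by
      have := congrArg (fun u : Lˣ => (u : L)) (hfix τ)
      simpa using this
    rw [hxa, map_add, map_one, map_mul, map_pow, h.t_fix] at h1
    exact mul_left_cancel₀ hT (add_left_cancel h1)
  obtain ⟨b, hb, hba⟩ := h.h0 a ha hafix
  obtain ⟨y, hy, hyb⟩ := h.exists_unit (j + 1) hb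
  refine ⟨y, hy, ?_⟩
  obtain ⟨c, hc, hprod⟩ := prod_one_add_mul O (Finset.univ : Finset (L ≃ₐ[K] L))
    (t ^ (j + 1 + 1)) (pow_mem h.t_mem _) (fun τ => τ b)
    (fun τ => h.A_le _ (h.A_stable τ b hb))
  have hN : ((unitsNorm K L y : Lˣ) : L)
      = 1 + t ^ (j + 1 + 1) * a + (t ^ (j + 1 + 1)) ^ 2 * c := by
    rw [val_unitsNorm, ← hba, ← hprod]
    refine Finset.prod_congr rfl (fun τ _ => ?_)
    rw [hyb, map_add, map_one, map_mul, map_pow, h.t_fix]
  have hninv : ((unitsNorm K L y : Lˣ) : L)⁻¹ ∈ O :=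
    h.inv_val_mem_of_mem_V (h.unitsNorm_mem_V hy)
  have hn0 : ((unitsNorm K L y : Lˣ) : L) ≠ 0 := Units.ne_zero _
  rw [mem_V, Units.val_div_eq_div_val]
  generalize ((unitsNorm K L y : Lˣ) : L) = n at hN hninv hn0 ⊢
  refine ⟨t * (-(t ^ j * c * n⁻¹)),
    h.tO_le _ (neg_mem (mul_mem (mul_mem (pow_mem h.t_mem j) hc) hninv)), ?_⟩
  have hnn : n⁻¹ * n = 1 := inv_mul_cancel₀ hn0
  rw [div_eq_iff hn0]
  linear_combination hxa - hN + t ^ (j + 2 + 1) * t ^ (j + 1) * c * hnn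

/-- One step of the approximation for `H¹` (cyclic case). -/
lemma step1 (σ : L ≃ₐ[K] L)
    (h1 : ∀ a ∈ A, ∑ τ : L ≃ₐ[K] L, τ a = 0 → ∃ b ∈ A, σ b - b = a)
    (j : ℕ) {x : Lˣ} (hx : x ∈ h.V (j + 2)) (hN : unitsNorm K L x = 1) :
    ∃ y ∈ h.V (j + 2), x / unitsSubOne σ y ∈ h.V (j + 3) := by
  obtain ⟨a, ha, hxa⟩ := hx
  have hT : t ^ (j + 2 + 1) ≠ 0 := pow_ne_zero _ h.t_ne
  obtain ⟨c, hc, hprod⟩ := prod_one_add_mul O (Finset.univ : Finset (L ≃ₐ[K] L))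
    (t ^ (j + 2 + 1)) (pow_mem h.t_mem _) (fun τ => τ a)
    (fun τ => h.A_le _ (h.A_stable τ a ha))
  have hN' : ∏ τ : L ≃ₐ[K] L, (1 + t ^ (j + 2 + 1) * τ a) = 1 := by
    have h2 := congrArg (fun u : Lˣ => (u : L)) hN
    simp only [val_unitsNorm, Units.val_one] at h2
    have h3 : ∀ τ : L ≃ₐ[K] L, τ (x : L) = 1 + t ^ (j + 2 + 1) * τ a := by
      intro τ
      rw [hxa, map_add, map_one, map_mul, map_pow, h.t_fix]
    rw [← Finset.prod_congr rfl (fun τ _ => h3 τ)]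
    exact h2
  have hS : ∑ τ : L ≃ₐ[K] L, τ a = -(t ^ (j + 2 + 1) * c) := by
    rw [hN'] at hprod
    have h2 : t ^ (j + 2 + 1) * (∑ τ : L ≃ₐ[K] L, τ a + t ^ (j + 2 + 1) * c) = 0 := by
      linear_combination -hprod
    have h3 := (mul_eq_zero.1 h2).resolve_left hT
    linear_combination h3
  have hcfix : ∀ τ : L ≃ₐ[K] L, τ c = c := by
    intro τ
    have e1 : τ (∑ τ' : L ≃ₐ[K] L, τ' a) = ∑ τ' : L ≃ₐ[K] L, τ' a := by
      rw [map_sum]
      exact Fintype.sum_equiv (Equiv.mulLeft τ) _ _ (fun _ => rfl)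
    rw [hS, map_neg, map_mul, map_pow, h.t_fix] at e1
    exact mul_left_cancel₀ hT (neg_injective e1)
  have ht_mem : t ∈ A := by simpa using h.tO_le 1 (one_mem _)
  obtain ⟨e0, he0, he0t⟩ := h.h0 t ht_mem h.t_fix
  have he0O := h.A_le e0 he0
  have he : -(t ^ (j + 2) * c * e0) ∈ A := by
    have e2 : -(t ^ (j + 2) * c * e0) = t * (-(t ^ (j + 1) * c * e0)) := by ring
    rw [e2]
    exact h.tO_le _ (neg_mem (mul_mem (mul_mem (pow_mem h.t_mem _) hc) he0O))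
  have hetr : ∑ τ : L ≃ₐ[K] L, τ (-(t ^ (j + 2) * c * e0)) = -(t ^ (j + 2 + 1) * c) := by
    have e3 : ∀ τ : L ≃ₐ[K] L, τ (-(t ^ (j + 2) * c * e0)) = -(t ^ (j + 2) * c) * τ e0 := by
      intro τ
      rw [map_neg, map_mul, map_mul, map_pow, h.t_fix, hcfix]
      ring
    rw [Finset.sum_congr rfl (fun τ _ => e3 τ), ← Finset.mul_sum, he0t]
    ring
  obtain ⟨b, hb, hba⟩ := h1 (a - -(t ^ (j + 2) * c * e0)) (A.sub_mem ha he) (by
    rw [Finset.sum_congr rfl (fun τ _ => map_sub τ a _), Finset.sum_sub_distrib, hS, hetr,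
      sub_self])
  obtain ⟨y, hy, hyb⟩ := h.exists_unit (j + 2) hb
  refine ⟨y, hy, ?_⟩
  have hsy_eq : σ (y : L) = 1 + t ^ (j + 2 + 1) * σ b := by
    rw [hyb, map_add, map_one, map_mul, map_pow, h.t_fix]
  have hsy0 : σ (y : L) ≠ 0 := (map_ne_zero _).2 y.ne_zero
  have hsyinv : (σ (y : L))⁻¹ ∈ O := by
    have h2 := h.inv_val_mem_of_mem_V (h.map_mem_V σ hy)
    simpa using h2
  rw [mem_V, Units.val_div_eq_div_val, val_unitsSubOne]
  generalize σ (y : L) = sy at hsy_eq hsy0 hsyinv ⊢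
  have hwO : -(t ^ j * c * e0) + t ^ (j + 1) * (a * b) ∈ O :=
    add_mem (neg_mem (mul_mem (mul_mem (pow_mem h.t_mem _) hc) he0O))
      (mul_mem (pow_mem h.t_mem _) (mul_mem (h.A_le a ha) (h.A_le b hb)))
  have key : (x : L) * y - sy
      = t ^ (j + 3 + 1) * (t * (-(t ^ j * c * e0) + t ^ (j + 1) * (a * b))) := by
    have hσb : σ b = b + (a - -(t ^ (j + 2) * c * e0)) := by linear_combination hba
    rw [hxa, hyb, hsy_eq, hσb]
    ring
  refine ⟨t * ((-(t ^ j * c * e0) + t ^ (j + 1) * (a * b)) * sy⁻¹),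
    h.tO_le _ (mul_mem hwO hsyinv), ?_⟩
  rw [div_div_eq_mul_div, div_eq_iff hsy0]
  have hss : sy⁻¹ * sy = 1 := inv_mul_cancel₀ hsy0
  linear_combination key - t ^ (j + 3 + 1) * t * (-(t ^ j * c * e0) + t ^ (j + 1) * (a * b)) * hss

/-- Convergence of infinite products in the filtration. -/
lemma exists_limit (y : ℕ → Lˣ) (hy : ∀ i, y i ∈ h.V (i + 2)) :
    ∃ z ∈ h.V 2, ∀ k, z / ∏ i ∈ Finset.range k, y i ∈ h.V (k + 2) := by
  classical
  have hYmem : ∀ k, ∏ i ∈ Finset.range k, y i ∈ h.V 2 :=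
    fun k => prod_mem (fun i _ => h.V_anti (Nat.le_add_left 2 i) (hy i))
  choose a ha hya using hy
  have hYsucc : ∀ k, ((∏ i ∈ Finset.range (k + 1), y i : Lˣ) : L)
      = ((∏ i ∈ Finset.range k, y i : Lˣ) : L) * (1 + t ^ (k + 2 + 1) * a k) := by
    intro k
    rw [Finset.prod_range_succ, Units.val_mul, hya]
  obtain ⟨z0, hz0O, hz0⟩ := h.complete 3 (fun k => ((∏ i ∈ Finset.range k, y i : Lˣ) : L))
    (fun k => h.val_mem_of_mem_V (hYmem k)) (by
      intro k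
      refine ⟨((∏ i ∈ Finset.range k, y i : Lˣ) : L) * a k,
        mul_mem (h.val_mem_of_mem_V (hYmem k)) (h.A_le _ (ha k)), ?_⟩
      rw [hYsucc]
      ring)
  have hz0ne : z0 ≠ 0 := by
    obtain ⟨u, hu, hzu⟩ := hz0 0
    have e : z0 = 1 + t * (t ^ 2 * u) := by
      simp only [Finset.range_zero, Finset.prod_empty, Units.val_one] at hzu
      linear_combination hzu
    rw [e]
    exact h.one_add_ne_zero (mul_mem (pow_mem h.t_mem 2) hu)
  have hmain : ∀ k, Units.mk0 z0 hz0ne / ∏ i ∈ Finset.range k, y i ∈ h.V (k + 2) := by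
    intro k
    obtain ⟨u, hu, hzu⟩ := hz0 (k + 1)
    have hYk0 : ((∏ i ∈ Finset.range k, y i : Lˣ) : L) ≠ 0 := Units.ne_zero _
    have hYinv : ((∏ i ∈ Finset.range k, y i : Lˣ) : L)⁻¹ ∈ O :=
      h.inv_val_mem_of_mem_V (hYmem k)
    simp only [hYsucc] at hzu
    rw [mem_V, Units.val_div_eq_div_val, Units.val_mk0]
    generalize ((∏ i ∈ Finset.range k, y i : Lˣ) : L) = Yk at hYk0 hYinv hzu ⊢
    refine ⟨a k + t * (u * Yk⁻¹), A.add_mem (ha k) (h.tO_le _ (mul_mem hu hYinv)), ?_⟩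
    rw [div_eq_iff hYk0]
    have hyy : Yk⁻¹ * Yk = 1 := inv_mul_cancel₀ hYk0
    linear_combination hzu - t ^ (k + 2 + 1) * t * u * hyy
  refine ⟨Units.mk0 z0 hz0ne, ?_, hmain⟩
  have h2 := hmain 0
  simpa using h2

lemma eq_one_of_forall_mem_V {x : Lˣ} (hx : ∀ k, x ∈ h.V (k + 2)) : x = 1 := by
  apply Units.ext
  have h2 : (x : L) - 1 = 0 := by
    apply h.sep
    intro k
    obtain ⟨a, ha, hxa⟩ := hx k
    exact ⟨t ^ 3 * a, mul_mem (pow_mem h.t_mem 3) (h.A_le a ha), by rw [hxa]; ring⟩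
  rw [Units.val_one]
  linear_combination h2

/-- **`Ĥ⁰` of `V 2` vanishes**: a Galois-fixed element of `V 2` is the norm of an element of
`V 2`. -/
theorem h0_units {x : Lˣ} (hx : x ∈ h.V 2)
    (hfix : ∀ τ : L ≃ₐ[K] L, Units.map (τ : L →* L) x = x) :
    ∃ y ∈ h.V 2, unitsNorm K L y = x := by
  let P : Subgroup Lˣ :=
    { carrier := {x | ∀ τ : L ≃ₐ[K] L, Units.map (τ : L →* L) x = x}
      one_mem' := fun τ => map_one _
      mul_mem' := fun {a b} ha hb τ => by rw [map_mul, ha τ, hb τ]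
      inv_mem' := fun {a} ha τ => by rw [map_inv, ha τ] }
  exact succ_approx (fun i => h.V (i + 2)) P (unitsNorm K L)
    (fun _ _ hy => h.unitsNorm_mem_V hy) (fun y τ => map_unitsNorm τ y)
    (fun i _ hx hP => h.step0 (i + 1) hx hP)
    (fun y hy => h.exists_limit y hy)
    (fun _ hx => h.eq_one_of_forall_mem_V hx) x hx hfix

/-- **`H¹` of `V 2` vanishes** (cyclic form): an element of `V 2` of norm one is of the form
`σ y / y` with `y ∈ V 2`, provided the analogous additive statement holds for `A`. -/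
theorem h1_units (σ : L ≃ₐ[K] L)
    (h1 : ∀ a ∈ A, ∑ τ : L ≃ₐ[K] L, τ a = 0 → ∃ b ∈ A, σ b - b = a)
    {x : Lˣ} (hx : x ∈ h.V 2) (hN : unitsNorm K L x = 1) :
    ∃ y ∈ h.V 2, unitsSubOne σ y = x :=
  succ_approx (fun i => h.V (i + 2)) (unitsNorm K L).ker (unitsSubOne σ)
    (fun _ _ hy => h.unitsSubOne_mem_V σ hy)
    (fun y => MonoidHom.mem_ker.2 (unitsNorm_unitsSubOne σ y))
    (fun i _ hx hP => h.step1 σ h1 i hx (MonoidHom.mem_ker.1 hP))
    (fun y hy => h.exists_limit y hy)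
    (fun _ hx => h.eq_one_of_forall_mem_V hx) x hx (MonoidHom.mem_ker.2 hN)

end CohTrivSetup

end Fermat.Agent.CFT.Local.CycNorm
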