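import Mathlib
import Fermat.Agent.Lib.Herbrand
import Fermat.Agent.CFT.Local.InducedLattice
import Fermat.Agent.CFT.Local.UnitsCohTriv

/-!
# The norm index of a cyclic extension of local fields

Let `L/K` be a finite cyclic Galois extension and `O` a Galois-stable valuation subring of `L`
which is a complete discrete valuation ring with finite residue field.  Then
`[Kˣ : N_{L/K} Lˣ] = [L : K]` (`norm_index_eq_finrank`).
-/

set_option autoImplicit false

namespace Fermat.Agent.CFT.Local.CycNorm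

open IsLocalRing

section Bridge

variable {L : Type*} [Field L] (O : ValuationSubring L)

lemma inv_one_add_mem {t : L} (ht : O.valuation t < 1) {c : L} (hc : c ∈ O) :
    (1 + t * c)⁻¹ ∈ O := by
  have h1 : O.valuation (t * c) < 1 := by
    rw [map_mul]
    have hc1 : O.valuation c ≤ 1 := (O.valuation_le_one_iff c).2 hc
    calc O.valuation t * O.valuation c ≤ O.valuation t * 1 := by gcongr
      _ = O.valuation t := mul_one _
      _ < 1 := ht
  have h2 : O.valuation (1 + t * c) = 1 := O.valuation.map_one_add_of_lt h1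
  rw [← O.valuation_le_one_iff, map_inv₀, h2, inv_one]

lemma sep_of_complete [IsHausdorff (maximalIdeal O) O] {t : L} (htO : t ∈ O) (htm : (⟨t, htO⟩ : O) ∈ maximalIdeal O) (x : L)
    (hx : ∀ k : ℕ, ∃ c ∈ O, x = t ^ k * c) : x = 0 := by
  have hxO : x ∈ O := by
    obtain ⟨c, hc, h⟩ := hx 0
    simpa [h] using hc
  have hH : IsHausdorff (maximalIdeal O) O := inferInstance
  have h0 : (⟨x, hxO⟩ : O) = 0 := by
    apply hH.haus
    intro n
    rw [SModEq.zero, smul_eq_mul, Ideal.mul_top]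
    obtain ⟨c, hc, h⟩ := hx n
    have e : (⟨x, hxO⟩ : O) = (⟨t, htO⟩ : O) ^ n * ⟨c, hc⟩ := Subtype.ext (by simpa using h)
    rw [e]
    exact Ideal.mul_mem_right _ _ (Ideal.pow_mem_pow htm n)
  exact congrArg Subtype.val h0

lemma complete_of_complete [IsDiscreteValuationRing O] [IsPrecomplete (maximalIdeal O) O] {t : L} (htO : t ∈ O) (ht0 : t ≠ 0)
    (htm : (⟨t, htO⟩ : O) ∈ maximalIdeal O) (c : ℕ) (f : ℕ → L) (hf : ∀ k, f k ∈ O)
    (hcau : ∀ k, ∃ u ∈ O, f (k + 1) - f k = t ^ (k + c) * u) :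
    ∃ y ∈ O, ∀ k, ∃ u ∈ O, y - f k = t ^ (k + c) * u := by
  have hmn : ∀ m d, ∃ u ∈ O, f (m + d) - f m = t ^ (m + c) * u := by
    intro m d
    induction d with
    | zero => exact ⟨0, zero_mem _, by simp⟩
    | succ d ih =>
      obtain ⟨u, hu, h1⟩ := ih
      obtain ⟨u', hu', h2⟩ := hcau (m + d)
      refine ⟨u + t ^ d * u', add_mem hu (mul_mem (pow_mem htO d) hu'), ?_⟩
      have e : f (m + (d + 1)) - f m = (f (m + d + 1) - f (m + d)) + (f (m + d) - f m) := by
        rw [← add_assoc]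
        ring
      rw [e, h1, h2]
      ring
  have hP : IsPrecomplete (maximalIdeal O) O := inferInstance
  obtain ⟨y, hy⟩ := hP.prec (f := fun k => (⟨f k, hf k⟩ : O)) (by
    intro m n hmn'
    obtain ⟨d, rfl⟩ := Nat.exists_eq_add_of_le hmn'
    obtain ⟨u, hu, h1⟩ := hmn m d
    rw [SModEq.sub_mem, smul_eq_mul, Ideal.mul_top]
    have e : (⟨f m, hf m⟩ : O) - ⟨f (m + d), hf (m + d)⟩
        = -((⟨t, htO⟩ : O) ^ (m + c) * ⟨u, hu⟩) := by
      apply Subtype.ext
      push_cast
      linear_combination -h1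
    rw [e]
    exact neg_mem (Ideal.mul_mem_right _ _
      (Ideal.pow_le_pow_right (Nat.le_add_right m c) (Ideal.pow_mem_pow htm _))))
  refine ⟨y, y.2, fun k => ?_⟩
  obtain ⟨ϖ, hϖ⟩ := IsDiscreteValuationRing.exists_irreducible O
  have hTne : Ideal.span {(⟨t, htO⟩ : O) ^ (k + c)} ≠ (⊥ : Ideal O) := by
    rw [Ne, Ideal.span_singleton_eq_bot]
    exact pow_ne_zero _ (fun h0 => ht0 (congrArg Subtype.val h0))
  obtain ⟨N, hN⟩ := IsDiscreteValuationRing.ideal_eq_span_pow_irreducible hTne hϖ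
  have hmN : maximalIdeal O ^ N = Ideal.span {(⟨t, htO⟩ : O) ^ (k + c)} := by
    rw [hN, hϖ.maximalIdeal_eq, Ideal.span_singleton_pow]
  obtain ⟨u, hu, h1⟩ := hmn k N
  have h2 : y - ⟨f (k + N), hf (k + N)⟩ ∈ Ideal.span {(⟨t, htO⟩ : O) ^ (k + c)} := by
    rw [← hmN]
    have h3 := hy (k + N)
    rw [SModEq.sub_mem, smul_eq_mul, Ideal.mul_top] at h3
    have h4 : y - ⟨f (k + N), hf (k + N)⟩ ∈ maximalIdeal O ^ (k + N) := by
      have h5 := neg_mem h3
      rwa [neg_sub] at h5
    exact Ideal.pow_le_pow_right (Nat.le_add_left N k) h4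
  have h4 : y - ⟨f k, hf k⟩ ∈ Ideal.span {(⟨t, htO⟩ : O) ^ (k + c)} := by
    have e : y - ⟨f k, hf k⟩
        = (y - ⟨f (k + N), hf (k + N)⟩) + ((⟨f (k + N), hf (k + N)⟩ : O) - ⟨f k, hf k⟩) := by
      ring
    rw [e]
    refine add_mem h2 ?_
    rw [Ideal.mem_span_singleton']
    refine ⟨⟨u, hu⟩, Subtype.ext ?_⟩
    push_cast
    linear_combination -h1
  obtain ⟨w, hw⟩ := Ideal.mem_span_singleton'.1 h4
  refine ⟨w, w.2, ?_⟩
  have h5 := congrArg Subtype.val hw
  push_cast at h5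
  linear_combination -h5

variable [IsDiscreteValuationRing O] [Finite (ResidueField O)]

lemma finite_quotient_span (T : O) (hT : T ≠ 0) : Finite (O ⧸ Ideal.span {T}) := by
  obtain ⟨ϖ, hϖ⟩ := IsDiscreteValuationRing.exists_irreducible O
  obtain ⟨N, hN⟩ := IsDiscreteValuationRing.ideal_eq_span_pow_irreducible
    (s := Ideal.span {T}) (by rwa [Ne, Ideal.span_singleton_eq_bot]) hϖ
  rw [hN, ← Ideal.span_singleton_pow, ← hϖ.maximalIdeal_eq]
  have : Finite (O ⧸ maximalIdeal O) := ‹Finite (ResidueField O)›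
  exact Ideal.finite_quotient_pow (IsNoetherian.noetherian _) N

/-- A subgroup of `Lˣ` containing all units congruent to `1` modulo a nonzero `T ∈ O` has
finite index in the unit group of `O`. -/
lemma relIndex_unitGroup_ne_zero (V : Subgroup Lˣ) {T : L} (hTO : T ∈ O) (hT0 : T ≠ 0)
    (hV : ∀ x : Lˣ, ∀ c ∈ O, (x : L) = 1 + T * c → x ∈ V) : V.relIndex O.unitGroup ≠ 0 := by
  have := finite_quotient_span O ⟨T, hTO⟩ (fun h => hT0 (congrArg Subtype.val h))
  let φ : O.unitGroup →* (O ⧸ Ideal.span {(⟨T, hTO⟩ : O)})ˣ :=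
    (Units.map (Ideal.Quotient.mk (Ideal.span {(⟨T, hTO⟩ : O)}) : O →* _)).comp
      O.unitGroupMulEquiv.toMonoidHom
  have hker : φ.ker ≤ V.subgroupOf O.unitGroup := by
    intro x hx
    rw [MonoidHom.mem_ker] at hx
    have h1 : Ideal.Quotient.mk (Ideal.span {(⟨T, hTO⟩ : O)}) (O.unitGroupMulEquiv x : O) = 1 := by
      have h2 := congrArg Units.val hx
      simpa [φ] using h2
    rw [← map_one (Ideal.Quotient.mk _), Ideal.Quotient.eq, Ideal.mem_span_singleton'] at h1
    obtain ⟨c, hc⟩ := h1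
    rw [Subgroup.mem_subgroupOf]
    refine hV _ c c.2 ?_
    have h3 := congrArg Subtype.val hc
    push_cast at h3
    rw [ValuationSubring.coe_unitGroupMulEquiv_apply] at h3
    linear_combination -h3
  have : φ.ker.FiniteIndex := inferInstance
  have h4 : (V.subgroupOf O.unitGroup).FiniteIndex := Subgroup.finiteIndex_of_le hker
  exact h4.index_ne_zero

end Bridge

section Galois

variable {K L : Type*} [Field K] [Field L] [Algebra K L] [FiniteDimensional K L]

omit [FiniteDimensional K L] in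
/-- An element fixed by a generator of the Galois group is fixed by the whole group. -/
lemma fixed_of_generator (σ : L ≃ₐ[K] L) (hσ : ∀ τ : L ≃ₐ[K] L, τ ∈ Subgroup.zpowers σ) {x : L}
    (hx : σ x = x) (τ : L ≃ₐ[K] L) : τ x = x := by
  have h1 : Subgroup.zpowers σ ≤ MulAction.stabilizer (L ≃ₐ[K] L) x := by
    rw [Subgroup.zpowers_le]
    exact hx
  exact h1 (hσ τ)

/-- In a Galois-stable valuation subring, a unit of `L` of norm one is a unit of the subring. -/
lemma mem_unitGroup_of_unitsNorm_eq_one (O : ValuationSubring L)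
    (hO : ∀ τ : L ≃ₐ[K] L, ∀ x ∈ O, τ x ∈ O) (y : Lˣ) (hy : unitsNorm K L y = 1) :
    y ∈ O.unitGroup := by
  classical
  have key : ∀ z : Lˣ, unitsNorm K L z = 1 → ¬ O.valuation (z : L) < 1 := by
    intro z hz hlt
    have hzO : (z : L) ∈ O := (O.valuation_le_one_iff _).1 hlt.le
    have h1 : (1 : L) = z * ∏ τ ∈ (Finset.univ : Finset (L ≃ₐ[K] L)).erase 1, τ (z : L) := by
      have h2 := congrArg (fun u : Lˣ => (u : L)) hz
      simp only [val_unitsNorm, Units.val_one] at h2
      rw [← h2, ← Finset.mul_prod_erase Finset.univ _ (Finset.mem_univ (1 : L ≃ₐ[K] L))]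
      rfl
    have h3 : O.valuation (∏ τ ∈ (Finset.univ : Finset (L ≃ₐ[K] L)).erase 1, τ (z : L)) ≤ 1 :=
      (O.valuation_le_one_iff _).2 (prod_mem (fun τ _ => hO τ _ hzO))
    have h4 : O.valuation (1 : L) < 1 := by
      rw [h1, map_mul]
      calc O.valuation (z : L) * O.valuation (∏ τ ∈ (Finset.univ : Finset (L ≃ₐ[K] L)).erase 1,
            τ (z : L)) ≤ O.valuation (z : L) * 1 := by gcongr
        _ = O.valuation (z : L) := mul_one _
        _ < 1 := hlt
    rw [map_one] at h4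
    exact lt_irrefl _ h4
  rw [ValuationSubring.mem_unitGroup_iff]
  rcases lt_trichotomy (O.valuation (y : L)) 1 with h | h | h
  · exact absurd h (key y hy)
  · exact h
  · exfalso
    refine key y⁻¹ (by rw [map_inv, hy, inv_one]) ?_
    rw [Units.val_inv_eq_inv_val, map_inv₀]
    exact inv_lt_one_of_one_lt₀ h

lemma unitsSubOne_mem_unitGroup (O : ValuationSubring L)
    (hO : ∀ τ : L ≃ₐ[K] L, ∀ x ∈ O, τ x ∈ O) (τ : L ≃ₐ[K] L) (x : Lˣ) :
    unitsSubOne τ x ∈ O.unitGroup :=
  mem_unitGroup_of_unitsNorm_eq_one O hO _ (unitsNorm_unitsSubOne τ x)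

/-- Modulo units of `O`, the norm is the `[L : K]`-th power. -/
lemma unitsNorm_div_pow_mem_unitGroup (O : ValuationSubring L)
    (hO : ∀ τ : L ≃ₐ[K] L, ∀ x ∈ O, τ x ∈ O) (x : Lˣ) :
    unitsNorm K L x / x ^ Fintype.card (L ≃ₐ[K] L) ∈ O.unitGroup := by
  have h1 : unitsNorm K L x / x ^ Fintype.card (L ≃ₐ[K] L)
      = ∏ τ : L ≃ₐ[K] L, unitsSubOne τ x := by
    simp only [unitsSubOne_apply]
    rw [Finset.prod_div_distrib, Finset.prod_const, Finset.card_univ, unitsNorm_apply]
  rw [h1]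
  exact prod_mem (fun τ _ => unitsSubOne_mem_unitGroup O hO τ x)

end Galois

section Hilbert90

variable {K L : Type} [Field K] [Field L] [Algebra K L] [FiniteDimensional K L]

/-- **Hilbert 90** for units: an element of norm one is of the form `σ y / y`.
(Universe `0` only, because Mathlib's cyclic Hilbert 90 is stated there.) -/
lemma hilbert90_units [IsGalois K L] [IsCyclic (L ≃ₐ[K] L)] (σ : L ≃ₐ[K] L)
    (hσ : ∀ τ : L ≃ₐ[K] L, τ ∈ Subgroup.zpowers σ) (x : Lˣ) (hx : unitsNorm K L x = 1) :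
    ∃ y : Lˣ, unitsSubOne σ y = x := by
  have hN : Algebra.norm K (x : L) = 1 := by
    apply FaithfulSMul.algebraMap_injective K L
    rw [Algebra.norm_eq_prod_automorphisms, map_one, ← val_unitsNorm, hx, Units.val_one]
  obtain ⟨y, hy⟩ := groupCohomology.exists_div_of_norm_eq_one hσ hN
  refine ⟨y⁻¹, Units.ext ?_⟩
  rw [val_unitsSubOne, Units.val_inv_eq_inv_val, map_inv₀, ← hy]
  have h1 : (y : L) ≠ 0 := y.ne_zero
  have h2 : σ (y : L) ≠ 0 := (map_ne_zero _).2 h1
  field_simp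

end Hilbert90

section Additive

open Fermat.Agent.Lib.Herbrand

variable {B : Type*} [AddCommGroup B]

lemma resHom_comp_resHom_eq_zero {f g : B →+ B} (hfg : f.comp g = 0) (A : AddSubgroup B)
    (hfA : ∀ a ∈ A, f a ∈ A) (hgA : ∀ a ∈ A, g a ∈ A) :
    (resHom f A hfA).comp (resHom g A hgA) = 0 := by
  ext x
  have h1 : f (g (x : B)) = 0 := DFunLike.congr_fun hfg (x : B)
  simpa using h1

lemma quotHom_comp_quotHom_eq_zero {f g : B →+ B} (hfg : f.comp g = 0) (A : AddSubgroup B)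
    (hfA : ∀ a ∈ A, f a ∈ A) (hgA : ∀ a ∈ A, g a ∈ A) :
    (quotHom f A hfA).comp (quotHom g A hgA) = 0 := by
  ext x
  simp only [AddMonoidHom.coe_comp, QuotientAddGroup.coe_mk', Function.comp_apply, quotHom_mk,
    AddMonoidHom.zero_apply]
  have h1 : f (g x) = 0 := DFunLike.congr_fun hfg x
  rw [h1]
  rfl

/-- The Herbrand data of `ℤ` with `f = 0` and `g = n •`. -/
lemma hq_int (n : ℕ) (hn : n ≠ 0) :
    hq (0 : ℤ →+ ℤ) (AddMonoidHom.mulLeft (n : ℤ)) = n ∧
      hq (AddMonoidHom.mulLeft (n : ℤ)) (0 : ℤ →+ ℤ) = 1 := by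
  have hn' : (n : ℤ) ≠ 0 := by exact_mod_cast hn
  constructor
  · unfold hq
    have hrange : (AddMonoidHom.mulLeft (n : ℤ)).range = AddSubgroup.zmultiples (n : ℤ) := by
      ext x
      simp only [AddMonoidHom.mem_range, AddMonoidHom.coe_mulLeft, Int.mem_zmultiples_iff]
      constructor
      · rintro ⟨y, rfl⟩
        exact ⟨y, rfl⟩
      · rintro ⟨y, rfl⟩
        exact ⟨y, rfl⟩
    rw [AddMonoidHom.ker_zero, AddSubgroup.relIndex_top_right, hrange, Int.index_zmultiples,
      Int.natAbs_natCast]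
  · unfold hq
    have hker : (AddMonoidHom.mulLeft (n : ℤ)).ker = ⊥ := by
      rw [eq_bot_iff]
      intro x hx
      have h1 : (n : ℤ) * x = 0 := hx
      rcases mul_eq_zero.1 h1 with h | h
      · exact absurd h hn'
      · simpa using h
    rw [hker, AddSubgroup.relIndex_bot_right]

end Additive

section Main

open Fermat.Agent.Lib.Herbrand

variable {K L : Type*} [Field K] [Field L] [Algebra K L] [FiniteDimensional K L]

variable (K L) in
/-- The norm map on `Additive Lˣ`. -/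
noncomputable def addNorm : Additive Lˣ →+ Additive Lˣ := MonoidHom.toAdditive (unitsNorm K L)

/-- The map `x ↦ σ x / x` on `Additive Lˣ`. -/
def addSubOne (σ : L ≃ₐ[K] L) : Additive Lˣ →+ Additive Lˣ :=
  MonoidHom.toAdditive (unitsSubOne σ)

lemma addNorm_apply (x : Additive Lˣ) :
    addNorm K L x = Additive.ofMul (unitsNorm K L (Additive.toMul x)) := rfl

omit [FiniteDimensional K L] in
lemma addSubOne_apply (σ : L ≃ₐ[K] L) (x : Additive Lˣ) :
    addSubOne σ x = Additive.ofMul (unitsSubOne σ (Additive.toMul x)) := rfl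

lemma addSubOne_comp_addNorm (σ : L ≃ₐ[K] L) : (addSubOne σ).comp (addNorm K L) = 0 :=
  AddMonoidHom.ext fun x => by
    show Additive.ofMul (unitsSubOne σ (unitsNorm K L (Additive.toMul x))) = 0
    rw [unitsSubOne_unitsNorm]
    rfl

lemma addNorm_comp_addSubOne (σ : L ≃ₐ[K] L) : (addNorm K L).comp (addSubOne σ) = 0 :=
  AddMonoidHom.ext fun x => by
    show Additive.ofMul (unitsNorm K L (unitsSubOne σ (Additive.toMul x))) = 0
    rw [unitsNorm_unitsSubOne]
    rfl

/-- The subgroup `V 2` has trivial `Ĥ⁰` and `H¹` (in index form). -/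
theorem hq_V {O : ValuationSubring L} {t : L} {A : AddSubgroup L} (h : CohTrivSetup K O t A)
    (σ : L ≃ₐ[K] L) (hσ : ∀ τ : L ≃ₐ[K] L, τ ∈ Subgroup.zpowers σ)
    (h1 : ∀ a ∈ A, ∑ τ : L ≃ₐ[K] L, τ a = 0 → ∃ b ∈ A, σ b - b = a)
    (hfV : ∀ a ∈ (h.V 2).toAddSubgroup, addSubOne σ a ∈ (h.V 2).toAddSubgroup)
    (hgV : ∀ a ∈ (h.V 2).toAddSubgroup, addNorm K L a ∈ (h.V 2).toAddSubgroup) :
    hq (resHom (addSubOne σ) _ hfV) (resHom (addNorm K L) _ hgV) = 1 ∧
      hq (resHom (addNorm K L) _ hgV) (resHom (addSubOne σ) _ hfV) = 1 := by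
  constructor
  · unfold hq
    rw [AddSubgroup.relIndex_eq_one]
    intro x hx
    have hx0 : unitsSubOne σ (Additive.toMul (x : Additive Lˣ)) = 1 := congrArg Subtype.val hx
    have hx1 : Units.map (σ : L →* L) (Additive.toMul (x : Additive Lˣ))
        = Additive.toMul (x : Additive Lˣ) := by
      rw [unitsSubOne_apply] at hx0
      exact div_eq_one.1 hx0
    have hx2 : σ ((Additive.toMul (x : Additive Lˣ) : Lˣ) : L)
        = ((Additive.toMul (x : Additive Lˣ) : Lˣ) : L) := congrArg Units.val hx1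
    have hx3 : ∀ τ : L ≃ₐ[K] L, Units.map (τ : L →* L) (Additive.toMul (x : Additive Lˣ))
        = Additive.toMul (x : Additive Lˣ) := fun τ =>
      Units.ext (fixed_of_generator σ hσ hx2 τ)
    obtain ⟨z, hz, hzx⟩ := h.h0_units x.2 hx3
    exact ⟨⟨Additive.ofMul z, hz⟩, Subtype.ext (congrArg Additive.ofMul hzx)⟩
  · unfold hq
    rw [AddSubgroup.relIndex_eq_one]
    intro x hx
    have hx0 : unitsNorm K L (Additive.toMul (x : Additive Lˣ)) = 1 := congrArg Subtype.val hx
    obtain ⟨z, hz, hzx⟩ := h.h1_units σ h1 x.2 hx0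
    exact ⟨⟨Additive.ofMul z, hz⟩, Subtype.ext (congrArg Additive.ofMul hzx)⟩

omit [FiniteDimensional K L] [Field K] [Algebra K L] in
lemma mem_unitGroup_of_mem_of_inv_mem (O : ValuationSubring L) (x : Lˣ) (hx : (x : L) ∈ O)
    (hxi : (x : L)⁻¹ ∈ O) : x ∈ O.unitGroup := by
  rw [ValuationSubring.mem_unitGroup_iff]
  have h1 : O.valuation (x : L) ≤ 1 := (O.valuation_le_one_iff _).2 hx
  have h2 : O.valuation ((x : L)⁻¹) ≤ 1 := (O.valuation_le_one_iff _).2 hxi
  rw [map_inv₀] at h2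
  have h0 : 0 < O.valuation (x : L) := by
    rw [zero_lt_iff]
    exact (Valuation.ne_zero_iff _).2 x.ne_zero
  exact le_antisymm h1 ((inv_le_one₀ h0).1 h2)

omit [FiniteDimensional K L] [Field K] [Algebra K L] in
/-- A uniformizer generates `Lˣ` modulo units, freely. -/
lemma exists_uniformizer_unit (O : ValuationSubring L) [IsDiscreteValuationRing O] :
    ∃ π : Lˣ, (∀ x : Lˣ, ∃ k : ℤ, x / π ^ k ∈ O.unitGroup) ∧
      (∀ k : ℤ, π ^ k ∈ O.unitGroup → k = 0) := by
  obtain ⟨ϖ, hϖ⟩ := IsDiscreteValuationRing.exists_irreducible O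
  have hϖ0 : (ϖ : L) ≠ 0 := fun h => hϖ.ne_zero (Subtype.ext h)
  refine ⟨Units.mk0 (ϖ : L) hϖ0, ?_, ?_⟩
  · intro x
    obtain ⟨n, u, hx⟩ := IsDiscreteValuationRing.exists_units_eq_smul_zpow_of_irreducible
      (K := L) hϖ x.ne_zero
    refine ⟨n, ?_⟩
    rw [ValuationSubring.mem_unitGroup_iff]
    have e : ((x / (Units.mk0 (ϖ : L) hϖ0) ^ n : Lˣ) : L) = ((u : O) : L) := by
      rw [Units.val_div_eq_div_val, Units.val_zpow_eq_zpow_val, Units.val_mk0, hx]
      have h1 : (ϖ : L) ^ n ≠ 0 := zpow_ne_zero _ hϖ0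
      rw [div_eq_iff h1]
      rfl
    rw [e]
    exact O.valuation_unit u
  · intro k hk
    rw [ValuationSubring.mem_unitGroup_iff, Units.val_zpow_eq_zpow_val, Units.val_mk0,
      map_zpow₀] at hk
    have hlt : O.valuation (ϖ : L) < 1 :=
      (O.valuation_lt_one_iff ϖ).1 ((IsLocalRing.mem_maximalIdeal _).2 hϖ.not_isUnit)
    exact (zpow_eq_one_iff_right₀ zero_le hlt.ne).1 hk

/-- **The unit group has Herbrand quotient `1`.** -/
theorem herbrand_unitGroup [IsGalois K L] (O : ValuationSubring L) [IsDiscreteValuationRing O]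
    [IsAdicComplete (maximalIdeal O) O] [Finite (ResidueField O)]
    (hO : ∀ τ : L ≃ₐ[K] L, ∀ x ∈ O, τ x ∈ O)
    (σ : L ≃ₐ[K] L) (hσ : ∀ τ : L ≃ₐ[K] L, τ ∈ Subgroup.zpowers σ)
    (hfU : ∀ a ∈ O.unitGroup.toAddSubgroup, addSubOne σ a ∈ O.unitGroup.toAddSubgroup)
    (hgU : ∀ a ∈ O.unitGroup.toAddSubgroup, addNorm K L a ∈ O.unitGroup.toAddSubgroup) :
    Defined (resHom (addSubOne σ) _ hfU) (resHom (addNorm K L) _ hgU) ∧
      herbrand (resHom (addSubOne σ) _ hfU) (resHom (addNorm K L) _ hgU) = 1 := by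
  classical
  obtain ⟨A, d, hd0, hdO, hA_le, hdA, hA_stable, hA0, hA1⟩ :=
    exists_induced_lattice (K := K) O hO
  obtain ⟨ϖ, hϖ⟩ := IsDiscreteValuationRing.exists_irreducible O
  have hϖ0 : (ϖ : L) ≠ 0 := fun h => hϖ.ne_zero (Subtype.ext h)
  have hϖlt : O.valuation (ϖ : L) < 1 :=
    (O.valuation_lt_one_iff ϖ).1 ((IsLocalRing.mem_maximalIdeal _).2 hϖ.not_isUnit)
  -- the element `t`
  have hNO : algebraMap K L (Algebra.norm K (ϖ : L)) ∈ O := by
    rw [Algebra.norm_eq_prod_automorphisms]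
    exact prod_mem (fun τ _ => hO τ _ ϖ.2)
  have hNlt : O.valuation (algebraMap K L (Algebra.norm K (ϖ : L))) < 1 := by
    rw [Algebra.norm_eq_prod_automorphisms,
      ← Finset.mul_prod_erase Finset.univ _ (Finset.mem_univ (1 : L ≃ₐ[K] L)), map_mul]
    have h3 : O.valuation (∏ τ ∈ (Finset.univ : Finset (L ≃ₐ[K] L)).erase 1, τ (ϖ : L)) ≤ 1 :=
      (O.valuation_le_one_iff _).2 (prod_mem (fun τ _ => hO τ _ ϖ.2))
    calc O.valuation ((1 : L ≃ₐ[K] L) (ϖ : L)) *
          O.valuation (∏ τ ∈ (Finset.univ : Finset (L ≃ₐ[K] L)).erase 1, τ (ϖ : L))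
          ≤ O.valuation ((1 : L ≃ₐ[K] L) (ϖ : L)) * 1 := by gcongr
      _ = O.valuation (ϖ : L) := by rw [mul_one]; rfl
      _ < 1 := hϖlt
  set t : L := algebraMap K L (d * Algebra.norm K (ϖ : L)) with ht
  have ht' : t = algebraMap K L d * algebraMap K L (Algebra.norm K (ϖ : L)) := by
    rw [ht, map_mul]
  have ht0 : t ≠ 0 := by
    rw [ht]
    refine (map_ne_zero _).2 (mul_ne_zero hd0 ?_)
    rw [Algebra.norm_ne_zero_iff]
    exact hϖ0
  have htO : t ∈ O := by
    rw [ht']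
    exact mul_mem hdO hNO
  have hvt : O.valuation t < 1 := by
    rw [ht', map_mul]
    have h3 : O.valuation (algebraMap K L d) ≤ 1 := (O.valuation_le_one_iff _).2 hdO
    calc O.valuation (algebraMap K L d) * O.valuation (algebraMap K L (Algebra.norm K (ϖ : L)))
          ≤ 1 * O.valuation (algebraMap K L (Algebra.norm K (ϖ : L))) := by gcongr
      _ = O.valuation (algebraMap K L (Algebra.norm K (ϖ : L))) := one_mul _
      _ < 1 := hNlt
  have htm : (⟨t, htO⟩ : O) ∈ maximalIdeal O := (O.valuation_lt_one_iff ⟨t, htO⟩).2 hvt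
  have h : CohTrivSetup K O t A :=
    { t_ne := ht0
      t_mem := htO
      t_fix := fun τ => by rw [ht, AlgEquiv.commutes]
      stable := hO
      inv_mem := fun c hc => inv_one_add_mem O hvt hc
      sep := sep_of_complete O htO htm
      complete := complete_of_complete O htO ht0 htm
      A_le := hA_le
      tO_le := fun x hx => by
        have e : t * x = algebraMap K L d * (algebraMap K L (Algebra.norm K (ϖ : L)) * x) := by
          rw [ht']
          ring
        rw [e]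
        exact hdA _ (mul_mem hNO hx)
      A_stable := hA_stable
      h0 := hA0 }
  -- the subgroup `V 2`
  have hfV : ∀ a ∈ (h.V 2).toAddSubgroup, addSubOne σ a ∈ (h.V 2).toAddSubgroup :=
    fun a ha => h.unitsSubOne_mem_V σ ha
  have hgV : ∀ a ∈ (h.V 2).toAddSubgroup, addNorm K L a ∈ (h.V 2).toAddSubgroup :=
    fun a ha => h.unitsNorm_mem_V ha
  obtain ⟨hV1, hV2⟩ := hq_V h σ hσ (hA1 σ hσ) hfV hgV
  have hVU : (h.V 2).toAddSubgroup ≤ O.unitGroup.toAddSubgroup := fun a ha =>
    mem_unitGroup_of_mem_of_inv_mem O _ (h.val_mem_of_mem_V ha) (h.inv_val_mem_of_mem_V ha)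
  have hindex : (h.V 2).relIndex O.unitGroup ≠ 0 :=
    relIndex_unitGroup_ne_zero O (h.V 2) (T := t ^ 4) (pow_mem htO 4) (pow_ne_zero 4 ht0)
      (fun x c hc hx => h.mem_V_of_eq hc hx)
  have hinj : Function.Injective (AddSubgroup.inclusion hVU) := AddSubgroup.inclusion_injective hVU
  have hker : (AddSubgroup.inclusion hVU).ker = ⊥ := (AddMonoidHom.ker_eq_bot_iff _).2 hinj
  have hrange : (AddSubgroup.inclusion hVU).range
      = ((h.V 2).toAddSubgroup).addSubgroupOf O.unitGroup.toAddSubgroup := by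
    ext u
    rw [AddSubgroup.mem_addSubgroupOf, AddMonoidHom.mem_range]
    constructor
    · rintro ⟨v, rfl⟩
      exact v.2
    · intro hu
      exact ⟨⟨u, hu⟩, rfl⟩
  have : Finite (AddSubgroup.inclusion hVU).ker := by
    rw [hker]
    infer_instance
  have : (AddSubgroup.inclusion hVU).range.FiniteIndex := ⟨by rw [hrange]; exact hindex⟩
  obtain ⟨hiff, heq⟩ := herbrand_eq_of_finite_ker_coker (AddSubgroup.inclusion hVU)
    (f := resHom (addSubOne σ) _ hfV) (g := resHom (addNorm K L) _ hgV)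
    (f' := resHom (addSubOne σ) _ hfU) (g' := resHom (addNorm K L) _ hgU)
    (resHom_comp_resHom_eq_zero (addSubOne_comp_addNorm σ) _ hfV hgV)
    (resHom_comp_resHom_eq_zero (addNorm_comp_addSubOne σ) _ hgV hfV)
    (resHom_comp_resHom_eq_zero (addSubOne_comp_addNorm σ) _ hfU hgU)
    (resHom_comp_resHom_eq_zero (addNorm_comp_addSubOne σ) _ hgU hfU)
    (fun _ => rfl) (fun _ => rfl)
  have hDV : Defined (resHom (addSubOne σ) _ hfV) (resHom (addNorm K L) _ hgV) :=
    ⟨by rw [hV1]; exact one_ne_zero, by rw [hV2]; exact one_ne_zero⟩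
  refine ⟨hiff.1 hDV, ?_⟩
  rw [← heq]
  unfold herbrand
  rw [hV1, hV2]
  simp

/-- **The quotient `Lˣ / O^×` has Herbrand quotient `[L : K]`.** -/
theorem herbrand_quot_unitGroup (O : ValuationSubring L) [IsDiscreteValuationRing O]
    (hO : ∀ τ : L ≃ₐ[K] L, ∀ x ∈ O, τ x ∈ O) (σ : L ≃ₐ[K] L)
    (hfU : ∀ a ∈ O.unitGroup.toAddSubgroup, addSubOne σ a ∈ O.unitGroup.toAddSubgroup)
    (hgU : ∀ a ∈ O.unitGroup.toAddSubgroup, addNorm K L a ∈ O.unitGroup.toAddSubgroup) :
    Defined (quotHom (addSubOne σ) _ hfU) (quotHom (addNorm K L) _ hgU) ∧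
      herbrand (quotHom (addSubOne σ) _ hfU) (quotHom (addNorm K L) _ hgU)
        = Fintype.card (L ≃ₐ[K] L) := by
  classical
  obtain ⟨π, hπ1, hπ2⟩ := exists_uniformizer_unit O
  have hn : Fintype.card (L ≃ₐ[K] L) ≠ 0 := Fintype.card_ne_zero
  set n := Fintype.card (L ≃ₐ[K] L) with hn_def
  let ψ : ℤ →+ Additive Lˣ ⧸ O.unitGroup.toAddSubgroup :=
    (QuotientAddGroup.mk' O.unitGroup.toAddSubgroup).comp
      (zmultiplesHom (Additive Lˣ) (Additive.ofMul π))
  have hψ : ∀ k : ℤ, ψ k = QuotientAddGroup.mk (Additive.ofMul (π ^ k)) := by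
    intro k
    simp only [ψ, AddMonoidHom.coe_comp, QuotientAddGroup.coe_mk', Function.comp_apply,
      zmultiplesHom_apply, ofMul_zpow]
  have hf : ∀ k : ℤ, ψ ((0 : ℤ →+ ℤ) k)
      = quotHom (addSubOne σ) _ hfU (ψ k) := by
    intro k
    rw [hψ k, quotHom_mk, AddMonoidHom.zero_apply, map_zero]
    symm
    rw [QuotientAddGroup.eq_zero_iff]
    exact unitsSubOne_mem_unitGroup O hO σ _
  have hg : ∀ k : ℤ, ψ (AddMonoidHom.mulLeft (n : ℤ) k)
      = quotHom (addNorm K L) _ hgU (ψ k) := by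
    intro k
    rw [hψ k, hψ, quotHom_mk, QuotientAddGroup.eq]
    have e : -Additive.ofMul (π ^ (AddMonoidHom.mulLeft (n : ℤ) k))
        + addNorm K L (Additive.ofMul (π ^ k))
        = Additive.ofMul (unitsNorm K L (π ^ k) / (π ^ k) ^ n) := by
      rw [addNorm_apply, ofMul_div, AddMonoidHom.coe_mulLeft, zpow_mul, zpow_natCast,
        ← zpow_natCast (π ^ k) n, ← zpow_mul, mul_comm k (n : ℤ), zpow_mul, zpow_natCast]
      simp only [toMul_ofMul]
      abel
    rw [e]
    exact unitsNorm_div_pow_mem_unitGroup O hO _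
  have hinj : Function.Injective ψ := by
    rw [injective_iff_map_eq_zero]
    intro k hk
    rw [hψ, QuotientAddGroup.eq_zero_iff] at hk
    exact hπ2 k hk
  have hsurj : Function.Surjective ψ := by
    intro c
    induction c using QuotientAddGroup.induction_on with
    | H x =>
      obtain ⟨k, hk⟩ := hπ1 (Additive.toMul x)
      refine ⟨k, ?_⟩
      rw [hψ, QuotientAddGroup.eq]
      have e : -Additive.ofMul (π ^ k) + x = Additive.ofMul (Additive.toMul x / π ^ k) := by
        rw [ofMul_div, ofMul_toMul]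
        abel
      rw [e]
      exact hk
  have hker : ψ.ker = ⊥ := (AddMonoidHom.ker_eq_bot_iff _).2 hinj
  have hrange : ψ.range = ⊤ := AddMonoidHom.range_eq_top.2 hsurj
  have : Finite ψ.ker := by
    rw [hker]
    infer_instance
  have : ψ.range.FiniteIndex := ⟨by rw [hrange, AddSubgroup.index_top]; exact one_ne_zero⟩
  obtain ⟨hiff, heq⟩ := herbrand_eq_of_finite_ker_coker ψ
    (f := (0 : ℤ →+ ℤ)) (g := AddMonoidHom.mulLeft (n : ℤ))
    (f' := quotHom (addSubOne σ) _ hfU) (g' := quotHom (addNorm K L) _ hgU)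
    (AddMonoidHom.zero_comp _) (AddMonoidHom.comp_zero _)
    (quotHom_comp_quotHom_eq_zero (addSubOne_comp_addNorm σ) _ hfU hgU)
    (quotHom_comp_quotHom_eq_zero (addNorm_comp_addSubOne σ) _ hgU hfU) hf hg
  obtain ⟨h1, h2⟩ := hq_int n hn
  have hDZ : Defined (0 : ℤ →+ ℤ) (AddMonoidHom.mulLeft (n : ℤ)) :=
    ⟨by rw [h1]; exact hn, by rw [h2]; exact one_ne_zero⟩
  refine ⟨hiff.1 hDZ, ?_⟩
  rw [← heq]
  unfold herbrand
  rw [h1, h2]
  simp

end Main

section Final

open Fermat.Agent.Lib.Herbrand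

variable {K L : Type} [Field K] [Field L] [Algebra K L] [FiniteDimensional K L] [IsGalois K L]
  [IsCyclic (L ≃ₐ[K] L)]

/-- **Local norm index, Herbrand form.** For a cyclic extension `L/K` of local fields with
generator `σ` of the Galois group, `[ker (σ - 1) : N Lˣ] = [L : K]` and
`[ker N : (σ - 1) Lˣ] = 1` inside `Lˣ`. -/
theorem hq_units_eq_card (O : ValuationSubring L) [IsDiscreteValuationRing O]
    [IsAdicComplete (maximalIdeal O) O] [Finite (ResidueField O)]
    (hO : ∀ τ : L ≃ₐ[K] L, ∀ x ∈ O, τ x ∈ O)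
    (σ : L ≃ₐ[K] L) (hσ : ∀ τ : L ≃ₐ[K] L, τ ∈ Subgroup.zpowers σ) :
    hq (addSubOne σ) (addNorm K L) = Fintype.card (L ≃ₐ[K] L) ∧
      hq (addNorm K L) (addSubOne σ) = 1 := by
  have hfU : ∀ a ∈ O.unitGroup.toAddSubgroup, addSubOne σ a ∈ O.unitGroup.toAddSubgroup :=
    fun a _ => unitsSubOne_mem_unitGroup O hO σ _
  have hgU : ∀ a ∈ O.unitGroup.toAddSubgroup, addNorm K L a ∈ O.unitGroup.toAddSubgroup := by
    intro a ha
    have h1 := unitsNorm_div_pow_mem_unitGroup O hO (Additive.toMul a)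
    have h2 : unitsNorm K L (Additive.toMul a)
        = unitsNorm K L (Additive.toMul a) / Additive.toMul a ^ Fintype.card (L ≃ₐ[K] L)
          * Additive.toMul a ^ Fintype.card (L ≃ₐ[K] L) := by
      rw [div_mul_cancel]
    show unitsNorm K L (Additive.toMul a) ∈ O.unitGroup
    rw [h2]
    exact mul_mem h1 (O.unitGroup.pow_mem (show Additive.toMul a ∈ O.unitGroup from ha) _)
  obtain ⟨hDU, hU⟩ := herbrand_unitGroup O hO σ hσ hfU hgU
  obtain ⟨-, hC⟩ := herbrand_quot_unitGroup O hO σ hfU hgU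
  have hmul := herbrand_eq_mul (addSubOne_comp_addNorm σ) (addNorm_comp_addSubOne σ) hDU
  rw [hU, hC, one_mul] at hmul
  have h90 : hq (addNorm K L) (addSubOne σ) = 1 := by
    unfold hq
    rw [AddSubgroup.relIndex_eq_one]
    intro x hx
    obtain ⟨y, hy⟩ := hilbert90_units σ hσ (Additive.toMul x) hx
    exact ⟨Additive.ofMul y, congrArg Additive.ofMul hy⟩
  refine ⟨?_, h90⟩
  unfold herbrand at hmul
  rw [h90] at hmul
  simp only [Nat.cast_one, div_one] at hmul
  exact_mod_cast hmul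

/-- **Local norm index theorem (cyclic case).** Let `L/K` be a finite cyclic Galois extension
and `O` a Galois-stable valuation subring of `L` which is a complete discrete valuation ring
with finite residue field.  Then the norm group `N_{L/K} Lˣ` has index `[L : K]` in `Kˣ`. -/
theorem norm_index_eq_finrank (O : ValuationSubring L) [IsDiscreteValuationRing O]
    [IsAdicComplete (maximalIdeal O) O] [Finite (ResidueField O)]
    (hO : ∀ τ : L ≃ₐ[K] L, ∀ x ∈ O, τ x ∈ O) :
    (Units.map (Algebra.norm K : L →* K)).range.index = Module.finrank K L := by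
  obtain ⟨σ, hσ⟩ := IsCyclic.exists_generator (α := L ≃ₐ[K] L)
  obtain ⟨h1, -⟩ := hq_units_eq_card O hO σ hσ
  have hcard : Fintype.card (L ≃ₐ[K] L) = Module.finrank K L := by
    rw [← Nat.card_eq_fintype_card]
    exact IsGalois.card_aut_eq_finrank K L
  rw [← hcard, ← h1]
  -- translate to subgroups of `Lˣ`
  have e1 : hq (addSubOne σ) (addNorm K L)
      = (unitsNorm K L).range.relIndex (unitsSubOne σ).ker := rfl
  rw [e1]
  let ι : Kˣ →* Lˣ := Units.map (algebraMap K L : K →* L)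
  have hι : ι.range = (unitsSubOne σ).ker := by
    ext x
    rw [MonoidHom.mem_range, MonoidHom.mem_ker, unitsSubOne_apply, div_eq_one]
    constructor
    · rintro ⟨y, rfl⟩
      apply Units.ext
      simp [ι]
    · intro hx
      have hx2 : σ (x : L) = x := congrArg Units.val hx
      have hx3 := (IsGalois.mem_range_algebraMap_iff_fixed (F := K) (x : L)).2
        (fixed_of_generator σ hσ hx2)
      obtain ⟨y, hy⟩ := hx3
      have hy0 : y ≠ 0 := by
        rintro rfl
        rw [map_zero] at hy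
        exact x.ne_zero hy.symm
      exact ⟨Units.mk0 y hy0, Units.ext hy⟩
  have hcomap : (unitsNorm K L).range.comap ι = (Units.map (Algebra.norm K : L →* K)).range := by
    ext y
    rw [Subgroup.mem_comap, MonoidHom.mem_range, MonoidHom.mem_range]
    constructor
    · rintro ⟨x, hx⟩
      refine ⟨x, Units.ext ?_⟩
      apply FaithfulSMul.algebraMap_injective K L
      have h2 := congrArg Units.val hx
      rw [val_unitsNorm] at h2
      rw [Units.coe_map]
      change algebraMap K L (Algebra.norm K (x : L)) = algebraMap K L (y : K)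
      rw [Algebra.norm_eq_prod_automorphisms, h2]
      rfl
    · rintro ⟨x, rfl⟩
      refine ⟨x, Units.ext ?_⟩
      rw [val_unitsNorm]
      simp only [ι, Units.coe_map, MonoidHom.coe_coe]
      rw [Algebra.norm_eq_prod_automorphisms]
  rw [← hcomap, Subgroup.index_comap, hι]

end Final

end Fermat.Agent.CFT.Local.CycNorm
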