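import Fermat.Agent.CFT.Local.CyclicNormIndex
import Fermat.Agent.CFT.Local.NormedLocal

/-!
# The norm index of a cyclic extension of local fields, normed-field form
-/

set_option autoImplicit false

namespace Fermat.Agent.CFT.Local.CycNorm

open scoped NNReal NormedField Valued
open IsLocalRing

section Normed

variable (L : Type*) [NontriviallyNormedField L] [IsUltrametricDist L]

/-- The closed unit ball of an ultrametric normed field, as a valuation subring. -/
noncomputable def unitBall : ValuationSubring L := (Valued.v : Valuation L ℝ≥0).valuationSubring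

lemma mem_unitBall (x : L) : x ∈ unitBall L ↔ ‖x‖ ≤ 1 := by
  show (Valued.v : Valuation L ℝ≥0) x ≤ 1 ↔ _
  rfl

variable [ProperSpace L]

instance : IsDiscreteValuationRing (unitBall L) :=
  inferInstanceAs (IsDiscreteValuationRing 𝒪[L])

instance : IsAdicComplete (maximalIdeal (unitBall L)) (unitBall L) :=
  inferInstanceAs (IsAdicComplete 𝓂[L] 𝒪[L])

instance : Finite (ResidueField (unitBall L)) :=
  inferInstanceAs (Finite 𝓀[L])

end Normed

section Main

variable {K L : Type} [Field K] [NontriviallyNormedField L] [IsUltrametricDist L] [ProperSpace L]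
  [Algebra K L] [FiniteDimensional K L] [IsGalois K L] [IsCyclic (L ≃ₐ[K] L)]

/-- **Local norm index theorem (cyclic case), normed-field form.**  `L` a locally compact
ultrametric normed field, `L/K` finite cyclic Galois with Galois group acting by isometries
(no norm on `K` is needed).  Then `[Kˣ : N Lˣ] = [L : K]`. -/
theorem norm_index_eq_finrank_of_proper (hiso : ∀ (τ : L ≃ₐ[K] L) (x : L), ‖τ x‖ = ‖x‖) :
    (Units.map (Algebra.norm K : L →* K)).range.index = Module.finrank K L :=
  norm_index_eq_finrank (unitBall L) (fun τ x hx => by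
    rw [mem_unitBall] at hx ⊢
    rwa [hiso])

/-- A nontrivial cyclic extension of local fields has a non-norm. -/
theorem exists_ne_norm_of_proper (hiso : ∀ (τ : L ≃ₐ[K] L) (x : L), ‖τ x‖ = ‖x‖)
    (hdeg : 1 < Module.finrank K L) : ∃ b : K, b ≠ 0 ∧ ∀ c : L, Algebra.norm K c ≠ b := by
  have h := norm_index_eq_finrank_of_proper (K := K) hiso
  have hne : (Units.map (Algebra.norm K : L →* K)).range ≠ ⊤ := by
    intro htop
    rw [htop, Subgroup.index_top] at h
    omega
  obtain ⟨b, hb⟩ : ∃ b : Kˣ, b ∉ (Units.map (Algebra.norm K : L →* K)).range := by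
    by_contra hcon
    push Not at hcon
    exact hne ((Subgroup.eq_top_iff' _).2 hcon)
  refine ⟨b, b.ne_zero, fun c hc => hb ⟨Units.mk0 c ?_, Units.ext hc⟩⟩
  rintro rfl
  rw [Algebra.norm_zero] at hc
  exact b.ne_zero hc.symm

end Main

section Action

variable {L : Type} [NontriviallyNormedField L] [IsUltrametricDist L] [ProperSpace L]
  {G : Type} [Group G] [Fintype G] [MulSemiringAction G L] [FaithfulSMul G L] [IsCyclic G]

/-- **Group-action form.** A finite cyclic group `G` of order `> 1` acting faithfully by isometric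
field automorphisms on a locally compact ultrametric normed field `L`: some nonzero `G`-fixed
element is not a norm `∏ g, g • c`. -/
theorem exists_fixed_ne_prod_smul (hiso : ∀ (g : G) (x : L), ‖g • x‖ = ‖x‖)
    (hG : 1 < Fintype.card G) :
    ∃ b : L, b ≠ 0 ∧ (∀ g : G, g • b = b) ∧ ∀ c : L, b ≠ ∏ g : G, g • c := by
  classical
  let K := FixedPoints.subfield G L
  let e : G ≃* (L ≃ₐ[K] L) := FixedPoints.toAlgAutMulEquiv G L
  have he : ∀ (g : G) (x : L), e g x = g • x := fun g x => rfl
  have : IsCyclic (L ≃ₐ[K] L) := isCyclic_of_surjective e e.surjective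
  have hiso' : ∀ (τ : L ≃ₐ[K] L) (x : L), ‖τ x‖ = ‖x‖ := by
    intro τ x
    obtain ⟨g, rfl⟩ := e.surjective τ
    rw [he, hiso]
  have hdeg : 1 < Module.finrank K L := by
    rw [← IsGalois.card_aut_eq_finrank K L, Nat.card_congr e.symm.toEquiv,
      Nat.card_eq_fintype_card]
    exact hG
  obtain ⟨b, hb0, hb⟩ := exists_ne_norm_of_proper (K := K) hiso' hdeg
  refine ⟨(b : L), ?_, fun g => b.2 g, fun c hc => hb c ?_⟩
  · intro h0
    exact hb0 (Subtype.ext h0)
  · apply FaithfulSMul.algebraMap_injective K L
    rw [Algebra.norm_eq_prod_automorphisms]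
    show ∏ σ : L ≃ₐ[K] L, σ c = (b : L)
    rw [hc]
    exact (Fintype.prod_equiv e.toEquiv _ _ (fun g => (he g c).symm)).symm

end Action

end Fermat.Agent.CFT.Local.CycNorm
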