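import Mathlib

/-!
# CFT / Local — `CyclotomicField N L` is Galois over `K` when `L / K` is Galois (char. 0)

Requested by the local Brauer wrapper (`BrauerLocalFin`): for `L / K` finite Galois in
characteristic zero, `M := CyclotomicField N L` (with Mathlib's `Algebra K M` instance through
`L`) is Galois over `K`: it is a splitting field over `K` of `p * cyclotomic N K`, where `L` is a
splitting field of `p`.
-/

set_option autoImplicit false

namespace Fermat.Agent.CFT.Local.UnitCoh

open Polynomial

/-- `CyclotomicField N L` is a splitting field over `K` of `p * cyclotomic N K` whenever `L` is a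
splitting field of `p ≠ 0` over `K` (characteristic zero). -/
theorem isSplittingField_cyclotomicField_mul {K L : Type*} [Field K] [Field L] [Algebra K L]
    [CharZero K] (N : ℕ) [NeZero N] (p : K[X]) (hp : p ≠ 0) [IsSplittingField K L p] :
    IsSplittingField K (CyclotomicField N L) (p * cyclotomic N K) := by
  have : CharZero L := charZero_of_injective_algebraMap (algebraMap K L).injective
  have : IsSplittingField L (CyclotomicField N L) ((cyclotomic N K).map (algebraMap K L)) := by
    rw [map_cyclotomic]
    exact IsCyclotomicExtension.splitting_field_cyclotomic N L (CyclotomicField N L)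
  exact IsSplittingField.mul (F := K) (K := L) (L := CyclotomicField N L) p (cyclotomic N K) hp
    (cyclotomic_ne_zero N K)

/-- **(H-B)** For `L / K` finite Galois in characteristic zero, `CyclotomicField N L` is Galois
over `K`. -/
theorem isGalois_cyclotomicField {K L : Type} [Field K] [Field L] [Algebra K L]
    [FiniteDimensional K L] [IsGalois K L] [CharZero K] (N : ℕ) [NeZero N] :
    IsGalois K (CyclotomicField N L) := by
  obtain ⟨p, hp, hsplit⟩ := IsGalois.is_separable_splitting_field K L
  have := hsplit
  have := isSplittingField_cyclotomicField_mul (K := K) (L := L) N p hp.ne_zero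
  have : Normal K (CyclotomicField N L) := Normal.of_isSplittingField (p * cyclotomic N K)
  have : FiniteDimensional K (CyclotomicField N L) :=
    IsSplittingField.finiteDimensional (CyclotomicField N L) (p * cyclotomic N K)
  exact IsGalois.mk

/-- Universe-polymorphic form of `isGalois_cyclotomicField`. -/
theorem isGalois_cyclotomicField' {K L : Type*} [Field K] [Field L] [Algebra K L]
    [FiniteDimensional K L] [IsGalois K L] [CharZero K] (N : ℕ) [NeZero N] :
    IsGalois K (CyclotomicField N L) := by
  obtain ⟨p, hp, hsplit⟩ := IsGalois.is_separable_splitting_field K L
  have := hsplit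
  have := isSplittingField_cyclotomicField_mul (K := K) (L := L) N p hp.ne_zero
  have : Normal K (CyclotomicField N L) := Normal.of_isSplittingField (p * cyclotomic N K)
  have : FiniteDimensional K (CyclotomicField N L) :=
    IsSplittingField.finiteDimensional (CyclotomicField N L) (p * cyclotomic N K)
  exact IsGalois.mk

/-- `CyclotomicField N L` is finite-dimensional over `K` when `L / K` is. -/
theorem finiteDimensional_cyclotomicField {K L : Type*} [Field K] [Field L] [Algebra K L]
    [FiniteDimensional K L] [CharZero K] (N : ℕ) [NeZero N] :
    FiniteDimensional K (CyclotomicField N L) := by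
  have : CharZero L := charZero_of_injective_algebraMap (algebraMap K L).injective
  have : FiniteDimensional L (CyclotomicField N L) :=
    IsCyclotomicExtension.finiteDimensional {N} L (CyclotomicField N L)
  exact FiniteDimensional.trans K L (CyclotomicField N L)

end Fermat.Agent.CFT.Local.UnitCoh
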