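import Mathlib

/-!
# CFT / Local — successive approximation in complete filtered groups

`exists_eq_of_graded_exact_mul` (additive version `exists_eq_of_graded_exact_add`):
let `B` be a commutative group with two endomorphisms `f`, `g`, `f ∘ g = 1`, and a filtration
`F n` stable under `g`, separated and complete (every sequence `y n ∈ F n` has a "product" `s`,
`s / ∏ i < n, y i ∈ F n`). If every `x ∈ F n` with `f x = 1` is of the form `g y` modulo
`F (n + 1)` with `y ∈ F n`, then every `x ∈ F 0` with `f x = 1` is of the form `g y`,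
`y ∈ F 0`.

This is the abstract engine behind "the units of a local field have trivial cohomology in
unramified extensions" and "the Herbrand quotient of the units is `1`".
-/

set_option autoImplicit false

namespace Fermat.Agent.CFT.Local.UnitCoh

/-- **Successive approximation.** In a complete separated filtered commutative group, exactness
of `f, g` "on the graded pieces" (in the weak form: exact cycles are boundaries modulo the
next step) implies exactness on `F 0`. -/
@[to_additive]
theorem exists_eq_of_graded_exact_mul {B : Type*} [CommGroup B] (f g : B →* B)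
    (F : ℕ → Subgroup B)
    (hg : ∀ n, ∀ x ∈ F n, g x ∈ F n)
    (hsep : ∀ x : B, (∀ n, x ∈ F n) → x = 1)
    (hcomplete : ∀ y : ℕ → B, (∀ n, y n ∈ F n) →
      ∃ s : B, ∀ n, s / ∏ i ∈ Finset.range n, y i ∈ F n)
    (hfg : ∀ x, f (g x) = 1)
    (hex : ∀ n, ∀ x ∈ F n, f x = 1 → ∃ y ∈ F n, x / g y ∈ F (n + 1))
    (x : B) (hx : x ∈ F 0) (hfx : f x = 1) : ∃ y ∈ F 0, g y = x := by
  classical
  have hex' : ∀ n, ∀ x : {x : B // x ∈ F n ∧ f x = 1},
      ∃ y : B, y ∈ F n ∧ x.1 / g y ∈ F (n + 1) := by
    intro n x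
    obtain ⟨y, hy, h⟩ := hex n x.1 x.2.1 x.2.2
    exact ⟨y, hy, h⟩
  choose Y hY1 hY2 using hex'
  let X : ∀ n : ℕ, {x : B // x ∈ F n ∧ f x = 1} := fun n =>
    Nat.rec (motive := fun n => {x : B // x ∈ F n ∧ f x = 1}) ⟨x, hx, hfx⟩
      (fun n X => ⟨X.1 / g (Y n X), hY2 n X, by
        rw [map_div, X.2.2, hfg, div_one]⟩) n
  have hX0 : (X 0).1 = x := rfl
  have hXs : ∀ n, (X (n + 1)).1 = (X n).1 / g (Y n (X n)) := fun n => rfl
  have hsum : ∀ n, (X n).1 = x / g (∏ i ∈ Finset.range n, Y i (X i)) := by
    intro n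
    induction n with
    | zero => simp [hX0]
    | succ n ih => rw [hXs, ih, Finset.prod_range_succ, map_mul, div_div]
  obtain ⟨s, hs⟩ := hcomplete (fun n => Y n (X n)) (fun n => hY1 n (X n))
  refine ⟨s, by simpa using hs 0, ?_⟩
  have h0 : x / g s = 1 := by
    apply hsep
    intro n
    have h1 : g (s / ∏ i ∈ Finset.range n, Y i (X i)) ∈ F n := hg n _ (hs n)
    have h2 : (X n).1 ∈ F n := (X n).2.1
    have h3 : x / g s = (X n).1 / g (s / ∏ i ∈ Finset.range n, Y i (X i)) := by
      rw [hsum, map_div, div_div_div_comm, div_self', div_one]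
    rw [h3]
    exact (F n).div_mem h2 h1
  exact (div_eq_one.mp h0).symm

end Fermat.Agent.CFT.Local.UnitCoh
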