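/-
Power index of the unit group of a henselian discrete valuation ring with finite residue field
(the "wild" local Kummer index), for PROGRAM CFT.  Mathlib only.

Setting: `O` a discrete valuation ring, `[HenselianLocalRing O]` (for complete `O` use
`henselianLocalRing_of_isAdicComplete O : HenselianLocalRing O` below),
`[Finite (IsLocalRing.ResidueField O)]`, `E` a field with `[IsFractionRing O E]`, `p` a prime number
with `(p : O) ≠ 0` (residue characteristic `p` or not).

Main statements (namespace `Fermat.Agent.CFT.Local.KummerIndex`):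
* `exists_root_of_map_residue_eq` : Hensel's lemma for a NON-MONIC polynomial whose reduction is
  `X - c` (Mathlib's `HenselianLocalRing.is_henselian` is for monic polynomials only).
* `exists_pow_eq` : if `(p) = 𝔪 ^ e`, `e < (p - 1) n` and `u ≡ 1 mod 𝔪 ^ (n + e)` then `u = t ^ p`
  with `t ≡ 1 mod 𝔪 ^ n`.
* `unitsLevel O k : Subgroup Oˣ` (units `≡ 1 mod 𝔪 ^ k`), `mem_unitsLevel`,
  `relIndex_unitsLevel : [U_n : U_(n+e)] = |O / 𝔪 ^ e|` (`n ≥ 1`),
  `map_pow_unitsLevel : (U_n) ^ p = U_(n+e)` (`e < (p - 1) n`),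
  `eq_one_of_pow_eq_one` (no `p`-torsion in `U_n`, `e < (p - 1) n`).
* `index_range_pow_units : [Oˣ : (Oˣ) ^ p] = |μ_p(O)| · |O / p O|`.
* `card_units_quot_pow : |Eˣ / (Eˣ) ^ p| = p · |μ_p(E)| · |O / p O|`.
* tame corollaries `index_range_pow_units_of_isUnit`, `card_units_quot_pow_of_isUnit`
  (`p` a unit of `O`), and `card_quotient_maximalIdeal_pow : |O / 𝔪 ^ e| = |κ| ^ e`.
-/
import Mathlib

namespace Fermat.Agent.CFT.Local.KummerIndex

open Polynomial IsLocalRing

section Complete

/-- A local ring which is henselian at its maximal ideal is a henselian local ring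
(the converse is a Mathlib instance). -/
theorem henselianLocalRing_of_henselianRing (R : Type*) [CommRing R] [IsLocalRing R]
    [HenselianRing R (maximalIdeal R)] : HenselianLocalRing R where
  is_henselian f hf a₀ h₁ h₂ :=
    HenselianRing.is_henselian f hf a₀ h₁ (h₂.map (Ideal.Quotient.mk (maximalIdeal R)))

/-- A complete local ring is a henselian local ring. -/
theorem henselianLocalRing_of_isAdicComplete (R : Type*) [CommRing R] [IsLocalRing R]
    [IsAdicComplete (maximalIdeal R) R] : HenselianLocalRing R :=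
  henselianLocalRing_of_henselianRing R

end Complete

section Hensel

variable {R : Type*} [CommRing R] [HenselianLocalRing R]

/-- **Hensel's lemma for a non-monic polynomial with linear reduction.**  If `F` reduces to
`X - c` modulo the maximal ideal of a henselian local ring, then `F` has a root congruent
to `c`. -/
theorem exists_root_of_map_residue_eq (F : R[X]) (c : R)
    (hF : F.map (residue R) = X - C (residue R c)) :
    ∃ a : R, F.IsRoot a ∧ a - c ∈ maximalIdeal R := by
  classical
  -- shift so that the root becomes `-1`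
  set α : R := c + 1 with hα
  set T : R[X] := taylor α F with hT
  have hTmap : T.map (residue R) = X + 1 := by
    rw [hT, map_taylor, hF]
    simp only [taylor_apply, sub_comp, X_comp, C_comp, hα, map_add, map_one]
    ring
  set N : ℕ := T.natDegree with hN
  have hN1 : 1 ≤ N := by
    have h1 : (T.map (residue R)).natDegree ≤ N := natDegree_map_le
    rw [hTmap] at h1
    have h2 : ((X : (ResidueField R)[X]) + 1).natDegree = 1 := by
      rw [← C_1]; exact natDegree_X_add_C 1
    omega
  obtain ⟨M, hM⟩ : ∃ M, N = M + 1 := ⟨N - 1, by omega⟩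
  -- the reversed polynomial
  set G0 : R[X] := reflect N T with hG0
  have hG0map : G0.map (residue R) = X ^ M * (X + 1) := by
    rw [hG0, ← reflect_map, hTmap, reflect_add, ← pow_one (X : (ResidueField R)[X]),
      reflect_monomial, ← C_1, reflect_C, C_1, one_mul, revAt_le hN1, hM]
    simp only [Nat.add_sub_cancel, pow_one]
    ring
  set b0 : R := T.coeff 0 with hb0
  have hb0res : residue R b0 = 1 := by
    have := congrArg (fun P => P.coeff 0) hTmap
    simpa [hb0, coeff_map] using this
  have hb0u : IsUnit b0 := by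
    rw [← residue_ne_zero_iff_isUnit, hb0res]; exact one_ne_zero
  obtain ⟨b, hb⟩ := hb0u
  set G1 : R[X] := C (↑b⁻¹ : R) * G0 with hG1
  have hG1monic : G1.Monic := by
    apply monic_of_natDegree_le_of_coeff_eq_one N
    · refine (natDegree_C_mul_le _ _).trans ?_
      rw [natDegree_le_iff_coeff_eq_zero]
      intro i hi
      rw [hG0, coeff_reflect, revAt_eq_self_of_lt hi]
      exact coeff_eq_zero_of_natDegree_lt hi
    · rw [hG1, coeff_C_mul, hG0, coeff_reflect, revAt_le le_rfl, Nat.sub_self, ← hb0, ← hb]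
      exact Units.inv_mul b
  have hbres : residue R (↑b⁻¹ : R) = 1 := by
    have h1 : residue R (↑b⁻¹ : R) * residue R (b : R) = 1 := by
      rw [← map_mul, Units.inv_mul, map_one]
    rw [hb, hb0res, mul_one] at h1
    exact h1
  have hG1map : G1.map (residue R) = X ^ M * (X + 1) := by
    rw [hG1, Polynomial.map_mul, map_C, hbres, C_1, one_mul, hG0map]
  have h1 : eval (-1) G1 ∈ maximalIdeal R := by
    rw [← residue_eq_zero_iff, ← eval₂_at_apply, ← eval_map, hG1map]
    simp
  have h2 : IsUnit (eval (-1) (derivative G1)) := by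
    rw [← residue_ne_zero_iff_isUnit, ← eval₂_at_apply, ← eval_map, ← derivative_map, hG1map]
    simp
  obtain ⟨z, hz, hz1⟩ := HenselianLocalRing.is_henselian G1 hG1monic (-1) h1 h2
  have hzres : residue R z = -1 := by
    have : residue R (z - -1) = 0 := (residue_eq_zero_iff _).mpr hz1
    rw [map_sub, sub_eq_zero] at this
    simpa using this
  have hzu : IsUnit z := by
    rw [← residue_ne_zero_iff_isUnit, hzres]; exact neg_ne_zero.mpr one_ne_zero
  obtain ⟨w, hw⟩ := hzu
  have hG0z : eval z G0 = 0 := by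
    have : eval z G1 = 0 := hz
    rw [hG1, eval_mul, eval_C] at this
    exact (Units.mul_right_eq_zero b⁻¹).mp this
  have hTw : eval (↑w⁻¹ : R) T = 0 := by
    have : Invertible (↑w⁻¹ : R) := (w⁻¹).invertible
    have key := eval₂_reverse_mul_pow (RingHom.id R) (↑w⁻¹ : R) T
    have hinv : ⅟(↑w⁻¹ : R) = z := by
      rw [← hw]
      exact invOf_eq_right_inv (by simp)
    rw [hinv, eval₂_id, eval₂_id] at key
    rw [← key]
    have : T.reverse = G0 := rfl
    rw [this, hG0z, zero_mul]
  refine ⟨↑w⁻¹ + α, ?_, ?_⟩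
  · rw [IsRoot, ← taylor_eval]; exact hTw
  · rw [← residue_eq_zero_iff]
    have hwres : residue R (↑w⁻¹ : R) = -1 := by
      have h3 : residue R (↑w⁻¹ : R) * residue R (w : R) = 1 := by
        rw [← map_mul, Units.inv_mul, map_one]
      rw [hw, hzres] at h3
      linear_combination -h3
    rw [hα, map_sub, map_add, map_add, map_one, hwres]
    ring

end Hensel

section Binomial

/-- `(X + 1) ^ p = X ^ p + 1 + p X g` over `ℤ`, with `g(0) = 1`. -/
theorem exists_binomial_poly_int (p : ℕ) (hp : p.Prime) :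
    ∃ g : ℤ[X], (X + 1) ^ p = X ^ p + 1 + C (p : ℤ) * X * g ∧ g.coeff 0 = 1 := by
  obtain ⟨r, hr⟩ := exists_add_pow_prime_eq hp (X : ℤ[X]) 1
  have hr' : (X + 1 : ℤ[X]) ^ p = X ^ p + 1 + C (p : ℤ) * (X * r) := by
    rw [hr, one_pow, mul_one, mul_assoc]; simp
  refine ⟨r, by rw [hr']; ring, ?_⟩
  have h1 := congrArg (fun P : ℤ[X] => P.coeff 1) hr'
  have hp1 : p ≠ 1 := hp.ne_one
  simp only [coeff_X_add_one_pow, Nat.choose_one_right, coeff_add, coeff_X_pow, coeff_one,
    coeff_C_mul] at h1
  have h2 : (X * r : ℤ[X]).coeff 1 = r.coeff 0 := by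
    simp
  rw [h2] at h1
  have hp0 : (p : ℤ) ≠ 0 := by exact_mod_cast hp.ne_zero
  have h3 : (p : ℤ) * (r.coeff 0 - 1) = 0 := by
    have : (1 : ℕ) ≠ p := fun h => hp1 h.symm
    simp [this] at h1
    linear_combination -h1
  have := (mul_eq_zero.mp h3).resolve_left hp0
  linarith

/-- `(X + 1) ^ p = X ^ p + 1 + p X g` over any commutative ring, with `g(0) = 1`. -/
theorem exists_binomial_poly (R : Type*) [CommRing R] (p : ℕ) (hp : p.Prime) :
    ∃ g : R[X], (X + 1) ^ p = X ^ p + 1 + C (p : R) * X * g ∧ g.coeff 0 = 1 := by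
  obtain ⟨g, hg, hg0⟩ := exists_binomial_poly_int p hp
  refine ⟨g.map (Int.castRingHom R), ?_, by simp [coeff_map, hg0]⟩
  have := congrArg (Polynomial.map (Int.castRingHom R)) hg
  simpa using this

end Binomial

section DVR

variable {O : Type*} [CommRing O] [IsDomain O] [IsDiscreteValuationRing O]

/-- **Strong Hensel lemma for `X ^ p - u`**: in a henselian discrete valuation ring with
`(p) = 𝔪 ^ e`, a unit `u ≡ 1 mod 𝔪 ^ (n + e)` with `e < (p - 1) n` is the `p`-th power of some
`t ≡ 1 mod 𝔪 ^ n`. -/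
theorem exists_pow_eq [HenselianLocalRing O] (p : ℕ) [hp : Fact p.Prime] (n e : ℕ)
    (he : Ideal.span {(p : O)} = maximalIdeal O ^ e) (hn : e < (p - 1) * n) (u : O)
    (hu : u - 1 ∈ maximalIdeal O ^ (n + e)) :
    ∃ t : O, t ^ p = u ∧ t - 1 ∈ maximalIdeal O ^ n := by
  obtain ⟨ϖ, hϖ⟩ := IsDiscreteValuationRing.exists_irreducible O
  have hm : maximalIdeal O = Ideal.span {ϖ} := hϖ.maximalIdeal_eq
  have hn1 : 1 ≤ n := by
    rcases Nat.eq_zero_or_pos n with h | h
    · rw [h] at hn; simp at hn
    · exact h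
  have hp2 : 2 ≤ p := hp.out.two_le
  -- `p = ϖ ^ e * v`
  rw [hm, Ideal.span_singleton_pow, Ideal.span_singleton_eq_span_singleton] at he
  obtain ⟨v, hv⟩ := he.symm
  -- `u - 1 = ϖ ^ (n + e) * a`
  rw [hm, Ideal.span_singleton_pow, Ideal.mem_span_singleton'] at hu
  obtain ⟨a, ha⟩ := hu
  obtain ⟨j, hj⟩ : ∃ j, (p - 1) * n = e + 1 + j := ⟨(p - 1) * n - (e + 1), by omega⟩
  set P : O := ϖ ^ n with hP
  set d : O := ϖ ^ j * ↑v⁻¹ with hd
  set c : O := a * ↑v⁻¹ with hc
  have hpv : (p : O) * ↑v⁻¹ = ϖ ^ e := by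
    rw [← hv, mul_assoc, Units.mul_inv, mul_one]
  have hPp : P ^ p = P * ((p : O) * (ϖ * d)) := by
    have h1 : P ^ p = ϖ ^ n * ϖ ^ ((p - 1) * n) := by
      rw [hP, ← pow_mul, ← pow_add]
      congr 1
      have : p = (p - 1) + 1 := by omega
      nth_rewrite 1 [this]
      ring
    rw [h1, hj, hd, pow_add, pow_add, pow_one, ← hpv]
    ring
  have hu' : u = 1 + (p : O) * P * c := by
    have : u - 1 = (p : O) * P * c := by
      rw [← ha, hc, hP, pow_add, ← hpv]; ring
    linear_combination this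
  obtain ⟨g, hg, hg0⟩ := exists_binomial_poly O p hp.out
  set F : O[X] := C (ϖ * d) * X ^ p + X * g.comp (C P * X) - C c with hF
  have hϖres : residue O ϖ = 0 := by
    rw [residue_eq_zero_iff, hm]; exact Ideal.mem_span_singleton_self ϖ
  have hPres : residue O P = 0 := by
    rw [hP, map_pow, hϖres, zero_pow (by omega)]
  have hFmap : F.map (residue O) = X - C (residue O c) := by
    rw [hF]
    simp only [Polynomial.map_sub, Polynomial.map_add, Polynomial.map_mul, Polynomial.map_pow,
      map_C, map_X, Polynomial.map_comp, map_mul, hϖres, hPres, zero_mul, C_0, comp_zero,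
      zero_add]
    rw [← coeff_zero_eq_eval_zero, coeff_map, hg0, map_one, C_1, mul_one]
  obtain ⟨z, hz, -⟩ := exists_root_of_map_residue_eq F c hFmap
  have hFz : ϖ * d * z ^ p + z * eval (P * z) g - c = 0 := by
    have : eval z F = 0 := hz
    simpa [hF, eval_comp] using this
  have hEval : (P * z + 1) ^ p = (P * z) ^ p + 1 + (p : O) * (P * z) * eval (P * z) g := by
    have := congrArg (eval (P * z)) hg
    simpa using this
  refine ⟨1 + P * z, ?_, ?_⟩
  · rw [hu']
    linear_combination hEval + z ^ p * hPp + (p : O) * P * hFz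
  · rw [hm, Ideal.span_singleton_pow, Ideal.mem_span_singleton']
    exact ⟨z, by rw [hP]; ring⟩

end DVR

section Units

variable (O : Type*) [CommRing O] [IsLocalRing O]

/-- The subgroup of units congruent to `1` modulo `𝔪 ^ k`. -/
def unitsLevel (k : ℕ) : Subgroup Oˣ :=
  (Units.map (Ideal.Quotient.mk (maximalIdeal O ^ k) : O →* O ⧸ maximalIdeal O ^ k)).ker

variable {O}

theorem mem_unitsLevel {k : ℕ} {u : Oˣ} :
    u ∈ unitsLevel O k ↔ (u : O) - 1 ∈ maximalIdeal O ^ k := by
  rw [unitsLevel, MonoidHom.mem_ker, Units.ext_iff, Units.coe_map, Units.val_one]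
  rw [MonoidHom.coe_coe, ← map_one (Ideal.Quotient.mk (maximalIdeal O ^ k)), Ideal.Quotient.eq]

theorem inv_mul_mem_unitsLevel {k : ℕ} {u v : Oˣ} :
    u⁻¹ * v ∈ unitsLevel O k ↔ (v : O) - u ∈ maximalIdeal O ^ k := by
  rw [mem_unitsLevel]
  have : ((u⁻¹ * v : Oˣ) : O) - 1 = (↑u⁻¹ : O) * ((v : O) - u) := by
    push_cast; rw [mul_sub, Units.inv_mul]
  rw [this, Ideal.unit_mul_mem_iff_mem _ (Units.isUnit _)]

theorem unitsLevel_antitone {k l : ℕ} (h : k ≤ l) : unitsLevel O l ≤ unitsLevel O k := by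
  intro u hu
  rw [mem_unitsLevel] at hu ⊢
  exact Ideal.pow_le_pow_right h hu

theorem unitsLevel_index_ne_zero [Finite (ResidueField O)] [IsNoetherianRing O] (k : ℕ) :
    (unitsLevel O k).index ≠ 0 := by
  have : Finite (O ⧸ maximalIdeal O) := inferInstanceAs (Finite (ResidueField O))
  have : Finite (O ⧸ maximalIdeal O ^ k) :=
    Ideal.finite_quotient_pow (IsNoetherian.noetherian _) k
  rw [unitsLevel, Subgroup.index_ker]
  exact Nat.card_pos.ne'

/-- Counting a quotient of a ring by an ideal through a surjection with the right fibres. -/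
theorem card_eq_card_quotient_of_surjective {A Q : Type*} [CommRing A] (I : Ideal A) (f : A → Q)
    (hs : Function.Surjective f) (hf : ∀ a b, f a = f b ↔ a - b ∈ I) :
    Nat.card Q = Nat.card (A ⧸ I) := by
  refine Nat.card_congr ((Setoid.quotientKerEquivOfSurjective f hs).symm.trans
    (Quotient.congrRight fun a b => ?_))
  rw [Setoid.ker_def, hf, Submodule.quotientRel_def]

end Units

section DVRIndex

variable {O : Type*} [CommRing O] [IsDomain O] [IsDiscreteValuationRing O]

/-- `[U_n : U_(n+e)] = |O / 𝔪 ^ e|` for `n ≥ 1`. -/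
theorem relIndex_unitsLevel (n e : ℕ) (hn : 1 ≤ n) :
    (unitsLevel O (n + e)).relIndex (unitsLevel O n) = Nat.card (O ⧸ maximalIdeal O ^ e) := by
  obtain ⟨ϖ, hϖ⟩ := IsDiscreteValuationRing.exists_irreducible O
  have hm : maximalIdeal O = Ideal.span {ϖ} := hϖ.maximalIdeal_eq
  have hϖres : residue O ϖ = 0 := by
    rw [residue_eq_zero_iff, hm]; exact Ideal.mem_span_singleton_self ϖ
  have hunit : ∀ a : O, IsUnit (1 + ϖ ^ n * a) := by
    intro a
    rw [← residue_ne_zero_iff_isUnit]
    simp [hϖres, zero_pow (by omega : n ≠ 0)]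
  have hmem : ∀ a : O, (hunit a).unit ∈ unitsLevel O n := by
    intro a
    rw [mem_unitsLevel, hm, Ideal.span_singleton_pow, Ideal.mem_span_singleton']
    exact ⟨a, by simp [mul_comm]⟩
  rw [Subgroup.relIndex, Subgroup.index]
  apply card_eq_card_quotient_of_surjective (maximalIdeal O ^ e)
    (fun a => (QuotientGroup.mk (⟨(hunit a).unit, hmem a⟩ : unitsLevel O n) :
      unitsLevel O n ⧸ (unitsLevel O (n + e)).subgroupOf (unitsLevel O n)))
  · intro x
    induction x using QuotientGroup.induction_on with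
    | H u =>
      obtain ⟨u, hu⟩ := u
      have hu' := hu
      rw [mem_unitsLevel, hm, Ideal.span_singleton_pow, Ideal.mem_span_singleton'] at hu'
      obtain ⟨a, ha⟩ := hu'
      refine ⟨a, congrArg QuotientGroup.mk (Subtype.ext (Units.ext ?_))⟩
      simp only [IsUnit.unit_spec]
      linear_combination ha
  · intro a b
    rw [QuotientGroup.eq, Subgroup.mem_subgroupOf]
    simp only [Subgroup.coe_mul, InvMemClass.coe_inv]
    rw [inv_mul_mem_unitsLevel]
    simp only [IsUnit.unit_spec]
    rw [hm, Ideal.span_singleton_pow, Ideal.span_singleton_pow, Ideal.mem_span_singleton,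
      Ideal.mem_span_singleton]
    have : (1 + ϖ ^ n * b) - (1 + ϖ ^ n * a) = ϖ ^ n * (b - a) := by ring
    rw [this, pow_add, mul_dvd_mul_iff_left (pow_ne_zero n hϖ.ne_zero), ← dvd_neg, neg_sub]

/-- In a discrete valuation ring with `(p) = 𝔪 ^ e`, `p`-th powers of units `≡ 1 mod 𝔪 ^ n`
are `≡ 1 mod 𝔪 ^ (n + e)` as soon as `e ≤ (p - 1) n`. -/
theorem pow_mem_unitsLevel (p : ℕ) [hp : Fact p.Prime] (n e : ℕ)
    (he : Ideal.span {(p : O)} = maximalIdeal O ^ e) (hn : e ≤ (p - 1) * n) {t : Oˣ}
    (ht : t ∈ unitsLevel O n) : t ^ p ∈ unitsLevel O (n + e) := by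
  rw [mem_unitsLevel] at ht ⊢
  obtain ⟨g, hg, -⟩ := exists_binomial_poly O p hp.out
  have hEval := congrArg (eval ((t : O) - 1)) hg
  simp only [eval_add, eval_pow, eval_X, eval_one, eval_mul, eval_C, sub_add_cancel] at hEval
  have hp2 : 2 ≤ p := hp.out.two_le
  have h1 : ((t : O) - 1) ^ p ∈ maximalIdeal O ^ (n + e) := by
    have : ((t : O) - 1) ^ p ∈ (maximalIdeal O ^ n) ^ p := Ideal.pow_mem_pow ht p
    rw [← pow_mul] at this
    refine Ideal.pow_le_pow_right ?_ this
    have : n * p = n + (p - 1) * n := by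
      have : p = (p - 1) + 1 := by omega
      nth_rewrite 1 [this]
      ring
    omega
  have h2 : (p : O) * ((t : O) - 1) * eval ((t : O) - 1) g ∈ maximalIdeal O ^ (n + e) := by
    apply Ideal.mul_mem_right
    rw [add_comm n e, pow_add]
    apply Ideal.mul_mem_mul _ ht
    rw [← he]
    exact Ideal.mem_span_singleton_self _
  have : ((t ^ p : Oˣ) : O) - 1 =
      ((t : O) - 1) ^ p + (p : O) * ((t : O) - 1) * eval ((t : O) - 1) g := by
    push_cast
    linear_combination hEval
  rw [this]
  exact Ideal.add_mem _ h1 h2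

/-- In a discrete valuation ring with `(p) = 𝔪 ^ e`, the only `p`-th root of unity
`≡ 1 mod 𝔪 ^ n` with `e < (p - 1) n` is `1`. -/
theorem eq_one_of_pow_eq_one (p : ℕ) [hp : Fact p.Prime] (n e : ℕ)
    (he : Ideal.span {(p : O)} = maximalIdeal O ^ e) (hn : e < (p - 1) * n) {t : Oˣ}
    (ht : t ∈ unitsLevel O n) (htp : t ^ p = 1) : t = 1 := by
  obtain ⟨ϖ, hϖ⟩ := IsDiscreteValuationRing.exists_irreducible O
  have hm : maximalIdeal O = Ideal.span {ϖ} := hϖ.maximalIdeal_eq
  rw [mem_unitsLevel] at ht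
  obtain ⟨g, hg, hg0⟩ := exists_binomial_poly O p hp.out
  have hEval := congrArg (eval ((t : O) - 1)) hg
  simp only [eval_add, eval_pow, eval_X, eval_one, eval_mul, eval_C, sub_add_cancel] at hEval
  have hp2 : 2 ≤ p := hp.out.two_le
  have hn1 : 1 ≤ n := by
    rcases Nat.eq_zero_or_pos n with h | h
    · rw [h] at hn; simp at hn
    · exact h
  set x : O := (t : O) - 1 with hx
  have htp' : (t : O) ^ p = 1 := by
    have := congrArg (fun u : Oˣ => (u : O)) htp
    simpa using this
  by_contra hne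
  have hx0 : x ≠ 0 := by
    intro h
    apply hne
    apply Units.ext
    rw [Units.val_one]
    linear_combination h
  have hxm : x ∈ maximalIdeal O := by
    have := Ideal.pow_le_pow_right hn1 ht
    rwa [pow_one] at this
  -- `g(x)` is a unit
  have hgu : IsUnit (eval x g) := by
    rw [← residue_ne_zero_iff_isUnit, ← eval₂_at_apply, ← eval_map,
      (residue_eq_zero_iff x).mpr hxm, ← coeff_zero_eq_eval_zero, coeff_map, hg0, map_one]
    exact one_ne_zero
  obtain ⟨w, hw⟩ := hgu
  -- `x ^ (p - 1) = - p g(x)`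
  have hkey : x * (x ^ (p - 1) + (p : O) * eval x g) = 0 := by
    have : x * x ^ (p - 1) = x ^ p := by
      rw [← pow_succ']; congr 1; omega
    linear_combination (-1 : O) * hEval + htp' + this
  have hkey' : x ^ (p - 1) + (p : O) * eval x g = 0 := (mul_eq_zero.mp hkey).resolve_left hx0
  have hpmem : (p : O) ∈ maximalIdeal O ^ (e + 1) := by
    have h1 : x ^ (p - 1) ∈ maximalIdeal O ^ (e + 1) := by
      have : x ^ (p - 1) ∈ (maximalIdeal O ^ n) ^ (p - 1) := Ideal.pow_mem_pow ht _
      rw [← pow_mul] at this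
      exact Ideal.pow_le_pow_right (by rw [mul_comm]; omega) this
    have h2 : (p : O) = -(x ^ (p - 1)) * ↑w⁻¹ := by
      have : (p : O) * (w : O) = -(x ^ (p - 1)) := by
        rw [hw]; linear_combination hkey'
      rw [← this, mul_assoc, Units.mul_inv, mul_one]
    rw [h2]
    exact Ideal.mul_mem_right _ _ (neg_mem h1)
  have hle : maximalIdeal O ^ e ≤ maximalIdeal O ^ (e + 1) := by
    rw [← he, Ideal.span_singleton_le_iff_mem]
    exact hpmem
  rw [hm, Ideal.span_singleton_pow, Ideal.span_singleton_pow,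
    Ideal.span_singleton_le_span_singleton, pow_dvd_pow_iff hϖ.ne_zero hϖ.not_isUnit] at hle
  omega

/-- `(U_n) ^ p = U_(n + e)` in a henselian discrete valuation ring with `(p) = 𝔪 ^ e`,
as soon as `e < (p - 1) n`. -/
theorem map_pow_unitsLevel [HenselianLocalRing O] (p : ℕ) [hp : Fact p.Prime] (n e : ℕ)
    (he : Ideal.span {(p : O)} = maximalIdeal O ^ e) (hn : e < (p - 1) * n) :
    (unitsLevel O n).map (powMonoidHom p : Oˣ →* Oˣ) = unitsLevel O (n + e) := by
  ext u
  constructor
  · rintro ⟨t, ht, rfl⟩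
    exact pow_mem_unitsLevel p n e he hn.le ht
  · intro hu
    rw [mem_unitsLevel] at hu
    obtain ⟨t, ht, ht1⟩ := exists_pow_eq p n e he hn (u : O) hu
    have htu : IsUnit t := by
      have : IsUnit (t ^ p) := ht ▸ u.isUnit
      exact (isUnit_pow_iff hp.out.ne_zero).mp this
    exact ⟨htu.unit, mem_unitsLevel.mpr (by simpa using ht1), Units.ext (by simpa using ht)⟩

/-- `|O / 𝔪 ^ e| = |κ| ^ e` for a discrete valuation ring. -/
theorem card_quotient_maximalIdeal_pow (e : ℕ) :
    Nat.card (O ⧸ maximalIdeal O ^ e) = Nat.card (ResidueField O) ^ e := by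
  have h := cardQuot_pow_of_prime (P := maximalIdeal O)
    (IsDiscreteValuationRing.not_a_field O) (i := e)
  rw [Submodule.cardQuot_apply, Submodule.cardQuot_apply] at h
  exact h

omit [IsDomain O] [IsDiscreteValuationRing O] in
/-- If `p` is a unit of `O` then `|O / p O| = 1`. -/
theorem card_quotient_span_of_isUnit {p : ℕ} (h : IsUnit (p : O)) :
    Nat.card (O ⧸ Ideal.span {(p : O)}) = 1 := by
  have : Ideal.span {(p : O)} = ⊤ := Ideal.span_singleton_eq_top.mpr h
  have : Subsingleton (O ⧸ Ideal.span {(p : O)}) := Ideal.Quotient.subsingleton_iff.mpr this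
  exact Nat.card_of_subsingleton 0

/-- **Power index of the unit group** of a henselian discrete valuation ring with finite residue
field: `[Oˣ : (Oˣ) ^ p] = |μ_p(O)| · |O / p O|` for every prime `p` which is nonzero in `O`
(both when `p` is the residue characteristic and when it is not). -/
theorem index_range_pow_units [HenselianLocalRing O] [Finite (ResidueField O)] (p : ℕ)
    [hp : Fact p.Prime] (hp0 : (p : O) ≠ 0) :
    (powMonoidHom p : Oˣ →* Oˣ).range.index =
      Nat.card (rootsOfUnity p O) * Nat.card (O ⧸ Ideal.span {(p : O)}) := by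
  obtain ⟨ϖ, hϖ⟩ := IsDiscreteValuationRing.exists_irreducible O
  have hm : maximalIdeal O = Ideal.span {ϖ} := hϖ.maximalIdeal_eq
  obtain ⟨e, he⟩ : ∃ e, Ideal.span {(p : O)} = maximalIdeal O ^ e := by
    obtain ⟨e, he⟩ := IsDiscreteValuationRing.ideal_eq_span_pow_irreducible
      (s := Ideal.span {(p : O)}) (by simpa using hp0) hϖ
    exact ⟨e, by rw [he, hm, Ideal.span_singleton_pow]⟩
  have hp2 : 2 ≤ p := hp.out.two_le
  have hen : e < (p - 1) * (e + 1) := by
    have : 1 ≤ p - 1 := by omega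
    nlinarith
  set φ : Oˣ →* Oˣ := powMonoidHom p with hφ
  set V : Subgroup Oˣ := unitsLevel O (e + 1) with hV
  have hker : φ.ker = rootsOfUnity p O := by
    ext u; simp [hφ, mem_rootsOfUnity]
  have hmap : V.map φ = unitsLevel O (e + 1 + e) := map_pow_unitsLevel p (e + 1) e he hen
  have hinf : V ⊓ φ.ker = ⊥ := by
    rw [eq_bot_iff]
    rintro t ⟨ht, htk⟩
    rw [Subgroup.mem_bot]
    exact eq_one_of_pow_eq_one p (e + 1) e he hen ht (by simpa [hφ] using htk)
  -- index bookkeeping
  have h1 := Subgroup.index_map V φ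
  have h2 : V.relIndex (V ⊔ φ.ker) * (V ⊔ φ.ker).index = V.index :=
    Subgroup.relIndex_mul_index le_sup_left
  have h3 : V.relIndex (V ⊔ φ.ker) = Nat.card φ.ker := by
    rw [Subgroup.relIndex_sup_left, ← Subgroup.inf_relIndex_right, hinf,
      Subgroup.relIndex_bot_left]
  have h4 : (unitsLevel O (e + 1 + e)).relIndex V * V.index = (unitsLevel O (e + 1 + e)).index :=
    Subgroup.relIndex_mul_index (unitsLevel_antitone (by omega))
  have h5 := relIndex_unitsLevel (O := O) (e + 1) e (by omega)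
  have h6 : V.index ≠ 0 := unitsLevel_index_ne_zero (e + 1)
  have h7 : (V ⊔ φ.ker).index ≠ 0 := fun h => h6 (by rw [← h2, h, mul_zero])
  rw [hmap] at h1
  rw [h3] at h2
  rw [h5, ← h2, h1] at h4
  rw [← hker, he]
  apply Nat.eq_of_mul_eq_mul_left (Nat.pos_of_ne_zero h7)
  linarith

/-- Tame case of `index_range_pow_units`: if `p` is a unit of `O` then
`[Oˣ : (Oˣ) ^ p] = |μ_p(O)|`. -/
theorem index_range_pow_units_of_isUnit [HenselianLocalRing O] [Finite (ResidueField O)] (p : ℕ)
    [hp : Fact p.Prime] (h : IsUnit (p : O)) :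
    (powMonoidHom p : Oˣ →* Oˣ).range.index = Nat.card (rootsOfUnity p O) := by
  rw [index_range_pow_units p h.ne_zero, card_quotient_span_of_isUnit h, mul_one]

end DVRIndex

section FractionField

theorem index_range_pow_multiplicative_int (p : ℕ) :
    (powMonoidHom p : Multiplicative ℤ →* Multiplicative ℤ).range.index = p := by
  have : (powMonoidHom p : Multiplicative ℤ →* Multiplicative ℤ).range =
      AddSubgroup.toSubgroup (AddSubgroup.zmultiples (p : ℤ)) := by
    ext x
    simp only [MonoidHom.mem_range, powMonoidHom_apply]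
    constructor
    · rintro ⟨y, rfl⟩
      show Multiplicative.toAdd (y ^ p) ∈ AddSubgroup.zmultiples (p : ℤ)
      rw [AddSubgroup.mem_zmultiples_iff]
      exact ⟨Multiplicative.toAdd y, by simp [mul_comm]⟩
    · intro hx
      have hx' : Multiplicative.toAdd x ∈ AddSubgroup.zmultiples (p : ℤ) := hx
      rw [AddSubgroup.mem_zmultiples_iff] at hx'
      obtain ⟨k, hk⟩ := hx'
      refine ⟨Multiplicative.ofAdd k, ?_⟩
      apply Multiplicative.toAdd.injective
      simp [← hk, mul_comm]
  rw [this, AddSubgroup.index_toSubgroup, Int.index_zmultiples]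
  simp

variable {O : Type*} [CommRing O] [IsDomain O] [IsDiscreteValuationRing O]
variable (E : Type*) [Field E] [Algebra O E] [IsFractionRing O E]

/-- The homomorphism `Oˣ × ℤ → Eˣ`, `(u, k) ↦ u ϖ ^ k`. -/
noncomputable def unitsProdHom (ϖ : O) (hϖ : ϖ ≠ 0) : Oˣ × Multiplicative ℤ →* Eˣ :=
  MonoidHom.coprod (Units.map (algebraMap O E : O →* E))
    (zpowersHom Eˣ (Units.mk0 (algebraMap O E ϖ)
      ((map_ne_zero_iff _ (IsFractionRing.injective O E)).mpr hϖ)))

omit [IsDomain O] [IsDiscreteValuationRing O] in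
theorem unitsProdHom_apply (ϖ : O) (hϖ : ϖ ≠ 0) (u : Oˣ) (k : Multiplicative ℤ) :
    ((unitsProdHom E ϖ hϖ (u, k) : Eˣ) : E) =
      algebraMap O E u * (algebraMap O E ϖ) ^ (Multiplicative.toAdd k) := by
  simp [unitsProdHom, zpowersHom_apply]

theorem unitsProdHom_bijective {ϖ : O} (hϖ : Irreducible ϖ) :
    Function.Bijective (unitsProdHom E ϖ hϖ.ne_zero) := by
  have hinj := IsFractionRing.injective O E
  have hϖE : algebraMap O E ϖ ≠ 0 := (map_ne_zero_iff _ hinj).mpr hϖ.ne_zero
  constructor
  · rw [injective_iff_map_eq_one]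
    rintro ⟨u, k⟩ h
    have h' : algebraMap O E u * (algebraMap O E ϖ) ^ (Multiplicative.toAdd k) = 1 := by
      rw [← unitsProdHom_apply E ϖ hϖ.ne_zero, h]; rfl
    obtain ⟨m, hm | hm⟩ := Int.eq_nat_or_neg (Multiplicative.toAdd k)
    · rw [hm, zpow_natCast, ← map_pow, ← map_mul, ← map_one (algebraMap O E)] at h'
      have h2 : (u : O) * ϖ ^ m = 1 := hinj h'
      have h3 : IsUnit (ϖ ^ m) := IsUnit.of_mul_eq_one _ (by rw [mul_comm]; exact h2)
      have hm0 : m = 0 := by
        by_contra hne
        exact hϖ.not_isUnit ((isUnit_pow_iff hne).mp h3)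
      subst hm0
      have hk : k = 1 := by apply Multiplicative.toAdd.injective; simpa using hm
      have hu : u = 1 := Units.ext (by simpa using h2)
      rw [hk, hu]; rfl
    · rw [hm, zpow_neg, zpow_natCast, ← map_pow] at h'
      have h2 : algebraMap O E u = algebraMap O E (ϖ ^ m) := by
        have hne : algebraMap O E (ϖ ^ m) ≠ 0 := by rw [map_pow]; exact pow_ne_zero _ hϖE
        field_simp at h'
        exact h'
      have h3 : (u : O) = ϖ ^ m := hinj h2
      have h4 : IsUnit (ϖ ^ m) := h3 ▸ u.isUnit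
      have hm0 : m = 0 := by
        by_contra hne
        exact hϖ.not_isUnit ((isUnit_pow_iff hne).mp h4)
      subst hm0
      have hk : k = 1 := by apply Multiplicative.toAdd.injective; simpa using hm
      have hu : u = 1 := Units.ext (by simpa using h3)
      rw [hk, hu]; rfl
  · intro x
    obtain ⟨a, b, hb, hab⟩ := IsFractionRing.div_surjective O (x : E)
    have hb0 : b ≠ 0 := nonZeroDivisors.ne_zero hb
    have ha0 : a ≠ 0 := by
      rintro rfl
      rw [map_zero, zero_div] at hab
      exact x.ne_zero hab.symm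
    obtain ⟨i, ua, rfl⟩ := IsDiscreteValuationRing.eq_unit_mul_pow_irreducible ha0 hϖ
    obtain ⟨j, ub, rfl⟩ := IsDiscreteValuationRing.eq_unit_mul_pow_irreducible hb0 hϖ
    refine ⟨(ua * ub⁻¹, Multiplicative.ofAdd ((i : ℤ) - j)), Units.ext ?_⟩
    rw [unitsProdHom_apply, ← hab]
    simp only [toAdd_ofAdd, map_mul, map_pow, Units.val_mul]
    rw [zpow_sub₀ hϖE, zpow_natCast, zpow_natCast]
    have hub : algebraMap O E (↑ub⁻¹ : O) = (algebraMap O E (ub : O))⁻¹ := by
      apply eq_inv_of_mul_eq_one_left; rw [← map_mul, Units.inv_mul, map_one]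
    have hub0 : algebraMap O E (ub : O) ≠ 0 := (map_ne_zero_iff _ hinj).mpr ub.ne_zero
    rw [hub]
    field_simp

/-- `[Eˣ : (Eˣ) ^ p] = p · [Oˣ : (Oˣ) ^ p]` for the fraction field `E` of a discrete valuation
ring `O`. -/
theorem index_range_pow_units_fractionRing (p : ℕ) :
    (powMonoidHom p : Eˣ →* Eˣ).range.index = (powMonoidHom p : Oˣ →* Oˣ).range.index * p := by
  obtain ⟨ϖ, hϖ⟩ := IsDiscreteValuationRing.exists_irreducible O
  set θ := unitsProdHom E ϖ hϖ.ne_zero with hθ
  have hbij : Function.Bijective θ := unitsProdHom_bijective E hϖ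
  have h1 : (powMonoidHom p : Eˣ →* Eˣ).range =
      (powMonoidHom p : Oˣ × Multiplicative ℤ →* Oˣ × Multiplicative ℤ).range.map θ := by
    ext x
    constructor
    · rintro ⟨y, rfl⟩
      obtain ⟨z, rfl⟩ := hbij.2 y
      exact ⟨z ^ p, ⟨z, rfl⟩, by simp [map_pow]⟩
    · rintro ⟨_, ⟨z, rfl⟩, rfl⟩
      exact ⟨θ z, by simp [map_pow]⟩
  have h2 : (powMonoidHom p : Oˣ × Multiplicative ℤ →* Oˣ × Multiplicative ℤ).range =
      ((powMonoidHom p : Oˣ →* Oˣ).range).prod
        ((powMonoidHom p : Multiplicative ℤ →* Multiplicative ℤ).range) := by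
    ext ⟨u, k⟩
    simp only [MonoidHom.mem_range, powMonoidHom_apply, Subgroup.mem_prod, Prod.exists,
      Prod.pow_mk, Prod.mk.injEq]
    constructor
    · rintro ⟨a, b, ha, hb⟩
      exact ⟨⟨a, ha⟩, ⟨b, hb⟩⟩
    · rintro ⟨⟨a, ha⟩, ⟨b, hb⟩⟩
      exact ⟨a, b, ha, hb⟩
  rw [h1, Subgroup.index_map_of_bijective hbij, h2, Subgroup.index_prod,
    index_range_pow_multiplicative_int]

/-- `μ_p(E) ≃ μ_p(O)` (as cardinalities) for the fraction field `E` of a discrete valuation
ring `O`. -/
theorem card_rootsOfUnity_fractionRing (p : ℕ) (hp : p ≠ 0) :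
    Nat.card (rootsOfUnity p E) = Nat.card (rootsOfUnity p O) := by
  obtain ⟨ϖ, hϖ⟩ := IsDiscreteValuationRing.exists_irreducible O
  set θ := unitsProdHom E ϖ hϖ.ne_zero with hθ
  have hbij : Function.Bijective θ := unitsProdHom_bijective E hϖ
  set ι : Oˣ →* Eˣ := Units.map (algebraMap O E : O →* E) with hι
  have hιθ : ∀ u : Oˣ, ι u = θ (u, 1) := by
    intro u
    simp [hθ, hι, unitsProdHom]
  have hιinj : Function.Injective ι := by
    intro u v huv
    rw [hιθ, hιθ] at huv
    simpa using hbij.1 huv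
  have hmap : (rootsOfUnity p O).map ι = rootsOfUnity p E := by
    ext x
    constructor
    · rintro ⟨u, hu, rfl⟩
      have hu' : u ∈ rootsOfUnity p O := hu
      rw [mem_rootsOfUnity] at hu' ⊢
      rw [← map_pow, hu', map_one]
    · intro hx
      rw [mem_rootsOfUnity] at hx
      obtain ⟨⟨u, k⟩, rfl⟩ := hbij.2 x
      rw [← map_pow, ← map_one θ] at hx
      have h1 := hbij.1 hx
      rw [Prod.pow_mk, Prod.mk_eq_one] at h1
      have hk : k = 1 := by
        have h2 := congrArg Multiplicative.toAdd h1.2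
        rw [toAdd_pow, toAdd_one, nsmul_eq_mul] at h2
        apply Multiplicative.toAdd.injective
        rw [toAdd_one]
        rcases mul_eq_zero.mp h2 with h | h
        · exact absurd (by exact_mod_cast h) hp
        · exact h
      rw [hk]
      exact ⟨u, (mem_rootsOfUnity _ _).mpr h1.1, hιθ u⟩
  rw [← hmap, Subgroup.card_map_of_injective hιinj]

/-- **Local Kummer index.**  For the fraction field `E` of a henselian discrete valuation
ring `O` with finite residue field and a prime `p` with `p ≠ 0` in `O`: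
`[Eˣ : (Eˣ) ^ p] = p · |μ_p(E)| · |O / p O|`.
(If `p` is not the residue characteristic, `|O / p O| = 1`.) -/
theorem card_units_quot_pow [HenselianLocalRing O] [Finite (ResidueField O)] (p : ℕ)
    [hp : Fact p.Prime] (hp0 : (p : O) ≠ 0) :
    Nat.card (Eˣ ⧸ (powMonoidHom p : Eˣ →* Eˣ).range) =
      p * Nat.card (rootsOfUnity p E) * Nat.card (O ⧸ Ideal.span {(p : O)}) := by
  have h1 := index_range_pow_units_fractionRing (O := O) E p
  rw [Subgroup.index] at h1
  rw [h1, index_range_pow_units p hp0, card_rootsOfUnity_fractionRing (O := O) E p hp.out.ne_zero]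
  ring

/-- Tame case of `card_units_quot_pow`: if `p` is a unit of `O` then
`[Eˣ : (Eˣ) ^ p] = p · |μ_p(E)|`. -/
theorem card_units_quot_pow_of_isUnit [HenselianLocalRing O] [Finite (ResidueField O)] (p : ℕ)
    [hp : Fact p.Prime] (h : IsUnit (p : O)) :
    Nat.card (Eˣ ⧸ (powMonoidHom p : Eˣ →* Eˣ).range) = p * Nat.card (rootsOfUnity p E) := by
  rw [card_units_quot_pow E p h.ne_zero, card_quotient_span_of_isUnit h, mul_one]

/-- `card_units_quot_pow` in characteristic zero (no side condition on `p`). -/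
theorem card_units_quot_pow_of_charZero [HenselianLocalRing O] [Finite (ResidueField O)]
    [CharZero E] (p : ℕ) [hp : Fact p.Prime] :
    Nat.card (Eˣ ⧸ (powMonoidHom p : Eˣ →* Eˣ).range) =
      p * Nat.card (rootsOfUnity p E) * Nat.card (O ⧸ Ideal.span {(p : O)}) := by
  have : CharZero O := (algebraMap O E).charZero
  exact card_units_quot_pow E p (by exact_mod_cast hp.out.ne_zero)

end FractionField

end Fermat.Agent.CFT.Local.KummerIndex
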