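import Fermat.Agent.CFT.Local.NormIndexLattice

/-!
# Local norm index, part 2: filtrations of principal units and successive approximation

Abstract layer: a decreasing sequence `M k` of closed additive subgroups of a complete ultrametric
field `L`, stable under a finite group `G`, with `M i * M j ⊆ M (i + j + 1)` and
`‖x‖ ≤ (1/2)^(k+1)` on `M k` (`IsFilt`).  Then `V M k = 1 + M k` is a decreasing sequence of
`G`-stable multiplicative subgroups of norm-one elements.  If `M 0` is compact, a one-step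
approximation property upgrades to surjectivity of the norm on fixed elements
(`exists_norm_eq_of_step`) and to Hilbert 90 inside `V M 0` (`exists_div_eq_of_step`).
-/

set_option autoImplicit false

namespace Fermat.Agent.CFT.Local.NormIndex

open scoped BigOperators
open Metric

section Filt

variable {L : Type*} [NormedField L] [IsUltrametricDist L]
variable (G : Type*) [Group G] [Fintype G] [MulSemiringAction G L]

/-- A multiplicative filtration by closed `G`-stable additive subgroups. -/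
structure IsFilt (M : ℕ → Set L) : Prop where
  zero_mem : ∀ k, (0 : L) ∈ M k
  add_mem : ∀ k x y, x ∈ M k → y ∈ M k → x + y ∈ M k
  neg_mem : ∀ k x, x ∈ M k → -x ∈ M k
  mul_mem : ∀ i j x y, x ∈ M i → y ∈ M j → x * y ∈ M (i + j + 1)
  anti : ∀ k, M (k + 1) ⊆ M k
  norm_le : ∀ k x, x ∈ M k → ‖x‖ ≤ (1 / 2 : ℝ) ^ (k + 1)
  closed : ∀ k, IsClosed (M k)
  smul_mem : ∀ k (g : G) x, x ∈ M k → g • x ∈ M k

/-- The "principal units" `1 + M k`. -/
def V (M : ℕ → Set L) (k : ℕ) : Set L := {u | u - 1 ∈ M k}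

variable {G} {M : ℕ → Set L}

omit [IsUltrametricDist L] [Fintype G] in
lemma IsFilt.mono (hM : IsFilt G M) {i j : ℕ} (h : i ≤ j) : M j ⊆ M i := by
  induction h with
  | refl => exact subset_rfl
  | step _ ih => exact (hM.anti _).trans ih

omit [IsUltrametricDist L] [Fintype G] in
lemma IsFilt.sub_mem (hM : IsFilt G M) {k : ℕ} {x y : L} (hx : x ∈ M k) (hy : y ∈ M k) :
    x - y ∈ M k := by
  rw [sub_eq_add_neg]; exact hM.add_mem k _ _ hx (hM.neg_mem k _ hy)

omit [IsUltrametricDist L] [Fintype G] in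
lemma IsFilt.mul_mem' (hM : IsFilt G M) {i j k : ℕ} {x y : L} (hx : x ∈ M i) (hy : y ∈ M j)
    (h : k ≤ i + j + 1) : x * y ∈ M k :=
  hM.mono h (hM.mul_mem i j x y hx hy)

omit [IsUltrametricDist L] [Fintype G] in
lemma IsFilt.sum_mem (hM : IsFilt G M) {ι : Type*} (s : Finset ι) (f : ι → L) (k : ℕ)
    (h : ∀ i ∈ s, f i ∈ M k) : ∑ i ∈ s, f i ∈ M k := by
  classical
  induction s using Finset.induction_on with
  | empty => simpa using hM.zero_mem k
  | insert i t hi ih =>
    rw [Finset.sum_insert hi]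
    exact hM.add_mem k _ _ (h i (Finset.mem_insert_self i t))
      (ih fun j hj => h j (Finset.mem_insert_of_mem hj))

omit [IsUltrametricDist L] [Fintype G] in
lemma IsFilt.norm_le_half (hM : IsFilt G M) {k : ℕ} {x : L} (hx : x ∈ M k) : ‖x‖ ≤ 1 / 2 := by
  refine (hM.norm_le k x hx).trans ?_
  calc (1 / 2 : ℝ) ^ (k + 1) ≤ (1 / 2 : ℝ) ^ 1 :=
        pow_le_pow_of_le_one (by norm_num) (by norm_num) (by omega)
    _ = 1 / 2 := by norm_num

omit [IsUltrametricDist L] [Fintype G] in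
lemma IsFilt.norm_lt_one (hM : IsFilt G M) {k : ℕ} {x : L} (hx : x ∈ M k) : ‖x‖ < 1 :=
  (hM.norm_le_half hx).trans_lt (by norm_num)

omit [IsUltrametricDist L] [Fintype G] in
lemma V_mono (hM : IsFilt G M) {i j : ℕ} (h : i ≤ j) : V M j ⊆ V M i := fun _ hu => hM.mono h hu

omit [IsUltrametricDist L] [Fintype G] in
lemma one_mem_V (hM : IsFilt G M) (k : ℕ) : (1 : L) ∈ V M k := by
  show (1 : L) - 1 ∈ M k
  rw [sub_self]; exact hM.zero_mem k

omit [IsUltrametricDist L] [Fintype G] in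
lemma mul_mem_V (hM : IsFilt G M) {k : ℕ} {u u' : L} (hu : u ∈ V M k) (hu' : u' ∈ V M k) :
    u * u' ∈ V M k := by
  have e : u * u' - 1 = (u - 1) * (u' - 1) + ((u - 1) + (u' - 1)) := by ring
  show u * u' - 1 ∈ M k
  rw [e]
  exact hM.add_mem k _ _ (hM.mul_mem' hu hu' (by omega)) (hM.add_mem k _ _ hu hu')

omit [Fintype G] in
lemma norm_eq_one_of_mem_V (hM : IsFilt G M) {k : ℕ} {u : L} (hu : u ∈ V M k) : ‖u‖ = 1 := by
  have h1 : ‖u - 1‖ < 1 := hM.norm_lt_one hu
  have e : u = (u - 1) + 1 := by ring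
  have hne : ‖u - 1‖ ≠ ‖(1 : L)‖ := by rw [norm_one]; exact h1.ne
  rw [e, IsUltrametricDist.norm_add_eq_max_of_norm_ne_norm hne, norm_one]
  exact max_eq_right h1.le

omit [Fintype G] in
lemma ne_zero_of_mem_V (hM : IsFilt G M) {k : ℕ} {u : L} (hu : u ∈ V M k) : u ≠ 0 := by
  intro h
  have := norm_eq_one_of_mem_V hM hu
  rw [h, norm_zero] at this
  exact zero_ne_one this

omit [Fintype G] in
lemma inv_mem_V (hM : IsFilt G M) {k : ℕ} {u : L} (hu : u ∈ V M k) : u⁻¹ ∈ V M k := by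
  set ξ : L := 1 - u with hξ
  have hξM : ξ ∈ M k := by
    have := hM.neg_mem k _ hu
    rwa [neg_sub] at this
  have hξ1 : ‖ξ‖ < 1 := hM.norm_lt_one hξM
  have hs := (hasSum_geometric_of_norm_lt_one hξ1).tendsto_sum_nat
  have hpow : ∀ n : ℕ, ξ ^ (n + 1) ∈ M k := by
    intro n
    induction n with
    | zero => simpa using hξM
    | succ n ih => rw [pow_succ]; exact hM.mul_mem' ih hξM (by omega)
  have hmem : ∀ n : ℕ, ξ * ∑ i ∈ Finset.range n, ξ ^ i ∈ M k := by
    intro n
    rw [Finset.mul_sum]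
    exact hM.sum_mem _ _ _ (fun i _ => by rw [← pow_succ']; exact hpow i)
  have hlim : Filter.Tendsto (fun n : ℕ => ξ * ∑ i ∈ Finset.range n, ξ ^ i) Filter.atTop
      (nhds (ξ * (1 - ξ)⁻¹)) := hs.const_mul ξ
  have hin := (hM.closed k).mem_of_tendsto hlim (Filter.Eventually.of_forall hmem)
  have hu0 : u ≠ 0 := ne_zero_of_mem_V hM hu
  have e : ξ * (1 - ξ)⁻¹ = u⁻¹ - 1 := by
    have e1 : (1 - ξ) = u := by rw [hξ]; ring
    rw [e1, hξ]
    field_simp
  show u⁻¹ - 1 ∈ M k
  rw [← e]; exact hin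

omit [IsUltrametricDist L] [Fintype G] in
lemma smul_mem_V (hM : IsFilt G M) {k : ℕ} {u : L} (g : G) (hu : u ∈ V M k) :
    g • u ∈ V M k := by
  have e : g • u - 1 = g • (u - 1) := by rw [smul_sub, smul_one]
  show g • u - 1 ∈ M k
  rw [e]; exact hM.smul_mem k g _ hu

omit [Fintype G] in
lemma div_mem_V (hM : IsFilt G M) {k : ℕ} {u u' : L} (hu : u ∈ V M k) (hu' : u' ∈ V M k) :
    u / u' ∈ V M k := by
  rw [div_eq_mul_inv]; exact mul_mem_V hM hu (inv_mem_V hM hu')

omit [Fintype G] in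
lemma div_mem_V_succ (hM : IsFilt G M) {k : ℕ} {u u' : L} (hu' : u' ∈ V M k)
    (h : u - u' ∈ M (k + 1)) : u / u' ∈ V M (k + 1) := by
  have hu0 := ne_zero_of_mem_V hM hu'
  have hinv : u'⁻¹ - 1 ∈ M k := inv_mem_V hM hu'
  have e : u / u' - 1 = (u - u') + (u - u') * (u'⁻¹ - 1) := by
    field_simp
    ring
  show u / u' - 1 ∈ M (k + 1)
  rw [e]
  exact hM.add_mem _ _ _ h (hM.mul_mem' h hinv (by omega))

omit [IsUltrametricDist L] [Fintype G] in
lemma prod_mem_V (hM : IsFilt G M) {ι : Type*} (s : Finset ι) (f : ι → L) (k : ℕ)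
    (h : ∀ i ∈ s, f i ∈ V M k) : ∏ i ∈ s, f i ∈ V M k := by
  classical
  induction s using Finset.induction_on with
  | empty => simpa using one_mem_V hM k
  | insert i t hi ih =>
    rw [Finset.prod_insert hi]
    exact mul_mem_V hM (h i (Finset.mem_insert_self i t))
      (ih fun j hj => h j (Finset.mem_insert_of_mem hj))

omit [IsUltrametricDist L] [Fintype G] in
lemma prod_one_add (hM : IsFilt G M) {ι : Type*} (s : Finset ι) (x : ι → L) (k : ℕ)
    (h : ∀ i ∈ s, x i ∈ M k) : ∏ i ∈ s, (1 + x i) - 1 - ∑ i ∈ s, x i ∈ M (k + 1) := by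
  classical
  induction s using Finset.induction_on with
  | empty => simpa using hM.zero_mem (k + 1)
  | insert i t hi ih =>
    rw [Finset.prod_insert hi, Finset.sum_insert hi]
    have hx : x i ∈ M k := h i (Finset.mem_insert_self i t)
    have hS : ∑ j ∈ t, x j ∈ M k := hM.sum_mem _ _ _ fun j hj => h j (Finset.mem_insert_of_mem hj)
    have he := ih fun j hj => h j (Finset.mem_insert_of_mem hj)
    have e : (1 + x i) * ∏ j ∈ t, (1 + x j) - 1 - (x i + ∑ j ∈ t, x j)
        = (∏ j ∈ t, (1 + x j) - 1 - ∑ j ∈ t, x j) + x i * ∑ j ∈ t, x j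
          + x i * (∏ j ∈ t, (1 + x j) - 1 - ∑ j ∈ t, x j) := by ring
    rw [e]
    exact hM.add_mem _ _ _ (hM.add_mem _ _ _ he (hM.mul_mem' hx hS (by omega)))
      (hM.mul_mem' hx he (by omega))

omit [IsUltrametricDist L] [Fintype G] in
lemma isCompact_V (hcpt : IsCompact (M 0)) : IsCompact (V M 0) := by
  have : V M 0 = (fun x : L => x + 1) '' M 0 := by
    ext u
    constructor
    · intro hu; exact ⟨u - 1, hu, by ring⟩
    · rintro ⟨x, hx, rfl⟩
      show x + 1 - 1 ∈ M 0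
      rwa [add_sub_cancel_right]
  rw [this]
  exact hcpt.image (continuous_id.add continuous_const)

omit [IsUltrametricDist L] in
lemma prod_smul_mul (x y : L) :
    ∏ g : G, g • (x * y) = (∏ g : G, g • x) * ∏ g : G, g • y := by
  simp_rw [smul_mul']; exact Finset.prod_mul_distrib

omit [IsUltrametricDist L] in
lemma prod_smul_smul (h : G) (x : L) : ∏ g : G, g • (h • x) = ∏ g : G, g • x :=
  Fintype.prod_equiv (Equiv.mulRight h) _ _ (fun g => by simp [mul_smul])

omit [IsUltrametricDist L] in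
lemma prod_smul_div (x y : L) :
    ∏ g : G, g • (x / y) = (∏ g : G, g • x) / ∏ g : G, g • y := by
  simp_rw [gsmul_div]
  exact Finset.prod_div_distrib (s := Finset.univ) (f := fun g : G => g • x) (g := fun g : G => g • y)

/-- Successive approximation for the norm: if every fixed element of `V M k` is a norm from
`V M k` modulo `V M (k+1)`, then every fixed element of `V M 0` is a norm from `V M 0`. -/
theorem exists_norm_eq_of_step (hM : IsFilt G M) (hiso : ∀ (g : G) (x : L), ‖g • x‖ = ‖x‖)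
    (hcpt : IsCompact (M 0))
    (hstep : ∀ k, ∀ v ∈ V M k, Fixd G v → ∃ w ∈ V M k, v / ∏ g : G, g • w ∈ V M (k + 1))
    {v : L} (hv : v ∈ V M 0) (hfix : Fixd G v) : ∃ w ∈ V M 0, v = ∏ g : G, g • w := by
  have key : ∀ k, ∃ P ∈ V M 0, v / ∏ g : G, g • P ∈ V M k := by
    intro k
    induction k with
    | zero => exact ⟨1, one_mem_V hM 0, by simpa using hv⟩
    | succ k ih =>
      obtain ⟨P, hP, hPk⟩ := ih
      have hfix' : Fixd G (v / ∏ g : G, g • P) := hfix.div (fixd_prod_smul P)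
      obtain ⟨w, hw, hwk⟩ := hstep k _ hPk hfix'
      refine ⟨P * w, mul_mem_V hM hP (V_mono hM (Nat.zero_le k) hw), ?_⟩
      rw [prod_smul_mul, ← div_div]; exact hwk
  have hV0 : IsCompact (V M 0) := isCompact_V hcpt
  have hcont : Continuous (fun P : L => ∏ g : G, g • P) :=
    continuous_finsetProd _ (fun g _ => continuous_gsmul hiso g)
  have hS : IsClosed ((fun P : L => ∏ g : G, g • P) '' V M 0) := (hV0.image hcont).isClosed
  have hmem : v ∈ closure ((fun P : L => ∏ g : G, g • P) '' V M 0) := by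
    rw [Metric.mem_closure_iff]
    intro ε hε
    obtain ⟨k, hk⟩ := exists_pow_lt_of_lt_one hε (by norm_num : (1 / 2 : ℝ) < 1)
    obtain ⟨P, hP, hPk⟩ := key k
    refine ⟨_, ⟨P, hP, rfl⟩, ?_⟩
    have hNP : ∏ g : G, g • P ∈ V M 0 := prod_mem_V hM _ _ _ fun g _ => smul_mem_V hM g hP
    have hN1 : ‖∏ g : G, g • P‖ = 1 := norm_eq_one_of_mem_V hM hNP
    have hN0 : ∏ g : G, g • P ≠ 0 := ne_zero_of_mem_V hM hNP
    have e : v - ∏ g : G, g • P = (∏ g : G, g • P) * (v / ∏ g : G, g • P - 1) := by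
      field_simp
    rw [dist_eq_norm, e, norm_mul, hN1, one_mul]
    refine lt_of_le_of_lt (hM.norm_le k _ hPk) (lt_of_le_of_lt ?_ hk)
    exact pow_le_pow_of_le_one (by norm_num) (by norm_num) (Nat.le_succ k)
  rw [hS.closure_eq] at hmem
  obtain ⟨w, hw, hwv⟩ := hmem
  exact ⟨w, hw, hwv.symm⟩

/-- Successive approximation for Hilbert 90: if every norm-one element of `V M k` is of the form
`σ w / w` with `w ∈ V M k` modulo `V M (k+1)`, then the same holds exactly in `V M 0`. -/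
theorem exists_div_eq_of_step (hM : IsFilt G M) (hiso : ∀ (g : G) (x : L), ‖g • x‖ = ‖x‖)
    (hcpt : IsCompact (M 0)) (σ : G)
    (hstep : ∀ k, ∀ v ∈ V M k, ∏ g : G, g • v = 1 → ∃ w ∈ V M k, v * w / σ • w ∈ V M (k + 1))
    {v : L} (hv : v ∈ V M 0) (hN : ∏ g : G, g • v = 1) : ∃ w ∈ V M 0, v = σ • w / w := by
  have key : ∀ k, ∃ P ∈ V M 0, v * P / σ • P ∈ V M k := by
    intro k
    induction k with
    | zero => exact ⟨1, one_mem_V hM 0, by simpa using hv⟩
    | succ k ih =>
      obtain ⟨P, hP, hPk⟩ := ih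
      have hP0 : P ≠ 0 := ne_zero_of_mem_V hM hP
      have hσP0 : σ • P ≠ 0 := ne_zero_of_mem_V hM (smul_mem_V hM σ hP)
      have hNP0 : ∏ g : G, g • P ≠ 0 :=
        ne_zero_of_mem_V hM (prod_mem_V hM _ _ _ fun g _ => smul_mem_V hM g hP)
      have hN' : ∏ g : G, g • (v * P / σ • P) = 1 := by
        rw [prod_smul_div, prod_smul_mul, prod_smul_smul, hN, one_mul, div_self hNP0]
      obtain ⟨w, hw, hwk⟩ := hstep k _ hPk hN'
      have hw0 : w ≠ 0 := ne_zero_of_mem_V hM hw
      have hσw0 : σ • w ≠ 0 := ne_zero_of_mem_V hM (smul_mem_V hM σ hw)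
      refine ⟨P * w, mul_mem_V hM hP (V_mono hM (Nat.zero_le k) hw), ?_⟩
      have e : v * (P * w) / σ • (P * w) = v * P / σ • P * w / σ • w := by
        rw [smul_mul']
        field_simp
      rw [e]; exact hwk
  have hV0 : IsCompact (V M 0) := isCompact_V hcpt
  have hcont : ContinuousOn (fun P : L => σ • P / P) (V M 0) :=
    (continuous_gsmul hiso σ).continuousOn.div continuousOn_id
      (fun P hP => ne_zero_of_mem_V hM hP)
  have hS : IsClosed ((fun P : L => σ • P / P) '' V M 0) :=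
    (hV0.image_of_continuousOn hcont).isClosed
  have hmem : v ∈ closure ((fun P : L => σ • P / P) '' V M 0) := by
    rw [Metric.mem_closure_iff]
    intro ε hε
    obtain ⟨k, hk⟩ := exists_pow_lt_of_lt_one hε (by norm_num : (1 / 2 : ℝ) < 1)
    obtain ⟨P, hP, hPk⟩ := key k
    refine ⟨_, ⟨P, hP, rfl⟩, ?_⟩
    have hσP : σ • P ∈ V M 0 := smul_mem_V hM σ hP
    have hq : σ • P / P ∈ V M 0 := div_mem_V hM hσP hP
    have hq1 : ‖σ • P / P‖ = 1 := norm_eq_one_of_mem_V hM hq
    have hP0 : P ≠ 0 := ne_zero_of_mem_V hM hP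
    have hσP0 : σ • P ≠ 0 := ne_zero_of_mem_V hM hσP
    have e : v - σ • P / P = (σ • P / P) * (v * P / σ • P - 1) := by
      field_simp
    rw [dist_eq_norm, e, norm_mul, hq1, one_mul]
    refine lt_of_le_of_lt (hM.norm_le k _ hPk) (lt_of_le_of_lt ?_ hk)
    exact pow_le_pow_of_le_one (by norm_num) (by norm_num) (Nat.le_succ k)
  rw [hS.closure_eq] at hmem
  obtain ⟨w, hw, hwv⟩ := hmem
  exact ⟨w, hw, hwv.symm⟩

end Filt

end Fermat.Agent.CFT.Local.NormIndex
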