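import Mathlib

/-!
# Hilbert 90 for a finite cyclic group acting faithfully on a field

Universe-polymorphic, stated for an abstract group action (no `Algebra K L`):
if `σ` generates the finite group `G` acting faithfully on the field `L` by field automorphisms
and `∏ g, g • x = 1`, then `x = σ • y / y` for some `y ≠ 0`.
-/

set_option autoImplicit false

namespace Fermat.Agent.CFT.Local.NormIndex

open scoped BigOperators

section Hilbert90

variable {L : Type*} [Field L] {G : Type*} [Group G] [Fintype G] [MulSemiringAction G L]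

/-- The product over the powers of a generator is the product over the group. -/
lemma prod_range_orderOf_smul (σ : G) (hσ : ∀ g : G, ∃ j : ℕ, σ ^ j = g) (x : L) :
    ∏ k ∈ Finset.range (orderOf σ), σ ^ k • x = ∏ g : G, g • x := by
  refine Finset.prod_nbij (fun k => σ ^ k) (fun _ _ => Finset.mem_univ _) ?_ ?_ (fun _ _ => rfl)
  · intro a ha b hb h
    exact pow_injOn_Iio_orderOf (by simpa using ha) (by simpa using hb) h
  · intro g _
    obtain ⟨j, rfl⟩ := hσ g
    exact ⟨j % orderOf σ, by simpa using Nat.mod_lt _ (orderOf_pos σ), pow_mod_orderOf σ j⟩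

lemma exists_ne_zero_mul_smul_eq [FaithfulSMul G L] (σ : G) (hσ : ∀ g : G, ∃ j : ℕ, σ ^ j = g)
    {x : L} (hx : ∏ g : G, g • x = 1) : ∃ z : L, z ≠ 0 ∧ x * σ • z = z := by
  classical
  have hnpos : 0 < orderOf σ := orderOf_pos σ
  set P : ℕ → L := fun i => ∏ k ∈ Finset.range i, σ ^ k • x with hP
  have hP0 : P 0 = 1 := by simp [hP]
  have hPs : ∀ i, P (i + 1) = x * σ • P i := by
    intro i
    simp only [hP]
    rw [Finset.prod_range_succ', pow_zero, one_smul, mul_comm, Finset.smul_prod']
    congr 1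
    exact Finset.prod_congr rfl (fun k _ => by rw [pow_succ', mul_smul])
  have hPn : P (orderOf σ) = 1 := by
    simp only [hP]; rw [prod_range_orderOf_smul σ hσ x, hx]
  have hσn : σ ^ orderOf σ = 1 := pow_orderOf_eq_one σ
  have hinv : ∀ c : L, x * σ • (∑ i ∈ Finset.range (orderOf σ), P i * σ ^ i • c)
      = ∑ i ∈ Finset.range (orderOf σ), P i * σ ^ i • c := by
    intro c
    rw [Finset.smul_sum, Finset.mul_sum]
    have e1 : ∀ i ∈ Finset.range (orderOf σ),
        x * σ • (P i * σ ^ i • c) = P (i + 1) * σ ^ (i + 1) • c := by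
      intro i _
      rw [smul_mul', ← mul_assoc, ← hPs, ← mul_smul, ← pow_succ']
    rw [Finset.sum_congr rfl e1]
    have e2 := Finset.sum_range_succ' (fun i => P i * σ ^ i • c) (orderOf σ)
    have e3 := Finset.sum_range_succ (fun i => P i * σ ^ i • c) (orderOf σ)
    have e4 : P (orderOf σ) * σ ^ orderOf σ • c = P 0 * σ ^ 0 • c := by
      rw [hPn, hP0, hσn, pow_zero]
    beta_reduce at e2 e3
    rw [e3, e4] at e2
    exact (add_right_cancel e2).symm
  by_contra hcon
  simp only [not_exists, not_and] at hcon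
  have hzero : ∀ c : L, ∑ i ∈ Finset.range (orderOf σ), P i * σ ^ i • c = 0 := by
    intro c
    by_contra h
    exact hcon _ h (hinv c)
  have hli : LinearIndependent L (fun i : Fin (orderOf σ) =>
      ((MulSemiringAction.toRingHom G L (σ ^ (i : ℕ)) : L →* L) : L → L)) := by
    refine (linearIndependent_monoidHom L L).comp
      (fun i : Fin (orderOf σ) => (MulSemiringAction.toRingHom G L (σ ^ (i : ℕ)) : L →* L)) ?_
    intro i j hij
    have h1 : σ ^ (i : ℕ) = σ ^ (j : ℕ) := by
      apply FaithfulSMul.eq_of_smul_eq_smul (α := L)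
      intro c
      exact DFunLike.congr_fun hij c
    exact Fin.ext (pow_injOn_Iio_orderOf i.2 j.2 h1)
  have h0 : ∑ i : Fin (orderOf σ), P i •
      ((MulSemiringAction.toRingHom G L (σ ^ (i : ℕ)) : L →* L) : L → L) = 0 := by
    funext c
    simp only [Finset.sum_apply, Pi.smul_apply, smul_eq_mul, Pi.zero_apply]
    rw [← hzero c, Finset.sum_range (fun i => P i * σ ^ i • c)]
    rfl
  have h1 := Fintype.linearIndependent_iff.1 hli (fun i => P i) h0 ⟨0, hnpos⟩
  simp only [hP0] at h1
  exact one_ne_zero h1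

/-- **Hilbert 90** for a finite cyclic group `G = ⟨σ⟩` acting faithfully on a field `L`. -/
theorem hilbert90_cyclic [FaithfulSMul G L] (σ : G) (hσ : ∀ g : G, ∃ j : ℕ, σ ^ j = g)
    {x : L} (hx : ∏ g : G, g • x = 1) : ∃ y : L, y ≠ 0 ∧ x = σ • y / y := by
  have hx0 : x ≠ 0 := by
    rintro rfl
    have h0 : ∏ g : G, g • (0 : L) = 0 :=
      Finset.prod_eq_zero (Finset.mem_univ 1) (smul_zero _)
    rw [h0] at hx; exact zero_ne_one hx
  have hxi : ∏ g : G, g • x⁻¹ = 1 := by
    simp_rw [smul_inv'']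
    rw [Finset.prod_inv_distrib, hx, inv_one]
  obtain ⟨z, hz, hzx⟩ := exists_ne_zero_mul_smul_eq σ hσ hxi
  refine ⟨z, hz, ?_⟩
  rw [eq_div_iff hz]
  calc x * z = x * (x⁻¹ * σ • z) := by rw [hzx]
    _ = σ • z := by rw [← mul_assoc, mul_inv_cancel₀ hx0, one_mul]

end Hilbert90

end Fermat.Agent.CFT.Local.NormIndex
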