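import Fermat.Agent.CFT.Local.NormIndexUnits
import Fermat.Agent.CFT.Local.NormIndexHilbert90
import Fermat.Agent.Lib.HerbrandCoh

/-!
# Local norm index, part 4: Herbrand quotient of local units and the norm index

Abstract Herbrand-quotient steps (`hq_res_eq_one`, `herbrand_res_eq_of_cover`,
`herbrandCyc_of_int_quot`) and their application to the units of a complete ultrametric normed
field `L` with compact unit ball and a finite cyclic group `G = ⟨σ⟩` acting faithfully by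
isometric automorphisms:

* the norm-one units have Herbrand quotient `1`;
* `[ (Lˣ)^G : N(Lˣ) ] = |G|` and `ker N = (σ - 1) Lˣ` on `Lˣ`.
-/

set_option autoImplicit false

namespace Fermat.Agent.CFT.Local.NormIndex

open Fermat.Agent.Lib.Herbrand
open scoped BigOperators
open Metric

section Abstract

variable {B : Type*} [AddCommGroup B]

lemma hq_res_eq_one (f g : B →+ B) (A : AddSubgroup B) (hfA : ∀ a ∈ A, f a ∈ A)
    (hgA : ∀ a ∈ A, g a ∈ A) (h : ∀ a ∈ A, f a = 0 → ∃ b ∈ A, a = g b) :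
    hq (resHom f A hfA) (resHom g A hgA) = 1 := by
  unfold hq
  rw [AddSubgroup.relIndex_eq_one]
  intro a ha
  have ha' : f (a : B) = 0 := by
    have := congrArg Subtype.val (show resHom f A hfA a = 0 from ha)
    simpa using this
  obtain ⟨b, hb, hab⟩ := h a a.2 ha'
  exact ⟨⟨b, hb⟩, Subtype.ext hab.symm⟩

lemma resHom_comp_eq_zero {f g : B →+ B} (hfg : f.comp g = 0) (A : AddSubgroup B)
    (hfA : ∀ a ∈ A, f a ∈ A) (hgA : ∀ a ∈ A, g a ∈ A) :
    (resHom f A hfA).comp (resHom g A hgA) = 0 := by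
  ext x
  have : f (g (x : B)) = 0 := DFunLike.congr_fun hfg (x : B)
  simpa using this

lemma finiteIndex_range_inclusion {A U : AddSubgroup B} (hAU : A ≤ U) (t : Set B)
    (ht : t.Finite) (htU : t ⊆ U) (hcov : ∀ u ∈ U, ∃ x ∈ t, u - x ∈ A) :
    (AddSubgroup.inclusion hAU).range.FiniteIndex := by
  have hfin : Finite t := ht.to_subtype
  let F : t → ↥U ⧸ (AddSubgroup.inclusion hAU).range :=
    fun x => QuotientAddGroup.mk ⟨x.1, htU x.2⟩
  have hsurj : Function.Surjective F := by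
    intro q
    induction q using QuotientAddGroup.induction_on with
    | H u =>
      obtain ⟨x, hx, hux⟩ := hcov u.1 u.2
      refine ⟨⟨x, hx⟩, ?_⟩
      show (QuotientAddGroup.mk (⟨x, htU hx⟩ : ↥U) : ↥U ⧸ (AddSubgroup.inclusion hAU).range)
        = QuotientAddGroup.mk u
      rw [QuotientAddGroup.eq]
      refine ⟨⟨u.1 - x, hux⟩, ?_⟩
      apply Subtype.ext
      show u.1 - x = -x + u.1
      abel
  have : Finite (↥U ⧸ (AddSubgroup.inclusion hAU).range) := Finite.of_surjective F hsurj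
  exact AddSubgroup.finiteIndex_of_finite_quotient

/-- A stable subgroup `A ≤ U` covering `U` by finitely many cosets has the same Herbrand
quotient as `U`. -/
theorem herbrand_res_eq_of_cover {f g : B →+ B} (hfg : f.comp g = 0) (hgf : g.comp f = 0)
    {A U : AddSubgroup B} (hAU : A ≤ U) (hfA : ∀ a ∈ A, f a ∈ A) (hgA : ∀ a ∈ A, g a ∈ A)
    (hfU : ∀ a ∈ U, f a ∈ U) (hgU : ∀ a ∈ U, g a ∈ U) (t : Set B)
    (ht : t.Finite) (htU : t ⊆ U) (hcov : ∀ u ∈ U, ∃ x ∈ t, u - x ∈ A) :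
    (Defined (resHom f A hfA) (resHom g A hgA) ↔ Defined (resHom f U hfU) (resHom g U hgU)) ∧
      herbrand (resHom f A hfA) (resHom g A hgA) = herbrand (resHom f U hfU) (resHom g U hgU) := by
  have hinj : Function.Injective (AddSubgroup.inclusion hAU) := AddSubgroup.inclusion_injective hAU
  have hker : (AddSubgroup.inclusion hAU).ker = ⊥ := (AddMonoidHom.ker_eq_bot_iff _).2 hinj
  have : Finite (AddSubgroup.inclusion hAU).ker := by rw [hker]; infer_instance
  have := finiteIndex_range_inclusion hAU t ht htU hcov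
  exact herbrand_eq_of_finite_ker_coker (AddSubgroup.inclusion hAU)
    (resHom_comp_eq_zero hfg A hfA hgA) (resHom_comp_eq_zero hgf A hgA hfA)
    (resHom_comp_eq_zero hfg U hfU hgU) (resHom_comp_eq_zero hgf U hgU hfU)
    (fun x => rfl) (fun x => rfl)

end Abstract

section Module

variable {G : Type*} [Group G] [Fintype G] {B : Type*} [AddCommGroup B] [DistribMulAction G B]

omit [Fintype G] in
lemma subOneHom_mem {A : AddSubgroup B} (hA : ∀ (τ : G), ∀ a ∈ A, τ • a ∈ A) (σ : G) :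
    ∀ a ∈ A, subOneHom B σ a ∈ A := fun a ha => by
  rw [subOneHom_apply]; exact A.sub_mem (hA σ a ha) ha

lemma normHom_mem {A : AddSubgroup B} (hA : ∀ (τ : G), ∀ a ∈ A, τ • a ∈ A) :
    ∀ a ∈ A, normHom G B a ∈ A := fun a ha => by
  rw [Lib.Herbrand.normHom_apply]; exact A.sum_mem fun τ _ => hA τ a ha

/-- The trivial action on `ℤ` (used locally for the valuation quotient). -/
@[reducible] def trivialIntAction (G : Type*) [Monoid G] : DistribMulAction G ℤ where
  smul _ a := a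
  one_smul _ := rfl
  mul_smul _ _ _ := rfl
  smul_zero _ := rfl
  smul_add _ _ _ := rfl

/-- If `B / U ≅ ℤ` with trivial action (via an invariant surjection `π : B →+ ℤ` with kernel
`U`), then `h(B) = h(U) * |G|`. -/
theorem herbrandCyc_of_int_quot (σ : G) (U : AddSubgroup B) (hU : ∀ (τ : G), ∀ a ∈ U, τ • a ∈ U)
    (π : B →+ ℤ) (hπ : Function.Surjective π) (hker : π.ker = U)
    (hπG : ∀ (τ : G) (b : B), π (τ • b) = π b)
    (hdef : Defined (resHom (subOneHom B σ) U (subOneHom_mem hU σ))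
      (resHom (normHom G B) U (normHom_mem hU))) :
    DefinedCyc B σ ∧ herbrandCyc B σ
      = herbrand (resHom (subOneHom B σ) U (subOneHom_mem hU σ))
          (resHom (normHom G B) U (normHom_mem hU)) * Fintype.card G := by
  let _ : DistribMulAction G ℤ := trivialIntAction G
  have htriv : ∀ (τ : G) (a : ℤ), τ • a = a := fun _ _ => rfl
  obtain ⟨hdefZ, hZ⟩ := herbrandCyc_int (G := G) σ htriv
  have hex : U.subtype.range = π.ker := by rw [hker]; exact AddSubgroup.range_subtype U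
  have hfπ : ∀ b, π (subOneHom B σ b) = subOneHom ℤ σ (π b) := by
    intro b
    rw [subOneHom_apply, subOneHom_apply, map_sub, hπG, htriv]
  have hgπ : ∀ b, π (normHom G B b) = normHom G ℤ (π b) := by
    intro b
    rw [Lib.Herbrand.normHom_apply, Lib.Herbrand.normHom_apply, map_sum]
    exact Finset.sum_congr rfl (fun τ _ => by rw [hπG, htriv])
  refine ⟨?_, ?_⟩
  · exact Defined.exact_mid U.subtype π Subtype.val_injective hπ hex
      (subOneHom_comp_normHom σ) (normHom_comp_subOneHom σ) (fun a => rfl) (fun a => rfl)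
      hfπ hgπ hdef hdefZ
  · have := herbrand_exact U.subtype π Subtype.val_injective hπ hex
      (subOneHom_comp_normHom σ) (normHom_comp_subOneHom σ) (fun a => rfl) (fun a => rfl)
      hfπ hgπ hdef
    unfold herbrandCyc
    rw [this]
    congr 1

end Module

section Units

attribute [local instance] Units.mulDistribMulActionRight
attribute [local instance] additiveDistribMulAction

variable {L : Type*} [NormedField L]
variable {G : Type*} [Group G] [Fintype G] [MulSemiringAction G L]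

/-- The field element underlying an element of `Additive Lˣ`. -/
def uval (a : Additive Lˣ) : L := ((Additive.toMul a : Lˣ) : L)

/-- The element of `Additive Lˣ` attached to a nonzero element of `L`. -/
def ofNe (x : L) (hx : x ≠ 0) : Additive Lˣ := Additive.ofMul (Units.mk0 x hx)

lemma uval_ofNe (x : L) (hx : x ≠ 0) : uval (ofNe x hx) = x := rfl

lemma uval_zero : uval (0 : Additive Lˣ) = 1 := rfl

lemma uval_add (a b : Additive Lˣ) : uval (a + b) = uval a * uval b := rfl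

lemma uval_neg (a : Additive Lˣ) : uval (-a) = (uval a)⁻¹ := by
  simp [uval]

lemma uval_sub (a b : Additive Lˣ) : uval (a - b) = uval a / uval b := by
  rw [sub_eq_add_neg, uval_add, uval_neg, div_eq_mul_inv]

lemma uval_ne_zero (a : Additive Lˣ) : uval a ≠ 0 := Units.ne_zero _

lemma uval_injective : Function.Injective (uval : Additive Lˣ → L) := fun a b h => by
  apply Additive.toMul.injective
  exact Units.ext h

omit [Fintype G] in
lemma uval_smul (τ : G) (a : Additive Lˣ) : uval (τ • a) = τ • uval a := rfl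

omit [Fintype G] in
lemma uval_subOne (σ : G) (a : Additive Lˣ) :
    uval (subOneHom (Additive Lˣ) σ a) = σ • uval a / uval a := by
  rw [subOneHom_apply, uval_sub, uval_smul]

lemma uval_sum {ι : Type*} (s : Finset ι) (f : ι → Additive Lˣ) :
    uval (∑ i ∈ s, f i) = ∏ i ∈ s, uval (f i) := by
  classical
  induction s using Finset.induction_on with
  | empty => simp [uval_zero]
  | insert i t hi ih => rw [Finset.sum_insert hi, Finset.prod_insert hi, uval_add, ih]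

lemma uval_norm (a : Additive Lˣ) :
    uval (Lib.Herbrand.normHom G (Additive Lˣ) a) = ∏ τ : G, τ • uval a := by
  rw [Lib.Herbrand.normHom_apply, uval_sum]
  exact Finset.prod_congr rfl (fun τ _ => uval_smul τ a)

/-- The additive subgroup of `Additive Lˣ` attached to a multiplicatively closed set. -/
def setAddSubgroup (S : Set L) (h1 : (1 : L) ∈ S) (hmul : ∀ u ∈ S, ∀ v ∈ S, u * v ∈ S)
    (hinv : ∀ u ∈ S, u⁻¹ ∈ S) : AddSubgroup (Additive Lˣ) where
  carrier := {a | uval a ∈ S}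
  zero_mem' := h1
  add_mem' := fun {a b} ha hb => hmul _ ha _ hb
  neg_mem' := fun {a} ha => by
    show uval (-a) ∈ S
    rw [uval_neg]; exact hinv _ ha

lemma mem_setAddSubgroup {S : Set L} {h1 : (1 : L) ∈ S} {hmul : ∀ u ∈ S, ∀ v ∈ S, u * v ∈ S}
    {hinv : ∀ u ∈ S, u⁻¹ ∈ S} {a : Additive Lˣ} :
    a ∈ setAddSubgroup S h1 hmul hinv ↔ uval a ∈ S := Iff.rfl

variable (L) in
/-- The units of norm one, as an additive subgroup of `Additive Lˣ`. -/
def unitsNormOne : AddSubgroup (Additive Lˣ) :=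
  setAddSubgroup {x : L | ‖x‖ = 1} norm_one
    (fun u hu v hv => by
      show ‖u * v‖ = 1
      rw [norm_mul, show ‖u‖ = 1 from hu, show ‖v‖ = 1 from hv, one_mul])
    (fun u hu => by
      show ‖u⁻¹‖ = 1
      rw [norm_inv, show ‖u‖ = 1 from hu, inv_one])

lemma mem_unitsNormOne {a : Additive Lˣ} : a ∈ unitsNormOne L ↔ ‖uval a‖ = 1 := Iff.rfl

omit [Fintype G] in
lemma unitsNormOne_smul_mem (hiso : ∀ (g : G) (x : L), ‖g • x‖ = ‖x‖) :
    ∀ (τ : G), ∀ a ∈ unitsNormOne L, τ • a ∈ unitsNormOne L := fun τ a ha => by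
  rw [mem_unitsNormOne, uval_smul, hiso]; exact ha

omit [Fintype G] in
lemma smul_uval_eq_of_subOne_eq_zero (σ : G) (hσ : ∀ g : G, ∃ j : ℕ, σ ^ j = g)
    {a : Additive Lˣ} (ha : subOneHom (Additive Lˣ) σ a = 0) (g : G) : g • uval a = uval a := by
  have h1 : σ • uval a = uval a := by
    have := congrArg uval ha
    rw [uval_subOne, uval_zero, div_eq_one_iff_eq (uval_ne_zero a)] at this
    exact this
  obtain ⟨j, rfl⟩ := hσ g
  induction j with
  | zero => rw [pow_zero, one_smul]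
  | succ j ih => rw [pow_succ, mul_smul, h1, ih]

/-- **(N2)** The units of norm one of a local field with a finite cyclic group of isometric
automorphisms have Herbrand quotient `1`. -/
theorem herbrand_unitsNormOne [IsUltrametricDist L] [CompleteSpace L] [FaithfulSMul G L]
    (hiso : ∀ (g : G) (x : L), ‖g • x‖ = ‖x‖) (hcpt : IsCompact (closedBall (0 : L) 1))
    (hnt : ∃ ϖ : L, 0 < ‖ϖ‖ ∧ ‖ϖ‖ < 1) (σ : G) (hσ : ∀ x, x ∈ Subgroup.zpowers σ) :
    Defined (resHom (subOneHom (Additive Lˣ) σ) (unitsNormOne L)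
        (subOneHom_mem (unitsNormOne_smul_mem hiso) σ))
      (resHom (Lib.Herbrand.normHom G (Additive Lˣ)) (unitsNormOne L)
        (normHom_mem (unitsNormOne_smul_mem hiso))) ∧
    herbrand (resHom (subOneHom (Additive Lˣ) σ) (unitsNormOne L)
        (subOneHom_mem (unitsNormOne_smul_mem hiso) σ))
      (resHom (Lib.Herbrand.normHom G (Additive Lˣ)) (unitsNormOne L)
        (normHom_mem (unitsNormOne_smul_mem hiso))) = 1 := by
  have hσ' : ∀ g : G, ∃ j : ℕ, σ ^ j = g := fun g =>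
    (Submonoid.mem_powers_iff g σ).1 (mem_powers_iff_mem_zpowers.2 (hσ g))
  obtain ⟨W₀, h1, hmul, hinv, hnorm, hsmul, ⟨ε, hε, hball⟩, hH0, hH1⟩ :=
    exists_cohomologically_trivial_units (G := G) hiso hcpt hnt
  set W : AddSubgroup (Additive Lˣ) := setAddSubgroup W₀ h1 hmul hinv with hW
  have hWG : ∀ (τ : G), ∀ a ∈ W, τ • a ∈ W := fun τ a ha => hsmul τ _ ha
  have hWU : W ≤ unitsNormOne L := fun a ha => hnorm _ ha
  have hne : ∀ w ∈ W₀, w ≠ 0 := fun w hw h0 => by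
    have := hnorm w hw
    rw [h0, norm_zero] at this
    exact zero_ne_one this
  -- Step A: both indices are `1` on `W`
  have hA1 : hq (resHom (subOneHom (Additive Lˣ) σ) W (subOneHom_mem hWG σ))
      (resHom (Lib.Herbrand.normHom G (Additive Lˣ)) W (normHom_mem hWG)) = 1 := by
    refine hq_res_eq_one _ _ W _ _ (fun a ha hfa => ?_)
    obtain ⟨w, hw, hvw⟩ := hH0 (uval a) ha (smul_uval_eq_of_subOne_eq_zero σ hσ' hfa)
    refine ⟨ofNe w (hne w hw), hw, uval_injective ?_⟩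
    rw [uval_norm, uval_ofNe]; exact hvw
  have hA2 : hq (resHom (Lib.Herbrand.normHom G (Additive Lˣ)) W (normHom_mem hWG))
      (resHom (subOneHom (Additive Lˣ) σ) W (subOneHom_mem hWG σ)) = 1 := by
    refine hq_res_eq_one _ _ W _ _ (fun a ha hga => ?_)
    have hN : ∏ g : G, g • uval a = 1 := by
      rw [← uval_norm, hga, uval_zero]
    obtain ⟨w, hw, hvw⟩ := hH1 σ hσ' (uval a) ha hN
    refine ⟨ofNe w (hne w hw), hw, uval_injective ?_⟩
    rw [uval_subOne, uval_ofNe]; exact hvw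
  have hdefW : Defined (resHom (subOneHom (Additive Lˣ) σ) W (subOneHom_mem hWG σ))
      (resHom (Lib.Herbrand.normHom G (Additive Lˣ)) W (normHom_mem hWG)) :=
    ⟨by rw [hA1]; exact one_ne_zero, by rw [hA2]; exact one_ne_zero⟩
  have hherW : herbrand (resHom (subOneHom (Additive Lˣ) σ) W (subOneHom_mem hWG σ))
      (resHom (Lib.Herbrand.normHom G (Additive Lˣ)) W (normHom_mem hWG)) = 1 := by
    unfold herbrand; rw [hA1, hA2]; simp
  -- Step B: finitely many cosets of `W` cover the norm-one units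
  have hUcpt : IsCompact {x : L | ‖x‖ = 1} :=
    hcpt.of_isClosed_subset (isClosed_eq continuous_norm continuous_const)
      (fun x hx => by
        rw [mem_closedBall_zero_iff]; exact le_of_eq hx)
  obtain ⟨t₀, ht₀U, ht₀fin, hcov⟩ := hUcpt.finite_cover_balls hε
  have hcover : ∀ u ∈ unitsNormOne L, ∃ x ∈ uval ⁻¹' t₀, u - x ∈ W := by
    intro u hu
    have hu' : uval u ∈ ⋃ x ∈ t₀, ball x ε := hcov hu
    obtain ⟨x₀, hx₀, hux⟩ := Set.mem_iUnion₂.1 hu'
    have hx₀1 : ‖x₀‖ = 1 := ht₀U hx₀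
    have hx₀ne : x₀ ≠ 0 := fun h0 => by
      rw [h0, norm_zero] at hx₀1; exact zero_ne_one hx₀1
    refine ⟨ofNe x₀ hx₀ne, hx₀, ?_⟩
    show uval (u - ofNe x₀ hx₀ne) ∈ W₀
    rw [uval_sub, uval_ofNe]
    apply hball
    have e : uval u / x₀ - 1 = (uval u - x₀) / x₀ := by field_simp
    rw [e, norm_div, hx₀1, div_one, ← dist_eq_norm]
    exact hux
  obtain ⟨hiff, heq⟩ := herbrand_res_eq_of_cover (subOneHom_comp_normHom σ)
    (normHom_comp_subOneHom σ) hWU (subOneHom_mem hWG σ) (normHom_mem hWG)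
    (subOneHom_mem (unitsNormOne_smul_mem hiso) σ) (normHom_mem (unitsNormOne_smul_mem hiso))
    (uval ⁻¹' t₀) (ht₀fin.preimage uval_injective.injOn) (fun x hx => ht₀U hx) hcover
  exact ⟨hiff.1 hdefW, by rw [← heq, hherW]⟩

/-- The exponent `n` with `‖x‖ = ‖ϖ‖ ^ n`. -/
noncomputable def ordFun (ϖ : L) (hdisc : ∀ x : L, x ≠ 0 → ∃ n : ℤ, ‖x‖ = ‖ϖ‖ ^ n)
    (a : Additive Lˣ) : ℤ :=
  Classical.choose (hdisc (uval a) (uval_ne_zero a))

lemma ordFun_spec (ϖ : L) (hdisc : ∀ x : L, x ≠ 0 → ∃ n : ℤ, ‖x‖ = ‖ϖ‖ ^ n)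
    (a : Additive Lˣ) : ‖uval a‖ = ‖ϖ‖ ^ ordFun ϖ hdisc a :=
  Classical.choose_spec (hdisc (uval a) (uval_ne_zero a))

/-- The valuation `Additive Lˣ →+ ℤ` attached to a uniformiser `ϖ` of a discretely normed
field. -/
noncomputable def ordHom (ϖ : L) (hϖ0 : 0 < ‖ϖ‖) (hϖ1 : ‖ϖ‖ < 1)
    (hdisc : ∀ x : L, x ≠ 0 → ∃ n : ℤ, ‖x‖ = ‖ϖ‖ ^ n) : Additive Lˣ →+ ℤ :=
  AddMonoidHom.mk' (ordFun ϖ hdisc) (by
    intro a b
    apply zpow_right_injective₀ hϖ0 hϖ1.ne
    show ‖ϖ‖ ^ _ = ‖ϖ‖ ^ _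
    rw [zpow_add₀ hϖ0.ne', ← ordFun_spec, ← ordFun_spec, ← ordFun_spec, uval_add, norm_mul])

lemma ordHom_eq_iff (ϖ : L) (hϖ0 : 0 < ‖ϖ‖) (hϖ1 : ‖ϖ‖ < 1)
    (hdisc : ∀ x : L, x ≠ 0 → ∃ n : ℤ, ‖x‖ = ‖ϖ‖ ^ n) (a : Additive Lˣ) (n : ℤ) :
    ordHom ϖ hϖ0 hϖ1 hdisc a = n ↔ ‖uval a‖ = ‖ϖ‖ ^ n := by
  have ha : ‖uval a‖ = ‖ϖ‖ ^ ordHom ϖ hϖ0 hϖ1 hdisc a := ordFun_spec ϖ hdisc a
  constructor
  · intro h; rw [← h]; exact ha
  · intro h
    apply zpow_right_injective₀ hϖ0 hϖ1.ne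
    show ‖ϖ‖ ^ _ = ‖ϖ‖ ^ _
    rw [← ha, h]

/-- **Herbrand quotient of `Lˣ`**: for a discretely normed complete field with compact unit ball
and a finite cyclic group `G = ⟨σ⟩` of isometric automorphisms acting faithfully,
`h(G, Lˣ) = |G|` (and both indices are finite). -/
theorem herbrandCyc_units [IsUltrametricDist L] [CompleteSpace L] [FaithfulSMul G L]
    (hiso : ∀ (g : G) (x : L), ‖g • x‖ = ‖x‖) (hcpt : IsCompact (closedBall (0 : L) 1))
    (ϖ : L) (hϖ0 : 0 < ‖ϖ‖) (hϖ1 : ‖ϖ‖ < 1) (hdisc : ∀ x : L, x ≠ 0 → ∃ n : ℤ, ‖x‖ = ‖ϖ‖ ^ n)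
    (σ : G) (hσ : ∀ x, x ∈ Subgroup.zpowers σ) :
    DefinedCyc (Additive Lˣ) σ ∧ herbrandCyc (Additive Lˣ) σ = Fintype.card G := by
  obtain ⟨hdefU, hherU⟩ := herbrand_unitsNormOne hiso hcpt ⟨ϖ, hϖ0, hϖ1⟩ σ hσ
  have hϖne : ϖ ≠ 0 := norm_pos_iff.1 hϖ0
  have hπ : Function.Surjective (ordHom ϖ hϖ0 hϖ1 hdisc) := by
    intro n
    refine ⟨n • ofNe ϖ hϖne, ?_⟩
    have h1 : ordHom ϖ hϖ0 hϖ1 hdisc (ofNe ϖ hϖne) = 1 := by
      rw [ordHom_eq_iff, uval_ofNe, zpow_one]
    rw [map_zsmul, h1, smul_eq_mul, mul_one]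
  have hker : (ordHom ϖ hϖ0 hϖ1 hdisc).ker = unitsNormOne L := by
    ext a
    rw [AddMonoidHom.mem_ker, ordHom_eq_iff, zpow_zero, mem_unitsNormOne]
  have hπG : ∀ (τ : G) (b : Additive Lˣ),
      ordHom ϖ hϖ0 hϖ1 hdisc (τ • b) = ordHom ϖ hϖ0 hϖ1 hdisc b := by
    intro τ b
    rw [ordHom_eq_iff, uval_smul, hiso]
    exact (ordHom_eq_iff ϖ hϖ0 hϖ1 hdisc b _).1 rfl
  obtain ⟨hdef, hher⟩ := herbrandCyc_of_int_quot σ (unitsNormOne L) (unitsNormOne_smul_mem hiso)
    (ordHom ϖ hϖ0 hϖ1 hdisc) hπ hker hπG hdefU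
  exact ⟨hdef, by rw [hher, hherU, one_mul]⟩

/-- **Hilbert 90 in index form**: `ker N = (σ - 1) Lˣ`. -/
theorem hq_norm_subOne_units [FaithfulSMul G L] (σ : G) (hσ : ∀ x, x ∈ Subgroup.zpowers σ) :
    hq (Lib.Herbrand.normHom G (Additive Lˣ)) (subOneHom (Additive Lˣ) σ) = 1 := by
  have hσ' : ∀ g : G, ∃ j : ℕ, σ ^ j = g := fun g =>
    (Submonoid.mem_powers_iff g σ).1 (mem_powers_iff_mem_zpowers.2 (hσ g))
  unfold hq
  rw [AddSubgroup.relIndex_eq_one]
  intro a ha
  have hN : ∏ g : G, g • uval a = 1 := by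
    rw [← uval_norm, show Lib.Herbrand.normHom G (Additive Lˣ) a = 0 from ha, uval_zero]
  obtain ⟨y, hy, hxy⟩ := hilbert90_cyclic σ hσ' hN
  refine ⟨ofNe y hy, uval_injective ?_⟩
  rw [uval_subOne, uval_ofNe]; exact hxy.symm

/-- **(N3) Local norm index, Herbrand form**: `[(Lˣ)^G : N(Lˣ)] = |G|` for a finite cyclic group
`G = ⟨σ⟩` of isometric automorphisms acting faithfully on a discretely normed complete field `L`
with compact unit ball. -/
theorem hq_subOne_norm_units [IsUltrametricDist L] [CompleteSpace L] [FaithfulSMul G L]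
    (hiso : ∀ (g : G) (x : L), ‖g • x‖ = ‖x‖) (hcpt : IsCompact (closedBall (0 : L) 1))
    (ϖ : L) (hϖ0 : 0 < ‖ϖ‖) (hϖ1 : ‖ϖ‖ < 1) (hdisc : ∀ x : L, x ≠ 0 → ∃ n : ℤ, ‖x‖ = ‖ϖ‖ ^ n)
    (σ : G) (hσ : ∀ x, x ∈ Subgroup.zpowers σ) :
    hq (subOneHom (Additive Lˣ) σ) (Lib.Herbrand.normHom G (Additive Lˣ)) = Fintype.card G := by
  obtain ⟨-, hh⟩ := herbrandCyc_units hiso hcpt ϖ hϖ0 hϖ1 hdisc σ hσ
  unfold herbrandCyc herbrand at hh
  rw [hq_norm_subOne_units σ hσ, Nat.cast_one, div_one] at hh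
  exact_mod_cast hh

/-- **(N3) Local norm index, multiplicative form**: the index of the norm group
`{∏ τ, τ • y}` in the group of `G`-fixed units is `|G|`. -/
theorem relIndex_norm_fixed_units [IsUltrametricDist L] [CompleteSpace L] [FaithfulSMul G L]
    (hiso : ∀ (g : G) (x : L), ‖g • x‖ = ‖x‖) (hcpt : IsCompact (closedBall (0 : L) 1))
    (ϖ : L) (hϖ0 : 0 < ‖ϖ‖) (hϖ1 : ‖ϖ‖ < 1) (hdisc : ∀ x : L, x ≠ 0 → ∃ n : ℤ, ‖x‖ = ‖ϖ‖ ^ n)
    (σ : G) (hσ : ∀ x, x ∈ Subgroup.zpowers σ) :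
    (mulNormHom G Lˣ).range.relIndex (mulSubOneHom (M := Lˣ) σ).ker = Fintype.card G := by
  rw [← hq_subOne_norm_mul]
  exact hq_subOne_norm_units hiso hcpt ϖ hϖ0 hϖ1 hdisc σ hσ

end Units

end Fermat.Agent.CFT.Local.NormIndex
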