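import Mathlib

/-!
# Local norm index, part 1: normal-basis lattices in a complete ultrametric field

`L` is a complete ultrametric normed field, `G` a finite group acting on `L` by isometric field
automorphisms.  For `θ : L` whose conjugates form a basis of `L` over the fixed field
(`IsNormalGen`), `lat G θ r` is the set of combinations `∑ g, a g * g • θ` with `G`-fixed
coefficients of norm `≤ r`.  We prove the basic algebraic and topological properties of these
lattices: additive subgroup, `G`-stable, products (`exists_mul_bound`), compactness, and (Baire)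
that `lat G θ 1` contains a ball around `0`.
-/

set_option autoImplicit false

namespace Fermat.Agent.CFT.Local.NormIndex

open scoped BigOperators
open Metric

section Lattice

variable {L : Type*} [NormedField L] [IsUltrametricDist L]
variable (G : Type*) [Group G] [Fintype G] [MulSemiringAction G L]

/-- `Fixd G x`: the element `x` is fixed by `G`. -/
def Fixd (x : L) : Prop := ∀ g : G, g • x = x

/-- Combinations of the conjugates of `θ` with `G`-fixed coefficients of norm `≤ r`. -/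
def lat (θ : L) (r : ℝ) : Set L :=
  {x | ∃ a : G → L, (∀ g, Fixd G (a g)) ∧ (∀ g, ‖a g‖ ≤ r) ∧ x = ∑ g, a g * g • θ}

/-- The conjugates of `θ` form a basis of `L` over the fixed field of `G`. -/
structure IsNormalGen (θ : L) : Prop where
  indep : ∀ a : G → L, (∀ g, Fixd G (a g)) → ∑ g, a g * g • θ = 0 → ∀ g, a g = 0
  span : ∀ x : L, ∃ a : G → L, (∀ g, Fixd G (a g)) ∧ x = ∑ g, a g * g • θ

variable {G}

omit [NormedField L] [IsUltrametricDist L] [Fintype G] in
lemma gsmul_div [Field L] [MulSemiringAction G L] (g : G) (x y : L) : g • (x / y) = g • x / g • y :=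
  map_div₀ (MulSemiringAction.toRingHom G L g) x y

omit [IsUltrametricDist L] [Fintype G] in
lemma Fixd.add {x y : L} (hx : Fixd G x) (hy : Fixd G y) : Fixd G (x + y) := fun g => by
  rw [smul_add, hx g, hy g]

omit [IsUltrametricDist L] [Fintype G] in
lemma Fixd.neg {x : L} (hx : Fixd G x) : Fixd G (-x) := fun g => by rw [smul_neg, hx g]

omit [IsUltrametricDist L] [Fintype G] in
lemma Fixd.sub {x y : L} (hx : Fixd G x) (hy : Fixd G y) : Fixd G (x - y) := fun g => by
  rw [smul_sub, hx g, hy g]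

omit [IsUltrametricDist L] [Fintype G] in
lemma Fixd.mul {x y : L} (hx : Fixd G x) (hy : Fixd G y) : Fixd G (x * y) := fun g => by
  rw [smul_mul', hx g, hy g]

omit [IsUltrametricDist L] [Fintype G] in
lemma Fixd.div {x y : L} (hx : Fixd G x) (hy : Fixd G y) : Fixd G (x / y) := fun g => by
  rw [gsmul_div, hx g, hy g]

omit [IsUltrametricDist L] [Fintype G] in
lemma fixd_zero : Fixd G (0 : L) := fun g => smul_zero g

omit [IsUltrametricDist L] [Fintype G] in
lemma fixd_one : Fixd G (1 : L) := fun g => smul_one g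

omit [IsUltrametricDist L] [Fintype G] in
lemma fixd_sum {ι : Type*} (s : Finset ι) (f : ι → L) (h : ∀ i ∈ s, Fixd G (f i)) :
    Fixd G (∑ i ∈ s, f i) := fun g => by
  rw [Finset.smul_sum]; exact Finset.sum_congr rfl (fun i hi => h i hi g)

omit [IsUltrametricDist L] in
lemma fixd_prod_smul (x : L) : Fixd G (∏ g : G, g • x) := fun h => by
  rw [Finset.smul_prod']
  exact Fintype.prod_equiv (Equiv.mulLeft h) _ _ (fun g => by simp [mul_smul])

variable {θ : L} {r s : ℝ}

omit [IsUltrametricDist L] in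
lemma lat_mono (h : r ≤ s) : lat G θ r ⊆ lat G θ s := by
  rintro x ⟨a, ha, hn, rfl⟩
  exact ⟨a, ha, fun g => (hn g).trans h, rfl⟩

omit [IsUltrametricDist L] in
lemma zero_mem_lat (hr : 0 ≤ r) : (0 : L) ∈ lat G θ r :=
  ⟨fun _ => 0, fun _ => fixd_zero, fun _ => by simpa using hr, by simp⟩

lemma add_mem_lat {x y : L} (hx : x ∈ lat G θ r) (hy : y ∈ lat G θ r) : x + y ∈ lat G θ r := by
  obtain ⟨a, ha, hna, rfl⟩ := hx
  obtain ⟨b, hb, hnb, rfl⟩ := hy
  refine ⟨fun g => a g + b g, fun g => (ha g).add (hb g), fun g => ?_, ?_⟩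
  · exact (IsUltrametricDist.norm_add_le_max _ _).trans (max_le (hna g) (hnb g))
  · rw [← Finset.sum_add_distrib]; exact Finset.sum_congr rfl (fun g _ => by ring)

omit [IsUltrametricDist L] in
lemma neg_mem_lat {x : L} (hx : x ∈ lat G θ r) : -x ∈ lat G θ r := by
  obtain ⟨a, ha, hna, rfl⟩ := hx
  refine ⟨fun g => - a g, fun g => (ha g).neg, fun g => by simpa using hna g, ?_⟩
  rw [← Finset.sum_neg_distrib]; exact Finset.sum_congr rfl (fun g _ => by ring)

lemma sub_mem_lat {x y : L} (hx : x ∈ lat G θ r) (hy : y ∈ lat G θ r) : x - y ∈ lat G θ r := by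
  rw [sub_eq_add_neg]; exact add_mem_lat hx (neg_mem_lat hy)

lemma sum_mem_lat {ι : Type*} (t : Finset ι) (f : ι → L) (hr : 0 ≤ r)
    (h : ∀ i ∈ t, f i ∈ lat G θ r) : ∑ i ∈ t, f i ∈ lat G θ r := by
  classical
  induction t using Finset.induction_on with
  | empty => simpa using zero_mem_lat hr
  | insert i t hi ih =>
    rw [Finset.sum_insert hi]
    exact add_mem_lat (h i (Finset.mem_insert_self i t))
      (ih fun j hj => h j (Finset.mem_insert_of_mem hj))

omit [IsUltrametricDist L] in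
lemma single_mem_lat {a : L} (ha : Fixd G a) (hn : ‖a‖ ≤ r) (h : G) :
    a * h • θ ∈ lat G θ r := by
  classical
  refine ⟨fun g => if g = h then a else 0, fun g => ?_, fun g => ?_, ?_⟩
  · show Fixd G (if g = h then a else 0)
    split_ifs
    exacts [ha, fixd_zero]
  · show ‖(if g = h then a else 0 : L)‖ ≤ r
    split_ifs
    · exact hn
    · simpa using (norm_nonneg a).trans hn
  · rw [Finset.sum_eq_single h]
    · simp
    · intro g _ hg; simp [hg]
    · intro hh; exact absurd (Finset.mem_univ h) hh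

omit [IsUltrametricDist L] in
lemma mul_mem_lat_of_fixd {c x : L} (hc : Fixd G c) (hx : x ∈ lat G θ r) :
    c * x ∈ lat G θ (‖c‖ * r) := by
  obtain ⟨a, ha, hna, rfl⟩ := hx
  refine ⟨fun g => c * a g, fun g => hc.mul (ha g), fun g => ?_, ?_⟩
  · rw [norm_mul]; exact mul_le_mul_of_nonneg_left (hna g) (norm_nonneg c)
  · rw [Finset.mul_sum]; exact Finset.sum_congr rfl (fun g _ => by ring)

omit [IsUltrametricDist L] in
lemma smul_mem_lat {x : L} (h : G) (hx : x ∈ lat G θ r) : h • x ∈ lat G θ r := by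
  obtain ⟨a, ha, hna, rfl⟩ := hx
  refine ⟨fun g => a (h⁻¹ * g), fun g => ha _, fun g => hna _, ?_⟩
  rw [Finset.smul_sum]
  refine Fintype.sum_equiv (Equiv.mulLeft h) _ _ (fun g => ?_)
  simp [smul_mul', ha g h, mul_smul]

lemma norm_le_of_mem_lat (hiso : ∀ (g : G) (x : L), ‖g • x‖ = ‖x‖) (hr : 0 ≤ r) {x : L}
    (hx : x ∈ lat G θ r) : ‖x‖ ≤ r * ‖θ‖ := by
  obtain ⟨a, ha, hna, rfl⟩ := hx
  refine IsUltrametricDist.norm_sum_le_of_forall_le_of_nonneg (mul_nonneg hr (norm_nonneg _))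
    (fun g _ => ?_)
  rw [norm_mul, hiso]
  exact mul_le_mul_of_nonneg_right (hna g) (norm_nonneg _)

omit [IsUltrametricDist L] in
lemma IsNormalGen.coeff_ext (hθ : IsNormalGen G θ) {a b : G → L} (ha : ∀ g, Fixd G (a g))
    (hb : ∀ g, Fixd G (b g)) (h : ∑ g, a g * g • θ = ∑ g, b g * g • θ) : a = b := by
  funext g
  have h0 : ∑ g, (a g - b g) * g • θ = 0 := by
    simp_rw [sub_mul]
    rw [Finset.sum_sub_distrib, h, sub_self]
  exact sub_eq_zero.1 (hθ.indep (fun g => a g - b g) (fun g => (ha g).sub (hb g)) h0 g)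

lemma IsNormalGen.exists_mul_bound (hθ : IsNormalGen G θ) :
    ∃ C : ℝ, 0 ≤ C ∧ ∀ r s : ℝ, 0 ≤ r → 0 ≤ s → ∀ x ∈ lat G θ r, ∀ y ∈ lat G θ s,
      x * y ∈ lat G θ (C * r * s) := by
  choose c hc hcs using fun p : G × G => hθ.span (p.1 • θ * p.2 • θ)
  have hC0 : 0 ≤ ∑ p : G × G, ∑ k : G, ‖c p k‖ :=
    Finset.sum_nonneg (fun _ _ => Finset.sum_nonneg fun _ _ => norm_nonneg _)
  refine ⟨∑ p : G × G, ∑ k : G, ‖c p k‖, hC0, ?_⟩
  rintro r s hr hs x ⟨a, ha, hna, rfl⟩ y ⟨b, hb, hnb, rfl⟩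
  have hCr : 0 ≤ (∑ p : G × G, ∑ k : G, ‖c p k‖) * r * s := mul_nonneg (mul_nonneg hC0 hr) hs
  refine ⟨fun k => ∑ g, ∑ h, a g * b h * c (g, h) k, fun k => ?_, fun k => ?_, ?_⟩
  · exact fixd_sum _ _ fun g _ => fixd_sum _ _ fun h _ => ((ha g).mul (hb h)).mul (hc (g, h) k)
  · refine IsUltrametricDist.norm_sum_le_of_forall_le_of_nonneg hCr fun g _ =>
      IsUltrametricDist.norm_sum_le_of_forall_le_of_nonneg hCr fun h _ => ?_
    rw [norm_mul, norm_mul]
    have h1 : ‖c (g, h) k‖ ≤ ∑ p : G × G, ∑ k : G, ‖c p k‖ := by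
      refine le_trans ?_ (Finset.single_le_sum (f := fun p : G × G => ∑ k : G, ‖c p k‖)
        (fun _ _ => Finset.sum_nonneg fun _ _ => norm_nonneg _) (Finset.mem_univ (g, h)))
      exact Finset.single_le_sum (f := fun k : G => ‖c (g, h) k‖) (fun _ _ => norm_nonneg _)
        (Finset.mem_univ k)
    calc ‖a g‖ * ‖b h‖ * ‖c (g, h) k‖ ≤ r * s * (∑ p : G × G, ∑ k : G, ‖c p k‖) :=
          mul_le_mul (mul_le_mul (hna g) (hnb h) (norm_nonneg _) hr) h1 (norm_nonneg _)
            (mul_nonneg hr hs)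
      _ = (∑ p : G × G, ∑ k : G, ‖c p k‖) * r * s := by ring
  · rw [Finset.sum_mul_sum]
    have key : ∀ g h : G, a g * g • θ * (b h * h • θ) = ∑ k, a g * b h * c (g, h) k * k • θ := by
      intro g h
      have := hcs (g, h)
      simp only at this
      calc a g * g • θ * (b h * h • θ) = a g * b h * (g • θ * h • θ) := by ring
        _ = a g * b h * ∑ k, c (g, h) k * k • θ := by rw [this]
        _ = ∑ k, a g * b h * c (g, h) k * k • θ := by
          rw [Finset.mul_sum]; exact Finset.sum_congr rfl (fun k _ => by ring)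
    simp_rw [key, Finset.sum_mul]
    have e1 : ∀ g : G, ∑ h, ∑ k, a g * b h * c (g, h) k * k • θ
        = ∑ k, ∑ h, a g * b h * c (g, h) k * k • θ := fun g => Finset.sum_comm
    simp_rw [e1]
    exact Finset.sum_comm

omit [IsUltrametricDist L] [Fintype G] in
lemma continuous_gsmul (hiso : ∀ (g : G) (x : L), ‖g • x‖ = ‖x‖) (g : G) :
    Continuous fun x : L => g • x := by
  have : Isometry fun x : L => g • x := by
    refine Isometry.of_dist_eq fun x y => ?_
    rw [dist_eq_norm, dist_eq_norm, ← smul_sub, hiso]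
  exact this.continuous

omit [IsUltrametricDist L] [Fintype G] in
lemma isClosed_fixd (hiso : ∀ (g : G) (x : L), ‖g • x‖ = ‖x‖) : IsClosed {x : L | Fixd G x} := by
  have : {x : L | Fixd G x} = ⋂ g : G, {x | g • x = x} := by
    ext x; simp [Fixd]
  rw [this]
  exact isClosed_iInter fun g => isClosed_eq (continuous_gsmul hiso g) continuous_id

omit [IsUltrametricDist L] in
lemma isCompact_lat (hiso : ∀ (g : G) (x : L), ‖g • x‖ = ‖x‖)
    (hcpt : IsCompact (closedBall (0 : L) 1)) (hr : r ≤ 1) : IsCompact (lat G θ r) := by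
  have hK : IsCompact ({z : L | Fixd G z} ∩ closedBall 0 r) :=
    hcpt.of_isClosed_subset ((isClosed_fixd hiso).inter isClosed_closedBall)
      (fun z hz => closedBall_subset_closedBall hr hz.2)
  have hpi := isCompact_univ_pi (fun _ : G => hK)
  have hcont : Continuous fun a : G → L => ∑ g, a g * g • θ :=
    continuous_finsetSum _ fun g _ => (continuous_apply g).mul continuous_const
  have : lat G θ r = (fun a : G → L => ∑ g, a g * g • θ) ''
      (Set.univ.pi fun _ : G => {z : L | Fixd G z} ∩ closedBall 0 r) := by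
    ext x
    constructor
    · rintro ⟨a, ha, hna, rfl⟩
      exact ⟨a, fun g _ => ⟨ha g, by simpa using hna g⟩, rfl⟩
    · rintro ⟨a, ha, rfl⟩
      exact ⟨a, fun g => (ha g trivial).1, fun g => by simpa using (ha g trivial).2, rfl⟩
  rw [this]; exact hpi.image hcont

lemma IsNormalGen.exists_ball_subset [CompleteSpace L] (hθ : IsNormalGen G θ)
    (hiso : ∀ (g : G) (x : L), ‖g • x‖ = ‖x‖) (hcpt : IsCompact (closedBall (0 : L) 1))
    (hnt : ∃ ϖ : L, 0 < ‖ϖ‖ ∧ ‖ϖ‖ < 1) :
    ∃ ε : ℝ, 0 < ε ∧ ball (0 : L) ε ⊆ lat G θ 1 := by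
  obtain ⟨ϖ, hϖ0, hϖ1⟩ := hnt
  set c : L := ∏ g : G, g • ϖ with hc
  have hcfix : Fixd G c := fixd_prod_smul ϖ
  have hcnorm : ‖c‖ = ‖ϖ‖ ^ Fintype.card G := by
    rw [hc, norm_prod]; simp [hiso]
  have hcard : Fintype.card G ≠ 0 := Fintype.card_ne_zero
  have hc0 : 0 < ‖c‖ := by rw [hcnorm]; exact pow_pos hϖ0 _
  have hc1 : ‖c‖ < 1 := by rw [hcnorm]; exact pow_lt_one₀ hϖ0.le hϖ1 hcard
  have hcne : c ≠ 0 := norm_pos_iff.1 hc0
  let F : ℕ → Set L := fun n => {x | c ^ n * x ∈ lat G θ 1}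
  have hFclosed : ∀ n, IsClosed (F n) := fun n =>
    (isCompact_lat hiso hcpt le_rfl).isClosed.preimage (continuous_const.mul continuous_id)
  have hFcover : ⋃ n, F n = Set.univ := by
    refine Set.eq_univ_of_forall fun x => ?_
    obtain ⟨a, ha, rfl⟩ := hθ.span x
    set R : ℝ := ∑ g, ‖a g‖ + 1 with hR
    have hRpos : 0 < R := by
      have : 0 ≤ ∑ g, ‖a g‖ := Finset.sum_nonneg fun _ _ => norm_nonneg _
      linarith
    have hxR : ∑ g, a g * g • θ ∈ lat G θ R := by
      refine ⟨a, ha, fun g => ?_, rfl⟩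
      have : ‖a g‖ ≤ ∑ g, ‖a g‖ :=
        Finset.single_le_sum (f := fun g => ‖a g‖) (fun _ _ => norm_nonneg _) (Finset.mem_univ g)
      linarith
    obtain ⟨n, hn⟩ := exists_pow_lt_of_lt_one (inv_pos.2 hRpos) hc1
    refine Set.mem_iUnion.2 ⟨n, ?_⟩
    have h1 : c ^ n * ∑ g, a g * g • θ ∈ lat G θ (‖c ^ n‖ * R) := by
      refine mul_mem_lat_of_fixd ?_ hxR
      intro g; rw [smul_pow', hcfix g]
    refine lat_mono ?_ h1
    rw [norm_pow]
    have := mul_lt_mul_of_pos_right hn hRpos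
    rw [inv_mul_cancel₀ hRpos.ne'] at this
    exact this.le
  obtain ⟨n, x₀, hx₀⟩ := nonempty_interior_of_iUnion_of_closed hFclosed hFcover
  rw [mem_interior_iff_mem_nhds, Metric.mem_nhds_iff] at hx₀
  obtain ⟨δ, hδ, hball⟩ := hx₀
  refine ⟨‖c‖ ^ n * δ, mul_pos (pow_pos hc0 n) hδ, fun w hw => ?_⟩
  have hcn : c ^ n ≠ 0 := pow_ne_zero n hcne
  have hz : ‖w / c ^ n‖ < δ := by
    rw [norm_div, norm_pow, div_lt_iff₀ (pow_pos hc0 n), mul_comm]
    simpa using hw
  have h1 : c ^ n * (x₀ + w / c ^ n) ∈ lat G θ 1 := hball (by simpa [dist_eq_norm] using hz)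
  have h2 : c ^ n * x₀ ∈ lat G θ 1 := hball (mem_ball_self hδ)
  have := sub_mem_lat h1 h2
  have hw' : c ^ n * (x₀ + w / c ^ n) - c ^ n * x₀ = w := by
    field_simp
    ring
  rwa [hw'] at this

end Lattice

end Fermat.Agent.CFT.Local.NormIndex
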