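import Fermat.Agent.CFT.Local.NormIndexFilt

/-!
# Local norm index, part 3: a cohomologically trivial open subgroup of units

`L` a complete ultrametric normed field with compact unit ball and nontrivial norm, `G` a finite
group acting faithfully by isometric field automorphisms.  Using a normal basis generator `θ`
and the lattices `lat G θ (r₀ / 2^k)` we produce an open `G`-stable subgroup `W` of the norm-one
units such that every `G`-fixed element of `W` is a norm from `W`, and (for `G` cyclic generated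
by `σ`) every element of `W` of norm `1` is of the form `σ w / w` with `w ∈ W`
(`exists_cohomologically_trivial_units`).
-/

set_option autoImplicit false

namespace Fermat.Agent.CFT.Local.NormIndex

open scoped BigOperators
open Metric

section Steps

variable {L : Type*} [NormedField L] [IsUltrametricDist L]
variable {G : Type*} [Group G] [Fintype G] [MulSemiringAction G L]

/-- The filtration by normal-basis lattices of radii `r₀ / 2^k`. -/
def latFilt (G : Type*) [Group G] [Fintype G] [MulSemiringAction G L] (θ : L) (r₀ : ℝ) (k : ℕ) :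
    Set L :=
  lat G θ (r₀ * (1 / 2 : ℝ) ^ k)

variable {θ : L} {r₀ : ℝ}

omit [IsUltrametricDist L] in
lemma smul_lat_sum {a : G → L} (ha : ∀ g, Fixd G (a g)) (h : G) (θ : L) :
    h • ∑ g, a g * g • θ = ∑ g, a (h⁻¹ * g) * g • θ := by
  rw [Finset.smul_sum]
  refine Fintype.sum_equiv (Equiv.mulLeft h) _ _ (fun g => ?_)
  simp [smul_mul', ha g h, mul_smul]

lemma isFilt_latFilt (hiso : ∀ (g : G) (x : L), ‖g • x‖ = ‖x‖)
    (hcpt : IsCompact (closedBall (0 : L) 1)) {C : ℝ}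
    (hC : ∀ r s : ℝ, 0 ≤ r → 0 ≤ s → ∀ x ∈ lat G θ r, ∀ y ∈ lat G θ s,
      x * y ∈ lat G θ (C * r * s))
    (hr0 : 0 < r₀) (hr1 : r₀ ≤ 1) (hCr : C * r₀ ≤ 1 / 2) (hθr : r₀ * ‖θ‖ ≤ 1 / 2) :
    IsFilt G (latFilt G θ r₀) where
  zero_mem k := zero_mem_lat (by positivity)
  add_mem k x y hx hy := add_mem_lat hx hy
  neg_mem k x hx := neg_mem_lat hx
  mul_mem i j x y hx hy := by
    have h1 : (0 : ℝ) ≤ r₀ * (1 / 2 : ℝ) ^ i := by positivity
    have h2 : (0 : ℝ) ≤ r₀ * (1 / 2 : ℝ) ^ j := by positivity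
    refine lat_mono ?_ (hC _ _ h1 h2 x hx y hy)
    calc C * (r₀ * (1 / 2 : ℝ) ^ i) * (r₀ * (1 / 2 : ℝ) ^ j)
        = (C * r₀) * (r₀ * (1 / 2 : ℝ) ^ (i + j)) := by rw [pow_add]; ring
      _ ≤ (1 / 2) * (r₀ * (1 / 2 : ℝ) ^ (i + j)) :=
          mul_le_mul_of_nonneg_right hCr (by positivity)
      _ = r₀ * (1 / 2 : ℝ) ^ (i + j + 1) := by rw [pow_succ]; ring
  anti k := by
    refine lat_mono ?_
    have h1 : (0 : ℝ) ≤ r₀ * (1 / 2 : ℝ) ^ k := by positivity
    rw [pow_succ]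
    nlinarith
  norm_le k x hx := by
    have h1 : (0 : ℝ) ≤ r₀ * (1 / 2 : ℝ) ^ k := by positivity
    calc ‖x‖ ≤ r₀ * (1 / 2 : ℝ) ^ k * ‖θ‖ := norm_le_of_mem_lat hiso h1 hx
      _ = (r₀ * ‖θ‖) * (1 / 2 : ℝ) ^ k := by ring
      _ ≤ (1 / 2) * (1 / 2 : ℝ) ^ k := mul_le_mul_of_nonneg_right hθr (by positivity)
      _ = (1 / 2 : ℝ) ^ (k + 1) := by rw [pow_succ]; ring
  closed k := by
    refine (isCompact_lat hiso hcpt ?_).isClosed
    calc r₀ * (1 / 2 : ℝ) ^ k ≤ 1 * 1 :=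
          mul_le_mul hr1 (pow_le_one₀ (by norm_num) (by norm_num)) (by positivity) (by norm_num)
      _ = 1 := one_mul 1
  smul_mem k g x hx := smul_mem_lat g hx

omit [IsUltrametricDist L] in
/-- A `G`-fixed element of a normal-basis lattice is a fixed multiple of the trace of `θ`. -/
lemma IsNormalGen.lat_fixd_eq (hθ : IsNormalGen G θ) {r : ℝ} {m : L} (hm : m ∈ lat G θ r)
    (hfix : Fixd G m) : ∃ α : L, Fixd G α ∧ ‖α‖ ≤ r ∧ m = α * ∑ g : G, g • θ := by
  obtain ⟨a, ha, hna, rfl⟩ := hm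
  have hconst : ∀ h g : G, a (h⁻¹ * g) = a g := by
    intro h
    have e : ∑ g, a (h⁻¹ * g) * g • θ = ∑ g, a g * g • θ := by
      rw [← smul_lat_sum ha h θ]; exact hfix h
    exact fun g => congrFun (hθ.coeff_ext (fun g => ha _) ha e) g
  refine ⟨a 1, ha 1, hna 1, ?_⟩
  rw [Finset.mul_sum]
  refine Finset.sum_congr rfl (fun g _ => ?_)
  have := hconst g g
  rw [inv_mul_cancel] at this
  rw [this]

/-- One approximation step for the norm. -/
lemma IsNormalGen.norm_step (hθ : IsNormalGen G θ) (hM : IsFilt G (latFilt G θ r₀)) (k : ℕ)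
    {v : L} (hv : v ∈ V (latFilt G θ r₀) k) (hfix : Fixd G v) :
    ∃ w ∈ V (latFilt G θ r₀) k, v / ∏ g : G, g • w ∈ V (latFilt G θ r₀) (k + 1) := by
  have hm : v - 1 ∈ lat G θ (r₀ * (1 / 2 : ℝ) ^ k) := hv
  obtain ⟨α, hα, hnα, hmα⟩ := hθ.lat_fixd_eq hm (hfix.sub fixd_one)
  have hw : 1 + α * θ ∈ V (latFilt G θ r₀) k := by
    show 1 + α * θ - 1 ∈ lat G θ (r₀ * (1 / 2 : ℝ) ^ k)
    rw [add_sub_cancel_left]
    have := single_mem_lat (θ := θ) hα hnα (1 : G)
    rwa [one_smul] at this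
  refine ⟨1 + α * θ, hw, ?_⟩
  have hNw : ∏ g : G, g • (1 + α * θ) ∈ V (latFilt G θ r₀) k :=
    prod_mem_V hM _ _ _ fun g _ => smul_mem_V hM g hw
  refine div_mem_V_succ hM hNw ?_
  have hx : ∀ g ∈ (Finset.univ : Finset G), α * g • θ ∈ latFilt G θ r₀ k :=
    fun g _ => single_mem_lat hα hnα g
  have hpo := prod_one_add hM Finset.univ (fun g : G => α * g • θ) k hx
  have e1 : ∏ g : G, g • (1 + α * θ) = ∏ g : G, (1 + α * g • θ) :=
    Finset.prod_congr rfl (fun g _ => by rw [smul_add, smul_one, smul_mul', hα g])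
  have e2 : v - ∏ g : G, g • (1 + α * θ)
      = - (∏ g : G, (1 + α * g • θ) - 1 - ∑ g : G, α * g • θ) := by
    rw [e1, ← Finset.mul_sum, ← hmα]; ring
  rw [e2]; exact hM.neg_mem _ _ hpo

/-- One approximation step for Hilbert 90 (cyclic case). -/
lemma IsNormalGen.h90_step (hθ : IsNormalGen G θ) (hM : IsFilt G (latFilt G θ r₀))
    (hr0 : 0 < r₀) (σ : G) (hσ : ∀ g : G, ∃ j : ℕ, σ ^ j = g) (k : ℕ)
    {v : L} (hv : v ∈ V (latFilt G θ r₀) k) (hN : ∏ g : G, g • v = 1) :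
    ∃ w ∈ V (latFilt G θ r₀) k, v * w / σ • w ∈ V (latFilt G θ r₀) (k + 1) := by
  choose j hj using hσ
  have hrk : (0 : ℝ) ≤ r₀ * (1 / 2 : ℝ) ^ k := by positivity
  have hv' : v - 1 ∈ lat G θ (r₀ * (1 / 2 : ℝ) ^ k) := hv
  obtain ⟨a, ha, hna, hma⟩ := hv'
  -- the trace of `m = v - 1` lies one step deeper
  have hmM : ∀ g ∈ (Finset.univ : Finset G), g • (v - 1) ∈ latFilt G θ r₀ k :=
    fun g _ => hM.smul_mem k g _ hv
  have hpo := prod_one_add hM Finset.univ (fun g : G => g • (v - 1)) k hmM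
  have e1 : ∏ g : G, (1 + g • (v - 1)) = 1 := by
    have e0 : ∀ g : G, 1 + g • (v - 1) = g • v := fun g => by rw [smul_sub, smul_one]; ring
    simp_rw [e0]; exact hN
  rw [e1, sub_self, zero_sub] at hpo
  have htr : ∑ g : G, g • (v - 1) ∈ latFilt G θ r₀ (k + 1) := by
    have := hM.neg_mem _ _ hpo
    rwa [neg_neg] at this
  -- the trace equals `s * ∑ g, g • θ` with `s = ∑ g, a g`
  have hsfix : Fixd G (∑ g, a g) := fixd_sum _ _ fun g _ => ha g
  have e2 : ∑ h : G, h • (v - 1) = ∑ g : G, (∑ g, a g) * g • θ := by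
    rw [hma]
    simp_rw [smul_lat_sum ha]
    rw [Finset.sum_comm]
    refine Finset.sum_congr rfl (fun g _ => ?_)
    rw [← Finset.sum_mul]
    congr 1
    exact Fintype.sum_equiv ((Equiv.inv G).trans (Equiv.mulRight g)) _ _ (fun h => by simp)
  obtain ⟨b, hb, hnb, hmb⟩ := htr
  have hbs : (fun _ : G => ∑ g, a g) = b :=
    hθ.coeff_ext (fun _ => hsfix) hb (by rw [← e2, hmb])
  have hns : ‖∑ g, a g‖ ≤ r₀ * (1 / 2 : ℝ) ^ (k + 1) := by
    have := hnb 1
    rwa [← hbs] at this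
  -- the approximate solution
  have hyM : ∑ g : G, a g * ∑ i ∈ Finset.range (j g), σ ^ i • θ ∈ latFilt G θ r₀ k := by
    refine sum_mem_lat _ _ hrk (fun g _ => ?_)
    rw [Finset.mul_sum]
    exact sum_mem_lat _ _ hrk (fun i _ => single_mem_lat (ha g) (hna g) (σ ^ i))
  have e3 : σ • (∑ g : G, a g * ∑ i ∈ Finset.range (j g), σ ^ i • θ)
      = ∑ g : G, a g * ∑ i ∈ Finset.range (j g), σ ^ (i + 1) • θ := by
    rw [Finset.smul_sum]
    refine Finset.sum_congr rfl (fun g _ => ?_)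
    rw [smul_mul', ha g σ, Finset.smul_sum]
    congr 1
    refine Finset.sum_congr rfl (fun i _ => ?_)
    rw [← mul_smul, ← pow_succ']
  have e4 : ∀ g : G, a g * ∑ i ∈ Finset.range (j g), σ ^ (i + 1) • θ
      - a g * ∑ i ∈ Finset.range (j g), σ ^ i • θ = a g * g • θ - a g * θ := by
    intro g
    rw [← mul_sub, ← Finset.sum_sub_distrib, Finset.sum_range_sub (fun i => σ ^ i • θ), hj g,
      pow_zero, one_smul, mul_sub]
  have hσy : σ • (∑ g : G, a g * ∑ i ∈ Finset.range (j g), σ ^ i • θ)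
      - ∑ g : G, a g * ∑ i ∈ Finset.range (j g), σ ^ i • θ = (v - 1) - (∑ g, a g) * θ := by
    rw [e3, ← Finset.sum_sub_distrib]
    simp_rw [e4]
    rw [Finset.sum_sub_distrib, ← hma, ← Finset.sum_mul]
  set y : L := ∑ g : G, a g * ∑ i ∈ Finset.range (j g), σ ^ i • θ with hy
  have hw : 1 + y ∈ V (latFilt G θ r₀) k := by
    show 1 + y - 1 ∈ latFilt G θ r₀ k
    rw [add_sub_cancel_left]; exact hyM
  refine ⟨1 + y, hw, ?_⟩
  have hσw : σ • (1 + y) ∈ V (latFilt G θ r₀) k := smul_mem_V hM σ hw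
  refine div_mem_V_succ hM hσw ?_
  have e5 : v * (1 + y) - σ • (1 + y) = (∑ g, a g) * θ + (v - 1) * y := by
    rw [smul_add, smul_one]
    have : σ • y = y + ((v - 1) - (∑ g, a g) * θ) := by rw [← hσy]; ring
    rw [this]; ring
  rw [e5]
  refine hM.add_mem _ _ _ ?_ (hM.mul_mem' hv hyM (by omega))
  have := single_mem_lat (θ := θ) hsfix hns (1 : G)
  rwa [one_smul] at this

end Steps

section NormalBasis

variable {L : Type*} [NormedField L] {G : Type*} [Group G] [Fintype G] [MulSemiringAction G L]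

/-- Normal basis theorem in the form used here: some `θ` has conjugates forming a basis of `L`
over the fixed field of the finite group `G` acting faithfully. -/
lemma exists_isNormalGen [FaithfulSMul G L] : ∃ θ : L, IsNormalGen G θ := by
  classical
  have : IsGaloisGroup G (FixedPoints.subfield G L) L := IsGaloisGroup.fixedPoints G L
  have : IsGalois (FixedPoints.subfield G L) L := IsGaloisGroup.isGalois G _ L
  have : FiniteDimensional (FixedPoints.subfield G L) L := IsGaloisGroup.finiteDimensional G _ L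
  let e := IsGaloisGroup.mulEquivAlgEquiv G (FixedPoints.subfield G L) L
  let b := (IsGalois.normalBasis (FixedPoints.subfield G L) L).reindex e.symm.toEquiv
  have hb : ∀ g : G, b g = g • (IsGalois.normalBasis (FixedPoints.subfield G L) L 1) := by
    intro g
    show (IsGalois.normalBasis (FixedPoints.subfield G L) L).reindex e.symm.toEquiv g = _
    rw [Module.Basis.reindex_apply, IsGalois.normalBasis_apply]
    rfl
  refine ⟨IsGalois.normalBasis (FixedPoints.subfield G L) L 1, ?_, ?_⟩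
  · intro a ha h0 g
    have hli := b.linearIndependent
    rw [Fintype.linearIndependent_iff] at hli
    have h1 : ∑ g, (⟨a g, ha g⟩ : FixedPoints.subfield G L) • b g = 0 := by
      rw [← h0]
      exact Finset.sum_congr rfl (fun g _ => by rw [hb]; rfl)
    exact congrArg Subtype.val (hli (fun g => (⟨a g, ha g⟩ : FixedPoints.subfield G L)) h1 g)
  · intro x
    refine ⟨fun g => (b.repr x g : L), fun g => (b.repr x g).2, ?_⟩
    conv_lhs => rw [← b.sum_repr x]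
    exact Finset.sum_congr rfl (fun g _ => by rw [hb]; rfl)

end NormalBasis

section Main

variable {L : Type*} [NormedField L] [IsUltrametricDist L]
variable {G : Type*} [Group G] [Fintype G] [MulSemiringAction G L]

omit [IsUltrametricDist L] in
lemma exists_fixd_norm_lt (hiso : ∀ (g : G) (x : L), ‖g • x‖ = ‖x‖)
    (hnt : ∃ ϖ : L, 0 < ‖ϖ‖ ∧ ‖ϖ‖ < 1) : ∃ c : L, Fixd G c ∧ 0 < ‖c‖ ∧ ‖c‖ < 1 := by
  obtain ⟨ϖ, hϖ0, hϖ1⟩ := hnt
  have hcnorm : ‖∏ g : G, g • ϖ‖ = ‖ϖ‖ ^ Fintype.card G := by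
    rw [norm_prod]; simp [hiso]
  refine ⟨∏ g : G, g • ϖ, fixd_prod_smul ϖ, ?_, ?_⟩
  · rw [hcnorm]; exact pow_pos hϖ0 _
  · rw [hcnorm]; exact pow_lt_one₀ hϖ0.le hϖ1 Fintype.card_ne_zero

/-- Every normal-basis lattice of positive radius contains a ball around `0`. -/
lemma IsNormalGen.exists_ball_subset_lat [CompleteSpace L] {θ : L} (hθ : IsNormalGen G θ)
    (hiso : ∀ (g : G) (x : L), ‖g • x‖ = ‖x‖) (hcpt : IsCompact (closedBall (0 : L) 1))
    (hnt : ∃ ϖ : L, 0 < ‖ϖ‖ ∧ ‖ϖ‖ < 1) {r : ℝ} (hr : 0 < r) :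
    ∃ ε : ℝ, 0 < ε ∧ ball (0 : L) ε ⊆ lat G θ r := by
  obtain ⟨ε, hε, hball⟩ := hθ.exists_ball_subset hiso hcpt hnt
  obtain ⟨c, hcfix, hc0, hc1⟩ := exists_fixd_norm_lt (G := G) hiso hnt
  obtain ⟨n, hn⟩ := exists_pow_lt_of_lt_one hr hc1
  have hcn0 : 0 < ‖c ^ n‖ := by rw [norm_pow]; exact pow_pos hc0 n
  have hcn : c ^ n ≠ 0 := norm_pos_iff.1 hcn0
  have hcnfix : Fixd G (c ^ n) := fun g => by rw [smul_pow', hcfix g]
  refine ⟨‖c ^ n‖ * ε, mul_pos hcn0 hε, fun w hw => ?_⟩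
  have hz : w / c ^ n ∈ ball (0 : L) ε := by
    rw [mem_ball_zero_iff, norm_div, div_lt_iff₀ hcn0, mul_comm]
    simpa using hw
  have h1 := mul_mem_lat_of_fixd hcnfix (hball hz)
  rw [mul_div_cancel₀ _ hcn, mul_one] at h1
  refine lat_mono ?_ h1
  rw [norm_pow]; exact hn.le

/-- **Cohomologically trivial open subgroup of units.**  `L` a complete ultrametric normed field
with compact unit ball and nontrivial norm, `G` a finite group acting faithfully by isometric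
field automorphisms.  There is a set `W ⊆ L` which is a `G`-stable multiplicative subgroup of
norm-one elements, contains a ball around `1`, and satisfies: every `G`-fixed element of `W` is
the norm `∏ g, g • w` of some `w ∈ W`; and whenever `σ` generates `G`, every `v ∈ W` with
`∏ g, g • v = 1` is `σ • w / w` for some `w ∈ W`. -/
theorem exists_cohomologically_trivial_units [CompleteSpace L] [FaithfulSMul G L]
    (hiso : ∀ (g : G) (x : L), ‖g • x‖ = ‖x‖)
    (hcpt : IsCompact (closedBall (0 : L) 1))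
    (hnt : ∃ ϖ : L, 0 < ‖ϖ‖ ∧ ‖ϖ‖ < 1) :
    ∃ W : Set L, (1 : L) ∈ W ∧ (∀ u ∈ W, ∀ v ∈ W, u * v ∈ W) ∧ (∀ u ∈ W, u⁻¹ ∈ W) ∧
      (∀ u ∈ W, ‖u‖ = 1) ∧ (∀ (g : G), ∀ u ∈ W, g • u ∈ W) ∧
      (∃ ε : ℝ, 0 < ε ∧ ∀ u : L, ‖u - 1‖ < ε → u ∈ W) ∧
      (∀ v ∈ W, (∀ g : G, g • v = v) → ∃ w ∈ W, v = ∏ g : G, g • w) ∧
      (∀ σ : G, (∀ g : G, ∃ j : ℕ, σ ^ j = g) → ∀ v ∈ W, ∏ g : G, g • v = 1 →
        ∃ w ∈ W, v = σ • w / w) := by
  obtain ⟨θ, hθ⟩ := exists_isNormalGen (G := G) (L := L)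
  obtain ⟨C, hC0, hC⟩ := hθ.exists_mul_bound
  have hC1 : 0 < 2 * (C + 1) := by linarith
  have hθ1 : 0 < 2 * (‖θ‖ + 1) := by have := norm_nonneg θ; linarith
  set r₀ : ℝ := min 1 (min (1 / (2 * (C + 1))) (1 / (2 * (‖θ‖ + 1)))) with hr₀
  have hr0 : 0 < r₀ := lt_min one_pos (lt_min (one_div_pos.2 hC1) (one_div_pos.2 hθ1))
  have hr1 : r₀ ≤ 1 := min_le_left _ _
  have hCr : C * r₀ ≤ 1 / 2 := by
    have h1 : r₀ ≤ 1 / (2 * (C + 1)) := (min_le_right _ _).trans (min_le_left _ _)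
    calc C * r₀ ≤ C * (1 / (2 * (C + 1))) := mul_le_mul_of_nonneg_left h1 hC0
      _ ≤ 1 / 2 := by
        rw [mul_one_div, div_le_iff₀ hC1]; linarith
  have hθr : r₀ * ‖θ‖ ≤ 1 / 2 := by
    have h1 : r₀ ≤ 1 / (2 * (‖θ‖ + 1)) := (min_le_right _ _).trans (min_le_right _ _)
    calc r₀ * ‖θ‖ ≤ (1 / (2 * (‖θ‖ + 1))) * ‖θ‖ := mul_le_mul_of_nonneg_right h1 (norm_nonneg θ)
      _ ≤ 1 / 2 := by
        rw [one_div_mul_eq_div, div_le_iff₀ hθ1]; linarith
  have hM : IsFilt G (latFilt G θ r₀) := isFilt_latFilt hiso hcpt hC hr0 hr1 hCr hθr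
  have hcpt0 : IsCompact (latFilt G θ r₀ 0) :=
    isCompact_lat hiso hcpt (by rw [pow_zero, mul_one]; exact hr1)
  refine ⟨V (latFilt G θ r₀) 0, one_mem_V hM 0, fun u hu v hv => mul_mem_V hM hu hv,
    fun u hu => inv_mem_V hM hu, fun u hu => norm_eq_one_of_mem_V hM hu,
    fun g u hu => smul_mem_V hM g hu, ?_, ?_, ?_⟩
  · obtain ⟨ε, hε, hball⟩ := hθ.exists_ball_subset_lat hiso hcpt hnt hr0
    refine ⟨ε, hε, fun u hu => ?_⟩
    show u - 1 ∈ lat G θ (r₀ * (1 / 2 : ℝ) ^ 0)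
    rw [pow_zero, mul_one]
    exact hball (by rwa [mem_ball_zero_iff])
  · intro v hv hfix
    exact exists_norm_eq_of_step hM hiso hcpt0
      (fun k v hv hfix => hθ.norm_step hM k hv hfix) hv hfix
  · intro σ hσ v hv hN
    exact exists_div_eq_of_step hM hiso hcpt0 σ
      (fun k v hv hN => hθ.h90_step hM hr0 σ hσ k hv hN) hv hN

end Main

end Fermat.Agent.CFT.Local.NormIndex
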