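import Fermat.Agent.CFT.Local.UnitFiltration

/-!
# Power indices in the unit group of a complete discrete valuation ring

* `pow_bijective_principalUnits_one` : for a complete local ring `O` and `N` invertible in `O`,
  `u ↦ u^N` is bijective on `U_1 = 1 + 𝔪`.
* `index_range_pow_units` : hence `[Oˣ : (Oˣ)^N] = [kˣ : (kˣ)^N]`.
* `index_range_pow_fractionField` : `[Kˣ : (Kˣ)^N] = N * [Oˣ : (Oˣ)^N]` for the fraction field `K`
  of a DVR `O`.

Mathlib only (plus `UnitFiltration`).
-/

set_option autoImplicit false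

namespace Fermat.Agent.CFT.Local

open IsLocalRing Polynomial

section Tame

variable (O : Type*) [CommRing O] [IsLocalRing O]

/-- `N`-th roots of unity in `U_1` are trivial when `N` is invertible in `O`. -/
theorem eq_one_of_pow_eq_one_of_mem_principalUnits_one {N : ℕ} (hN : IsUnit (N : O)) (z : Oˣ)
    (hz : z ∈ principalUnits O 1) (h : z ^ N = 1) : z = 1 := by
  have hz1 : residue O (z : O) = 1 := by
    rw [mem_principalUnits, pow_one, ← residue_eq_zero_iff, map_sub, map_one, sub_eq_zero] at hz
    exact hz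
  have hgeom : ((z : O) - 1) * ∑ i ∈ Finset.range N, (z : O) ^ i = 0 := by
    rw [mul_geom_sum, ← Units.val_pow_eq_pow_val, h, Units.val_one, sub_self]
  have hres : residue O (∑ i ∈ Finset.range N, (z : O) ^ i) = residue O (N : O) := by
    rw [map_sum]
    simp [hz1]
  have hunit : IsUnit (∑ i ∈ Finset.range N, (z : O) ^ i) := by
    rw [← residue_ne_zero_iff_isUnit, hres, residue_ne_zero_iff_isUnit]
    exact hN
  have h0 : (z : O) - 1 = 0 := by
    have := congrArg (fun t => t * ((hunit.unit⁻¹ : Oˣ) : O)) hgeom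
    simpa [mul_assoc] using this
  exact Units.ext (by simpa [sub_eq_zero] using h0)

variable [IsAdicComplete (maximalIdeal O) O]

/-- Hensel: every principal unit is an `N`-th power of a principal unit, `N` invertible. -/
theorem exists_pow_eq_of_mem_principalUnits_one {N : ℕ} (hN : IsUnit (N : O)) (u : Oˣ)
    (hu : u ∈ principalUnits O 1) : ∃ w ∈ principalUnits O 1, w ^ N = u := by
  have hN0 : N ≠ 0 := by
    rintro rfl
    simp at hN
  let f : O[X] := X ^ N - C (u : O)
  have hf : f.Monic := monic_X_pow_sub_C _ hN0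
  have h1 : f.eval 1 ∈ maximalIdeal O := by
    have h : f.eval 1 = -((u : O) - 1) := by simp [f]
    rw [h, neg_mem_iff]
    simpa [mem_principalUnits] using hu
  have h2 : IsUnit (Ideal.Quotient.mk (maximalIdeal O) (f.derivative.eval 1)) := by
    have h : f.derivative.eval 1 = (N : O) := by simp [f, derivative_X_pow]
    rw [h]
    exact hN.map _
  obtain ⟨a, ha, ha1⟩ := HenselianRing.is_henselian (I := maximalIdeal O) f hf 1 h1 h2
  have haN : a ^ N = (u : O) := by
    have : f.eval a = 0 := ha
    simpa [f, sub_eq_zero] using this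
  have hau : IsUnit a := by
    have : IsUnit (a ^ N) := by rw [haN]; exact u.isUnit
    exact (isUnit_pow_iff hN0).mp this
  refine ⟨hau.unit, ?_, ?_⟩
  · rw [mem_principalUnits, pow_one]
    exact ha1
  · apply Units.ext
    simpa using haN

/-- `u ↦ u^N` is bijective on `U_1` when `N` is invertible in the complete local ring `O`. -/
theorem pow_bijective_principalUnits_one {N : ℕ} (hN : IsUnit (N : O)) :
    Function.Bijective (fun u : principalUnits O 1 => u ^ N) := by
  constructor
  · intro x y hxy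
    have h : (x * y⁻¹) ^ N = 1 := by
      have hxy' : x ^ N = y ^ N := hxy
      rw [mul_pow, inv_pow, hxy', mul_inv_cancel]
    have h' : ((x * y⁻¹ : principalUnits O 1) : Oˣ) = 1 :=
      eq_one_of_pow_eq_one_of_mem_principalUnits_one O hN _ (x * y⁻¹).2
        (by exact_mod_cast congrArg (Subtype.val) h)
    have h'' : x * y⁻¹ = 1 := Subtype.ext h'
    exact mul_inv_eq_one.mp h''
  · intro u
    obtain ⟨w, hw, hwu⟩ := exists_pow_eq_of_mem_principalUnits_one O hN u u.2
    exact ⟨⟨w, hw⟩, Subtype.ext hwu⟩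

/-- Principal units are `N`-th powers, `N` invertible. -/
theorem principalUnits_one_le_range_pow {N : ℕ} (hN : IsUnit (N : O)) :
    principalUnits O 1 ≤ (powMonoidHom N : Oˣ →* Oˣ).range := by
  intro u hu
  obtain ⟨w, -, hwu⟩ := exists_pow_eq_of_mem_principalUnits_one O hN u hu
  exact ⟨w, hwu⟩

/-- `(Oˣ)^N` is the preimage of `(kˣ)^N`, `N` invertible. -/
theorem comap_unitsResidue_range_pow {N : ℕ} (hN : IsUnit (N : O)) :
    (powMonoidHom N : (ResidueField O)ˣ →* (ResidueField O)ˣ).range.comap (unitsResidue O) =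
      (powMonoidHom N : Oˣ →* Oˣ).range := by
  ext u
  constructor
  · rintro ⟨y, hy⟩
    obtain ⟨w, rfl⟩ := unitsResidue_surjective O y
    have hker : u * (w ^ N)⁻¹ ∈ (unitsResidue O).ker := by
      rw [MonoidHom.mem_ker, map_mul, map_inv, map_pow]
      have : unitsResidue O w ^ N = unitsResidue O u := hy
      rw [this, mul_inv_cancel]
    rw [ker_unitsResidue] at hker
    obtain ⟨t, ht⟩ := principalUnits_one_le_range_pow O hN hker
    refine ⟨t * w, ?_⟩
    have ht' : t ^ N = u * (w ^ N)⁻¹ := ht
    rw [powMonoidHom_apply, mul_pow, ht', inv_mul_cancel_right]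
  · rintro ⟨w, rfl⟩
    exact ⟨unitsResidue O w, by simp⟩

/-- **Tame power index of units.** `[Oˣ : (Oˣ)^N] = [kˣ : (kˣ)^N]` for `N` invertible in `O`. -/
theorem index_range_pow_units {N : ℕ} (hN : IsUnit (N : O)) :
    (powMonoidHom N : Oˣ →* Oˣ).range.index =
      (powMonoidHom N : (ResidueField O)ˣ →* (ResidueField O)ˣ).range.index := by
  rw [← comap_unitsResidue_range_pow O hN,
    Subgroup.index_comap_of_surjective _ (unitsResidue_surjective O)]

/-- For a finite residue field: `[Oˣ : (Oˣ)^N] = gcd(|k| - 1, N)`. -/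
theorem index_range_pow_units_eq_gcd [Finite (ResidueField O)] {N : ℕ} (hN : IsUnit (N : O)) :
    (powMonoidHom N : Oˣ →* Oˣ).range.index = (Nat.card (ResidueField O) - 1).gcd N := by
  rw [index_range_pow_units O hN, IsCyclic.index_powMonoidHom_range, Nat.card_units]

end Tame

section PowIndexGeneral

/-! ### General facts on the index of the subgroup of `N`-th powers -/

/-- `N`-th powers are transported by a group isomorphism. -/
theorem map_range_pow_mulEquiv {G H : Type*} [CommGroup G] [CommGroup H] (e : G ≃* H) (N : ℕ) :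
    (powMonoidHom N : G →* G).range.map (e : G →* H) = (powMonoidHom N : H →* H).range := by
  ext y
  constructor
  · rintro ⟨x, ⟨w, rfl⟩, rfl⟩
    exact ⟨e w, by simp⟩
  · rintro ⟨w, rfl⟩
    exact ⟨e.symm w ^ N, ⟨e.symm w, rfl⟩, by simp⟩

/-- The index of the subgroup of `N`-th powers is an isomorphism invariant. -/
theorem index_range_pow_mulEquiv {G H : Type*} [CommGroup G] [CommGroup H] (e : G ≃* H) (N : ℕ) :
    (powMonoidHom N : H →* H).range.index = (powMonoidHom N : G →* G).range.index := by
  rw [← map_range_pow_mulEquiv e N, Subgroup.index_map_equiv]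

/-- `N`-th powers in a product. -/
theorem range_pow_prod (A B : Type*) [CommGroup A] [CommGroup B] (N : ℕ) :
    (powMonoidHom N : A × B →* A × B).range =
      ((powMonoidHom N : A →* A).range).prod ((powMonoidHom N : B →* B).range) := by
  ext ⟨a, b⟩
  constructor
  · rintro ⟨⟨x, y⟩, h⟩
    have h1 : x ^ N = a := congrArg Prod.fst h
    have h2 : y ^ N = b := congrArg Prod.snd h
    exact ⟨⟨x, h1⟩, ⟨y, h2⟩⟩
  · rintro ⟨⟨x, hx⟩, ⟨y, hy⟩⟩
    refine ⟨(x, y), ?_⟩
    have hx' : x ^ N = a := hx
    have hy' : y ^ N = b := hy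
    simp [hx', hy']

/-- The index of `N`-th powers is multiplicative in products. -/
theorem index_range_pow_prod (A B : Type*) [CommGroup A] [CommGroup B] (N : ℕ) :
    (powMonoidHom N : A × B →* A × B).range.index =
      (powMonoidHom N : A →* A).range.index * (powMonoidHom N : B →* B).range.index := by
  rw [range_pow_prod, Subgroup.index_prod]

/-- `[ℤ : Nℤ] = N` in multiplicative notation. -/
theorem index_range_pow_multiplicative_int (N : ℕ) :
    (powMonoidHom N : Multiplicative ℤ →* Multiplicative ℤ).range.index = N := by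
  let φ : Multiplicative ℤ →* Multiplicative (ZMod N) :=
    AddMonoidHom.toMultiplicative (Int.castAddHom (ZMod N))
  have hφ : Function.Surjective φ := by
    intro y
    obtain ⟨a, ha⟩ := ZMod.intCast_surjective (Multiplicative.toAdd y)
    exact ⟨Multiplicative.ofAdd a, by simp [φ, ha]⟩
  have hker : φ.ker = (powMonoidHom N : Multiplicative ℤ →* Multiplicative ℤ).range := by
    ext x
    rw [MonoidHom.mem_ker]
    have h1 : φ x = 1 ↔ ((Multiplicative.toAdd x : ℤ) : ZMod N) = 0 := Iff.rfl
    rw [h1, ZMod.intCast_zmod_eq_zero_iff_dvd]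
    constructor
    · rintro ⟨c, hc⟩
      refine ⟨Multiplicative.ofAdd c, ?_⟩
      apply Multiplicative.toAdd.injective
      simp [hc]
    · rintro ⟨y, rfl⟩
      exact ⟨Multiplicative.toAdd y, by simp⟩
  rw [← hker, Subgroup.index_ker, MonoidHom.range_eq_top.mpr hφ, Subgroup.card_top]
  exact Nat.card_zmod N

end PowIndexGeneral

section FractionField

variable {O : Type*} [CommRing O] [IsDomain O] [IsDiscreteValuationRing O]
  (K : Type*) [Field K] [Algebra O K] [IsFractionRing O K]

/-- The uniformiser as a unit of the fraction field. -/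
noncomputable def uniformizerUnit {ϖ : O} (hϖ : Irreducible ϖ) : Kˣ :=
  Units.mk0 (algebraMap O K ϖ) (by
    simpa using hϖ.ne_zero)

/-- The homomorphism `ℤ × Oˣ → Kˣ`, `(n, u) ↦ ϖ^n u`. -/
noncomputable def zpowUnitsHom {ϖ : O} (hϖ : Irreducible ϖ) : Multiplicative ℤ × Oˣ →* Kˣ :=
  MonoidHom.coprod (zpowersHom Kˣ (uniformizerUnit K hϖ))
    (Units.map (algebraMap O K).toMonoidHom)

omit [IsDomain O] [IsDiscreteValuationRing O] in
lemma zpowUnitsHom_apply {ϖ : O} (hϖ : Irreducible ϖ) (n : ℤ) (u : Oˣ) :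
    ((zpowUnitsHom K hϖ (Multiplicative.ofAdd n, u) : Kˣ) : K) =
      algebraMap O K ϖ ^ n * algebraMap O K (u : O) := by
  simp [zpowUnitsHom, uniformizerUnit]

lemma zpowUnitsHom_surjective {ϖ : O} (hϖ : Irreducible ϖ) :
    Function.Surjective (zpowUnitsHom K hϖ) := by
  intro x
  obtain ⟨n, u, hx⟩ :=
    IsDiscreteValuationRing.exists_units_eq_smul_zpow_of_irreducible (K := K) hϖ x.ne_zero
  refine ⟨(Multiplicative.ofAdd n, u), ?_⟩
  apply Units.ext
  rw [zpowUnitsHom_apply, hx, Units.smul_def, Algebra.smul_def, mul_comm]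

omit [IsDomain O] [IsDiscreteValuationRing O] in
lemma zpowUnitsHom_injective {ϖ : O} (hϖ : Irreducible ϖ) :
    Function.Injective (zpowUnitsHom K hϖ) := by
  rw [injective_iff_map_eq_one]
  rintro ⟨n, u⟩ h
  have h' : algebraMap O K ϖ ^ (Multiplicative.toAdd n) * algebraMap O K (u : O) = 1 := by
    have h0 := zpowUnitsHom_apply K hϖ (Multiplicative.toAdd n) u
    rw [ofAdd_toAdd, h, Units.val_one] at h0
    exact h0.symm
  have hϖK : algebraMap O K ϖ ≠ 0 := by simpa using hϖ.ne_zero
  have hinj : Function.Injective (algebraMap O K) := IsFractionRing.injective O K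
  have hnu : ¬ IsUnit ϖ := hϖ.not_isUnit
  have key : Multiplicative.toAdd n = 0 := by
    obtain ⟨m, hm | hm⟩ := Int.eq_nat_or_neg (Multiplicative.toAdd n)
    · rw [hm, zpow_natCast, ← map_pow, ← map_mul] at h'
      have h1 : ϖ ^ m * (u : O) = 1 := hinj (by rw [h', map_one])
      have h2 : IsUnit (ϖ ^ m) := IsUnit.of_mul_eq_one _ h1
      by_cases hm0 : m = 0
      · rw [hm, hm0]; rfl
      · exact absurd ((isUnit_pow_iff hm0).mp h2) hnu
    · rw [hm, zpow_neg, zpow_natCast, ← map_pow] at h'
      have h1 : algebraMap O K (u : O) = algebraMap O K (ϖ ^ m) := by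
        have hne : algebraMap O K (ϖ ^ m) ≠ 0 := by
          rw [map_pow]; exact pow_ne_zero _ hϖK
        field_simp at h'
        exact h'.symm ▸ rfl
      have h2 : (u : O) = ϖ ^ m := hinj h1
      have h3 : IsUnit (ϖ ^ m) := h2 ▸ u.isUnit
      by_cases hm0 : m = 0
      · rw [hm, hm0]; rfl
      · exact absurd ((isUnit_pow_iff hm0).mp h3) hnu
  have hn1 : n = 1 := by
    apply Multiplicative.toAdd.injective
    rw [key]; rfl
  rw [key, zpow_zero, one_mul] at h'
  have hu1 : u = 1 := Units.ext (hinj (by rw [h']; simp))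
  rw [hn1, hu1]
  rfl

/-- `Kˣ ≃* ℤ × Oˣ` (depending on the choice of a uniformiser). -/
noncomputable def zpowUnitsEquiv {ϖ : O} (hϖ : Irreducible ϖ) : Multiplicative ℤ × Oˣ ≃* Kˣ :=
  MulEquiv.ofBijective (zpowUnitsHom K hϖ)
    ⟨zpowUnitsHom_injective K hϖ, zpowUnitsHom_surjective K hϖ⟩

variable (O)

/-- **Power index of the multiplicative group of the fraction field of a DVR.**
`[Kˣ : (Kˣ)^N] = N * [Oˣ : (Oˣ)^N]`. -/
theorem index_range_pow_fractionField (N : ℕ) :
    (powMonoidHom N : Kˣ →* Kˣ).range.index = N * (powMonoidHom N : Oˣ →* Oˣ).range.index := by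
  obtain ⟨ϖ, hϖ⟩ := IsDiscreteValuationRing.exists_irreducible O
  rw [index_range_pow_mulEquiv (zpowUnitsEquiv K hϖ) N, index_range_pow_prod,
    index_range_pow_multiplicative_int]

/-- **Tame case.** Complete DVR with finite residue field `k`, `N` invertible in `O`:
`[Kˣ : (Kˣ)^N] = N * gcd(|k| - 1, N)`. -/
theorem index_range_pow_fractionField_tame [IsAdicComplete (maximalIdeal O) O]
    [Finite (ResidueField O)] {N : ℕ} (hN : IsUnit (N : O)) :
    (powMonoidHom N : Kˣ →* Kˣ).range.index = N * (Nat.card (ResidueField O) - 1).gcd N := by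
  rw [index_range_pow_fractionField O K N, index_range_pow_units_eq_gcd O hN]

end FractionField

end Fermat.Agent.CFT.Local
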