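import Mathlib

/-!
# The unit filtration of a discrete valuation ring

`O` a local ring with maximal ideal `𝔪` and residue field `k`.

* `principalUnits O n` : the subgroup `U_n = {u ∈ Oˣ : u ≡ 1 mod 𝔪^n}` of `Oˣ`.
* `unitsQuotientEquiv` : `Oˣ ⧸ U_1 ≃* kˣ`.
* `gradedEquiv` (DVR, uniformiser `ϖ`, `1 ≤ n`) : `U_n ⧸ U_(n+1) ≃* Multiplicative k`,
  `1 + ϖ^n a ↦ a mod 𝔪`.
* index formulas when `k` is finite: `[Oˣ : U_1] = |k| - 1`, `[U_n : U_(n+k)] = |k|^k`.

Everything here uses Mathlib only; this is the input for local norm-index / power-index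
computations in class field theory.
-/

set_option autoImplicit false

namespace Fermat.Agent.CFT.Local

open IsLocalRing

section LocalRing

variable (O : Type*) [CommRing O] [IsLocalRing O]

/-- The `n`-th principal unit group `U_n = 1 + 𝔪^n` (all units for `n = 0`). -/
def principalUnits (n : ℕ) : Subgroup Oˣ where
  carrier := {u | (u : O) - 1 ∈ maximalIdeal O ^ n}
  one_mem' := by
    change ((1 : Oˣ) : O) - 1 ∈ maximalIdeal O ^ n
    simp
  mul_mem' := by
    intro u v hu hv
    change (u : O) - 1 ∈ maximalIdeal O ^ n at hu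
    change (v : O) - 1 ∈ maximalIdeal O ^ n at hv
    change ((u * v : Oˣ) : O) - 1 ∈ maximalIdeal O ^ n
    have h : ((u * v : Oˣ) : O) - 1 = (u : O) * ((v : O) - 1) + ((u : O) - 1) := by
      push_cast; ring
    rw [h]
    exact Ideal.add_mem _ (Ideal.mul_mem_left _ _ hv) hu
  inv_mem' := by
    intro u hu
    change (u : O) - 1 ∈ maximalIdeal O ^ n at hu
    change ((u⁻¹ : Oˣ) : O) - 1 ∈ maximalIdeal O ^ n
    have h : ((u⁻¹ : Oˣ) : O) - 1 = -(((u⁻¹ : Oˣ) : O) * ((u : O) - 1)) := by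
      have h1 : ((u⁻¹ : Oˣ) : O) * (u : O) = 1 := u.inv_mul
      linear_combination h1
    rw [h]
    exact neg_mem (Ideal.mul_mem_left _ _ hu)

variable {O}

lemma mem_principalUnits {n : ℕ} {u : Oˣ} :
    u ∈ principalUnits O n ↔ (u : O) - 1 ∈ maximalIdeal O ^ n := Iff.rfl

variable (O)

@[simp] lemma principalUnits_zero : principalUnits O 0 = ⊤ := by
  ext u
  simp [mem_principalUnits]

lemma principalUnits_antitone : Antitone (principalUnits O) := by
  intro m n hmn u hu
  exact Ideal.pow_le_pow_right hmn hu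

lemma principalUnits_le {m n : ℕ} (h : m ≤ n) : principalUnits O n ≤ principalUnits O m :=
  principalUnits_antitone O h

/-- Reduction of units modulo the maximal ideal. -/
noncomputable def unitsResidue : Oˣ →* (ResidueField O)ˣ := Units.map (residue O).toMonoidHom

@[simp] lemma unitsResidue_coe (u : Oˣ) :
    ((unitsResidue O u : (ResidueField O)ˣ) : ResidueField O) = residue O (u : O) := rfl

lemma unitsResidue_surjective : Function.Surjective (unitsResidue O) := by
  intro y
  obtain ⟨x, hx⟩ := residue_surjective (R := O) (y : ResidueField O)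
  have hxu : IsUnit x := by
    rw [← residue_ne_zero_iff_isUnit, hx]
    exact y.ne_zero
  refine ⟨hxu.unit, ?_⟩
  apply Units.ext
  simpa using hx

lemma ker_unitsResidue : (unitsResidue O).ker = principalUnits O 1 := by
  ext u
  rw [MonoidHom.mem_ker, mem_principalUnits, pow_one, ← residue_eq_zero_iff, map_sub, map_one,
    sub_eq_zero, Units.ext_iff]
  simp

/-- `Oˣ ⧸ U_1 ≃* kˣ`. -/
noncomputable def unitsQuotientEquiv : Oˣ ⧸ principalUnits O 1 ≃* (ResidueField O)ˣ :=
  (QuotientGroup.quotientMulEquivOfEq (ker_unitsResidue O).symm).trans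
    (QuotientGroup.quotientKerEquivOfSurjective (unitsResidue O) (unitsResidue_surjective O))

/-- `[Oˣ : U_1] = |kˣ|`. -/
lemma index_principalUnits_one : (principalUnits O 1).index = Nat.card (ResidueField O)ˣ := by
  rw [Subgroup.index, Nat.card_congr (unitsQuotientEquiv O).toEquiv]

/-- An element `1 + x` with `x ∈ 𝔪` is a unit. -/
lemma isUnit_one_add_of_mem {x : O} (hx : x ∈ maximalIdeal O) : IsUnit (1 + x) := by
  by_contra h
  have h1 : 1 + x ∈ maximalIdeal O := (mem_maximalIdeal _).mpr h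
  have h2 : (1 : O) ∈ maximalIdeal O := by
    have h3 := Ideal.sub_mem _ h1 hx
    rwa [add_sub_cancel_right] at h3
  exact (Ideal.ne_top_iff_one _).mp (maximalIdeal.isMaximal O).ne_top h2

end LocalRing

section DVR

variable {O : Type*} [CommRing O] [IsDomain O] [IsDiscreteValuationRing O]

lemma maximalIdeal_pow_eq_span {ϖ : O} (hϖ : Irreducible ϖ) (n : ℕ) :
    maximalIdeal O ^ n = Ideal.span {ϖ ^ n} := by
  rw [hϖ.maximalIdeal_eq, Ideal.span_singleton_pow]

lemma mem_maximalIdeal_pow_iff {ϖ : O} (hϖ : Irreducible ϖ) (n : ℕ) (x : O) :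
    x ∈ maximalIdeal O ^ n ↔ ∃ a, x = ϖ ^ n * a := by
  rw [maximalIdeal_pow_eq_span hϖ, Ideal.mem_span_singleton']
  constructor
  · rintro ⟨a, rfl⟩
    exact ⟨a, mul_comm _ _⟩
  · rintro ⟨a, rfl⟩
    exact ⟨a, mul_comm _ _⟩

lemma uniformizer_mem_maximalIdeal {ϖ : O} (hϖ : Irreducible ϖ) : ϖ ∈ maximalIdeal O := by
  rw [hϖ.maximalIdeal_eq]
  exact Ideal.mem_span_singleton_self ϖ

lemma uniformizer_pow_mem_maximalIdeal {ϖ : O} (hϖ : Irreducible ϖ) {n : ℕ} (hn : 1 ≤ n) :
    ϖ ^ n ∈ maximalIdeal O := by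
  obtain ⟨m, rfl⟩ : ∃ m, n = m + 1 := ⟨n - 1, by omega⟩
  rw [pow_succ]
  exact Ideal.mul_mem_left _ _ (uniformizer_mem_maximalIdeal hϖ)

/-- The coordinate `a` of a principal unit `u = 1 + ϖ^n a ∈ U_n`. -/
noncomputable def coord {ϖ : O} (hϖ : Irreducible ϖ) (n : ℕ) (u : principalUnits O n) : O :=
  Classical.choose ((mem_maximalIdeal_pow_iff hϖ n _).mp u.2)

lemma coord_spec {ϖ : O} (hϖ : Irreducible ϖ) (n : ℕ) (u : principalUnits O n) :
    ((u : Oˣ) : O) = 1 + ϖ ^ n * coord hϖ n u := by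
  have h := Classical.choose_spec ((mem_maximalIdeal_pow_iff hϖ n _).mp u.2)
  rw [coord, ← h]
  ring

lemma coord_unique {ϖ : O} (hϖ : Irreducible ϖ) (n : ℕ) (u : principalUnits O n) (a : O)
    (h : ((u : Oˣ) : O) = 1 + ϖ ^ n * a) : coord hϖ n u = a := by
  have h1 := coord_spec hϖ n u
  rw [h] at h1
  have h2 : ϖ ^ n * a = ϖ ^ n * coord hϖ n u := add_left_cancel h1
  exact (mul_left_cancel₀ (pow_ne_zero n hϖ.ne_zero) h2).symm

lemma coord_mul {ϖ : O} (hϖ : Irreducible ϖ) (n : ℕ) (u v : principalUnits O n) :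
    coord hϖ n (u * v) =
      coord hϖ n u + coord hϖ n v + ϖ ^ n * (coord hϖ n u * coord hϖ n v) := by
  apply coord_unique
  have h : (((u * v : principalUnits O n) : Oˣ) : O) = ((u : Oˣ) : O) * ((v : Oˣ) : O) := by
    push_cast
    rfl
  rw [h, coord_spec hϖ n u, coord_spec hϖ n v]
  ring

/-- The homomorphism `U_n → (k, +)`, `1 + ϖ^n a ↦ a mod 𝔪` (for `n ≥ 1`). -/
noncomputable def gradedHom {ϖ : O} (hϖ : Irreducible ϖ) (n : ℕ) (hn : 1 ≤ n) :
    principalUnits O n →* Multiplicative (ResidueField O) :=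
  MonoidHom.mk' (fun u => Multiplicative.ofAdd (residue O (coord hϖ n u))) (by
    intro u v
    rw [← ofAdd_add, ← map_add, coord_mul, map_add (residue O) (_ + _)]
    have h0 : residue O (ϖ ^ n * (coord hϖ n u * coord hϖ n v)) = 0 := by
      rw [residue_eq_zero_iff]
      exact Ideal.mul_mem_right _ _ (uniformizer_pow_mem_maximalIdeal hϖ hn)
    rw [h0, add_zero])

@[simp] lemma gradedHom_apply {ϖ : O} (hϖ : Irreducible ϖ) (n : ℕ) (hn : 1 ≤ n)
    (u : principalUnits O n) :
    gradedHom hϖ n hn u = Multiplicative.ofAdd (residue O (coord hϖ n u)) := rfl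

lemma gradedHom_surjective {ϖ : O} (hϖ : Irreducible ϖ) (n : ℕ) (hn : 1 ≤ n) :
    Function.Surjective (gradedHom hϖ n hn) := by
  intro y
  obtain ⟨a, ha⟩ := residue_surjective (R := O) (Multiplicative.toAdd y)
  have hmem : ϖ ^ n * a ∈ maximalIdeal O :=
    Ideal.mul_mem_right _ _ (uniformizer_pow_mem_maximalIdeal hϖ hn)
  have hu : IsUnit (1 + ϖ ^ n * a) := isUnit_one_add_of_mem O hmem
  have hmem' : hu.unit ∈ principalUnits O n := by
    rw [mem_principalUnits, mem_maximalIdeal_pow_iff hϖ]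
    exact ⟨a, by simp⟩
  refine ⟨⟨hu.unit, hmem'⟩, ?_⟩
  rw [gradedHom_apply, coord_unique hϖ n ⟨hu.unit, hmem'⟩ a (by simp), ha]
  rfl

lemma ker_gradedHom {ϖ : O} (hϖ : Irreducible ϖ) (n : ℕ) (hn : 1 ≤ n) :
    (gradedHom hϖ n hn).ker = (principalUnits O (n + 1)).subgroupOf (principalUnits O n) := by
  ext u
  rw [MonoidHom.mem_ker, Subgroup.mem_subgroupOf, gradedHom_apply, mem_principalUnits,
    mem_maximalIdeal_pow_iff hϖ]
  change residue O (coord hϖ n u) = 0 ↔ _
  rw [residue_eq_zero_iff, ← pow_one (maximalIdeal O), mem_maximalIdeal_pow_iff hϖ]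
  constructor
  · rintro ⟨b, hb⟩
    refine ⟨b, ?_⟩
    rw [coord_spec hϖ n u, hb]
    ring
  · rintro ⟨b, hb⟩
    refine ⟨b, ?_⟩
    apply coord_unique
    have : ((u : Oˣ) : O) = 1 + ϖ ^ (n + 1) * b := by rw [← hb]; ring
    rw [this]
    ring

/-- `U_n ⧸ U_(n+1) ≃* (k, +)` for `n ≥ 1`. -/
noncomputable def gradedEquiv {ϖ : O} (hϖ : Irreducible ϖ) (n : ℕ) (hn : 1 ≤ n) :
    principalUnits O n ⧸ (principalUnits O (n + 1)).subgroupOf (principalUnits O n) ≃*
      Multiplicative (ResidueField O) :=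
  (QuotientGroup.quotientMulEquivOfEq (ker_gradedHom hϖ n hn).symm).trans
    (QuotientGroup.quotientKerEquivOfSurjective (gradedHom hϖ n hn)
      (gradedHom_surjective hϖ n hn))

variable (O)

/-- `[U_n : U_(n+1)] = |k|` for `n ≥ 1`. -/
lemma relIndex_principalUnits_succ (n : ℕ) (hn : 1 ≤ n) :
    (principalUnits O (n + 1)).relIndex (principalUnits O n) = Nat.card (ResidueField O) := by
  obtain ⟨ϖ, hϖ⟩ := IsDiscreteValuationRing.exists_irreducible O
  rw [Subgroup.relIndex, Subgroup.index, Nat.card_congr (gradedEquiv hϖ n hn).toEquiv]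
  rfl

/-- `[U_n : U_(n+j)] = |k|^j` for `n ≥ 1`. -/
lemma relIndex_principalUnits_add (n j : ℕ) (hn : 1 ≤ n) :
    (principalUnits O (n + j)).relIndex (principalUnits O n) = Nat.card (ResidueField O) ^ j := by
  induction j with
  | zero => simp
  | succ j ih =>
    rw [← Subgroup.relIndex_mul_relIndex _ _ _
      (principalUnits_le O (show n + j ≤ n + (j + 1) by omega))
      (principalUnits_le O (show n ≤ n + j by omega)), ih, pow_succ, mul_comm,
      ← add_assoc, relIndex_principalUnits_succ O (n + j) (by omega)]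

/-- `[Oˣ : U_n] = (|k| - 1) |k|^(n-1)` for `n ≥ 1` (stated for `n + 1`). -/
lemma index_principalUnits_succ (n : ℕ) :
    (principalUnits O (n + 1)).index =
      Nat.card (ResidueField O)ˣ * Nat.card (ResidueField O) ^ n := by
  rw [← Subgroup.relIndex_mul_index (principalUnits_le O (show 1 ≤ n + 1 by omega)),
    index_principalUnits_one, add_comm n 1, relIndex_principalUnits_add O 1 n le_rfl, mul_comm]

/-- The principal unit groups have finite index when the residue field is finite. -/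
lemma index_principalUnits_ne_zero [Finite (ResidueField O)] (n : ℕ) :
    (principalUnits O n).index ≠ 0 := by
  rcases n with _ | n
  · simp
  · rw [index_principalUnits_succ]
    have h1 : Nat.card (ResidueField O)ˣ ≠ 0 := Nat.card_pos.ne'
    have h2 : Nat.card (ResidueField O) ≠ 0 := Nat.card_pos.ne'
    exact mul_ne_zero h1 (pow_ne_zero _ h2)

end DVR

end Fermat.Agent.CFT.Local
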