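import Fermat.Agent.CFT.Local.CyclicField

/-!
# CFT / Local — the action of a group of ring automorphisms on the unit group

`unitsAct τ`, `unitsNorm`, `unitsSubOne σ` as monoid endomorphisms of `Rˣ`, for a commutative
ring `R` with a `MulSemiringAction` of a finite group; and the surjectivity of the norm
`kˣ → (k^G)ˣ` for a finite field `k` with a faithful action of a cyclic group.
-/

set_option autoImplicit false

namespace Fermat.Agent.CFT.Local.UnitCoh

section Units

variable {G : Type*} [Group G] {R : Type*} [CommRing R] [MulSemiringAction G R]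

/-- The action of `τ` on the unit group. -/
def unitsAct (τ : G) : Rˣ →* Rˣ :=
  Units.map ((MulSemiringAction.toRingHom G R τ : R →+* R) : R →* R)

@[simp] lemma coe_unitsAct (τ : G) (u : Rˣ) : ((unitsAct τ u : Rˣ) : R) = τ • (u : R) := rfl

lemma unitsAct_mul (τ ρ : G) (u : Rˣ) : unitsAct (τ * ρ) u = unitsAct τ (unitsAct ρ u) := by
  ext; simp [mul_smul]

lemma unitsAct_one (u : Rˣ) : unitsAct (1 : G) u = u := by
  ext; simp

/-- `u ↦ σ u / u` on the unit group. -/
def unitsSubOne (σ : G) : Rˣ →* Rˣ := unitsAct σ / MonoidHom.id Rˣ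

lemma unitsSubOne_apply (σ : G) (u : Rˣ) : unitsSubOne σ u = unitsAct σ u / u := rfl

lemma unitsSubOne_eq_one_iff (σ : G) (u : Rˣ) : unitsSubOne σ u = 1 ↔ σ • (u : R) = u := by
  rw [unitsSubOne_apply, div_eq_one, Units.ext_iff, coe_unitsAct]

/-- An element fixed by `σ` is fixed by every element of `zpowers σ`. -/
lemma smul_eq_of_mem_zpowers {σ τ : G} (hτ : τ ∈ Subgroup.zpowers σ) {x : R} (hx : σ • x = x) :
    τ • x = x := by
  have h : Subgroup.zpowers σ ≤ MulAction.stabilizer G x :=
    (Subgroup.zpowers_le).mpr (MulAction.mem_stabilizer_iff.mpr hx)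
  exact MulAction.mem_stabilizer_iff.mp (h hτ)

variable [Fintype G]

variable (G) in
/-- The norm `u ↦ ∏ τ, τ u` on the unit group. -/
def unitsNorm : Rˣ →* Rˣ := ∏ τ : G, unitsAct τ

lemma coe_unitsNorm (u : Rˣ) : ((unitsNorm G u : Rˣ) : R) = ∏ τ : G, τ • (u : R) := by
  simp [unitsNorm, Units.coe_prod]

lemma unitsAct_unitsNorm (ρ : G) (u : Rˣ) : unitsAct ρ (unitsNorm G u) = unitsNorm G u := by
  ext
  rw [coe_unitsAct, coe_unitsNorm, Finset.smul_prod']
  simp only [smul_smul]
  exact Fintype.prod_equiv (Equiv.mulLeft ρ) _ _ (fun _ => rfl)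

lemma unitsNorm_unitsAct (ρ : G) (u : Rˣ) : unitsNorm G (unitsAct ρ u) = unitsNorm G u := by
  ext
  rw [coe_unitsNorm, coe_unitsNorm]
  simp only [coe_unitsAct, smul_smul]
  exact Fintype.prod_equiv (Equiv.mulRight ρ) _ _ (fun _ => rfl)

lemma unitsSubOne_unitsNorm (σ : G) (u : Rˣ) : unitsSubOne σ (unitsNorm G u) = 1 := by
  rw [unitsSubOne_apply, unitsAct_unitsNorm, div_self']

lemma unitsNorm_unitsSubOne (σ : G) (u : Rˣ) : unitsNorm G (unitsSubOne σ u) = 1 := by
  rw [unitsSubOne_apply, map_div, unitsNorm_unitsAct, div_self']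

end Units

section FiniteField

variable {G : Type*} [Group G] [Fintype G] {k : Type*} [Field k] [Finite k]
  [MulSemiringAction G k]

/-- For a finite field with a faithful action of a finite cyclic group, the norm is surjective
onto the fixed units. -/
lemma exists_prod_smul_eq (σ : G) (hσ : ∀ τ : G, τ ∈ Subgroup.zpowers σ)
    (hfaith : ∀ τ : G, (∀ x : k, τ • x = x) → τ = 1) (c : k) (hc0 : c ≠ 0)
    (hc : ∀ τ : G, τ • c = c) : ∃ y : k, y ≠ 0 ∧ ∏ τ : G, τ • y = c := by
  classical
  have hker : (unitsNorm G (R := k)).ker = (unitsSubOne σ (R := k)).range := by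
    ext u
    constructor
    · intro hu
      have hu' : ∏ τ : G, τ • (u : k) = 1 := by
        have := congrArg (fun v : kˣ => (v : k)) (MonoidHom.mem_ker.mp hu)
        simpa [coe_unitsNorm] using this
      obtain ⟨y, hy0, hy⟩ := exists_smul_eq_mul_of_prod_eq_one σ hσ hfaith (u : k) hu'
      refine ⟨Units.mk0 y hy0, ?_⟩
      rw [unitsSubOne_apply, div_eq_iff_eq_mul]
      ext
      simp [hy]
    · rintro ⟨y, rfl⟩
      exact MonoidHom.mem_ker.mpr (unitsNorm_unitsSubOne σ y)
  have hle : (unitsNorm G (R := k)).range ≤ (unitsSubOne σ (R := k)).ker := by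
    rintro _ ⟨y, rfl⟩
    exact MonoidHom.mem_ker.mpr (unitsSubOne_unitsNorm σ y)
  have h1 : Nat.card (unitsNorm G (R := k)).ker * Nat.card (unitsNorm G (R := k)).range
      = Nat.card kˣ := by
    rw [← Subgroup.index_ker, Subgroup.card_mul_index]
  have h2 : Nat.card (unitsSubOne σ (R := k)).ker * Nat.card (unitsSubOne σ (R := k)).range
      = Nat.card kˣ := by
    rw [← Subgroup.index_ker, Subgroup.card_mul_index]
  have h3 : Nat.card (unitsNorm G (R := k)).range = Nat.card (unitsSubOne σ (R := k)).ker := by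
    rw [hker] at h1
    have hpos : 0 < Nat.card (unitsSubOne σ (R := k)).range := Nat.card_pos
    have : Nat.card (unitsSubOne σ (R := k)).range * Nat.card (unitsNorm G (R := k)).range
        = Nat.card (unitsSubOne σ (R := k)).range * Nat.card (unitsSubOne σ (R := k)).ker := by
      rw [h1, ← h2, mul_comm]
    exact Nat.eq_of_mul_eq_mul_left hpos this
  have heq : (unitsNorm G (R := k)).range = (unitsSubOne σ (R := k)).ker :=
    Subgroup.eq_of_le_of_card_ge hle h3.ge
  have hmem : Units.mk0 c hc0 ∈ (unitsSubOne σ (R := k)).ker := by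
    rw [MonoidHom.mem_ker, unitsSubOne_eq_one_iff]
    exact hc σ
  rw [← heq] at hmem
  obtain ⟨y, hy⟩ := hmem
  refine ⟨(y : k), y.ne_zero, ?_⟩
  have := congrArg (fun v : kˣ => (v : k)) hy
  simpa [coe_unitsNorm] using this

end FiniteField

end Fermat.Agent.CFT.Local.UnitCoh
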