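import Mathlib

/-!
# Transport of the Galois module of units along an isomorphism of extensions

For an isomorphism `φ : L ≃ₐ[K] L'` of `K`-algebras, the `Gal(L/K)`-module `Lˣ` is isomorphic
to the restriction of the `Gal(L'/K)`-module `L'ˣ` along `AlgEquiv.autCongr φ`.
-/

set_option autoImplicit false

open CategoryTheory

namespace Fermat.Agent.CFT.Local.UnitsIso

variable {K L L' : Type} [Field K] [Field L] [Field L'] [Algebra K L] [Algebra K L']

/-- The `ℤ`-linear equivalence `Additive Lˣ ≃ Additive L'ˣ` induced by `φ : L ≃ₐ[K] L'`. -/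
noncomputable def unitsLinearEquiv (φ : L ≃ₐ[K] L') :
    (Rep.ofAlgebraAutOnUnits K L).V ≃ₗ[ℤ] (Rep.ofAlgebraAutOnUnits K L').V :=
  (MulEquiv.toAdditive (Units.mapEquiv (φ : L ≃* L'))).toIntLinearEquiv

theorem unitsLinearEquiv_apply (φ : L ≃ₐ[K] L') (x : (Rep.ofAlgebraAutOnUnits K L).V) :
    unitsLinearEquiv φ x = Additive.ofMul (Units.map (φ : L →* L') (Additive.toMul x)) := rfl

/-- The isomorphism of `Gal(L/K)`-modules `Lˣ ≅ Res_{autCongr φ} L'ˣ` induced by
`φ : L ≃ₐ[K] L'`. -/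
noncomputable def unitsIsoOfAlgEquiv (φ : L ≃ₐ[K] L') :
    Rep.ofAlgebraAutOnUnits K L ≅
      Rep.res (AlgEquiv.autCongr φ).toMonoidHom (Rep.ofAlgebraAutOnUnits K L') :=
  Rep.mkIso (Representation.Equiv.mk (unitsLinearEquiv φ) (fun g => by
    ext x
    change Additive.ofMul (Units.map (φ : L →* L') (g • Additive.toMul x)) =
      Additive.ofMul ((AlgEquiv.autCongr φ g) • Units.map (φ : L →* L') (Additive.toMul x))
    congr 1
    ext
    change φ (g (Additive.toMul x : Lˣ)) = (AlgEquiv.autCongr φ g) (φ (Additive.toMul x : Lˣ))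
    simp [AlgEquiv.autCongr_apply]))

theorem unitsIsoOfAlgEquiv_hom_apply (φ : L ≃ₐ[K] L') (x : (Rep.ofAlgebraAutOnUnits K L).V) :
    (unitsIsoOfAlgEquiv φ).hom.hom x =
      Additive.ofMul (Units.map (φ : L →* L') (Additive.toMul x)) := rfl

/-- (H-A) For `φ : L ≃ₐ[K] L'`, the Galois modules of units correspond under `autCongr φ`. -/
theorem exists_unitsIso_of_algEquiv (φ : L ≃ₐ[K] L') :
    Nonempty (Rep.ofAlgebraAutOnUnits K L ≅
      Rep.res (AlgEquiv.autCongr φ).toMonoidHom (Rep.ofAlgebraAutOnUnits K L')) :=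
  ⟨unitsIsoOfAlgEquiv φ⟩

end Fermat.Agent.CFT.Local.UnitsIso
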