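import Fermat.Agent.CFT.Local.FilteredExact
import Fermat.Agent.CFT.Local.UnitsAct

/-!
# CFT / Local — units in unramified extensions are cohomologically trivial

Let `O` be a complete discrete valuation ring with finite residue field (in the form: a local
domain, complete for a principal maximal ideal `(ϖ)`), and let `G = ⟨σ⟩` be a finite cyclic
group of ring automorphisms of `O` fixing the uniformiser `ϖ` and acting faithfully on the
residue field (i.e. `O` is the ring of integers of an unramified extension with group `G`).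
Then

* `exists_prod_smul_eq_of_fixed`: every `G`-fixed unit is the norm of a unit (`Ĥ⁰(G, Oˣ) = 0`);
* `exists_smul_eq_mul_of_prod_eq_one'`: every unit of norm `1` is `σ y / y` (`H¹(G, Oˣ) = 0`).
-/

set_option autoImplicit false
set_option linter.unusedSectionVars false

namespace Fermat.Agent.CFT.Local.UnitCoh

section PrincipalAdic

variable {O : Type*} [CommRing O] (a : O)

lemma mem_span_pow_smul_top_iff (n : ℕ) (x : O) :
    x ∈ ((Ideal.span {a}) ^ n • ⊤ : Submodule O O) ↔ a ^ n ∣ x := by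
  rw [smul_eq_mul, Ideal.mul_top, Ideal.span_singleton_pow, Ideal.mem_span_singleton]

lemma eq_zero_of_forall_pow_dvd [IsHausdorff (Ideal.span {a}) O] (x : O)
    (h : ∀ n, a ^ n ∣ x) : x = 0 := by
  refine IsHausdorff.haus' (I := Ideal.span {a}) x (fun n => ?_)
  rw [SModEq.zero, mem_span_pow_smul_top_iff]
  exact h n

lemma exists_forall_pow_dvd_sub [IsPrecomplete (Ideal.span {a}) O] (f : ℕ → O)
    (hf : ∀ n, a ^ n ∣ f (n + 1) - f n) : ∃ s : O, ∀ n, a ^ n ∣ s - f n := by
  have hcauchy : ∀ m n, m ≤ n → a ^ m ∣ f m - f n := by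
    intro m n hmn
    induction n, hmn using Nat.le_induction with
    | base => simp
    | succ n hmn ih =>
      have h1 : f m - f (n + 1) = (f m - f n) - (f (n + 1) - f n) := by ring
      rw [h1]
      exact dvd_sub ih ((pow_dvd_pow a hmn).trans (hf n))
  obtain ⟨L, hL⟩ := IsPrecomplete.prec' (I := Ideal.span {a}) f (by
    intro m n hmn
    rw [SModEq.sub_mem, mem_span_pow_smul_top_iff]
    exact hcauchy m n hmn)
  refine ⟨L, fun n => ?_⟩
  have h1 := hL n
  rw [SModEq.sub_mem, mem_span_pow_smul_top_iff] at h1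
  have h2 : L - f n = -(f n - L) := by ring
  rw [h2]
  exact (dvd_neg).mpr h1

/-- First-order expansion of a product `∏ (1 + c x_i)`. -/
lemma prod_one_add_mul {ι : Type*} (s : Finset ι) (c : O) (x : ι → O) :
    ∃ r : O, ∏ i ∈ s, (1 + c * x i) = 1 + c * ∑ i ∈ s, x i + c * c * r := by
  classical
  induction s using Finset.induction_on with
  | empty => exact ⟨0, by simp⟩
  | insert i s hi ih =>
    obtain ⟨r, hr⟩ := ih
    refine ⟨r + x i * ∑ j ∈ s, x j + c * x i * r, ?_⟩
    rw [Finset.prod_insert hi, Finset.sum_insert hi, hr]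
    ring

/-- The filtration of the unit group by the subgroups `1 + a ^ n O`. -/
def unitsFilt (n : ℕ) : Subgroup Oˣ where
  carrier := {u | a ^ n ∣ (u : O) - 1}
  one_mem' := by simp
  mul_mem' := by
    intro u v hu hv
    have h : ((u * v : Oˣ) : O) - 1 = ((u : O) - 1) * v + ((v : O) - 1) := by
      push_cast; ring
    have hu' : a ^ n ∣ (u : O) - 1 := hu
    have hv' : a ^ n ∣ (v : O) - 1 := hv
    show a ^ n ∣ ((u * v : Oˣ) : O) - 1
    rw [h]
    exact dvd_add (Dvd.dvd.mul_right hu' _) hv'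
  inv_mem' := by
    intro u hu
    have h : ((u⁻¹ : Oˣ) : O) - 1 = -(((u : O) - 1) * ((u⁻¹ : Oˣ) : O)) := by
      have h' := u.mul_inv
      linear_combination h'
    have hu' : a ^ n ∣ (u : O) - 1 := hu
    show a ^ n ∣ ((u⁻¹ : Oˣ) : O) - 1
    rw [h]
    exact (dvd_neg).mpr (Dvd.dvd.mul_right hu' _)

variable {a}

lemma mem_unitsFilt {n : ℕ} {u : Oˣ} : u ∈ unitsFilt a n ↔ a ^ n ∣ (u : O) - 1 := Iff.rfl

lemma mem_unitsFilt_zero (u : Oˣ) : u ∈ unitsFilt a 0 := by
  simp [mem_unitsFilt]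

lemma div_mem_unitsFilt {n : ℕ} {u v : Oˣ} (h : a ^ n ∣ (u : O) - v) :
    u / v ∈ unitsFilt a n := by
  rw [mem_unitsFilt]
  have h' : ((u / v : Oˣ) : O) - 1 = ((u : O) - v) * ((v⁻¹ : Oˣ) : O) := by
    rw [div_eq_mul_inv, Units.val_mul, sub_mul, Units.mul_inv]
  rw [h']
  exact Dvd.dvd.mul_right h _

lemma unitsFilt_separated [IsHausdorff (Ideal.span {a}) O] (u : Oˣ)
    (h : ∀ n, u ∈ unitsFilt a n) : u = 1 :=
  Units.ext (sub_eq_zero.mp (eq_zero_of_forall_pow_dvd a ((u : O) - 1) h))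

section Action

variable {G : Type*} [Group G] [MulSemiringAction G O]

lemma unitsAct_mem_unitsFilt (hfix : ∀ τ : G, τ • a = a) (τ : G) {n : ℕ} {u : Oˣ}
    (hu : u ∈ unitsFilt a n) : unitsAct τ u ∈ unitsFilt a n := by
  rw [mem_unitsFilt] at hu ⊢
  obtain ⟨c, hc⟩ := hu
  refine ⟨τ • c, ?_⟩
  rw [coe_unitsAct]
  have h : τ • ((u : O) - 1) = τ • (a ^ n * c) := by rw [hc]
  rw [smul_sub, smul_one, smul_mul', smul_pow', hfix] at h
  exact h

lemma unitsSubOne_mem_unitsFilt (hfix : ∀ τ : G, τ • a = a) (σ : G) {n : ℕ} {u : Oˣ}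
    (hu : u ∈ unitsFilt a n) : unitsSubOne σ u ∈ unitsFilt a n := by
  rw [unitsSubOne_apply]
  exact (unitsFilt a n).div_mem (unitsAct_mem_unitsFilt hfix σ hu) hu

lemma unitsNorm_mem_unitsFilt [Fintype G] (hfix : ∀ τ : G, τ • a = a) {n : ℕ} {u : Oˣ}
    (hu : u ∈ unitsFilt a n) : unitsNorm G u ∈ unitsFilt a n := by
  have h : unitsNorm G u = ∏ τ : G, unitsAct τ u := by
    simp [unitsNorm]
  rw [h]
  exact (unitsFilt a n).prod_mem (fun τ _ => unitsAct_mem_unitsFilt hfix τ hu)

end Action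

end PrincipalAdic

section Unramified

open IsLocalRing

variable {O : Type*} [CommRing O] [IsLocalRing O]

lemma unitsFilt_complete {ϖ : O} [IsPrecomplete (Ideal.span {ϖ}) O]
    (hϖm : ϖ ∈ maximalIdeal O) (y : ℕ → Oˣ) (hy : ∀ n, y n ∈ unitsFilt ϖ n) :
    ∃ s : Oˣ, ∀ n, s / ∏ i ∈ Finset.range n, y i ∈ unitsFilt ϖ n := by
  obtain ⟨s0, hs0⟩ := exists_forall_pow_dvd_sub ϖ
    (fun n => ((∏ i ∈ Finset.range n, y i : Oˣ) : O)) (by
      intro n
      rw [Finset.prod_range_succ]
      have h : (((∏ i ∈ Finset.range n, y i) * y n : Oˣ) : O)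
          - ((∏ i ∈ Finset.range n, y i : Oˣ) : O)
          = ((∏ i ∈ Finset.range n, y i : Oˣ) : O) * ((y n : O) - 1) := by
        push_cast; ring
      rw [h]
      exact Dvd.dvd.mul_left (hy n) _)
  have hunit : IsUnit s0 := by
    rw [← residue_ne_zero_iff_isUnit]
    have h2 : residue O s0 = residue O ((∏ i ∈ Finset.range 1, y i : Oˣ) : O) := by
      rw [← sub_eq_zero, ← map_sub, residue_eq_zero_iff]
      obtain ⟨c, hc⟩ := hs0 1
      rw [hc, pow_one]
      exact Ideal.mul_mem_right _ _ hϖm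
    rw [h2, residue_ne_zero_iff_isUnit]
    exact Units.isUnit _
  exact ⟨hunit.unit, fun n => div_mem_unitsFilt (by simpa using hs0 n)⟩

variable [IsDomain O] {G : Type*} [Group G] [Fintype G] [MulSemiringAction G O]
  [Finite (ResidueField O)]

/-- Data of an "unramified cyclic extension ring": `ϖ` generates the maximal ideal, is fixed
by `G = ⟨σ⟩`, and `G` acts faithfully on the residue field. -/
structure UnramData (σ : G) (ϖ : O) : Prop where
  gen : ∀ τ : G, τ ∈ Subgroup.zpowers σ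
  max : maximalIdeal O = Ideal.span {ϖ}
  ne_zero : ϖ ≠ 0
  fix : ∀ τ : G, τ • ϖ = ϖ
  faith : ∀ τ : G, (∀ x : ResidueField O, τ • x = x) → τ = 1

namespace UnramData

variable {σ : G} {ϖ : O} (D : UnramData σ ϖ)
include D

lemma mem_max : ϖ ∈ maximalIdeal O := by
  rw [D.max]; exact Ideal.mem_span_singleton_self ϖ

lemma residue_unif : residue O ϖ = 0 := (residue_eq_zero_iff ϖ).mpr D.mem_max

lemma dvd_of_residue_eq_zero {x : O} (hx : residue O x = 0) : ϖ ∣ x := by
  rw [residue_eq_zero_iff, D.max, Ideal.mem_span_singleton] at hx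
  exact hx

lemma isUnit_one_add {n : ℕ} (hn : 0 < n) (b : O) : IsUnit (1 + ϖ ^ n * b) := by
  rw [← residue_ne_zero_iff_isUnit, map_add, map_one, map_mul, map_pow, D.residue_unif,
    zero_pow hn.ne', zero_mul, add_zero]
  exact one_ne_zero

lemma pow_mul_pow {n : ℕ} (hn : 0 < n) : ϖ ^ n * ϖ ^ n = ϖ ^ (n + 1) * ϖ ^ (n - 1) := by
  rw [← pow_add, ← pow_add]
  congr 1
  omega

/-- Graded exactness, first half: fixed units are norms modulo the next step. -/
lemma graded_fixed (n : ℕ) (x : Oˣ) (hx : x ∈ unitsFilt ϖ n) (hfx : unitsSubOne σ x = 1) :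
    ∃ y ∈ unitsFilt ϖ n, x / unitsNorm G y ∈ unitsFilt ϖ (n + 1) := by
  have hσx : σ • (x : O) = x := (unitsSubOne_eq_one_iff σ x).mp hfx
  have hτx : ∀ τ : G, τ • (x : O) = x := fun τ => smul_eq_of_mem_zpowers (D.gen τ) hσx
  rcases Nat.eq_zero_or_pos n with hn | hn
  · subst hn
    have hres_fix : ∀ τ : G, τ • residue O (x : O) = residue O (x : O) := fun τ => by
      rw [← ResidueField.residue_smul, hτx]
    have hres_ne : residue O (x : O) ≠ 0 := (residue_ne_zero_iff_isUnit _).mpr x.isUnit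
    obtain ⟨ybar, hy0, hy⟩ := exists_prod_smul_eq σ D.gen D.faith _ hres_ne hres_fix
    obtain ⟨y0, rfl⟩ := residue_surjective ybar
    have hyu : IsUnit y0 := (residue_ne_zero_iff_isUnit _).mp hy0
    refine ⟨hyu.unit, mem_unitsFilt_zero _, div_mem_unitsFilt ?_⟩
    rw [zero_add, pow_one, coe_unitsNorm]
    apply D.dvd_of_residue_eq_zero
    rw [map_sub, map_prod]
    simp only [IsUnit.unit_spec, ResidueField.residue_smul]
    rw [hy, sub_self]
  · obtain ⟨a, ha⟩ := hx
    have hxa : (x : O) = 1 + ϖ ^ n * a := by rw [← ha]; ring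
    have hτa : ∀ τ : G, τ • a = a := by
      intro τ
      have h1 : τ • ((x : O) - 1) = (x : O) - 1 := by rw [smul_sub, smul_one, hτx]
      rw [ha, smul_mul', smul_pow', D.fix] at h1
      exact mul_left_cancel₀ (pow_ne_zero n D.ne_zero) h1
    obtain ⟨bbar, hb⟩ := exists_sum_smul_eq D.faith (residue O a) (fun τ => by
      rw [← ResidueField.residue_smul, hτa])
    obtain ⟨b, rfl⟩ := residue_surjective bbar
    have hyu : IsUnit (1 + ϖ ^ n * b) := D.isUnit_one_add hn b
    refine ⟨hyu.unit, ?_, div_mem_unitsFilt ?_⟩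
    · rw [mem_unitsFilt]
      exact ⟨b, by rw [IsUnit.unit_spec]; ring⟩
    · rw [coe_unitsNorm]
      simp only [IsUnit.unit_spec, smul_add, smul_one, smul_mul', smul_pow', D.fix]
      obtain ⟨r, hr⟩ := prod_one_add_mul Finset.univ (ϖ ^ n) (fun τ : G => τ • b)
      rw [hr]
      obtain ⟨c, hc⟩ : ϖ ∣ a - ∑ τ : G, τ • b := D.dvd_of_residue_eq_zero (by
        rw [map_sub, map_sum]
        simp only [ResidueField.residue_smul]
        rw [hb, sub_self])
      refine ⟨c - ϖ ^ (n - 1) * r, ?_⟩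
      rw [hxa]
      linear_combination (ϖ ^ n) * hc - r * D.pow_mul_pow hn

/-- Graded exactness, second half: units of norm one are of the form `σ y / y` modulo the
next step. -/
lemma graded_norm_one (n : ℕ) (x : Oˣ) (hx : x ∈ unitsFilt ϖ n) (hfx : unitsNorm G x = 1) :
    ∃ y ∈ unitsFilt ϖ n, x / unitsSubOne σ y ∈ unitsFilt ϖ (n + 1) := by
  have hN : ∏ τ : G, τ • (x : O) = 1 := by
    have h := congrArg (fun v : Oˣ => (v : O)) hfx
    simpa [coe_unitsNorm] using h
  have hrew : ∀ y : Oˣ, x / unitsSubOne σ y = (x * y) / unitsAct σ y := by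
    intro y
    rw [unitsSubOne_apply, div_div_eq_mul_div]
  rcases Nat.eq_zero_or_pos n with hn | hn
  · subst hn
    have hNres : ∏ τ : G, τ • residue O (x : O) = 1 := by
      have h := congrArg (residue O) hN
      rw [map_prod, map_one] at h
      simpa only [ResidueField.residue_smul] using h
    obtain ⟨ybar, hy0, hy⟩ := exists_smul_eq_mul_of_prod_eq_one σ D.gen D.faith _ hNres
    obtain ⟨y0, rfl⟩ := residue_surjective ybar
    have hyu : IsUnit y0 := (residue_ne_zero_iff_isUnit _).mp hy0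
    refine ⟨hyu.unit, mem_unitsFilt_zero _, ?_⟩
    rw [hrew]
    apply div_mem_unitsFilt
    rw [zero_add, pow_one]
    apply D.dvd_of_residue_eq_zero
    simp only [Units.val_mul, IsUnit.unit_spec, coe_unitsAct, map_sub, map_mul,
      ResidueField.residue_smul]
    rw [hy, sub_self]
  · obtain ⟨a, ha⟩ := hx
    have hxa : (x : O) = 1 + ϖ ^ n * a := by rw [← ha]; ring
    obtain ⟨r, hr⟩ := prod_one_add_mul Finset.univ (ϖ ^ n) (fun τ : G => τ • a)
    have hN' : ∏ τ : G, (1 + ϖ ^ n * τ • a) = 1 := by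
      have h : ∀ τ : G, τ • (x : O) = 1 + ϖ ^ n * τ • a := fun τ => by
        rw [hxa, smul_add, smul_one, smul_mul', smul_pow', D.fix]
      exact (Finset.prod_congr rfl (fun τ _ => (h τ).symm)).trans hN
    rw [hN'] at hr
    have hsum : ∑ τ : G, τ • a = -(ϖ ^ n * r) := by
      have h : ϖ ^ n * (∑ τ : G, τ • a + ϖ ^ n * r) = 0 := by linear_combination -hr
      rcases mul_eq_zero.mp h with h | h
      · exact absurd h (pow_ne_zero n D.ne_zero)
      · linear_combination h
    have hres : ∑ τ : G, τ • residue O a = 0 := by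
      have h := congrArg (residue O) hsum
      rw [map_sum, map_neg, map_mul, map_pow, D.residue_unif, zero_pow hn.ne', zero_mul,
        neg_zero] at h
      simpa only [ResidueField.residue_smul] using h
    obtain ⟨bbar, hb⟩ := exists_smul_sub_eq_of_sum_eq_zero σ D.gen D.faith _ hres
    obtain ⟨b, rfl⟩ := residue_surjective bbar
    have hyu : IsUnit (1 + ϖ ^ n * b) := D.isUnit_one_add hn b
    refine ⟨hyu.unit, ?_, ?_⟩
    · rw [mem_unitsFilt]
      exact ⟨b, by rw [IsUnit.unit_spec]; ring⟩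
    · rw [hrew]
      apply div_mem_unitsFilt
      simp only [Units.val_mul, IsUnit.unit_spec, coe_unitsAct, smul_add, smul_one, smul_mul',
        smul_pow', D.fix]
      obtain ⟨c, hc⟩ : ϖ ∣ a + b - σ • b := D.dvd_of_residue_eq_zero (by
        rw [map_sub, map_add, ResidueField.residue_smul, ← hb]
        ring)
      refine ⟨c + ϖ ^ (n - 1) * (a * b), ?_⟩
      rw [hxa]
      linear_combination (ϖ ^ n) * hc + (a * b) * D.pow_mul_pow hn

variable [IsAdicComplete (maximalIdeal O) O]

lemma adicComplete : IsAdicComplete (Ideal.span {ϖ}) O := D.max ▸ ‹IsAdicComplete (maximalIdeal O) O›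

/-- **Unramified extensions: every `G`-fixed unit is a norm of a unit.** -/
theorem exists_prod_smul_eq_of_fixed (u : Oˣ) (hu : ∀ τ : G, τ • (u : O) = u) :
    ∃ y : Oˣ, ∏ τ : G, τ • (y : O) = u := by
  have := D.adicComplete
  obtain ⟨y, -, hy⟩ := exists_eq_of_graded_exact_mul (unitsSubOne σ) (unitsNorm G)
    (unitsFilt ϖ) (fun n x hx => unitsNorm_mem_unitsFilt D.fix hx)
    unitsFilt_separated (unitsFilt_complete D.mem_max)
    (fun x => unitsSubOne_unitsNorm σ x) D.graded_fixed u (mem_unitsFilt_zero u)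
    ((unitsSubOne_eq_one_iff σ u).mpr (hu σ))
  exact ⟨y, by rw [← coe_unitsNorm, hy]⟩

/-- **Unramified extensions: every unit of norm one is of the form `σ y / y`.** -/
theorem exists_smul_eq_mul_of_prod_eq_one' (u : Oˣ) (hu : ∏ τ : G, τ • (u : O) = 1) :
    ∃ y : Oˣ, σ • (y : O) = u * y := by
  have := D.adicComplete
  obtain ⟨y, -, hy⟩ := exists_eq_of_graded_exact_mul (unitsNorm G) (unitsSubOne σ)
    (unitsFilt ϖ) (fun n x hx => unitsSubOne_mem_unitsFilt D.fix σ hx)
    unitsFilt_separated (unitsFilt_complete D.mem_max)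
    (fun x => unitsNorm_unitsSubOne σ x) D.graded_norm_one u (mem_unitsFilt_zero u)
    (Units.ext (by rw [coe_unitsNorm, hu]; rfl))
  refine ⟨y, ?_⟩
  have h := congrArg (fun v : Oˣ => (v : O)) hy
  simp only [unitsSubOne_apply] at h
  have h2 : unitsAct σ y = u * y := by rw [← hy, unitsSubOne_apply, div_mul_cancel]
  have h3 := congrArg (fun v : Oˣ => (v : O)) h2
  simpa using h3

end UnramData

end Unramified

end Fermat.Agent.CFT.Local.UnitCoh
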