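import Fermat.Agent.CFT.Local.UnramNormed

/-!
# CFT / Local — the norm group of an unramified cyclic extension of local fields

`K` a local field in the `NormedLocal` vocabulary, `L / K` finite Galois, cyclic with generator
`σ`, of ramification index `1`, `n = [L : K]`, `ϖ` a uniformizer of `K`.

* `norm_norm_eq_pow`           : `‖N_{L/K} y‖ = ‖y‖ ^ n` (any finite Galois normed extension);
* `exists_norm_eq_iff_of_unramified` : `x ≠ 0` is a norm from `L` iff `‖x‖ = ‖ϖ‖ ^ (n * j)` for some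
  `j : ℤ` (i.e. `n ∣ v(x)`);
* `not_exists_norm_eq_pow_of_unramified` : `ϖ ^ m` is not a norm for `0 < m < n`
  (the class of `ϖ` has exact order `n` modulo norms);
* `exists_norm_eq_of_norm_eq_pow` : `x` with `‖x‖ = ‖ϖ_L‖ ^ (n * j)`-type hypothesis, tower form:
  `exists_norm_eq_algebraMap_irreducible` — for `E ⊆ L` finite separable and `M / L` unramified
  cyclic of degree `e(L/E)`, a uniformizer of `E` is a norm from `M` to `L`.
-/

set_option autoImplicit false
set_option linter.unusedSectionVars false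

namespace Fermat.Agent.CFT.Local.UnitCoh

open scoped NormedField Valued
open IsLocalRing Fermat.Agent.CFT.Local.NormedLocal

section NormGroup

variable (K : Type*) [NontriviallyNormedField K] [IsUltrametricDist K] [ProperSpace K]
variable (L : Type*) [NontriviallyNormedField L] [IsUltrametricDist L] [NormedAlgebra K L]
  [FiniteDimensional K L] [IsGalois K L]

/-- The norm of a norm: `‖N_{L/K} y‖ = ‖y‖ ^ [L : K]`. -/
theorem norm_norm_eq_pow (y : L) : ‖Algebra.norm K y‖ = ‖y‖ ^ Module.finrank K L := by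
  have h1 : ‖Algebra.norm K y‖ = ‖algebraMap K L (Algebra.norm K y)‖ :=
    (norm_algebraMap' L _).symm
  rw [h1, Algebra.norm_eq_prod_automorphisms, norm_prod]
  have h2 : ∀ τ : Gal(L/K), ‖τ y‖ = ‖y‖ := fun τ => norm_algEquiv_eq τ y
  rw [Finset.prod_congr rfl (fun τ _ => h2 τ), Finset.prod_const, Finset.card_univ,
    ← Nat.card_eq_fintype_card, IsGalois.card_aut_eq_finrank]

variable {K} in
/-- The norm of a uniformizer lies strictly between `0` and `1`. -/
lemma norm_irreducible_pos_lt_one {ϖ : 𝒪[K]} (hϖ : Irreducible ϖ) :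
    0 < ‖(ϖ : K)‖ ∧ ‖(ϖ : K)‖ < 1 := by
  refine ⟨norm_pos_iff.mpr fun h => hϖ.ne_zero (Subtype.ext h), ?_⟩
  have h1 : ‖(ϖ : K)‖ ≤ 1 := Valued.integer.mem_iff.mp ϖ.2
  refine lt_of_le_of_ne h1 fun h => hϖ.not_isUnit ?_
  exact (Valued.integer.isUnit_iff_norm_eq_one).mpr h

/-- **Norm group of an unramified cyclic extension**: a nonzero `x : K` is a norm from `L` iff
its valuation is divisible by `n = [L : K]`. -/
theorem exists_norm_eq_iff_of_unramified (σ : Gal(L/K)) (hσ : ∀ τ, τ ∈ Subgroup.zpowers σ)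
    (he : (𝓂[L]).ramificationIdx 𝒪[K] = 1) {ϖ : 𝒪[K]} (hϖ : Irreducible ϖ) (x : K)
    (hx : x ≠ 0) :
    (∃ y : L, Algebra.norm K y = x) ↔
      ∃ j : ℤ, ‖x‖ = ‖(ϖ : K)‖ ^ ((Module.finrank K L : ℤ) * j) := by
  have : ProperSpace L := FiniteDimensional.proper K L
  obtain ⟨h0, h1⟩ := norm_irreducible_pos_lt_one hϖ
  have hϖ0 : (ϖ : K) ≠ 0 := norm_pos_iff.mp h0
  constructor
  · rintro ⟨y, rfl⟩
    have hy : y ≠ 0 := fun h => hx (by rw [h, Algebra.norm_zero])
    obtain ⟨ϖL, hL⟩ := IsDiscreteValuationRing.exists_irreducible 𝒪[L]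
    obtain ⟨j, hj⟩ := exists_norm_eq_zpow hL hy
    have hKL : ‖(ϖ : K)‖ = ‖(ϖL : L)‖ := by
      rw [norm_irreducible_eq_pow (K := K) (L := L) hϖ hL, he, pow_one]
    refine ⟨j, ?_⟩
    rw [norm_norm_eq_pow, hj, hKL, ← zpow_natCast, ← zpow_mul, mul_comm]
  · rintro ⟨j, hj⟩
    set u : K := x / (ϖ : K) ^ ((Module.finrank K L : ℤ) * j) with hu
    have hunorm : ‖u‖ = 1 := by
      rw [hu, norm_div, norm_zpow, hj]
      exact div_self (zpow_ne_zero _ h0.ne')
    obtain ⟨y, -, hy⟩ := exists_norm_eq_of_unramified K L σ hσ he u hunorm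
    refine ⟨y * algebraMap K L ((ϖ : K) ^ j), ?_⟩
    rw [map_mul, hy, Algebra.norm_algebraMap, hu, ← zpow_natCast, ← zpow_mul, mul_comm j]
    exact div_mul_cancel₀ x (zpow_ne_zero _ hϖ0)

/-- The class of a uniformizer has exact order `n = [L : K]` modulo norms from an unramified
cyclic extension: `ϖ ^ m` is not a norm for `0 < m < n`. -/
theorem not_exists_norm_eq_pow_of_unramified (σ : Gal(L/K)) (hσ : ∀ τ, τ ∈ Subgroup.zpowers σ)
    (he : (𝓂[L]).ramificationIdx 𝒪[K] = 1) {ϖ : 𝒪[K]} (hϖ : Irreducible ϖ) (m : ℕ) (hm : 0 < m)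
    (hmn : m < Module.finrank K L) : ¬ ∃ y : L, Algebra.norm K y = (ϖ : K) ^ m := by
  obtain ⟨h0, h1⟩ := norm_irreducible_pos_lt_one hϖ
  have hϖ0 : (ϖ : K) ≠ 0 := norm_pos_iff.mp h0
  intro h
  obtain ⟨j, hj⟩ := (exists_norm_eq_iff_of_unramified K L σ hσ he hϖ _ (pow_ne_zero m hϖ0)).mp h
  rw [norm_pow, ← zpow_natCast] at hj
  have hinj := zpow_right_injective₀ h0 h1.ne hj
  have hdvd : (Module.finrank K L : ℤ) ∣ (m : ℤ) := ⟨j, hinj⟩
  have := Int.le_of_dvd (by exact_mod_cast hm) hdvd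
  omega

/-- Product form of `not_exists_norm_eq_pow_of_unramified` (Galois-module language). -/
theorem not_exists_prod_eq_pow_of_unramified (σ : Gal(L/K)) (hσ : ∀ τ, τ ∈ Subgroup.zpowers σ)
    (he : (𝓂[L]).ramificationIdx 𝒪[K] = 1) {ϖ : 𝒪[K]} (hϖ : Irreducible ϖ) (m : ℕ) (hm : 0 < m)
    (hmn : m < Module.finrank K L) :
    ¬ ∃ y : L, ∏ τ : Gal(L/K), τ y = algebraMap K L ((ϖ : K) ^ m) := by
  rintro ⟨y, hy⟩
  refine not_exists_norm_eq_pow_of_unramified K L σ hσ he hϖ m hm hmn ⟨y, ?_⟩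
  apply (algebraMap K L).injective
  rw [Algebra.norm_eq_prod_automorphisms, hy]

/-- `x ^ n` is a norm (`n = [L : K]`), for every `x : K`. -/
theorem exists_norm_eq_pow_finrank (x : K) :
    ∃ y : L, Algebra.norm K y = x ^ Module.finrank K L :=
  ⟨algebraMap K L x, Algebra.norm_algebraMap x⟩

end NormGroup

section Tower

variable (E : Type*) [NontriviallyNormedField E] [IsUltrametricDist E] [ProperSpace E]
variable (L : Type*) [NontriviallyNormedField L] [IsUltrametricDist L] [NormedAlgebra E L]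
  [FiniteDimensional E L] [Algebra.IsSeparable E L]
variable (M : Type*) [NontriviallyNormedField M] [IsUltrametricDist M] [NormedAlgebra L M]
  [FiniteDimensional L M] [IsGalois L M]

/-- **Tower form**: if `M / L` is unramified cyclic of degree `e(L/E)`, a uniformizer of `E`
is a norm from `M` to `L`. -/
theorem exists_norm_eq_algebraMap_irreducible (σ : Gal(M/L))
    (hσ : ∀ τ, τ ∈ Subgroup.zpowers σ)
    (he : (𝓂[M]).ramificationIdx 𝒪[L] = 1)
    (hdeg : Module.finrank L M = (𝓂[L]).ramificationIdx 𝒪[E]) {ϖ : 𝒪[E]} (hϖ : Irreducible ϖ) :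
    ∃ y : M, Algebra.norm L y = algebraMap E L (ϖ : E) := by
  have : ProperSpace L := FiniteDimensional.proper E L
  obtain ⟨ϖL, hL⟩ := IsDiscreteValuationRing.exists_irreducible 𝒪[L]
  obtain ⟨h0, h1⟩ := norm_irreducible_pos_lt_one hϖ
  have hϖ0 : (ϖ : E) ≠ 0 := norm_pos_iff.mp h0
  have hx : algebraMap E L (ϖ : E) ≠ 0 := by
    rw [Ne, map_eq_zero]
    exact hϖ0
  refine (exists_norm_eq_iff_of_unramified L M σ hσ he hL _ hx).mpr ⟨1, ?_⟩
  rw [norm_algebraMap', norm_irreducible_eq_pow (K := E) (L := L) hϖ hL, hdeg, mul_one,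
    zpow_natCast]

/-- Product form of `exists_norm_eq_algebraMap_irreducible` (Galois-module language). -/
theorem exists_prod_eq_algebraMap_irreducible (σ : Gal(M/L))
    (hσ : ∀ τ, τ ∈ Subgroup.zpowers σ)
    (he : (𝓂[M]).ramificationIdx 𝒪[L] = 1)
    (hdeg : Module.finrank L M = (𝓂[L]).ramificationIdx 𝒪[E]) {ϖ : 𝒪[E]} (hϖ : Irreducible ϖ) :
    ∃ y : M, ∏ τ : Gal(M/L), τ y = algebraMap L M (algebraMap E L (ϖ : E)) := by
  obtain ⟨y, hy⟩ := exists_norm_eq_algebraMap_irreducible E L M σ hσ he hdeg hϖ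
  exact ⟨y, by rw [← hy, Algebra.norm_eq_prod_automorphisms]⟩

end Tower

end Fermat.Agent.CFT.Local.UnitCoh
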