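import Mathlib
import Fermat.Prelude.Def_GaloisRep_CompletionBridge
import Fermat.Agent.CFT.Local.PadicExt
import Fermat.Agent.CFT.Local.Unramified

/-!
# The unramified extensions of a finite extension of `ℚ_q` inside `ℚ̄_q`

Concrete instance of `Fermat.Agent.CFT.Local.Unramified` for the Prelude's local objects.
For `E : IntermediateField ℚ_[q] (PadicAlgCl q)` finite over `ℚ_[q]` and `n : ℕ`:

* `zeta E n`   : a chosen primitive root of unity of order `Q ^ n - 1` in `ℚ̄_q`
  (`Q = Nat.card 𝓀[E]`), `isPrimitiveRoot_zeta` for `0 < n`;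
* `unram E n`  : the intermediate field `E ⊔ ℚ_q(zeta E n)`, `le_unram`, finite over `ℚ_q`;
* field level, for the inclusion algebra `letI := PadicExt.normedAlgebraOfLE (le_unram E n)`
  and `0 < n`: `finrank_unram` (`[unram E n : E] = n`), `isGalois_unram`, `isCyclic_unram`,
  `ramificationIdx_unram` (`e = 1`), `inertiaDeg_unram` (`f = n`), `unram_main` (the Frobenius),
  `irreducible_algebraMap_unram`, `finrank_unram_abs`;
* group level, inside `Gal(ℚ̄_q/ℚ_q)`: `fixingSubgroup_unram_le`, `map_mem_unram`,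
  `normal_fixingSubgroup_unram`, `relIndex_fixingSubgroup_unram` (`[Fix E : Fix (unram E n)] = n`).
-/

set_option autoImplicit false

namespace Fermat.Agent.CFT.Local.UnramPadic

open scoped NNReal NormedField Valued IntermediateField
open IsLocalRing Fermat.Agent.CFT.Local.NormedLocal Fermat.Agent.CFT.Local.PadicExt

variable {q : ℕ} [Fact q.Prime]

/-- `ℚ̄_q` contains primitive roots of unity of every positive order. -/
theorem exists_primitiveRoot (m : ℕ) (hm : m ≠ 0) : ∃ ζ : PadicAlgCl q, IsPrimitiveRoot ζ m := by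
  have : NeZero m := ⟨hm⟩
  have : NeZero ((m : ℕ) : ℚ_[q]) := ⟨Nat.cast_ne_zero.mpr hm⟩
  exact HasEnoughRootsOfUnity.exists_primitiveRoot (PadicAlgCl q) m

variable (E : IntermediateField ℚ_[q] (PadicAlgCl q)) [FiniteDimensional ℚ_[q] E]

/-- The order `Q ^ n - 1` of the roots of unity generating the unramified extension of
degree `n` (`Q` the cardinality of the residue field of `E`). -/
noncomputable def rootOrder (n : ℕ) : ℕ := Nat.card 𝓀[E] ^ n - 1

lemma rootOrder_ne_zero {n : ℕ} (hn : 0 < n) : rootOrder E n ≠ 0 := by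
  have h1 := Unramified.one_lt_card_residueField (K := E)
  have h2 : Nat.card 𝓀[E] ^ 1 ≤ Nat.card 𝓀[E] ^ n := Nat.pow_le_pow_right (by omega) hn
  rw [pow_one] at h2
  unfold rootOrder
  omega

/-- A chosen primitive root of unity of order `Q ^ n - 1` in `ℚ̄_q`. -/
noncomputable def zeta (n : ℕ) : PadicAlgCl q :=
  if hn : 0 < n then (exists_primitiveRoot (q := q) (rootOrder E n) (rootOrder_ne_zero E hn)).choose
  else 1

theorem isPrimitiveRoot_zeta {n : ℕ} (hn : 0 < n) :
    IsPrimitiveRoot (zeta E n) (Nat.card 𝓀[E] ^ n - 1) := by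
  rw [zeta, dif_pos hn]
  exact (exists_primitiveRoot (q := q) (rootOrder E n) (rootOrder_ne_zero E hn)).choose_spec

/-- The unramified extension of degree `n` of `E` inside `ℚ̄_q`: `E(ζ)`, `ζ` a primitive root
of unity of order `Q ^ n - 1`. -/
noncomputable def unram (n : ℕ) : IntermediateField ℚ_[q] (PadicAlgCl q) :=
  E ⊔ ℚ_[q]⟮zeta E n⟯

lemma le_unram (n : ℕ) : E ≤ unram E n := le_sup_left

lemma zeta_mem_unram (n : ℕ) : zeta E n ∈ unram E n :=
  (le_sup_right : ℚ_[q]⟮zeta E n⟯ ≤ unram E n) (IntermediateField.mem_adjoin_simple_self _ _)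

lemma isIntegral_zeta (n : ℕ) : IsIntegral ℚ_[q] (zeta E n) :=
  Algebra.IsIntegral.isIntegral _

instance finiteDimensional_unram (n : ℕ) : FiniteDimensional ℚ_[q] (unram E n) := by
  have : FiniteDimensional ℚ_[q] ℚ_[q]⟮zeta E n⟯ :=
    IntermediateField.adjoin.finiteDimensional (isIntegral_zeta E n)
  exact IntermediateField.finiteDimensional_sup E ℚ_[q]⟮zeta E n⟯

section Relative

variable {E} {L : IntermediateField ℚ_[q] (PadicAlgCl q)} (h : E ≤ L)

omit [FiniteDimensional ℚ_[q] E] in
lemma algebraMap_coe_of_le (e : E) :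
    letI := normedAlgebraOfLE h
    ((algebraMap E L e : L) : PadicAlgCl q) = (e : PadicAlgCl q) := rfl

omit [FiniteDimensional ℚ_[q] E] in
/-- For `E ≤ L`, `ℚ_q → E → L` is a scalar tower. -/
lemma isScalarTower_of_le :
    letI := normedAlgebraOfLE h
    IsScalarTower ℚ_[q] E L := by
  let _ := normedAlgebraOfLE h
  exact IsScalarTower.of_algebraMap_eq (fun x => rfl)

omit [FiniteDimensional ℚ_[q] E] in
lemma finiteDimensional_of_le [FiniteDimensional ℚ_[q] L] :
    letI := normedAlgebraOfLE h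
    FiniteDimensional E L := by
  let _ := normedAlgebraOfLE h
  have := isScalarTower_of_le h
  exact Module.Finite.right ℚ_[q] E L

omit [FiniteDimensional ℚ_[q] E] in
lemma finrank_mul_finrank_of_le :
    letI := normedAlgebraOfLE h
    Module.finrank ℚ_[q] E * Module.finrank E L = Module.finrank ℚ_[q] L := by
  let _ := normedAlgebraOfLE h
  have := isScalarTower_of_le h
  exact Module.finrank_mul_finrank ℚ_[q] E L

omit [FiniteDimensional ℚ_[q] E] in
/-- If `L = E(x)` inside `ℚ̄_q` then `x` generates `L` over `E` (for the inclusion algebra). -/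
lemma adjoin_eq_top_of_le_sup {x : PadicAlgCl q} (hx : x ∈ L) (hL : L ≤ E ⊔ ℚ_[q]⟮x⟯) :
    letI := normedAlgebraOfLE h
    IntermediateField.adjoin E {(⟨x, hx⟩ : L)} = ⊤ := by
  let _ := normedAlgebraOfLE h
  have := isScalarTower_of_le h
  set F : IntermediateField E L := IntermediateField.adjoin E {(⟨x, hx⟩ : L)} with hF
  let G : IntermediateField ℚ_[q] (PadicAlgCl q) := (F.restrictScalars ℚ_[q]).map L.val
  have hEG : E ≤ G := by
    intro e he
    refine ⟨algebraMap E L ⟨e, he⟩, ?_, rfl⟩
    exact F.algebraMap_mem _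
  have hxG : ℚ_[q]⟮x⟯ ≤ G := by
    rw [IntermediateField.adjoin_simple_le_iff]
    exact ⟨⟨x, hx⟩, IntermediateField.mem_adjoin_simple_self E _, rfl⟩
  have hLG : L ≤ G := hL.trans (sup_le hEG hxG)
  rw [eq_top_iff]
  intro y _
  obtain ⟨z, hz, hzy⟩ := hLG y.2
  have : z = y := Subtype.ext hzy
  rw [← this]
  exact hz

end Relative

section Main

variable {n : ℕ}

/-- The root of unity `zeta E n` as an element of `unram E n`. -/
noncomputable def zetaU (n : ℕ) : unram E n := ⟨zeta E n, zeta_mem_unram E n⟩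

@[simp] lemma coe_zetaU (n : ℕ) : ((zetaU E n : unram E n) : PadicAlgCl q) = zeta E n := rfl

lemma isPrimitiveRoot_zetaU (hn : 0 < n) :
    IsPrimitiveRoot (zetaU E n) (Nat.card 𝓀[E] ^ n - 1) :=
  IsPrimitiveRoot.of_map_of_injective (f := (unram E n).val) (isPrimitiveRoot_zeta E hn)
    Subtype.val_injective

lemma adjoin_zetaU_eq_top (n : ℕ) :
    letI := normedAlgebraOfLE (le_unram E n)
    IntermediateField.adjoin E {zetaU E n} = ⊤ :=
  adjoin_eq_top_of_le_sup (le_unram E n) (zeta_mem_unram E n) le_rfl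

lemma finiteDimensional_unram_rel (n : ℕ) :
    letI := normedAlgebraOfLE (le_unram E n)
    FiniteDimensional E (unram E n) :=
  finiteDimensional_of_le (le_unram E n)

/-- **The unramified extension of degree `n`.** `unram E n / E` has degree `n`, ramification
index `1`, residue degree `n`, and its Galois group is generated by a Frobenius `φ`. -/
theorem unram_main (hn : 0 < n) :
    letI := normedAlgebraOfLE (le_unram E n)
    Module.finrank E (unram E n) = n ∧
    (𝓂[unram E n]).ramificationIdx 𝒪[E] = 1 ∧ (𝓂[unram E n]).inertiaDeg 𝒪[E] = n ∧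
    ∃ φ : unram E n ≃ₐ[E] unram E n, φ (zetaU E n) = zetaU E n ^ Nat.card 𝓀[E] ∧
      (∀ x : 𝒪[unram E n], ‖φ (x : unram E n) - (x : unram E n) ^ Nat.card 𝓀[E]‖ < 1) ∧
      ∀ σ : unram E n ≃ₐ[E] unram E n, ∃ j : ℕ, j < n ∧ σ = φ ^ j := by
  let _ := normedAlgebraOfLE (le_unram E n)
  have := finiteDimensional_of_le (le_unram E n)
  exact Unramified.unramified_main hn (isPrimitiveRoot_zetaU E hn) (adjoin_zetaU_eq_top E n)

theorem finrank_unram (hn : 0 < n) :
    letI := normedAlgebraOfLE (le_unram E n)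
    Module.finrank E (unram E n) = n :=
  (unram_main E hn).1

theorem isGalois_unram (hn : 0 < n) :
    letI := normedAlgebraOfLE (le_unram E n)
    IsGalois E (unram E n) := by
  let _ := normedAlgebraOfLE (le_unram E n)
  have := finiteDimensional_of_le (le_unram E n)
  exact Unramified.isGalois_of_root (rootOrder_ne_zero E hn) (isPrimitiveRoot_zetaU E hn)
    (adjoin_zetaU_eq_top E n)

theorem isCyclic_unram (hn : 0 < n) :
    letI := normedAlgebraOfLE (le_unram E n)
    IsCyclic (unram E n ≃ₐ[E] unram E n) := by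
  let _ := normedAlgebraOfLE (le_unram E n)
  have := finiteDimensional_of_le (le_unram E n)
  exact Unramified.isCyclic_of_root hn (isPrimitiveRoot_zetaU E hn) (adjoin_zetaU_eq_top E n)

theorem ramificationIdx_unram (hn : 0 < n) :
    letI := normedAlgebraOfLE (le_unram E n)
    (𝓂[unram E n]).ramificationIdx 𝒪[E] = 1 :=
  (unram_main E hn).2.1

theorem inertiaDeg_unram (hn : 0 < n) :
    letI := normedAlgebraOfLE (le_unram E n)
    (𝓂[unram E n]).inertiaDeg 𝒪[E] = n :=
  (unram_main E hn).2.2.1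

/-- A uniformizer of `E` stays a uniformizer in `unram E n`. -/
theorem irreducible_algebraMap_unram (hn : 0 < n) {ϖ : 𝒪[E]} (hϖ : Irreducible ϖ) :
    letI := normedAlgebraOfLE (le_unram E n)
    Irreducible (algebraMap 𝒪[E] 𝒪[unram E n] ϖ) := by
  let _ := normedAlgebraOfLE (le_unram E n)
  have := finiteDimensional_of_le (le_unram E n)
  exact Unramified.irreducible_algebraMap_of_ramificationIdx_eq_one (ramificationIdx_unram E hn) hϖ

/-- The absolute degree of `unram E n`. -/
theorem finrank_unram_abs (hn : 0 < n) :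
    Module.finrank ℚ_[q] (unram E n) = Module.finrank ℚ_[q] E * n := by
  rw [← finrank_mul_finrank_of_le (le_unram E n), finrank_unram E hn]

end Main

section Group

variable {n : ℕ}

/-- Elements of the Galois group fixing `E` preserve `unram E n`. -/
theorem map_mem_unram {σ : PadicAlgCl q ≃ₐ[ℚ_[q]] PadicAlgCl q} (hσ : σ ∈ E.fixingSubgroup)
    (hn : 0 < n) {x : PadicAlgCl q} (hx : x ∈ unram E n) : σ x ∈ unram E n := by
  have hm : rootOrder E n ≠ 0 := rootOrder_ne_zero E hn
  have : NeZero (Nat.card 𝓀[E] ^ n - 1) := ⟨hm⟩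
  have hζ := isPrimitiveRoot_zeta E hn
  have key : unram E n ≤ (unram E n).comap (σ : PadicAlgCl q →ₐ[ℚ_[q]] PadicAlgCl q) := by
    refine sup_le (fun e he => ?_) ?_
    · show σ e ∈ unram E n
      rw [(IntermediateField.mem_fixingSubgroup_iff E σ).mp hσ e he]
      exact le_unram E n he
    · rw [IntermediateField.adjoin_simple_le_iff]
      show σ (zeta E n) ∈ unram E n
      obtain ⟨a, -, ha⟩ := hζ.eq_pow_of_pow_eq_one (ξ := σ (zeta E n))
        (by rw [← map_pow, hζ.pow_eq_one, map_one])
      rw [← ha]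
      exact pow_mem (zeta_mem_unram E n) a
  exact key hx

theorem fixingSubgroup_unram_le (n : ℕ) : (unram E n).fixingSubgroup ≤ E.fixingSubgroup :=
  IntermediateField.fixingSubgroup_le (le_unram E n)

/-- `Fix (unram E n)` is normal in `Fix E`. -/
theorem normal_fixingSubgroup_unram (hn : 0 < n) :
    ((unram E n).fixingSubgroup.subgroupOf E.fixingSubgroup).Normal := by
  refine ⟨fun τ hτ σ => ?_⟩
  rw [Subgroup.mem_subgroupOf] at hτ ⊢
  rw [IntermediateField.mem_fixingSubgroup_iff] at hτ ⊢
  intro x hx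
  have hσinv : (σ⁻¹ : E.fixingSubgroup).1 ∈ E.fixingSubgroup := (σ⁻¹).2
  have h1 : (σ⁻¹ : E.fixingSubgroup).1 x ∈ unram E n := map_mem_unram E hσinv hn hx
  have h2 := hτ _ h1
  show (σ.1 * τ.1 * (σ⁻¹ : E.fixingSubgroup).1) x = x
  rw [AlgEquiv.mul_apply, AlgEquiv.mul_apply, h2]
  show (σ.1 * (σ⁻¹ : E.fixingSubgroup).1) x = x
  rw [← Subgroup.coe_mul, mul_inv_cancel]
  rfl

/-- `[Fix E : Fix (unram E n)] = n`. -/
theorem relIndex_fixingSubgroup_unram (hn : 0 < n) :
    (unram E n).fixingSubgroup.relIndex E.fixingSubgroup = n := by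
  have h1 := Subgroup.relIndex_mul_index (fixingSubgroup_unram_le E n)
  rw [← IntermediateField.finrank_eq_fixingSubgroup_index,
    ← IntermediateField.finrank_eq_fixingSubgroup_index, finrank_unram_abs E hn, mul_comm] at h1
  exact Nat.eq_of_mul_eq_mul_left Module.finrank_pos h1

end Group

end Fermat.Agent.CFT.Local.UnramPadic
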