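import Mathlib
import Fermat.Prelude.Def_GaloisRep_CompletionBridge
import Fermat.Agent.CFT.Local.UnramPadic

/-!
# Frobenius lifts and towers for the unramified extensions inside `ℚ̄_q`

Continuation of `UnramPadic`.  `E L : IntermediateField ℚ_[q] (PadicAlgCl q)` finite over `ℚ_q`,
`Q = Nat.card 𝓀[E]`.

* roots of unity: `mem_adjoin_of_pow_eq_one`, `adjoin_eq_of_isPrimitiveRoot`, `map_root_eq_pow`;
* `sup_adjoin_eq_unram` (independence of the chosen root), `mem_unram_of_pow_eq_one`,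
  `unram_le_of_dvd` (tower);
* `mem_fixingSubgroup_unram_iff`, `exists_map_zeta_eq_pow`, `exists_frobenius_lift`
  (a Frobenius `s ∈ Fix E` in `Gal(ℚ̄_q/ℚ_q)`), `exists_frobenius_generator`
  (`Fix E / Fix (unram E n)` is generated by its class), `frobenius_pow_mem_iff` (exact order `n`);
* for `E ≤ L`: `ramificationIdx_mul_inertiaDeg_of_le`, `card_residueField_of_le`,
  `sup_unram_eq_unram` (`L · unram E (f m) = unram L m`), `sup_unram_finrank_eq`
  (`L · unram E [L:E] = unram L e`), `frobenius_lift_apply_zeta_of_le`, `frobenius_lift_rel`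
  (`Frob_L ≡ Frob_E ^ f`).
-/

set_option autoImplicit false

namespace Fermat.Agent.CFT.Local.UnramPadic

open scoped NNReal NormedField Valued IntermediateField
open IsLocalRing Fermat.Agent.CFT.Local.NormedLocal Fermat.Agent.CFT.Local.PadicExt

variable {q : ℕ} [Fact q.Prime]

section Roots

/-- Every `m`-th root of unity lies in the field generated by a primitive one. -/
lemma mem_adjoin_of_pow_eq_one {m : ℕ} (hm : m ≠ 0) {ζ ξ : PadicAlgCl q}
    (hζ : IsPrimitiveRoot ζ m) (hξ : ξ ^ m = 1) : ξ ∈ ℚ_[q]⟮ζ⟯ := by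
  have : NeZero m := ⟨hm⟩
  obtain ⟨a, -, ha⟩ := hζ.eq_pow_of_pow_eq_one hξ
  rw [← ha]
  exact pow_mem (IntermediateField.mem_adjoin_simple_self _ _) a

/-- Two primitive roots of unity of the same order generate the same field. -/
lemma adjoin_eq_of_isPrimitiveRoot {m : ℕ} (hm : m ≠ 0) {ζ ζ' : PadicAlgCl q}
    (hζ : IsPrimitiveRoot ζ m) (hζ' : IsPrimitiveRoot ζ' m) : ℚ_[q]⟮ζ'⟯ = ℚ_[q]⟮ζ⟯ := by
  apply le_antisymm
  · rw [IntermediateField.adjoin_simple_le_iff]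
    exact mem_adjoin_of_pow_eq_one hm hζ hζ'.pow_eq_one
  · rw [IntermediateField.adjoin_simple_le_iff]
    exact mem_adjoin_of_pow_eq_one hm hζ' hζ.pow_eq_one

/-- An automorphism raising a primitive `m`-th root of unity to the power `c` raises every
`m`-th root of unity to the power `c`. -/
lemma map_root_eq_pow {m : ℕ} (hm : m ≠ 0) {ζ ξ : PadicAlgCl q}
    (hζ : IsPrimitiveRoot ζ m) (hξ : ξ ^ m = 1) (σ : PadicAlgCl q ≃ₐ[ℚ_[q]] PadicAlgCl q) {c : ℕ}
    (hσ : σ ζ = ζ ^ c) : σ ξ = ξ ^ c := by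
  have : NeZero m := ⟨hm⟩
  obtain ⟨a, -, ha⟩ := hζ.eq_pow_of_pow_eq_one hξ
  rw [← ha, map_pow, hσ, ← pow_mul, ← pow_mul, mul_comm]

end Roots

variable (E : IntermediateField ℚ_[q] (PadicAlgCl q)) [FiniteDimensional ℚ_[q] E]

section Choice

variable {n : ℕ}

/-- `unram E n` does not depend on the choice of the root of unity. -/
theorem sup_adjoin_eq_unram (hn : 0 < n) {ζ' : PadicAlgCl q}
    (hζ' : IsPrimitiveRoot ζ' (Nat.card 𝓀[E] ^ n - 1)) : E ⊔ ℚ_[q]⟮ζ'⟯ = unram E n := by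
  rw [unram, adjoin_eq_of_isPrimitiveRoot (rootOrder_ne_zero E hn) (isPrimitiveRoot_zeta E hn) hζ']

/-- Every root of unity of order dividing `Q ^ n - 1` lies in `unram E n`. -/
theorem mem_unram_of_pow_eq_one (hn : 0 < n) {ξ : PadicAlgCl q}
    (hξ : ξ ^ (Nat.card 𝓀[E] ^ n - 1) = 1) : ξ ∈ unram E n :=
  (le_sup_right : ℚ_[q]⟮zeta E n⟯ ≤ unram E n)
    (mem_adjoin_of_pow_eq_one (rootOrder_ne_zero E hn) (isPrimitiveRoot_zeta E hn) hξ)

/-- The unramified extensions form a tower. -/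
theorem unram_le_of_dvd {m : ℕ} (hnm : n ∣ m) (hm : 0 < m) : unram E n ≤ unram E m := by
  refine sup_le (le_unram E m) ?_
  rw [IntermediateField.adjoin_simple_le_iff]
  have hn : 0 < n := Nat.pos_of_dvd_of_pos hnm hm
  obtain ⟨c, hc⟩ := Nat.pow_sub_one_dvd_pow_sub_one (Nat.card 𝓀[E]) hnm
  refine mem_unram_of_pow_eq_one E hm ?_
  rw [hc, pow_mul, (isPrimitiveRoot_zeta E hn).pow_eq_one, one_pow]

end Choice

section Frobenius

variable {n : ℕ}

/-- An automorphism fixes `unram E n` iff it fixes `E` and the root of unity. -/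
theorem mem_fixingSubgroup_unram_iff (σ : PadicAlgCl q ≃ₐ[ℚ_[q]] PadicAlgCl q) :
    σ ∈ (unram E n).fixingSubgroup ↔ σ ∈ E.fixingSubgroup ∧ σ (zeta E n) = zeta E n := by
  rw [unram, IntermediateField.fixingSubgroup_sup, Subgroup.mem_inf]
  refine and_congr Iff.rfl ⟨fun h => ?_, fun h => ?_⟩
  · exact (IntermediateField.mem_fixingSubgroup_iff _ σ).mp h _
      (IntermediateField.mem_adjoin_simple_self _ _)
  · rw [← Subgroup.zpowers_le, ← IntermediateField.le_iff_le,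
      IntermediateField.adjoin_simple_le_iff, IntermediateField.mem_fixedField_iff]
    intro f hf
    have hle : Subgroup.zpowers σ ≤ MulAction.stabilizer
        (PadicAlgCl q ≃ₐ[ℚ_[q]] PadicAlgCl q) (zeta E n) := by
      rw [Subgroup.zpowers_le, MulAction.mem_stabilizer_iff]
      exact h
    exact MulAction.mem_stabilizer_iff.mp (hle hf)

/-- Restriction to `unram E n` of an automorphism fixing `E`. -/
noncomputable def restrictUnram (hn : 0 < n) (σ : PadicAlgCl q ≃ₐ[ℚ_[q]] PadicAlgCl q)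
    (hσ : σ ∈ E.fixingSubgroup) :
    letI := normedAlgebraOfLE (le_unram E n)
    unram E n →ₐ[E] unram E n :=
  letI := normedAlgebraOfLE (le_unram E n)
  { toFun := fun x => ⟨σ x.1, map_mem_unram E hσ hn x.2⟩
    map_one' := Subtype.ext (map_one σ)
    map_mul' := fun x y => Subtype.ext (map_mul σ x.1 y.1)
    map_zero' := Subtype.ext (map_zero σ)
    map_add' := fun x y => Subtype.ext (map_add σ x.1 y.1)
    commutes' := fun e => Subtype.ext
      ((IntermediateField.mem_fixingSubgroup_iff E σ).mp hσ e.1 e.2) }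

omit [FiniteDimensional ℚ_[q] E] in
lemma pow_apply_root (s : PadicAlgCl q ≃ₐ[ℚ_[q]] PadicAlgCl q) {ζ : PadicAlgCl q} {c : ℕ}
    (hs : s ζ = ζ ^ c) (j : ℕ) : (s ^ j) ζ = ζ ^ (c ^ j) := by
  induction j with
  | zero => simp
  | succ j ih => rw [pow_succ', AlgEquiv.mul_apply, ih, map_pow, hs, ← pow_mul, pow_succ']

/-- Every automorphism fixing `E` raises `zeta E n` to a power `Q ^ j`, `j < n`. -/
theorem exists_map_zeta_eq_pow (hn : 0 < n) {σ : PadicAlgCl q ≃ₐ[ℚ_[q]] PadicAlgCl q}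
    (hσ : σ ∈ E.fixingSubgroup) :
    ∃ j : ℕ, j < n ∧ σ (zeta E n) = zeta E n ^ (Nat.card 𝓀[E] ^ j) := by
  let _ := normedAlgebraOfLE (le_unram E n)
  have := finiteDimensional_of_le (le_unram E n)
  obtain ⟨j, hj⟩ := Unramified.exists_map_root_eq_pow hn (isPrimitiveRoot_zetaU E hn)
    (restrictUnram E hn σ hσ)
  rw [Unramified.pow_card_pow_mod (isPrimitiveRoot_zetaU E hn) j] at hj
  refine ⟨j % n, Nat.mod_lt _ hn, ?_⟩
  exact congrArg Subtype.val hj

/-- **Frobenius lift.** There is an element `s` of `Gal(ℚ̄_q/ℚ_q)` fixing `E` which raises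
`zeta E n` to the `Q`-th power, is congruent to `x ↦ x ^ Q` on the integers of `unram E n`, and
generates `Fix E` modulo `Fix (unram E n)`. -/
theorem exists_frobenius_lift (hn : 0 < n) :
    ∃ s : PadicAlgCl q ≃ₐ[ℚ_[q]] PadicAlgCl q, s ∈ E.fixingSubgroup ∧
      s (zeta E n) = zeta E n ^ Nat.card 𝓀[E] ∧
      (∀ x ∈ unram E n, ‖x‖ ≤ 1 → ‖s x - x ^ Nat.card 𝓀[E]‖ < 1) ∧
      ∀ σ ∈ E.fixingSubgroup, ∃ j : ℕ, j < n ∧ (s ^ j)⁻¹ * σ ∈ (unram E n).fixingSubgroup := by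
  let _ := normedAlgebraOfLE (le_unram E n)
  have hT := isScalarTower_of_le (le_unram E n)
  obtain ⟨-, -, -, φ, hφζ, hφx, -⟩ := unram_main E hn
  let s : PadicAlgCl q ≃ₐ[ℚ_[q]] PadicAlgCl q := (φ.restrictScalars ℚ_[q]).liftNormal (PadicAlgCl q)
  have hs : ∀ x : unram E n, s (x : PadicAlgCl q) = ((φ x : unram E n) : PadicAlgCl q) :=
    fun x => (φ.restrictScalars ℚ_[q]).liftNormal_commutes (PadicAlgCl q) x
  have hsE : s ∈ E.fixingSubgroup := by
    rw [IntermediateField.mem_fixingSubgroup_iff]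
    intro e he
    have h1 := hs (algebraMap E (unram E n) ⟨e, he⟩)
    rw [φ.commutes] at h1
    exact h1
  have hsζ : s (zeta E n) = zeta E n ^ Nat.card 𝓀[E] := by
    have h1 := hs (zetaU E n)
    rw [hφζ] at h1
    exact h1
  refine ⟨s, hsE, hsζ, ?_, ?_⟩
  · intro x hx hx1
    have h1 := hφx ⟨⟨x, hx⟩, Valued.integer.mem_iff.mpr hx1⟩
    have h2 := hs ⟨x, hx⟩
    rw [h2]
    exact h1
  · intro σ hσ
    obtain ⟨j, hjn, hj⟩ := exists_map_zeta_eq_pow E hn hσ
    refine ⟨j, hjn, ?_⟩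
    rw [mem_fixingSubgroup_unram_iff]
    refine ⟨Subgroup.mul_mem _ (Subgroup.inv_mem _ (Subgroup.pow_mem _ hsE j)) hσ, ?_⟩
    rw [AlgEquiv.mul_apply, hj, ← pow_apply_root s hsζ j]
    exact (s ^ j).symm_apply_apply _

/-- `Fix E / Fix (unram E n)` is generated by the class of a Frobenius lift. -/
theorem exists_frobenius_generator (hn : 0 < n) :
    haveI := normal_fixingSubgroup_unram E hn
    ∃ s : E.fixingSubgroup,
      (s : PadicAlgCl q ≃ₐ[ℚ_[q]] PadicAlgCl q) (zeta E n) = zeta E n ^ Nat.card 𝓀[E] ∧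
      ∀ x : ↥E.fixingSubgroup ⧸ (unram E n).fixingSubgroup.subgroupOf E.fixingSubgroup,
        x ∈ Subgroup.zpowers
          (QuotientGroup.mk s :
            ↥E.fixingSubgroup ⧸ (unram E n).fixingSubgroup.subgroupOf E.fixingSubgroup) := by
  have := normal_fixingSubgroup_unram E hn
  obtain ⟨s, hsE, hsζ, -, hgen⟩ := exists_frobenius_lift E hn
  refine ⟨⟨s, hsE⟩, hsζ, fun x => ?_⟩
  obtain ⟨σ, rfl⟩ := QuotientGroup.mk_surjective x
  obtain ⟨j, -, hj⟩ := hgen σ.1 σ.2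
  rw [Subgroup.mem_zpowers_iff]
  refine ⟨(j : ℤ), ?_⟩
  rw [zpow_natCast, ← QuotientGroup.mk_pow]
  exact QuotientGroup.eq.mpr (Subgroup.mem_subgroupOf.mpr hj)

/-- A Frobenius lift has exact order `n` modulo `Fix (unram E n)`. -/
theorem frobenius_pow_mem_iff (hn : 0 < n) {s : PadicAlgCl q ≃ₐ[ℚ_[q]] PadicAlgCl q}
    (hsE : s ∈ E.fixingSubgroup) (hs : s (zeta E n) = zeta E n ^ Nat.card 𝓀[E]) (j : ℕ) :
    s ^ j ∈ (unram E n).fixingSubgroup ↔ n ∣ j := by
  have hζ := isPrimitiveRoot_zeta E hn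
  have hQ : 1 < Nat.card 𝓀[E] := Unramified.one_lt_card_residueField (K := E)
  rw [mem_fixingSubgroup_unram_iff, pow_apply_root s hs j]
  constructor
  · rintro ⟨-, h⟩
    have hmod : zeta E n ^ (Nat.card 𝓀[E] ^ j) = zeta E n ^ (Nat.card 𝓀[E] ^ (j % n)) :=
      congrArg Subtype.val (Unramified.pow_card_pow_mod (isPrimitiveRoot_zetaU E hn) j)
    rw [hmod] at h
    have hr : j % n < n := Nat.mod_lt _ hn
    have hζ0 : zeta E n ≠ 0 := hζ.ne_zero (rootOrder_ne_zero E hn)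
    have hpos : 1 ≤ Nat.card 𝓀[E] ^ (j % n) := Nat.one_le_pow _ _ (by omega)
    have h1 : zeta E n ^ (Nat.card 𝓀[E] ^ (j % n) - 1) = 1 := by
      have h2 : zeta E n ^ (Nat.card 𝓀[E] ^ (j % n) - 1) * zeta E n = 1 * zeta E n := by
        rw [← pow_succ, Nat.sub_add_cancel hpos, h, one_mul]
      exact mul_right_cancel₀ hζ0 h2
    have h3 : Nat.card 𝓀[E] ^ n - 1 ∣ Nat.card 𝓀[E] ^ (j % n) - 1 :=
      (hζ.pow_eq_one_iff_dvd _).mp h1
    have h4 : Nat.card 𝓀[E] ^ (j % n) < Nat.card 𝓀[E] ^ n := Nat.pow_lt_pow_right hQ hr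
    have h5 : Nat.card 𝓀[E] ^ (j % n) - 1 = 0 := Nat.eq_zero_of_dvd_of_lt h3 (by omega)
    have h6 : j % n = 0 := by
      by_contra hr0
      have h7 : Nat.card 𝓀[E] ^ 1 ≤ Nat.card 𝓀[E] ^ (j % n) :=
        Nat.pow_le_pow_right (by omega) (Nat.one_le_iff_ne_zero.mpr hr0)
      rw [pow_one] at h7
      omega
    exact Nat.dvd_of_mod_eq_zero h6
  · rintro ⟨c, rfl⟩
    refine ⟨Subgroup.pow_mem _ hsE _, ?_⟩
    obtain ⟨d, hd⟩ := Nat.pow_sub_one_dvd_pow_sub_one (Nat.card 𝓀[E]) (Dvd.intro c rfl : n ∣ n * c)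
    have h1 : Nat.card 𝓀[E] ^ (n * c) = (Nat.card 𝓀[E] ^ n - 1) * d + 1 := by
      have : 1 ≤ Nat.card 𝓀[E] ^ (n * c) := Nat.one_le_pow _ _ (by omega)
      omega
    rw [h1, pow_succ, pow_mul, hζ.pow_eq_one, one_pow, one_mul]

end Frobenius

section Tower

variable {E} {L : IntermediateField ℚ_[q] (PadicAlgCl q)} [FiniteDimensional ℚ_[q] L] (h : E ≤ L)

/-- `e * f = [L : E]` for `E ≤ L` inside `ℚ̄_q`. -/
theorem ramificationIdx_mul_inertiaDeg_of_le :
    letI := normedAlgebraOfLE h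
    (𝓂[L]).ramificationIdx 𝒪[E] * (𝓂[L]).inertiaDeg 𝒪[E] = Module.finrank E L := by
  let _ := normedAlgebraOfLE h
  have := finiteDimensional_of_le h
  exact NormedLocal.ramificationIdx_mul_inertiaDeg E L

/-- The residue field of `L` has `Q_E ^ f` elements. -/
theorem card_residueField_of_le :
    letI := normedAlgebraOfLE h
    Nat.card 𝓀[L] = Nat.card 𝓀[E] ^ (𝓂[L]).inertiaDeg 𝒪[E] := by
  let _ := normedAlgebraOfLE h
  have := finiteDimensional_of_le h
  exact NormedLocal.card_residueField_eq_pow E L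

theorem inertiaDeg_pos_of_le :
    letI := normedAlgebraOfLE h
    0 < (𝓂[L]).inertiaDeg 𝒪[E] := by
  let _ := normedAlgebraOfLE h
  have := finiteDimensional_of_le h
  have h1 := ramificationIdx_mul_inertiaDeg_of_le h
  have h2 : 0 < Module.finrank E L := Module.finrank_pos
  rw [← h1] at h2
  exact Nat.pos_of_mul_pos_left h2

theorem ramificationIdx_pos_of_le :
    letI := normedAlgebraOfLE h
    0 < (𝓂[L]).ramificationIdx 𝒪[E] := by
  let _ := normedAlgebraOfLE h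
  have := finiteDimensional_of_le h
  have h1 := ramificationIdx_mul_inertiaDeg_of_le h
  have h2 : 0 < Module.finrank E L := Module.finrank_pos
  rw [← h1] at h2
  exact Nat.pos_of_mul_pos_right h2

/-- The root orders match: `Q_L ^ m - 1 = Q_E ^ (f m) - 1`. -/
theorem card_pow_sub_one_of_le (m : ℕ) :
    letI := normedAlgebraOfLE h
    Nat.card 𝓀[L] ^ m - 1 = Nat.card 𝓀[E] ^ ((𝓂[L]).inertiaDeg 𝒪[E] * m) - 1 := by
  rw [card_residueField_of_le h, pow_mul]

/-- **Base change of unramified extensions**: `L · unram E (f m) = unram L m`, `f = f(L/E)`. -/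
theorem sup_unram_eq_unram {m : ℕ} (hm : 0 < m) :
    letI := normedAlgebraOfLE h
    L ⊔ unram E ((𝓂[L]).inertiaDeg 𝒪[E] * m) = unram L m := by
  let _ := normedAlgebraOfLE h
  have hfm : 0 < (𝓂[L]).inertiaDeg 𝒪[E] * m := Nat.mul_pos (inertiaDeg_pos_of_le h) hm
  have hζ : IsPrimitiveRoot (zeta L m)
      (Nat.card 𝓀[E] ^ ((𝓂[L]).inertiaDeg 𝒪[E] * m) - 1) := by
    rw [← card_pow_sub_one_of_le h m]
    exact isPrimitiveRoot_zeta L hm
  rw [← sup_adjoin_eq_unram E hfm hζ, ← sup_assoc, sup_eq_left.mpr h]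
  rfl

/-- `L · unram E [L : E] = unram L e`, `e = e(L/E)`: the extension `L · E_n / L`, `n = [L : E]`,
is unramified of degree `e`. -/
theorem sup_unram_finrank_eq :
    letI := normedAlgebraOfLE h
    L ⊔ unram E (Module.finrank E L) = unram L ((𝓂[L]).ramificationIdx 𝒪[E]) := by
  let _ := normedAlgebraOfLE h
  rw [← sup_unram_eq_unram h (ramificationIdx_pos_of_le h), mul_comm,
    ramificationIdx_mul_inertiaDeg_of_le h]

/-- A Frobenius lift of `L` acts on `zeta E (f m)` as the `f`-th power of a Frobenius of `E`. -/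
theorem frobenius_lift_apply_zeta_of_le {m : ℕ} (hm : 0 < m)
    {t : PadicAlgCl q ≃ₐ[ℚ_[q]] PadicAlgCl q}
    (ht : t (zeta L m) = zeta L m ^ Nat.card 𝓀[L]) :
    letI := normedAlgebraOfLE h
    t (zeta E ((𝓂[L]).inertiaDeg 𝒪[E] * m)) =
      zeta E ((𝓂[L]).inertiaDeg 𝒪[E] * m) ^ (Nat.card 𝓀[E] ^ (𝓂[L]).inertiaDeg 𝒪[E]) := by
  let _ := normedAlgebraOfLE h
  have hfm : 0 < (𝓂[L]).inertiaDeg 𝒪[E] * m := Nat.mul_pos (inertiaDeg_pos_of_le h) hm
  have h1 : zeta E ((𝓂[L]).inertiaDeg 𝒪[E] * m) ^ (Nat.card 𝓀[L] ^ m - 1) = 1 := by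
    rw [card_pow_sub_one_of_le h m]
    exact (isPrimitiveRoot_zeta E hfm).pow_eq_one
  have h2 := map_root_eq_pow (rootOrder_ne_zero L hm) (isPrimitiveRoot_zeta L hm) h1 t ht
  rw [h2, card_residueField_of_le h]

/-- Compatibility of Frobenius lifts: `Frob_L ≡ Frob_E ^ f` modulo `Fix (unram E (f m))`. -/
theorem frobenius_lift_rel {m : ℕ} (hm : 0 < m) {s t : PadicAlgCl q ≃ₐ[ℚ_[q]] PadicAlgCl q}
    (hsE : s ∈ E.fixingSubgroup)
    (htL : t ∈ L.fixingSubgroup) (ht : t (zeta L m) = zeta L m ^ Nat.card 𝓀[L]) :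
    letI := normedAlgebraOfLE h
    s (zeta E ((𝓂[L]).inertiaDeg 𝒪[E] * m)) =
        zeta E ((𝓂[L]).inertiaDeg 𝒪[E] * m) ^ Nat.card 𝓀[E] →
    (s ^ (𝓂[L]).inertiaDeg 𝒪[E])⁻¹ * t ∈
      (unram E ((𝓂[L]).inertiaDeg 𝒪[E] * m)).fixingSubgroup := by
  let _ := normedAlgebraOfLE h
  intro hs
  rw [mem_fixingSubgroup_unram_iff]
  refine ⟨Subgroup.mul_mem _ (Subgroup.inv_mem _ (Subgroup.pow_mem _ hsE _))
    (IntermediateField.fixingSubgroup_le h htL), ?_⟩
  rw [AlgEquiv.mul_apply, frobenius_lift_apply_zeta_of_le h hm ht, ← pow_apply_root s hs]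
  exact (s ^ _).symm_apply_apply _

end Tower

end Fermat.Agent.CFT.Local.UnramPadic
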