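import Mathlib
import Fermat.Prelude.Def_GaloisRep_CompletionBridge
import Fermat.Agent.CFT.Local.UnramPadicFrob

/-!
# Absolute facts: residue cardinalities and the Galois action on roots of unity of `ℚ̄_q`

Continuation of `UnramPadic`, `UnramPadicFrob`.

* `card_residueField_padicBase` (`#𝓀[ℚ_q] = q`), `card_residueField_eq_prime_pow`
  (`#𝓀[E] = q ^ f(E/ℚ_q)`), `ramificationIdx_mul_inertiaDeg_abs`, `card_residueField_bot`;
* `exists_map_eq_pow_of_pow_eq_one` : `σ ∈ Fix E` acts on the roots of unity of order prime to `q`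
  by `ξ ↦ ξ ^ (Q ^ j)`; `exists_frobenius_roots` (Frobenius of `E` at level `n`);
* over `ℚ_q`: `exists_map_eq_prime_pow` (`σ ξ = ξ ^ (q ^ j)`), `exists_frobenius_padic`,
  `exists_frobenius_of_coprime`, `adjoin_primitiveRoot_eq_unram_bot`, `finrank_unram_bot`,
  `finrank_adjoin_primitiveRoot`.
-/

set_option autoImplicit false

namespace Fermat.Agent.CFT.Local.UnramPadic

open scoped NNReal NormedField Valued IntermediateField
open IsLocalRing Fermat.Agent.CFT.Local.NormedLocal Fermat.Agent.CFT.Local.PadicExt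

variable {q : ℕ} [Fact q.Prime]

section Absolute

variable (q) in
/-- The residue field of `ℚ_q` has `q` elements. -/
theorem card_residueField_padicBase : Nat.card 𝓀[ℚ_[q]] = q := by
  have h : (𝒪[ℚ_[q]] : Subring ℚ_[q]) = PadicInt.subring q := by
    ext x
    rw [Valued.integer.mem_iff]
    change _ ↔ ‖x‖ ≤ 1
    rfl
  have e0 : 𝒪[ℚ_[q]] ≃+* ℤ_[q] := RingEquiv.subringCongr h
  have e : 𝓀[ℚ_[q]] ≃+* ZMod q :=
    (IsLocalRing.ResidueField.mapEquiv e0).trans PadicInt.residueField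
  rw [Nat.card_congr e.toEquiv, Nat.card_zmod]

variable (E : IntermediateField ℚ_[q] (PadicAlgCl q)) [FiniteDimensional ℚ_[q] E]

/-- The residue field of `E` has `q ^ f` elements, `f = f(E/ℚ_q)`. -/
theorem card_residueField_eq_prime_pow :
    Nat.card 𝓀[E] = q ^ (𝓂[E]).inertiaDeg 𝒪[ℚ_[q]] := by
  rw [NormedLocal.card_residueField_eq_pow ℚ_[q] E, card_residueField_padicBase]

/-- `e(E/ℚ_q) * f(E/ℚ_q) = [E : ℚ_q]`. -/
theorem ramificationIdx_mul_inertiaDeg_abs :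
    (𝓂[E]).ramificationIdx 𝒪[ℚ_[q]] * (𝓂[E]).inertiaDeg 𝒪[ℚ_[q]] = Module.finrank ℚ_[q] E :=
  NormedLocal.ramificationIdx_mul_inertiaDeg ℚ_[q] E

/-- The residue field of `ℚ_q`, seen as the bottom intermediate field, has `q` elements. -/
theorem card_residueField_bot :
    Nat.card 𝓀[(⊥ : IntermediateField ℚ_[q] (PadicAlgCl q))] = q := by
  have h1 := ramificationIdx_mul_inertiaDeg_abs (⊥ : IntermediateField ℚ_[q] (PadicAlgCl q))
  rw [IntermediateField.finrank_bot] at h1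
  have h2 : (𝓂[(⊥ : IntermediateField ℚ_[q] (PadicAlgCl q))]).inertiaDeg 𝒪[ℚ_[q]] = 1 :=
    Nat.eq_one_of_mul_eq_one_left h1
  rw [card_residueField_eq_prime_pow, h2, pow_one]

end Absolute

section RootsAction

variable (E : IntermediateField ℚ_[q] (PadicAlgCl q)) [FiniteDimensional ℚ_[q] E]

/-- For `m` prime to `q`, `m ∣ Q ^ n - 1` for some `n > 0`. -/
lemma exists_dvd_card_pow_sub_one {m : ℕ} (hm0 : m ≠ 0) (hm : m.Coprime q) :
    ∃ n : ℕ, 0 < n ∧ m ∣ Nat.card 𝓀[E] ^ n - 1 := by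
  have hcop : (Nat.card 𝓀[E]).Coprime m := by
    rw [card_residueField_eq_prime_pow E]
    exact Nat.Coprime.pow_left _ hm.symm
  refine ⟨m.totient, Nat.totient_pos.mpr (Nat.pos_of_ne_zero hm0), ?_⟩
  have h : Nat.card 𝓀[E] ^ m.totient ≡ 1 [MOD m] := Nat.ModEq.pow_totient hcop
  have h1 : 1 ≤ Nat.card 𝓀[E] ^ m.totient :=
    Nat.one_le_pow _ _ (by have := Unramified.one_lt_card_residueField (K := E); omega)
  exact (Nat.modEq_iff_dvd' h1).mp h.symm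

/-- Every automorphism fixing `E` acts on the roots of unity of order prime to `q` by a power
of `Q = Nat.card 𝓀[E]`. -/
theorem exists_map_eq_pow_of_pow_eq_one {σ : PadicAlgCl q ≃ₐ[ℚ_[q]] PadicAlgCl q}
    (hσ : σ ∈ E.fixingSubgroup) {m : ℕ} (hm0 : m ≠ 0) (hm : m.Coprime q) {ξ : PadicAlgCl q}
    (hξ : ξ ^ m = 1) : ∃ j : ℕ, σ ξ = ξ ^ (Nat.card 𝓀[E] ^ j) := by
  obtain ⟨n, hn, c, hc⟩ := exists_dvd_card_pow_sub_one E hm0 hm
  obtain ⟨j, -, hj⟩ := exists_map_zeta_eq_pow E hn hσ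
  have hξ' : ξ ^ (Nat.card 𝓀[E] ^ n - 1) = 1 := by rw [hc, pow_mul, hξ, one_pow]
  exact ⟨j, map_root_eq_pow (rootOrder_ne_zero E hn) (isPrimitiveRoot_zeta E hn) hξ' σ hj⟩

/-- A Frobenius of `E` at level `n`: it raises every root of unity of order dividing `Q ^ n - 1`
to the `Q`-th power, and every automorphism fixing `E` acts on these roots as one of its powers
`s ^ j`, `j < n`. -/
theorem exists_frobenius_roots {n : ℕ} (hn : 0 < n) :
    ∃ s : PadicAlgCl q ≃ₐ[ℚ_[q]] PadicAlgCl q, s ∈ E.fixingSubgroup ∧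
      (∀ ξ : PadicAlgCl q, ξ ^ (Nat.card 𝓀[E] ^ n - 1) = 1 → s ξ = ξ ^ Nat.card 𝓀[E]) ∧
      ∀ σ ∈ E.fixingSubgroup, ∃ j : ℕ, j < n ∧
        ∀ ξ : PadicAlgCl q, ξ ^ (Nat.card 𝓀[E] ^ n - 1) = 1 → σ ξ = (s ^ j) ξ := by
  obtain ⟨s, hsE, hsζ, -, -⟩ := exists_frobenius_lift E hn
  have hm := rootOrder_ne_zero E hn
  have hζ := isPrimitiveRoot_zeta E hn
  refine ⟨s, hsE, fun ξ hξ => map_root_eq_pow hm hζ hξ s hsζ, fun σ hσ => ?_⟩
  obtain ⟨j, hjn, hj⟩ := exists_map_zeta_eq_pow E hn hσ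
  refine ⟨j, hjn, fun ξ hξ => ?_⟩
  rw [map_root_eq_pow hm hζ hξ σ hj,
    map_root_eq_pow hm hζ hξ (s ^ j) (pow_apply_root s hsζ j)]

end RootsAction

section OverQp

/-- Every element of `Gal(ℚ̄_q/ℚ_q)` acts on the roots of unity of order prime to `q` by a
power of `q`. -/
theorem exists_map_eq_prime_pow (σ : PadicAlgCl q ≃ₐ[ℚ_[q]] PadicAlgCl q) {m : ℕ} (hm0 : m ≠ 0)
    (hm : m.Coprime q) {ξ : PadicAlgCl q} (hξ : ξ ^ m = 1) : ∃ j : ℕ, σ ξ = ξ ^ (q ^ j) := by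
  have hσ : σ ∈ (⊥ : IntermediateField ℚ_[q] (PadicAlgCl q)).fixingSubgroup := by
    rw [IntermediateField.fixingSubgroup_bot]
    exact Subgroup.mem_top σ
  obtain ⟨j, hj⟩ := exists_map_eq_pow_of_pow_eq_one _ hσ hm0 hm hξ
  rw [card_residueField_bot] at hj
  exact ⟨j, hj⟩

/-- A Frobenius of `ℚ_q` at level `n`: `s ξ = ξ ^ q` for all roots of unity of order dividing
`q ^ n - 1`, and every `σ` acts on these roots as `s ^ j` for some `j < n`. -/
theorem exists_frobenius_padic {n : ℕ} (hn : 0 < n) :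
    ∃ s : PadicAlgCl q ≃ₐ[ℚ_[q]] PadicAlgCl q,
      (∀ ξ : PadicAlgCl q, ξ ^ (q ^ n - 1) = 1 → s ξ = ξ ^ q) ∧
      ∀ σ : PadicAlgCl q ≃ₐ[ℚ_[q]] PadicAlgCl q, ∃ j : ℕ, j < n ∧
        ∀ ξ : PadicAlgCl q, ξ ^ (q ^ n - 1) = 1 → σ ξ = (s ^ j) ξ := by
  obtain ⟨s, -, hs, hall⟩ :=
    exists_frobenius_roots (⊥ : IntermediateField ℚ_[q] (PadicAlgCl q)) hn
  rw [card_residueField_bot] at hs hall
  refine ⟨s, hs, fun σ => hall σ ?_⟩
  rw [IntermediateField.fixingSubgroup_bot]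
  exact Subgroup.mem_top σ

/-- A Frobenius of `ℚ_q` on the `m`-th roots of unity, `m` prime to `q`. -/
theorem exists_frobenius_of_coprime {m : ℕ} (hm0 : m ≠ 0) (hm : m.Coprime q) :
    ∃ s : PadicAlgCl q ≃ₐ[ℚ_[q]] PadicAlgCl q, ∀ ξ : PadicAlgCl q, ξ ^ m = 1 → s ξ = ξ ^ q := by
  obtain ⟨n, hn, c, hc⟩ :=
    exists_dvd_card_pow_sub_one (⊥ : IntermediateField ℚ_[q] (PadicAlgCl q)) hm0 hm
  rw [card_residueField_bot] at hc
  obtain ⟨s, hs, -⟩ := exists_frobenius_padic (q := q) hn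
  exact ⟨s, fun ξ hξ => hs ξ (by rw [hc, pow_mul, hξ, one_pow])⟩

/-- `ℚ_q(ζ)`, `ζ` a primitive root of unity of order `q ^ n - 1`, is the unramified extension of
degree `n` of `ℚ_q`. -/
theorem adjoin_primitiveRoot_eq_unram_bot {n : ℕ} (hn : 0 < n) {ζ' : PadicAlgCl q}
    (hζ' : IsPrimitiveRoot ζ' (q ^ n - 1)) :
    ℚ_[q]⟮ζ'⟯ = unram (⊥ : IntermediateField ℚ_[q] (PadicAlgCl q)) n := by
  rw [← sup_adjoin_eq_unram _ hn (ζ' := ζ') (by rw [card_residueField_bot]; exact hζ'),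
    bot_sup_eq]

theorem finrank_unram_bot {n : ℕ} (hn : 0 < n) :
    Module.finrank ℚ_[q] (unram (⊥ : IntermediateField ℚ_[q] (PadicAlgCl q)) n) = n := by
  rw [finrank_unram_abs _ hn, IntermediateField.finrank_bot, one_mul]

/-- `[ℚ_q(ζ) : ℚ_q] = n` for a primitive root of unity `ζ` of order `q ^ n - 1`. -/
theorem finrank_adjoin_primitiveRoot {n : ℕ} (hn : 0 < n) {ζ' : PadicAlgCl q}
    (hζ' : IsPrimitiveRoot ζ' (q ^ n - 1)) : Module.finrank ℚ_[q] ℚ_[q]⟮ζ'⟯ = n := by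
  rw [adjoin_primitiveRoot_eq_unram_bot hn hζ', finrank_unram_bot hn]

end OverQp

end Fermat.Agent.CFT.Local.UnramPadic
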